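import Fermat.Agent.TW.Rep

/-!
# Points of the local Hecke ring of `Γ_H(L)`

A ring map of the Hecke ring to a domain of characteristic zero factors through a complex character
(`exists_complex_lift`); each character comes from a newform of level dividing `L R` whose level is
divisible by `q²` where the nebentypus is nontrivial at `q` (`exists_point_newform`); the local
Hecke ring is reduced (`isReduced_twRing`).
-/

set_option autoImplicit false

noncomputable section

namespace Fermat.Agent.TW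

open IsLocalRing CongruenceSubgroup Fermat.Agent.GammaH Fermat.Agent.Newform
open ModularFormClass (qCoeff)
open scoped TensorProduct

/-- A ring map to a domain of characteristic zero factors through a complex character with the
same kernel. -/
theorem exists_complex_lift {L : ℕ} [NeZero L] {H : Subgroup (ZMod L)ˣ} {S : Set ℕ}
    (hH : (-1 : (ZMod L)ˣ) ∈ H) {C : Type} [CommRing C] [IsDomain C] [CharZero C]
    (f : heckeRing L H S →+* C) :
    ∃ (lam : heckeRing L H S →+* ℂ) (ι : lam.range →+* C), ι.comp lam.rangeRestrict = f := by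
  have := moduleFinite_heckeRing (S := S) hH
  have : (RingHom.ker f).IsPrime := RingHom.ker_isPrime f
  obtain ⟨lam, hlam⟩ := exists_ringHom_ker_le (S := S) hH (RingHom.ker f)
  have : (RingHom.ker lam).IsPrime := RingHom.ker_isPrime lam
  have hker : RingHom.ker f ≤ RingHom.ker lam := by
    have : Algebra.IsIntegral ℤ (heckeRing L H S ⧸ RingHom.ker lam) :=
      Algebra.IsIntegral.of_finite ℤ _
    have h0 : (RingHom.ker f).map (Ideal.Quotient.mk (RingHom.ker lam)) = ⊥ := by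
      refine Ideal.eq_bot_of_comap_eq_bot (R := ℤ) ?_
      refine eq_bot_iff.2 fun n hn => ?_
      rw [Ideal.mem_comap, eq_intCast (algebraMap ℤ (heckeRing L H S ⧸ RingHom.ker lam)) n,
        ← map_intCast (Ideal.Quotient.mk (RingHom.ker lam)), ← Ideal.mem_comap,
        Ideal.comap_map_of_surjective _ Ideal.Quotient.mk_surjective, ← RingHom.ker_eq_comap_bot,
        Ideal.mk_ker, sup_eq_left.2 hlam, RingHom.mem_ker, map_intCast, Int.cast_eq_zero] at hn
      exact Ideal.mem_bot.2 hn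
    intro t ht
    have := Ideal.mem_map_of_mem (Ideal.Quotient.mk (RingHom.ker lam)) ht
    rwa [h0, Ideal.mem_bot, Ideal.Quotient.eq_zero_iff_mem] at this
  have hle : RingHom.ker lam.rangeRestrict ≤ RingHom.ker f := fun t ht =>
    hlam (RingHom.mem_ker.2 (congrArg Subtype.val (RingHom.mem_ker.1 ht)))
  exact ⟨lam, lam.rangeRestrict.liftOfSurjective lam.rangeRestrict_surjective ⟨f, hle⟩,
    lam.rangeRestrict.liftOfRightInverse_comp _ _ ⟨f, hle⟩⟩

variable {L R : ℕ} [NeZero L] [NeZero R] {H : Subgroup (ZMod L)ˣ}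

/-- The newform of a character of the Hecke ring of `Γ_H(L)`. -/
theorem exists_point_newform {S : Finset ℕ} (hH : (-1 : (ZMod L)ˣ) ∈ H) (hR : R ∣ L)
    (hker : (ZMod.unitsMap hR).ker ≤ H) {h : ℕ} (hodd : ∀ a : (ZMod L)ˣ, a ^ (2 * h + 1) ∈ H)
    (hLS : ∀ q : ℕ, q.Prime → q ∣ L → q ∈ S) (lam : heckeRing L H (↑S : Set ℕ) →+* ℂ) :
    ∃ (M : ℕ) (_ : NeZero M) (G : CuspForm (Gamma0 M) 2), G.IsNewform ∧ M ∣ L * R ∧
      (∀ (l : ℕ) (hl : l.Prime) (hlL : ¬ l ∣ L) (hlS : l ∉ (↑S : Set ℕ)),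
        qCoeff ⇑G l = lam (twistedT h hl hlL hlS)) ∧
      ∀ (q : ℕ) (_ : q.Prime) (hqL : q ∣ L) (_ : ¬ q ^ 2 ∣ L) (a : (ZMod L)ˣ),
        ZMod.unitsMap (Nat.div_dvd_of_dvd hqL) a = 1 → lam (diamondR a) ≠ 1 → q ^ 2 ∣ M := by
  classical
  obtain ⟨g, hg0, hg, hnew⟩ :=
    exists_twisted_eigenform_newness (S := (↑S : Set ℕ)) hH hR hker hodd lam
  have hMS : ∀ q : ℕ, q.Prime → q ∣ L * R → q ∈ S := fun q hq hd =>
    (hq.dvd_mul.1 hd).elim (hLS q hq) fun hqR => hLS q hq (hqR.trans hR)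
  let c : ℕ → ℂ := fun l =>
    if h' : l.Prime ∧ ¬ l ∣ L ∧ l ∉ (↑S : Set ℕ) then lam (twistedT h h'.1 h'.2.1 h'.2.2) else 0
  have hc : ∀ (l : ℕ) (hl : l.Prime) (hlM : ¬ l ∣ L * R), l ∉ (↑S : Set ℕ) →
      CuspForm.heckeTLin 2 hl hlM g = c l • g := fun l hl hlM hlS => by
    have hlL : ¬ l ∣ L := fun hd => hlM (dvd_mul_of_dvd_left hd R)
    rw [hg l hl hlL hlM hlS]
    simp only [c, dif_pos (And.intro hl (And.intro hlL hlS))]
  obtain ⟨f, hf, hfc⟩ := exists_eigenform_of_eigenvector (↑S : Set ℕ) c hg0 hc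
  obtain ⟨M, hM, G, hG, hGf⟩ := exists_isNewform_goodEigensystem hf
  have : NeZero M := ⟨fun h0 => NeZero.ne (L * R) (Nat.eq_zero_of_zero_dvd (h0 ▸ hM))⟩
  have hGc : ∀ (l : ℕ) (hl : l.Prime), l ∉ (↑S : Set ℕ) → qCoeff ⇑G l = c l := fun l hl hlS => by
    have hlM : ¬ l ∣ L * R := fun hd => hlS (hMS l hl hd)
    rw [hGf l hl hlM, hfc l hl hlM hlS]
  refine ⟨M, inferInstance, G, hG, hM, fun l hl hlL hlS => ?_,
    fun q hq hqL hq2 a ha hne => hnew q hq hqL hq2 a ha hne M G hG S fun l hl hlM hlS => ?_⟩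
  · rw [hGc l hl hlS]
    simp only [c, dif_pos (And.intro hl (And.intro hlL hlS))]
  · rw [hGc l hl (by simpa using hlS)]
    exact hc l hl hlM (by simpa using hlS)

variable {S : Set ℕ} {O : Type} [CommRing O] [IsDomain O] [IsDiscreteValuationRing O]
  [IsAdicComplete (maximalIdeal O) O] [Finite (ResidueField O)] [CharZero O]

theorem isReduced_heckeRing (hLS : ∀ q : ℕ, q.Prime → q ∣ L → q ∈ S) :
    IsReduced (heckeRing L H S) :=
  ⟨fun t ⟨n, hn⟩ => eq_zero_of_characters hLS fun χ =>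
    eq_zero_of_pow_eq_zero (by rw [← map_pow, hn, map_zero] : (χ t) ^ n = 0)⟩

variable (hH : (-1 : (ZMod L)ˣ) ∈ H) (θ : heckeRing L H S →+* ResidueField O)

omit [Finite (ResidueField O)] in
theorem isReduced_twRing (hLS : ∀ q : ℕ, q.Prime → q ∣ L → q ∈ S) :
    IsReduced (TWRing hH O θ) := by
  have := isReduced_heckeRing (H := H) (S := S) hLS
  have := moduleFinite_heckeRing (S := S) hH
  have := moduleFree_heckeRing (S := S) hH
  have : IsReduced (HeckeO L H S O) := GalRep.isReduced_tensor_int O (heckeRing L H S)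
  refine ⟨fun b ⟨n, hn⟩ => ?_⟩
  obtain ⟨x, rfl⟩ := toTWRing_surjective hH O θ b
  rw [← map_pow, ← map_zero (toTWRing hH O θ), toTWRing_eq_iff, actTW_eq_iff, zero_mul] at hn
  rw [← map_zero (toTWRing hH O θ), toTWRing_eq_iff, actTW_eq_iff, zero_mul]
  refine eq_zero_of_pow_eq_zero (n := n + 1) ?_
  rw [mul_pow, pow_succ x n, (isIdempotentElem_twIdem hH O θ).pow_succ_eq, mul_right_comm, hn,
    zero_mul]

end Fermat.Agent.TW
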