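import Fermat.Agent.TW.Newness
import Fermat.Agent.GammaH.Compat
import Fermat.Agent.Petersson.GammaH

/-!
# Twisted Hecke operators as values of the Hecke algebra of level `Γ₀(L R)`

For diamond characters of odd order factoring through `R`, the twisted operators
`T'_ℓ = ⟨ℓ⟩^h T_ℓ` at level `Γ_H(L)` (`twistedT`) are values of the Hecke algebra of level
`Γ₀(L R)` (`exists_twistHom`); characters separate the Hecke ring (`eq_zero_of_characters`).
-/

set_option autoImplicit false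

noncomputable section

namespace Fermat.Agent.TW

open UpperHalfPlane CongruenceSubgroup Fermat.Agent.GammaH Fermat.Agent.Newform
open ModularFormClass (qCoeff)
open scoped MatrixGroups ModularForm

variable {L R : ℕ} [NeZero L] [NeZero R] {H : Subgroup (ZMod L)ˣ} {S : Set ℕ}

/-- `⟨ℓ⟩^h T_ℓ`. -/
def twistedT (h : ℕ) {l : ℕ} (hl : l.Prime) (hlL : ¬ l ∣ L) (hlS : l ∉ S) : heckeRing L H S :=
  diamondR (primeUnit hl hlL) ^ h * heckeTR hl hlL hlS

theorem diamondR_one : (diamondR 1 : heckeRing L H S) = 1 :=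
  Subtype.ext (map_one (diamondHom (N := L) (H := H)))

theorem diamondR_mul (a b : (ZMod L)ˣ) :
    (diamondR (a * b) : heckeRing L H S) = diamondR a * diamondR b :=
  Subtype.ext (map_mul (diamondHom (N := L) (H := H)) a b)

theorem diamondR_of_mem {a : (ZMod L)ˣ} (ha : a ∈ H) : (diamondR a : heckeRing L H S) = 1 :=
  Subtype.ext (LinearMap.ext fun f => diamond_apply_of_mem ha f)

/-- An eigenvector of the generators of the Hecke algebra of level `Γ₀` gives a character. -/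
theorem exists_character_of_eigen0 {M : ℕ} [NeZero M] {g : CuspForm (Gamma0 M) 2} (hg : g ≠ 0)
    (hgen : ∀ t ∈ CuspForm.heckeGenerators M 2 S, ∃ c : ℂ, t g = c • g) :
    ∃ χ : CuspForm.heckeAlgebra M 2 S →+* ℂ,
      ∀ t : CuspForm.heckeAlgebra M 2 S, t.1 g = χ t • g := by
  let B : Subalgebra ℤ (Module.End ℂ (CuspForm (Gamma0 M) 2)) :=
    { carrier := {t | ∃ c : ℂ, t g = c • g}
      mul_mem' := fun {a b} ⟨c, hc⟩ ⟨c', hc'⟩ ↦ ⟨c * c', by
        rw [Module.End.mul_apply, hc', map_smul, hc, smul_smul, mul_comm]⟩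
      one_mem' := ⟨1, by simp⟩
      add_mem' := fun {a b} ⟨c, hc⟩ ⟨c', hc'⟩ ↦ ⟨c + c', by
        rw [LinearMap.add_apply, hc, hc', add_smul]⟩
      zero_mem' := ⟨0, by simp⟩
      algebraMap_mem' := fun n ↦ ⟨(n : ℂ), by
        rw [Algebra.algebraMap_eq_smul_one, LinearMap.smul_apply, Module.End.one_apply]
        exact (Int.cast_smul_eq_zsmul ℂ n g).symm⟩ }
  have hle : CuspForm.heckeAlgebra M 2 S ≤ B := Algebra.adjoin_le hgen
  choose c hc using fun t : CuspForm.heckeAlgebra M 2 S ↦ hle t.2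
  have huniq : ∀ t : CuspForm.heckeAlgebra M 2 S, ∀ c' : ℂ, t.1 g = c' • g → c t = c' :=
    fun t c' h ↦ smul_left_injective ℂ hg ((hc t).symm.trans h)
  exact ⟨{ toFun := c
           map_one' := huniq 1 1 (by simp)
           map_mul' := fun s t ↦ huniq _ _ (by
            rw [MulMemClass.coe_mul, Module.End.mul_apply, hc t, map_smul, hc s, smul_smul,
              mul_comm])
           map_zero' := huniq 0 0 (by simp)
           map_add' := fun s t ↦ huniq _ _ (by
            rw [AddMemClass.coe_add, LinearMap.add_apply, hc, hc, add_smul]) }, hc⟩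

/-- Characters of the Hecke ring separate, away from a set containing the primes of the level. -/
theorem eq_zero_of_characters (hLS : ∀ q : ℕ, q.Prime → q ∣ L → q ∈ S) {t : heckeRing L H S}
    (ht : ∀ χ : heckeRing L H S →+* ℂ, χ t = 0) : t = 0 := by
  refine Subtype.ext (LinearMap.ext fun v => ?_)
  have hv : v ∈ ⨆ χ : Petersson.GoodIndex L → ℂ,
      ⨅ i, (Petersson.goodOp (H := H) i).eigenspace (χ i) := by
    rw [Petersson.iSup_eigenspace_goodOp]; exact Submodule.mem_top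
  induction hv using Submodule.iSup_induction' with
  | mem μ w hw =>
    rcases eq_or_ne w 0 with rfl | hw0
    · simp
    have he : ∀ i, (Petersson.goodOp (H := H) i) w = μ i • w := fun i =>
      Module.End.mem_eigenspace_iff.1 ((Submodule.mem_iInf _).1 hw i)
    obtain ⟨χ, hχ⟩ := exists_character_of_eigen (S := S) hw0 (by
      rintro s ((⟨a, rfl⟩ | ⟨l, hl, hlN, -, rfl⟩) | ⟨q, hqN, hq, hqS, rfl⟩)
      · exact ⟨_, he (Sum.inr a)⟩
      · exact ⟨_, he (Sum.inl ⟨l, hl, hlN⟩)⟩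
      · exact absurd (hLS q hq hqN) hqS)
    rw [hχ t, ht χ, zero_smul]
    simp
  | zero => simp
  | add a b _ _ ha hb =>
    rw [map_add, ha, hb]
    simp

/-- Every character of the Hecke ring of `Γ_H(L)` has a twisted eigenform on `Γ₀(L R)`, new at
`q²` where the nebentypus is nontrivial. -/
theorem exists_twisted_eigenform_newness (hH : (-1 : (ZMod L)ˣ) ∈ H) (hR : R ∣ L)
    (hker : (ZMod.unitsMap hR).ker ≤ H) {h : ℕ} (hodd : ∀ a : (ZMod L)ˣ, a ^ (2 * h + 1) ∈ H)
    (lam : heckeRing L H S →+* ℂ) :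
    ∃ g : CuspForm (Gamma0 (L * R)) 2, g ≠ 0 ∧
      (∀ (l : ℕ) (hl : l.Prime) (hlL : ¬ l ∣ L) (hlM : ¬ l ∣ L * R) (hlS : l ∉ S),
        CuspForm.heckeTLin 2 hl hlM g = lam (twistedT h hl hlL hlS) • g) ∧
      ∀ (q : ℕ) (_ : q.Prime) (hqL : q ∣ L) (_ : ¬ q ^ 2 ∣ L) (a : (ZMod L)ˣ),
        ZMod.unitsMap (Nat.div_dvd_of_dvd hqL) a = 1 → lam (diamondR a) ≠ 1 →
        ∀ (M : ℕ) [NeZero M] (G : CuspForm (Gamma0 M) 2), G.IsNewform → ∀ T : Finset ℕ,
          (∀ (l : ℕ) (hl : l.Prime) (hlM : ¬ l ∣ L * R), l ∉ T →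
            CuspForm.heckeTLin 2 hl hlM g = qCoeff ⇑G l • g) → q ^ 2 ∣ M := by
  classical
  obtain ⟨lam', hlam⟩ := exists_extension hH (Set.empty_subset S) lam
  obtain ⟨f, hf1, hf, -, -⟩ := exists_eigenform hH lam'
  have hdia : ∀ a : (ZMod L)ˣ, lam' (diamondR a) = lam (diamondR a) := fun a => by
    rw [← hlam]; rfl
  let χ₀ : (ZMod L)ˣ →* ℂ :=
    { toFun := fun a => lam (diamondR a)
      map_one' := by rw [diamondR_one, map_one]
      map_mul' := fun a b => by rw [diamondR_mul, map_mul] }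
  have hχf : ∀ a, diamond a f = χ₀ a • f := fun a => by
    have := hf (diamondR a)
    rw [hdia, coe_diamondR] at this
    exact this
  have hχH : ∀ a ∈ H, χ₀ a = 1 := fun a ha => by
    show lam (diamondR a) = 1
    rw [diamondR_of_mem ha, map_one]
  let ψu : (ZMod R)ˣ →* ℂˣ :=
    (ZMod.unitsMap hR).liftOfSurjective (ZMod.unitsMap_surjective hR)
      ⟨χ₀.toHomUnits ^ h, fun a ha => MonoidHom.mem_ker.2 <| Units.ext (by
        simp [hχH a (hker ha)])⟩
  have hψu : ∀ a : (ZMod L)ˣ, (ψu (ZMod.unitsMap hR a) : ℂ) = χ₀ a ^ h := fun a => by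
    rw [show ψu (ZMod.unitsMap hR a) = (χ₀.toHomUnits ^ h) a from
      MonoidHom.liftOfRightInverse_comp_apply _ _ _ _ a]
    simp
  let ψR : DirichletCharacter ℂ R := MulChar.ofUnitHom ψu
  let ψ := ψR.primitiveCharacter
  have : NeZero ψR.conductor :=
    ⟨fun h0 => NeZero.ne R (Nat.eq_zero_of_zero_dvd (h0 ▸ ψR.conductor_dvd_level))⟩
  have hcL : ψR.conductor ∣ L := ψR.conductor_dvd_level.trans hR
  have hψ : ∀ a : (ZMod L)ˣ,
      ψ (ZMod.unitsMap hcL a : ZMod ψR.conductor) = χ₀ a ^ h := by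
    intro a
    have e : DirichletCharacter.changeLevel ψR.conductor_dvd_level ψ = ψR :=
      ψR.changeLevel_primitiveCharacter
    have e2 := congrArg (fun φ : DirichletCharacter ℂ R =>
      φ (ZMod.unitsMap hR a : ZMod R)) e
    beta_reduce at e2
    rw [DirichletCharacter.changeLevel_eq_cast_of_dvd] at e2
    rw [← hψu, ← MulChar.ofUnitHom_coe ψu]
    refine Eq.trans ?_ e2
    congr 1
    rw [← ZMod.castHom_apply (h := ψR.conductor_dvd_level), ZMod.unitsMap_def, ZMod.unitsMap_def,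
      Units.coe_map, Units.coe_map]
    exact (DFunLike.congr_fun (ZMod.castHom_comp ψR.conductor_dvd_level hR) (a : ZMod L)).symm
  have hχψ : ∀ a : (ZMod L)ˣ,
      χ₀ a * ψ (ZMod.unitsMap hcL a : ZMod ψR.conductor) ^ 2 = 1 := by
    intro a
    rw [hψ, ← pow_mul, ← pow_succ', ← map_pow, mul_comm h 2]
    exact hχH _ (hodd a)
  obtain ⟨g₀, hg₀⟩ := exists_twist hcL f χ₀ hχf ψ ψR.primitiveCharacter_isPrimitive hχψ
  have hle : ∀ γ ∈ Gamma0 (L * R), (g₀ : ℍ → ℂ) ∣[(2 : ℤ)] γ = g₀ := fun γ hγ => by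
    refine cuspForm_slash_SL g₀ ?_
    rw [mem_Gamma0_iff] at hγ ⊢
    exact (Int.natCast_dvd_natCast.2
      (Nat.mul_dvd_mul_left L ψR.conductor_dvd_level)).trans hγ
  let g : CuspForm (Gamma0 (L * R)) 2 := (IsCuspFun.of_cuspForm g₀).toCuspForm hle
  have hg : ∀ n : ℕ, qCoeff ⇑g n = ψ (n : ZMod ψR.conductor) * qCoeff ⇑f n := fun n => by
    rw [show (⇑g : ℍ → ℂ) = ⇑g₀ from rfl]
    exact hg₀ n
  have hg0 : g ≠ 0 := fun h0 => by
    have h1 := hg 1
    rw [hf1, Nat.cast_one, map_one, one_mul, h0] at h1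
    have hz : qCoeff (⇑(0 : CuspForm (Gamma0 (L * R)) 2)) 1 = 0 :=
      HasQ.qCoeff_eq (by rw [FunLike.coe_zero]; exact hasQ_zero) 1
    exact one_ne_zero (h1.symm.trans hz)
  refine ⟨g, hg0, fun l hl hlL hlM hlS => ?_,
    fun q hq hqL hq2 a ha hne M _ G hG T heig =>
      sq_dvd_level_of_twist hq hqL hq2 ψR.conductor_dvd_level hR f χ₀ hχf ψ
        ψR.primitiveCharacter_isPrimitive hχψ a ha hne hg0 hg hG T heig⟩
  · have hμ : GammaH.heckeT hl hlL f = lam (heckeTR hl hlL hlS) • f := by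
      have := hf (heckeTR hl hlL (Set.notMem_empty l))
      rw [show lam' (heckeTR hl hlL (Set.notMem_empty l)) = lam (heckeTR hl hlL hlS) by
        rw [← hlam]; rfl, coe_heckeTR] at this
      exact this
    rw [heckeTLin_twist hl hlL hlM hcL f χ₀ hχf ψ hχψ hg hμ]
    congr 1
    have hl' := hψ (primeUnit hl hlL)
    rw [show (ZMod.unitsMap hcL (primeUnit hl hlL) : ZMod ψR.conductor) =
        (l : ZMod ψR.conductor) by
      rw [ZMod.unitsMap_def, Units.coe_map, primeUnit, ZMod.coe_unitOfCoprime]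
      exact map_natCast (ZMod.castHom hcL (ZMod ψR.conductor)) l] at hl'
    rw [hl', twistedT, map_mul, map_pow]
    rfl

/-- Every character of the Hecke ring of `Γ_H(L)` has a twisted eigenform on `Γ₀(L R)`. -/
theorem exists_twisted_eigenform (hH : (-1 : (ZMod L)ˣ) ∈ H) (hR : R ∣ L)
    (hker : (ZMod.unitsMap hR).ker ≤ H) {h : ℕ} (hodd : ∀ a : (ZMod L)ˣ, a ^ (2 * h + 1) ∈ H)
    (lam : heckeRing L H S →+* ℂ) :
    ∃ g : CuspForm (Gamma0 (L * R)) 2, g ≠ 0 ∧
      ∀ (l : ℕ) (hl : l.Prime) (hlL : ¬ l ∣ L) (hlM : ¬ l ∣ L * R) (hlS : l ∉ S),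
        CuspForm.heckeTLin 2 hl hlM g = lam (twistedT h hl hlL hlS) • g := by
  obtain ⟨g, hg0, hg, -⟩ := exists_twisted_eigenform_newness (S := S) hH hR hker hodd lam
  exact ⟨g, hg0, hg⟩

/-- **The twisted operators generate a quotient of the Hecke algebra of level `Γ₀(L R)`.** -/
theorem exists_twistHom (hH : (-1 : (ZMod L)ˣ) ∈ H) (hR : R ∣ L)
    (hker : (ZMod.unitsMap hR).ker ≤ H) {h : ℕ} (hodd : ∀ a : (ZMod L)ˣ, a ^ (2 * h + 1) ∈ H)
    (hLS : ∀ q : ℕ, q.Prime → q ∣ L → q ∈ S) :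
    ∃ Φ : CuspForm.heckeAlgebra (L * R) 2 S →+* heckeRing L H S,
      ∀ (l : ℕ) (hl : l.Prime) (hlL : ¬ l ∣ L) (hlM : ¬ l ∣ L * R) (hlS : l ∉ S),
        Φ (CuspForm.heckeAlgebra.T hl hlM hlS) = twistedT h hl hlL hlS := by
  classical
  have hMS : ∀ q : ℕ, q.Prime → q ∣ L * R → q ∈ S := fun q hq hd =>
    (hq.dvd_mul.1 hd).elim (hLS q hq) fun hqR => hLS q hq (hqR.trans hR)
  choose g hg0 hg using exists_twisted_eigenform (S := S) hH hR hker hodd
  choose μ hμ using fun lam : heckeRing L H S →+* ℂ =>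
    exists_character_of_eigen0 (S := S) (hg0 lam) (by
      rintro s (⟨l, hl, hlM, hlS, rfl⟩ | ⟨q, hqN, hq, hqS, rfl⟩)
      · exact ⟨_, hg lam l hl (fun hd => hlM (dvd_mul_of_dvd_left hd R)) hlM hlS⟩
      · exact absurd (hMS q hq hqN) hqS)
  have hT : ∀ (lam : heckeRing L H S →+* ℂ) (l : ℕ) (hl : l.Prime) (hlL : ¬ l ∣ L)
      (hlM : ¬ l ∣ L * R) (hlS : l ∉ S),
      μ lam (CuspForm.heckeAlgebra.T hl hlM hlS) = lam (twistedT h hl hlL hlS) :=
    fun lam l hl hlL hlM hlS =>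
      smul_left_injective ℂ (hg0 lam) ((hμ lam _).symm.trans (hg lam l hl hlL hlM hlS))
  have hex : ∀ t : CuspForm.heckeAlgebra (L * R) 2 S,
      ∃ u : heckeRing L H S, ∀ lam : heckeRing L H S →+* ℂ, lam u = μ lam t := by
    rintro ⟨s, hs⟩
    induction hs using Algebra.adjoin_induction with
    | mem x hx =>
      rcases hx with ⟨l, hl, hlM, hlS, rfl⟩ | ⟨q, hqN, hq, hqS, rfl⟩
      · have hlL : ¬ l ∣ L := fun hd => hlM (dvd_mul_of_dvd_left hd R)
        exact ⟨_, fun lam => (hT lam l hl hlL hlM hlS).symm⟩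
      · exact absurd (hMS q hq hqN) hqS
    | algebraMap n =>
      refine ⟨(n : heckeRing L H S), fun lam => ?_⟩
      rw [map_intCast, ← map_intCast (μ lam) n]
      congr 1
    | add a b ha hb iha ihb =>
      obtain ⟨u, hu⟩ := iha
      obtain ⟨v, hv⟩ := ihb
      exact ⟨u + v, fun lam => by rw [map_add, hu, hv, ← map_add]; rfl⟩
    | mul a b ha hb iha ihb =>
      obtain ⟨u, hu⟩ := iha
      obtain ⟨v, hv⟩ := ihb
      exact ⟨u * v, fun lam => by rw [map_mul, hu, hv, ← map_mul]; rfl⟩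
  choose u hu using hex
  have huniq : ∀ t v, (∀ lam : heckeRing L H S →+* ℂ, lam v = μ lam t) → u t = v :=
    fun t v hv => sub_eq_zero.1 (eq_zero_of_characters hLS fun lam => by
      rw [map_sub, hu t lam, hv lam, sub_self])
  refine ⟨{ toFun := u
            map_one' := huniq _ _ fun lam => by rw [map_one, map_one]
            map_mul' := fun s t => huniq _ _ fun lam => by rw [map_mul, map_mul, hu, hu]
            map_zero' := huniq _ _ fun lam => by rw [map_zero, map_zero]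
            map_add' := fun s t => huniq _ _ fun lam => by rw [map_add, map_add, hu, hu] },
    fun l hl hlL hlM hlS => huniq _ _ fun lam => (hT lam l hl hlL hlM hlS).symm⟩

end Fermat.Agent.TW
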