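import Mathlib

/-!
# Group rings of finite commutative groups

For a finite commutative `p`-group `G` and a local ring `R` with `p` in its maximal ideal,
`MonoidAlgebra R G` is local (`isLocalRing_groupRing`).  Norm element, augmentation, invariants
of free modules; retracts of free modules are free (`free_of_retract`).
-/

set_option autoImplicit false

noncomputable section

namespace Fermat.Agent.TW.GroupRing

variable (R : Type*) [CommRing R] (G : Type*) [CommGroup G]

/-- The augmentation. -/
def augR : MonoidAlgebra R G →ₐ[R] R := MonoidAlgebra.lift R R G 1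

theorem augR_single (g : G) (r : R) : augR R G (MonoidAlgebra.single g r) = r := by
  simp [augR, MonoidAlgebra.lift_single]

/-- The augmentation ideal. -/
def augIdl : Ideal (MonoidAlgebra R G) := RingHom.ker (augR R G).toRingHom

theorem mem_augIdl {x : MonoidAlgebra R G} : x ∈ augIdl R G ↔ augR R G x = 0 := Iff.rfl

theorem single_sub_one_mem_augIdl (g : G) :
    MonoidAlgebra.single g (1 : R) - 1 ∈ augIdl R G := by
  rw [mem_augIdl, map_sub, augR_single, map_one, sub_self]

variable {R G}

theorem isLocalRing_groupRing [Finite G] [IsLocalRing R] {p : ℕ} [Fact p.Prime] (hG : IsPGroup p G)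
    (hp : (p : R) ∈ IsLocalRing.maximalIdeal R) : IsLocalRing (MonoidAlgebra R G) := by
  have : Nontrivial (MonoidAlgebra R G) := RingHom.domain_nontrivial (augR R G).toRingHom
  have hfin : Module.Finite R (MonoidAlgebra R G) :=
    Module.Finite.equiv (MonoidAlgebra.coeffLinearEquiv (R := R) (S := R) (M := G)).symm
  refine IsLocalRing.of_unique_max_ideal
    ⟨(IsLocalRing.maximalIdeal R).comap (augR R G).toRingHom,
      Ideal.comap_isMaximal_of_surjective _ (fun r => ⟨algebraMap R _ r, (augR R G).commutes r⟩),
      ?_⟩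
  intro 𝔐 h𝔐
  have hcomap : (𝔐.comap (algebraMap R (MonoidAlgebra R G))) = IsLocalRing.maximalIdeal R :=
    IsLocalRing.eq_maximalIdeal (Ideal.isMaximal_comap_of_isIntegral_of_isMaximal 𝔐)
  set π := Ideal.Quotient.mk 𝔐
  have hpF : (p : MonoidAlgebra R G ⧸ 𝔐) = 0 := by
    rw [← map_natCast π, Ideal.Quotient.eq_zero_iff_mem, ← map_natCast (algebraMap R _)]
    exact Ideal.mem_comap.mp (hcomap.symm ▸ hp)
  have : CharP (MonoidAlgebra R G ⧸ 𝔐) p :=
    ringChar.of_eq (CharP.ringChar_of_prime_eq_zero Fact.out hpF)
  have : IsDomain (MonoidAlgebra R G ⧸ 𝔐) := (Ideal.Quotient.isDomain_iff_prime 𝔐).mpr h𝔐.isPrime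
  have hone : ∀ g : G, π (MonoidAlgebra.single g 1) = 1 := fun g => by
    obtain ⟨j, hj⟩ := hG g
    have h1 : (π (MonoidAlgebra.single g 1) - 1) ^ p ^ j = 0 := by
      rw [sub_pow_char_pow, ← map_pow, MonoidAlgebra.single_pow, one_pow, one_pow, hj,
        ← MonoidAlgebra.one_def, map_one, sub_self]
    exact sub_eq_zero.mp (eq_zero_of_pow_eq_zero h1)
  have hπ : π = (π.comp (algebraMap R (MonoidAlgebra R G))).comp (augR R G).toRingHom := by
    refine MonoidAlgebra.ringHom_ext (fun r => ?_) fun g => ?_
    · show π _ = π (algebraMap R _ (augR R G (MonoidAlgebra.single 1 r)))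
      rw [augR_single]
      rfl
    · show π _ = π (algebraMap R _ (augR R G (MonoidAlgebra.single g 1)))
      rw [augR_single, map_one, map_one, hone]
  refine Ideal.ext fun x => ?_
  rw [← Ideal.Quotient.eq_zero_iff_mem, show Ideal.Quotient.mk 𝔐 x = π x from rfl, hπ,
    Ideal.mem_comap]
  show π (algebraMap R _ (augR R G x)) = 0 ↔ _
  rw [Ideal.Quotient.eq_zero_iff_mem, ← Ideal.mem_comap, hcomap]
  rfl

/-! ## The norm element -/

variable (R G) in
/-- `∑ g`. -/
def normElem [Fintype G] : MonoidAlgebra R G := ∑ g, MonoidAlgebra.single g 1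

omit [CommGroup G] in
theorem coeff_normElem [Fintype G] (g : G) : (normElem R G).coeff g = 1 := by
  classical
  have e : (normElem R G).coeff = ∑ h : G, (MonoidAlgebra.single h (1 : R)).coeff :=
    map_sum (MonoidAlgebra.coeffAddEquiv (R := R) (M := G)).toAddMonoidHom _ _
  rw [e, Finsupp.finsetSum_apply]
  simp [MonoidAlgebra.coeff_single, Finsupp.single_apply]

theorem single_mul_normElem [Fintype G] (g : G) :
    MonoidAlgebra.single g (1 : R) * normElem R G = normElem R G := by
  refine MonoidAlgebra.ext (Finsupp.ext fun h => ?_)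
  rw [MonoidAlgebra.coeff_single_mul_apply, coeff_normElem, coeff_normElem, one_mul]

theorem mul_normElem [Fintype G] (x : MonoidAlgebra R G) :
    x * normElem R G = algebraMap R _ (augR R G x) * normElem R G := by
  induction x using MonoidAlgebra.induction_on with
  | of g =>
    show MonoidAlgebra.single g 1 * normElem R G = _
    rw [show augR R G ((MonoidAlgebra.of R G) g) = 1 from augR_single R G g 1, map_one, one_mul,
      single_mul_normElem]
  | add x y hx hy => rw [map_add, map_add, add_mul, add_mul, hx, hy]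
  | smul r x hx =>
    rw [smul_mul_assoc, hx, map_smul, smul_eq_mul, map_mul, Algebra.smul_def, mul_assoc]

theorem fixed_iff [Fintype G] (x : MonoidAlgebra R G) :
    (∀ g : G, MonoidAlgebra.single g (1 : R) * x = x)
      ↔ ∃ r : R, x = algebraMap R _ r * normElem R G := by
  constructor
  · intro h
    refine ⟨x.coeff 1, MonoidAlgebra.ext (Finsupp.ext fun g => ?_)⟩
    conv_lhs => rw [← h g]
    rw [MonoidAlgebra.coeff_single_mul_apply, MonoidAlgebra.coe_algebraMap, Function.comp_apply,
      MonoidAlgebra.coeff_single_one_mul, coeff_normElem]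
    simp
  · rintro ⟨r, rfl⟩ g
    rw [mul_left_comm, single_mul_normElem]

theorem mul_normElem_eq_zero_iff [Fintype G] (x : MonoidAlgebra R G) :
    x * normElem R G = 0 ↔ x ∈ augIdl R G := by
  rw [mul_normElem, mem_augIdl]
  refine ⟨fun h => ?_, fun h => by rw [h, map_zero, zero_mul]⟩
  have := congrArg (fun y : MonoidAlgebra R G => y.coeff 1) h
  simp only [MonoidAlgebra.coe_algebraMap, Function.comp_apply, MonoidAlgebra.coeff_single_one_mul,
    coeff_normElem] at this
  simpa using this

/-! ## Free modules -/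

variable {P : Type*} [AddCommMonoid P] [Module (MonoidAlgebra R G) P]

/-- The invariants of a free module are the norms. -/
theorem fixed_iff_of_free [Fintype G] [Module.Free (MonoidAlgebra R G) P] (v : P) :
    (∀ g : G, MonoidAlgebra.single g (1 : R) • v = v) ↔ ∃ w, v = normElem R G • w := by
  constructor
  · intro h
    let b := Module.Free.chooseBasis (MonoidAlgebra R G) P
    have hc : ∀ i, ∃ r : R, b.repr v i = algebraMap R _ r * normElem R G := fun i =>
      (fixed_iff _).mp fun g => by
        conv_rhs => rw [← h g]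
        simp
    choose r hr using hc
    refine ⟨∑ i ∈ (b.repr v).support, algebraMap R (MonoidAlgebra R G) (r i) • b i, ?_⟩
    conv_lhs => rw [← b.linearCombination_repr v, Finsupp.linearCombination_apply, Finsupp.sum]
    rw [Finset.smul_sum]
    exact Finset.sum_congr rfl fun i _ => by rw [hr, smul_smul, mul_comm]
  · rintro ⟨w, rfl⟩ g
    rw [smul_smul, single_mul_normElem]

/-- The kernel of the norm on a free module is `augIdl • P`. -/
theorem normElem_smul_eq_zero_iff [Fintype G] [Module.Free (MonoidAlgebra R G) P] (w : P) :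
    normElem R G • w = 0 ↔ w ∈ augIdl R G • (⊤ : Submodule (MonoidAlgebra R G) P) := by
  constructor
  · intro h
    let b := Module.Free.chooseBasis (MonoidAlgebra R G) P
    rw [← b.linearCombination_repr w, Finsupp.linearCombination_apply, Finsupp.sum]
    refine Submodule.sum_mem _ fun i _ => ?_
    refine Submodule.smul_mem_smul ((mul_normElem_eq_zero_iff _).mp ?_) trivial
    have := congrArg (fun v => b.repr v i) h
    simpa [mul_comm] using this
  · intro h
    refine Submodule.smul_induction_on h (fun a ha v _ => ?_) fun x y hx hy => by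
      rw [smul_add, hx, hy, add_zero]
    rw [smul_smul, mul_comm, (mul_normElem_eq_zero_iff a).mpr ha, zero_smul]

variable [Module R P] [IsScalarTower R (MonoidAlgebra R G) P]

variable (R G P) in
/-- The invariants. -/
def fixedPts : Submodule R P where
  carrier := {v | ∀ g : G, MonoidAlgebra.single g (1 : R) • v = v}
  zero_mem' _ := smul_zero _
  add_mem' {u v} hu hv g := by rw [smul_add, hu g, hv g]
  smul_mem' r v hv g := by
    have : IsScalarTower R (MonoidAlgebra R G) P := inferInstance
    rw [← IsScalarTower.algebraMap_smul (MonoidAlgebra R G) r v, smul_smul, mul_comm, ← smul_smul,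
      hv g]

theorem mem_fixedPts {v : P} :
    v ∈ fixedPts R G P ↔ ∀ g : G, MonoidAlgebra.single g (1 : R) • v = v := Iff.rfl

/-- A basis of `P` over the group ring gives an `R`-basis of the invariants. -/
def fixedEquiv [Fintype G] {ι : Type*} [Fintype ι] (b : Module.Basis ι (MonoidAlgebra R G) P) :
    (ι → R) ≃ₗ[R] fixedPts R G P := by
  haveI : Module.Free (MonoidAlgebra R G) P := Module.Free.of_basis b
  refine LinearEquiv.ofBijective
    ({ toFun := fun r => ⟨normElem R G • ∑ i, algebraMap R (MonoidAlgebra R G) (r i) • b i,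
          fun g => by rw [smul_smul, single_mul_normElem]⟩
       map_add' := fun r s => Subtype.ext (by simp [add_smul, Finset.sum_add_distrib])
       map_smul' := fun c r => Subtype.ext (by
        show normElem R G • ∑ i, algebraMap R (MonoidAlgebra R G) (c * r i) • b i
          = c • (normElem R G • ∑ i, algebraMap R (MonoidAlgebra R G) (r i) • b i)
        rw [← IsScalarTower.algebraMap_smul (MonoidAlgebra R G) c (normElem R G • _),
          smul_comm (algebraMap R (MonoidAlgebra R G) c) (normElem R G), Finset.smul_sum]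
        simp only [map_mul, mul_smul, Finset.smul_sum]) } : (ι → R) →ₗ[R] fixedPts R G P) ⟨?_, ?_⟩
  · intro r s h
    funext i
    have h' := congrArg (fun v : P => b.repr v i) (congrArg Subtype.val h)
    simp only [LinearMap.coe_mk, AddHom.coe_mk, map_smul, Finsupp.smul_apply, smul_eq_mul,
      b.repr_sum_self] at h'
    have h'' := congrArg (fun x : MonoidAlgebra R G => x.coeff 1) h'
    simp only [mul_comm (normElem R G), MonoidAlgebra.coe_algebraMap, Function.comp_apply,
      MonoidAlgebra.coeff_single_one_mul, coeff_normElem] at h''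
    simpa using h''
  · rintro ⟨v, hv⟩
    obtain ⟨w, rfl⟩ := (fixed_iff_of_free v).mp hv
    refine ⟨fun i => augR R G (b.repr w i), Subtype.ext ?_⟩
    show normElem R G • _ = normElem R G • w
    conv_rhs => rw [← b.sum_repr w]
    simp only [Finset.smul_sum, smul_smul]
    exact Finset.sum_congr rfl fun i _ => by rw [mul_comm, ← mul_normElem, mul_comm]

/-! ## Retracts of permutation modules -/

/-- An `R`-linear map commuting with group elements is linear over the group ring. -/
def linearOfComm {P' : Type*} [AddCommGroup P'] [Module (MonoidAlgebra R G) P'] [Module R P']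
    [IsScalarTower R (MonoidAlgebra R G) P'] (f : P →ₗ[R] P')
    (hf : ∀ (g : G) (v : P), f (MonoidAlgebra.single g (1 : R) • v)
      = MonoidAlgebra.single g (1 : R) • f v) : P →ₗ[MonoidAlgebra R G] P' where
  toFun := f
  map_add' := f.map_add
  map_smul' a v := by
    induction a using MonoidAlgebra.induction_on with
    | of g => exact hf g v
    | add x y hx hy =>
      simp only [RingHom.id_apply] at hx hy ⊢
      rw [add_smul, f.map_add, hx, hy, add_smul]
    | smul r x hx =>
      simp only [RingHom.id_apply] at hx ⊢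
      rw [smul_assoc, f.map_smul, hx, smul_assoc]

omit [Module R P] [IsScalarTower R (MonoidAlgebra R G) P] in
/-- A retract of functions on a finite set with free `G`-action is free over the group ring. -/
theorem free_of_retract [Finite G] [IsLocalRing (MonoidAlgebra R G)] {W : Type*} [AddCommGroup W]
    [Module R W] (ρ : Representation R G W) {X : Type*} [Finite X] (σ : G → X → X)
    (hσ1 : ∀ x, σ 1 x = x) (hσm : ∀ b c x, σ (b * c) x = σ b (σ c x))
    (hfree : ∀ b x, σ b x = x → b = 1) (s : W →ₗ[R] (X → R)) (t : (X → R) →ₗ[R] W)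
    (hts : ∀ w, t (s w) = w) (hs : ∀ b w x, s (ρ b w) x = s w (σ b x))
    (ht : ∀ b y, t (fun x => y (σ b x)) = ρ b (t y)) :
    Module.Free (MonoidAlgebra R G) ρ.asModule ∧ Module.Finite (MonoidAlgebra R G) ρ.asModule := by
  classical
  let st : Setoid X :=
    { r := fun x y => ∃ b : G, σ b y = x
      iseqv :=
        { refl := fun x => ⟨1, hσ1 x⟩
          symm := fun {x y} ⟨b, h⟩ => ⟨b⁻¹, by rw [← h, ← hσm, inv_mul_cancel, hσ1]⟩
          trans := fun {x y z} ⟨b, h⟩ ⟨c, h'⟩ => ⟨b * c, by rw [hσm, h', h]⟩ } }
  have hrep : ∀ x, ∃ b : G, σ b (Quotient.mk st x).out = x := fun x =>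
    st.symm (Quotient.exact (Quotient.out_eq (Quotient.mk st x)))
  choose k hk using hrep
  have huniq : ∀ (q : Quotient st) (b c : G), σ b q.out = σ c q.out → b = c := fun q b c h => by
    refine inv_mul_eq_one.mp (hfree (b⁻¹ * c) q.out ?_)
    rw [hσm, ← h, ← hσm, inv_mul_cancel, hσ1]
  let Φ : (X → R) →ₗ[R] (Quotient st → MonoidAlgebra R G) :=
    LinearMap.pi fun q =>
      (MonoidAlgebra.coeffLinearEquiv (R := R) (S := R) (M := G)).symm.toLinearMap
      ∘ₗ (Finsupp.linearEquivFunOnFinite R R G).symm.toLinearMap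
      ∘ₗ LinearMap.pi fun g => LinearMap.proj (σ g⁻¹ q.out)
  let Ψ : (Quotient st → MonoidAlgebra R G) →ₗ[R] (X → R) :=
    LinearMap.pi fun x => Finsupp.lapply (k x)⁻¹
      ∘ₗ (MonoidAlgebra.coeffLinearEquiv (R := R) (S := R) (M := G)).toLinearMap
      ∘ₗ LinearMap.proj (Quotient.mk st x)
  have hΦ : ∀ y q g, (Φ y q).coeff g = y (σ g⁻¹ q.out) := fun y q g => rfl
  have hΨ : ∀ f x, Ψ f x = (f (Quotient.mk st x)).coeff (k x)⁻¹ := fun f x => rfl
  have hΦeq : ∀ (b : G) (y : X → R),
      Φ (fun x => y (σ b x)) = MonoidAlgebra.single b (1 : R) • Φ y := by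
    intro b y
    funext q
    refine MonoidAlgebra.ext (Finsupp.ext fun g => ?_)
    rw [Pi.smul_apply, smul_eq_mul, MonoidAlgebra.coeff_single_mul_apply, one_mul, hΦ, hΦ, ← hσm,
      mul_inv_rev, inv_inv, mul_comm]
  have hΨeq : ∀ (b : G) (f : Quotient st → MonoidAlgebra R G),
      Ψ (MonoidAlgebra.single b (1 : R) • f) = fun x => Ψ f (σ b x) := by
    intro b f
    funext x
    have e : Quotient.mk st (σ b x) = Quotient.mk st x := Quotient.sound ⟨b, rfl⟩
    have hkb : k (σ b x) = b * k x := huniq (Quotient.mk st x) _ _ (by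
      rw [hσm, hk]; conv_rhs => rw [← hk (σ b x), e])
    rw [hΨ, hΨ, e, hkb, Pi.smul_apply, smul_eq_mul, MonoidAlgebra.coeff_single_mul_apply, one_mul,
      mul_inv_rev, mul_comm b⁻¹]
  have hΨΦ : ∀ y, Ψ (Φ y) = y := fun y => by
    funext x
    rw [hΨ, hΦ, inv_inv, hk]
  let E := ρ.asModuleEquiv
  let S : ρ.asModule →ₗ[MonoidAlgebra R G] (Quotient st → MonoidAlgebra R G) :=
    linearOfComm (Φ ∘ₗ s ∘ₗ E.toLinearMap) fun b v => by
      show Φ (s (E (MonoidAlgebra.single b (1 : R) • v))) = _
      rw [show E (MonoidAlgebra.single b (1 : R) • v) = ρ b (E v) by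
        rw [ρ.single_smul, one_smul]; rfl, show s (ρ b (E v)) = fun x => s (E v) (σ b x) from
        funext (hs b (E v)), hΦeq]
      rfl
  let T : (Quotient st → MonoidAlgebra R G) →ₗ[MonoidAlgebra R G] ρ.asModule :=
    linearOfComm (E.symm.toLinearMap ∘ₗ t ∘ₗ Ψ) fun b f => by
      show E.symm (t (Ψ (MonoidAlgebra.single b (1 : R) • f))) = _
      rw [hΨeq, ht, ρ.single_smul, one_smul]
      rfl
  have hTS : T.comp S = LinearMap.id := LinearMap.ext fun v => by
    show E.symm (t (Ψ (Φ (s (E v))))) = v
    rw [hΨΦ, hts, E.symm_apply_apply]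
  have hfin : Module.Finite (MonoidAlgebra R G) ρ.asModule :=
    Module.Finite.of_surjective T fun v => ⟨S v, LinearMap.congr_fun hTS v⟩
  have : Module.Projective (MonoidAlgebra R G) ρ.asModule := Module.Projective.of_split S T hTS
  exact ⟨Module.free_of_flat_of_isLocalRing, hfin⟩

end Fermat.Agent.TW.GroupRing
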