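import Fermat.Agent.TW.Descent
import Fermat.Agent.TW.GroupRing

/-!
# Freeness over the group ring of `Δ = H'/H`

If `e` is a `Δ`-equivariant idempotent of `H¹(Γ_H(M), R)` on whose range `η = T_ℓ - (ℓ + 1)` is
bijective, and `Γ_{H'}(M)` has no more torsion than `Γ_H(M)`, then `range e` is free over
`MonoidAlgebra R Δ` (`free_range`), and its invariants come from `Γ_{H'}(M)` (`exists_fixedEquiv`).
-/

set_option autoImplicit false

noncomputable section

namespace Fermat.Agent.TW

open CongruenceSubgroup Fermat.Agent.Periods Fermat.Agent.GammaH Fermat.Agent.TW.GroupRing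
open scoped MatrixGroups

/-! ## Absence of extra torsion -/

/-- If `H'/H` is a `p`-group with `p ≥ 5`, or `p = 3` and `M` is even, then `Γ_{H'}(M)` has no
more torsion than `Γ_H(M)`. -/
theorem mem_GammaH_of_pow_twelve {M : ℕ} [NeZero M] {H H' : Subgroup (ZMod M)ˣ} {p : ℕ}
    [Fact p.Prime] (hp : IsPGroup p (Dl H H')) (h : 5 ≤ p ∨ p = 3 ∧ 2 ∣ M) {g : SL(2, ℤ)}
    (hg : g ∈ GammaH M H') (h12 : g ^ 12 = 1) : g ∈ GammaH M H := by
  have hprime : p.Prime := Fact.out
  have key : ∀ m : ℕ, g ^ m = 1 → p.Coprime m → g ∈ GammaH M H := fun m hm hco => by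
    refine (uMap_eq_one_iff (H := H) (⟨g, hg⟩ : GammaH M H')).mp ?_
    obtain ⟨j, hj⟩ := hp (uMap H H' ⟨g, hg⟩)
    have hm' : (uMap H H' ⟨g, hg⟩) ^ m = 1 := by
      rw [← map_pow, show (⟨g, hg⟩ : GammaH M H') ^ m = 1 from Subtype.ext (by simpa using hm),
        map_one]
    exact orderOf_eq_one_iff.mp (Nat.dvd_one.mp
      ((Nat.Coprime.pow_left j hco) ▸ Nat.dvd_gcd (orderOf_dvd_of_pow_eq_one hj)
        (orderOf_dvd_of_pow_eq_one hm')))
  rcases h with h5 | ⟨rfl, h2⟩
  · refine key 12 h12 ((Nat.Prime.coprime_iff_not_dvd hprime).mpr fun hd => ?_)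
    have := Nat.le_of_dvd (by norm_num) hd
    interval_cases p <;> first | omega | norm_num at hprime
  · obtain ⟨r, u, hu, hn⟩ := Cosets.TraceClass.isClassified_of_trace_sq_le
      (trace_sq_le_four_of_pow_twelve h12)
    have hg0 := Gamma0_mem.mp (GammaH_le_Gamma0 hg)
    have hc : (g 1 0 : ZMod 2) = 0 := by
      have := congrArg (ZMod.castHom h2 (ZMod 2)) hg0
      rwa [map_intCast, map_zero] at this
    have hev : (2 : ℤ) ∣ (g : Matrix (Fin 2) (Fin 2) ℤ).trace := by
      have hdet := congrArg (Int.cast : ℤ → ZMod 2) (Cosets.TraceClass.det_eq g)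
      push_cast at hdet
      rw [hc, mul_zero, sub_zero] at hdet
      have hone : ∀ a b : ZMod 2, a * b = 1 → a + b = 0 := by decide
      have := hone _ _ hdet
      rw [← Int.cast_add, ZMod.intCast_zmod_eq_zero_iff_dvd] at this
      simpa [Matrix.trace_fin_two] using this
    have hconj : ∀ k : ℕ, (r * g * r⁻¹) ^ k = 1 → g ^ k = 1 := fun k hk => by
      rw [conj_pow, conj_eq_one_iff] at hk
      exact hk
    have htr : (r * g * r⁻¹ : SL(2, ℤ)).1.trace = (g : Matrix (Fin 2) (Fin 2) ℤ).trace :=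
      Cosets.TraceClass.trace_conj r g
    refine key 4 (hconj 4 ?_) (by norm_num)
    rcases hn with ⟨n, rfl⟩ | hfin
    · obtain rfl : n = 0 := by
        have h1 : (r * g * r⁻¹) ^ 12 = 1 := by rw [conj_pow, h12, mul_one, mul_inv_cancel]
        have h2 : (ModularGroup.T ^ n : SL(2, ℤ)) ^ 12 = 1 := by
          rcases hu with hu | hu <;> rw [hu] at h1
          · exact h1
          · rwa [Even.neg_pow (by decide)] at h1
        rw [← zpow_natCast, ← zpow_mul] at h2
        have h := congrArg (fun A : SL(2, ℤ) => (A : Matrix (Fin 2) (Fin 2) ℤ) 0 1) h2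
        simp [ModularGroup.coe_T_zpow] at h
        omega
      rcases hu with hu | hu <;> rw [hu, zpow_zero] <;> decide
    · rcases hfin with rfl | rfl | rfl
      · rcases hu with hu | hu <;> rw [hu] <;> decide
      all_goals
        exfalso
        rw [← htr] at hev
        rcases hu with hu | hu <;> rw [hu] at hev <;> revert hev <;> decide

variable {M : ℕ} [NeZero M] {H H' : Subgroup (ZMod M)ˣ} {R : Type*} [CommRing R]

/-- Commutation with diamond operators gives commutation with `Δ`. -/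
theorem commute_actH1 {f : Module.End R (H1 M H R R)}
    (hf : ∀ a ∈ H', Commute f (diamondH R R a)) (b : Dl H H') :
    Commute f (actH1 H H' R R b) := by
  induction b using QuotientGroup.induction_on with
  | _ a => rw [actH1_mk]; exact hf _ a.2

variable {e : Module.End R (H1 M H R R)} (hec : ∀ b : Dl H H', Commute e (actH1 H H' R R b))

/-- `Δ` acting on `range e`. -/
def eRep : Representation R (Dl H H') (LinearMap.range e) where
  toFun b := (actH1 H H' R R b).restrict fun x hx => by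
    obtain ⟨w, rfl⟩ := hx
    exact ⟨actH1 H H' R R b w, LinearMap.congr_fun (hec b).eq w⟩
  map_one' := LinearMap.ext fun v => Subtype.ext (by simp)
  map_mul' b c := LinearMap.ext fun v => Subtype.ext (by simp [Module.End.mul_apply])

theorem coe_eRep (b : Dl H H') (v : LinearMap.range e) :
    (eRep hec b v : H1 M H R R) = actH1 H H' R R b v := rfl

variable (he : IsIdempotentElem e) {l : ℕ} (hl : l.Prime) (hlM : ¬ l ∣ M)
  (heη : Commute e (etaH R R hl hlM))

/-- `η` on `range e`. -/
def etaE : Module.End R (LinearMap.range e) :=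
  (etaH R R hl hlM).restrict fun x hx => by
    obtain ⟨w, rfl⟩ := hx
    exact ⟨etaH R R hl hlM w, LinearMap.congr_fun heη.eq w⟩

variable (hl1 : (l : ZMod M) = 1) (hH : (-1 : (ZMod M)ˣ) ∈ H) (hle : H ≤ H')
  (hfree : ∀ g ∈ GammaH M H', g ^ 12 = 1 → g ∈ GammaH M H)
  (hbij : Function.Bijective (etaE hl hlM heη))

theorem symm_apply_comm {W : Type*} [AddCommMonoid W] [Module R W] (u : W ≃ₗ[R] W)
    (f : Module.End R W) (h : ∀ v, u (f v) = f (u v)) (v : W) : u.symm (f v) = f (u.symm v) := by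
  rw [u.symm_apply_eq, h, u.apply_symm_apply]

theorem symm_symm_comp_apply {W V F : Type*} [AddCommMonoid W] [Module R W] [AddCommMonoid V]
    [Module R V] [AddCommMonoid F] [Module R F] (u : W ≃ₗ[R] W) (r : V →ₗ[R] W) (P : F →ₗ[R] V)
    (y : F) (w : W) (h : r (P y) = u (u w)) :
    (u.symm.toLinearMap ∘ₗ u.symm.toLinearMap ∘ₗ r ∘ₗ P) y = w := by
  simp [h]

theorem symm_symm_comp_comm {W V F : Type*} [AddCommMonoid W] [Module R W] [AddCommMonoid V]
    [Module R V] [AddCommMonoid F] [Module R F] (u : W ≃ₗ[R] W) (r : V →ₗ[R] W) (P : F →ₗ[R] V)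
    (f : Module.End R W) (g : Module.End R V) (y' y : F) (hu : ∀ v, u (f v) = f (u v))
    (hr : ∀ z, r (g z) = f (r z)) (hP : P y' = g (P y)) :
    (u.symm.toLinearMap ∘ₗ u.symm.toLinearMap ∘ₗ r ∘ₗ P) y'
      = f ((u.symm.toLinearMap ∘ₗ u.symm.toLinearMap ∘ₗ r ∘ₗ P) y) := by
  simp [hP, hr, symm_apply_comm u f hu]

theorem etaE_eRep [NeZero l] (hle : H ≤ H') (b : Dl H H') (v : LinearMap.range e) :
    etaE hl hlM heη (eRep hec b v) = eRep hec b (etaE hl hlM heη v) :=
  Subtype.ext (coe_etaH_actH1 hl hlM hle _ b)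

include he hl1 hH hle hfree hbij in
/-- **Freeness.** -/
theorem free_range [IsLocalRing R] [NeZero l] {p : ℕ} [Fact p.Prime] (hpG : IsPGroup p (Dl H H'))
    (hp : (p : R) ∈ IsLocalRing.maximalIdeal R) :
    Module.Free (MonoidAlgebra R (Dl H H')) (eRep hec).asModule ∧
      Module.Finite (MonoidAlgebra R (Dl H H')) (eRep hec).asModule := by
  have := isLocalRing_groupRing hpG hp
  have : Finite (XC M H) := Subgroup.finite_quotient_of_finiteIndex
  obtain ⟨u, huη⟩ : ∃ u : LinearMap.range e ≃ₗ[R] LinearMap.range e,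
      ∀ v, u v = etaE hl hlM heη v := ⟨LinearEquiv.ofBijective (etaE hl hlM heη) hbij, fun _ => rfl⟩
  let s : LinearMap.range e →ₗ[R] (XC M H → R) :=
    edgeMap hle R R hl hlM hH hfree ∘ₗ (LinearMap.range e).subtype
  let t : (XC M H → R) →ₗ[R] LinearMap.range e :=
    u.symm.toLinearMap ∘ₗ u.symm.toLinearMap ∘ₗ e.rangeRestrict ∘ₗ etaPeriod R R hl hlM hl1 hH
  have hσ : ∀ (b : Dl H H') (x : XC M H), shiftX H H' b x = x → b = 1 := fun b x hx =>
    shiftX_free hle hfree (g := 1) (one_pow 12) (by rw [one_smul]; exact hx)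
  have hs : ∀ (b : Dl H H') (w : LinearMap.range e) (x : XC M H),
      s (eRep hec b w) x = s w (shiftX H H' b x) := fun b w x =>
    edgeMap_act (R := R) (A := R) hle hl hlM hH hfree w.1 b x
  have hts : ∀ w : LinearMap.range e, t (s w) = w := fun w => by
    have h1 : e.rangeRestrict (etaPeriod R R hl hlM hl1 hH (edgeMap hle R R hl hlM hH hfree w.1))
        = u (u w) := by
      rw [huη, huη]
      refine Subtype.ext ?_
      show e (etaPeriod R R hl hlM hl1 hH (edgeMap hle R R hl hlM hH hfree w.1))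
        = etaH R R hl hlM (etaH R R hl hlM w.1)
      rw [etaPeriod_edgeMap (hle := hle) (hfree := hfree)]
      obtain ⟨z, hz⟩ := w.2
      rw [← hz]
      have c := heη.mul_right heη
      have := LinearMap.congr_fun c.eq (e z)
      simp only [Module.End.mul_apply] at this
      rw [this, show e (e z) = e z from LinearMap.congr_fun he.eq z]
    exact symm_symm_comp_apply u e.rangeRestrict (etaPeriod R R hl hlM hl1 hH) _ w h1
  have ht : ∀ (b : Dl H H') (y : XC M H → R),
      t (fun x => y (shiftX H H' b x)) = eRep hec b (t y) := fun b y => by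
    have hu : ∀ v, u (eRep hec b v) = eRep hec b (u v) := fun v =>
      (huη (eRep hec b v)).trans ((etaE_eRep hec hl hlM heη hle b v).trans
        (congrArg (fun z => eRep hec b z) (huη v).symm))
    have hr : ∀ z, e.rangeRestrict (actH1 H H' R R b z) = eRep hec b (e.rangeRestrict z) := fun z =>
      Subtype.ext (LinearMap.congr_fun (hec b).eq z)
    exact symm_symm_comp_comm u e.rangeRestrict (etaPeriod R R hl hlM hl1 hH) (eRep hec b)
      (actH1 H H' R R b) _ y hu hr (etaPeriod_shiftX (R := R) (A := R) hl hlM hl1 hH hle y b)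
  have hF := free_of_retract (X := XC M H) (W := LinearMap.range e) (eRep hec) (shiftX H H')
    shiftX_one shiftX_mul hσ s t hts hs ht
  exact hF

/-! ## Invariants -/

theorem single_smul_eRep (b : Dl H H') (v : (eRep hec).asModule) :
    MonoidAlgebra.single b (1 : R) • v
      = (eRep hec).asModuleEquiv.symm (eRep hec b ((eRep hec).asModuleEquiv v)) := by
  exact ((eRep hec).single_smul 1 b v).trans (one_smul R _)

theorem mem_fixedPts_eRep (v : (eRep hec).asModule) :
    v ∈ fixedPts R (Dl H H') (eRep hec).asModule ↔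
      ∀ b : Dl H H', actH1 H H' R R b ((eRep hec).asModuleEquiv v : H1 M H R R)
        = ((eRep hec).asModuleEquiv v : H1 M H R R) := by
  simp only [mem_fixedPts, single_smul_eRep, LinearEquiv.symm_apply_eq, Subtype.ext_iff, coe_eRep]

include he hl1 hH hfree hbij hec hle in
/-- **Invariants come from `Γ_{H'}`.** -/
theorem exists_resH1_of_invariant [NeZero l] (v : LinearMap.range e)
    (hv : ∀ b : Dl H H', actH1 H H' R R b v.1 = v.1) :
    ∃ ψ : H1 M H' R R, e (resH1 R R hle ψ) = v.1 := by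
  obtain ⟨u, huη⟩ : ∃ u : LinearMap.range e ≃ₗ[R] LinearMap.range e,
      ∀ v, u v = etaE hl hlM heη v := ⟨LinearEquiv.ofBijective (etaE hl hlM heη) hbij, fun _ => rfl⟩
  obtain ⟨w, hw0⟩ : ∃ w, u (u w) = v := ⟨u.symm (u.symm v), by simp only [u.apply_symm_apply]⟩
  have huw : etaE hl hlM heη (etaE hl hlM heη w) = v := by rw [← huη, ← huη, hw0]
  have hcomm : ∀ b z, u (eRep hec b z) = eRep hec b (u z) := fun b z =>
    (huη (eRep hec b z)).trans ((etaE_eRep hec hl hlM heη hle b z).trans
      (congrArg (fun x => eRep hec b x) (huη z).symm))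
  have hw : ∀ b, eRep hec b w = w := fun b => by
    refine u.injective (u.injective ?_)
    rw [hcomm b w, hcomm b (u w), hw0]
    exact Subtype.ext (hv b)
  obtain ⟨ψ, hψ⟩ := exists_resH1_eq_eta_sq hl hlM hl1 hH hle hfree w.1
    (fun b => congrArg Subtype.val (hw b))
  refine ⟨ψ, ?_⟩
  rw [hψ, show etaH R R hl hlM (etaH R R hl hlM w.1) = v.1 from congrArg Subtype.val huw]
  obtain ⟨z, hz⟩ := v.2
  rw [← hz, ← Module.End.mul_apply, he.eq]

include he hl1 hH hfree hbij in
/-- The invariants of `range e` are the range of a compatible idempotent at `Γ_{H'}`. -/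
theorem exists_fixedEquiv [NeZero l] {e' : Module.End R (H1 M H' R R)} (he' : IsIdempotentElem e')
    (hres : ∀ ψ, resH1 R R hle (e' ψ) = e (resH1 R R hle ψ))
    (hinj : ∀ ψ, e' ψ = ψ → etaH R R hl hlM ψ = 0 → ψ = 0) :
    ∃ E : LinearMap.range e' ≃ₗ[R] fixedPts R (Dl H H') (eRep hec).asModule,
      ∀ ψ, ((eRep hec).asModuleEquiv (E ψ).1 : H1 M H R R) = resH1 R R hle ψ.1 := by
  have hmem : ∀ ψ : LinearMap.range e', resH1 R R hle ψ.1 ∈ LinearMap.range e := fun ψ => by
    obtain ⟨z, hz⟩ := ψ.2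
    exact ⟨resH1 R R hle z, by rw [← hres, hz]⟩
  have hfix : ∀ ψ : LinearMap.range e', (eRep hec).asModuleEquiv.symm ⟨_, hmem ψ⟩
      ∈ fixedPts R (Dl H H') (eRep hec).asModule := fun ψ => by
    rw [mem_fixedPts_eRep]
    intro b
    exact actH1_resH1 hle _ b
  let F : LinearMap.range e' →ₗ[R] fixedPts R (Dl H H') (eRep hec).asModule :=
    LinearMap.codRestrict _ ((eRep hec).asModuleEquiv.symm.toLinearMap ∘ₗ
      (resH1 R R hle ∘ₗ (LinearMap.range e').subtype).codRestrict _ hmem) hfix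
  refine ⟨LinearEquiv.ofBijective F ⟨?_, ?_⟩, fun ψ => rfl⟩
  · rw [injective_iff_map_eq_zero]
    intro ψ hψ
    obtain ⟨z, hz⟩ := ψ.2
    have h1 : (F ψ).1 = 0 := by rw [hψ, ZeroMemClass.coe_zero]
    have h0 : resH1 R R hle ψ.1 = 0 := by
      show ((eRep hec).asModuleEquiv (F ψ).1 : H1 M H R R) = 0
      rw [h1, map_zero, ZeroMemClass.coe_zero]
    refine Subtype.ext (hinj _ ?_ (etaH_eq_zero_of_resH1_eq_zero hl hlM hle _ h0))
    rw [← hz, ← Module.End.mul_apply, he'.eq]
  · intro x
    have hv0 := (mem_fixedPts_eRep hec x.1).mp x.2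
    have hh := exists_resH1_of_invariant (e := e) hec he hl hlM heη hl1 hH hle hfree hbij
      ((eRep hec).asModuleEquiv x.1) hv0
    obtain ⟨ψ, hψ⟩ := hh
    let z : LinearMap.range e' := ⟨e' ψ, ⟨ψ, rfl⟩⟩
    have hz : ((eRep hec).asModuleEquiv (F z).1).1 = ((eRep hec).asModuleEquiv x.1).1 :=
      (show ((eRep hec).asModuleEquiv (F z).1).1 = resH1 R R hle z.1 from rfl).trans
        ((hres ψ).trans hψ)
    exact ⟨z, Subtype.ext ((eRep hec).asModuleEquiv.injective (Subtype.ext hz))⟩

end Fermat.Agent.TW
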