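import Mathlib
import Fermat.Prelude.Thm_Algebra_finite_maximalSpectrum_and_bijective_localization_of_module_finite

/-!
# The unit part of an endomorphism

An endomorphism `t` of a finite module over a complete local ring splits the module into the part
where `t` is invertible and the part where it is topologically nilpotent, by an idempotent which is
a polynomial in `t` (`unitPart`) and functorial in `(M, t)` (`unitPart_natural`).
-/

set_option autoImplicit false

noncomputable section

namespace Fermat.Agent.TW

open IsLocalRing Polynomial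

variable {O : Type} [CommRing O] [IsLocalRing O] [IsNoetherianRing O]
  [IsAdicComplete (maximalIdeal O) O]

/-- In a finite algebra: an idempotent on which `x` is invertible with `x` topologically nilpotent
on the complement. -/
theorem exists_unit_idempotent {B : Type} [CommRing B] [Algebra O B] [Module.Finite O B] (x : B) :
    ∃ e y : B, IsIdempotentElem e ∧ y * x = e ∧
      ∃ k, (x * (1 - e)) ^ k ∈ (maximalIdeal O).map (algebraMap O B) := by
  classical
  obtain ⟨-, hbij, -, -⟩ :=
    Algebra.finite_maximalSpectrum_and_bijective_localization_of_module_finite (𝒪 := O) B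
  have : ∀ I : MaximalSpectrum B, I.asIdeal.IsPrime := fun I => I.isMaximal.isPrime
  let Φ := RingHom.pi fun I : MaximalSpectrum B => algebraMap B (Localization.AtPrime I.asIdeal)
  obtain ⟨e, he⟩ := hbij.2 fun I => if x ∈ I.asIdeal then 0 else 1
  obtain ⟨y, hy⟩ := hbij.2 fun I => if x ∈ I.asIdeal then 0 else
    Ring.inverse (algebraMap B (Localization.AtPrime I.asIdeal) x)
  have heI : ∀ I : MaximalSpectrum B, algebraMap B (Localization.AtPrime I.asIdeal) e =
      if x ∈ I.asIdeal then 0 else 1 := fun I => congrFun he I
  have hyI : ∀ I : MaximalSpectrum B, algebraMap B (Localization.AtPrime I.asIdeal) y =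
      if x ∈ I.asIdeal then 0 else
        Ring.inverse (algebraMap B (Localization.AtPrime I.asIdeal) x) := fun I => congrFun hy I
  refine ⟨e, y, hbij.1 (funext fun I => ?_), hbij.1 (funext fun I => ?_), ?_⟩
  · simp only [map_mul, RingHom.pi_apply, heI]
    split_ifs <;> simp
  · simp only [map_mul, RingHom.pi_apply, heI, hyI]
    split_ifs with h
    · rw [zero_mul]
    · exact Ring.inverse_mul_cancel _ ((IsLocalization.AtPrime.isUnit_to_map_iff
        (Localization.AtPrime I.asIdeal) I.asIdeal x).2 h)
  · refine Ideal.mem_radical_iff.1 ?_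
    rw [Ideal.radical_eq_sInf, Submodule.mem_sInf]
    rintro (P : Ideal B) ⟨hP, hprime⟩
    have : P.IsPrime := hprime
    have hle : maximalIdeal O ≤ P.comap (algebraMap O B) := Ideal.map_le_iff_le_comap.1 hP
    have : (P.comap (algebraMap O B)).IsPrime := Ideal.comap_isPrime _ _
    have hcomap : (P.comap (algebraMap O B)).IsMaximal :=
      ((maximalIdeal.isMaximal O).eq_of_le (Ideal.IsPrime.ne_top inferInstance) hle) ▸
        maximalIdeal.isMaximal O
    have hmax : P.IsMaximal := Ideal.isMaximal_of_isIntegral_of_isMaximal_comap P hcomap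
    by_cases hx : x ∈ P
    · exact Ideal.mul_mem_right _ _ hx
    · refine Ideal.mul_mem_left _ _ ?_
      have h1 := heI ⟨P, hmax⟩
      rw [if_neg hx] at h1
      by_contra h2
      have h3 := (IsLocalization.AtPrime.isUnit_to_map_iff (Localization.AtPrime P) P (1 - e)).2 h2
      rw [map_sub, map_one, h1, sub_self] at h3
      exact not_isUnit_zero h3

variable {M : Type} [AddCommGroup M] [Module O M] [Module.Finite O M]

/-- Polynomials in `t`: the unit part and the inverse on it. -/
theorem exists_unitPart (t : Module.End O M) : ∃ P Y : O[X],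
    IsIdempotentElem (aeval t P) ∧ aeval t Y * t = aeval t P ∧
      ∃ k : ℕ, ∀ v, ((t * (1 - aeval t P)) ^ k) v ∈ maximalIdeal O • (⊤ : Submodule O M) := by
  let J := RingHom.ker (aeval t : O[X] →ₐ[O] Module.End O M)
  let ι : O[X] ⧸ J →ₐ[O] Module.End O M := Ideal.kerLiftAlg _
  have hι : Function.Injective ι := Ideal.kerLiftAlg_injective _
  obtain ⟨n, s, hs⟩ := Module.Finite.exists_fin (R := O) (M := M)
  let ev : Module.End O M →ₗ[O] (Fin n → M) := LinearMap.pi fun i => LinearMap.applyₗ (s i)
  have hev : Function.Injective ev := fun f g h =>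
    LinearMap.ext_on_range hs fun i => congrFun h i
  have : Module.Finite O (O[X] ⧸ J) :=
    Module.Finite.of_injective (ev ∘ₗ ι.toLinearMap) (hev.comp hι)
  obtain ⟨e, y, he, hy, k, hk⟩ := exists_unit_idempotent (O := O) (Ideal.Quotient.mk J X)
  obtain ⟨P, rfl⟩ := Ideal.Quotient.mk_surjective e
  obtain ⟨Y, rfl⟩ := Ideal.Quotient.mk_surjective y
  have hmk : ∀ Q : O[X], ι (Ideal.Quotient.mk J Q) = aeval t Q := fun Q => rfl
  refine ⟨P, Y, ?_, ?_, k, fun v => ?_⟩
  · have h := congrArg ι he.eq
    rwa [map_mul, hmk] at h
  · have h := congrArg ι hy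
    rwa [map_mul, hmk, hmk, hmk, aeval_X] at h
  · have h : ι ((Ideal.Quotient.mk J X * (1 - Ideal.Quotient.mk J P)) ^ k) =
        (t * (1 - aeval t P)) ^ k := by
      rw [map_pow, map_mul, map_sub, map_one, hmk, hmk, aeval_X]
    rw [← h]
    have hk' : (Ideal.Quotient.mk J X * (1 - Ideal.Quotient.mk J P)) ^ k ∈
        maximalIdeal O • (⊤ : Submodule O (O[X] ⧸ J)) := by
      rw [Ideal.smul_top_eq_map]; exact hk
    refine Submodule.smul_induction_on hk' (fun a ha b _ => ?_) fun a b ha hb => ?_
    · rw [map_smul, LinearMap.smul_apply]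
      exact Submodule.smul_mem_smul ha trivial
    · rw [map_add, LinearMap.add_apply]
      exact add_mem ha hb

/-- The unit part of an endomorphism. -/
def unitPart (t : Module.End O M) : Module.End O M := aeval t (exists_unitPart t).choose

/-- The inverse on the unit part. -/
def unitInv (t : Module.End O M) : Module.End O M :=
  aeval t (exists_unitPart t).choose_spec.choose

theorem isIdempotentElem_unitPart (t : Module.End O M) : IsIdempotentElem (unitPart t) :=
  (exists_unitPart t).choose_spec.choose_spec.1

theorem unitInv_mul (t : Module.End O M) : unitInv t * t = unitPart t :=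
  (exists_unitPart t).choose_spec.choose_spec.2.1

theorem exists_pow_nilPart_mem (t : Module.End O M) :
    ∃ k : ℕ, ∀ v, ((t * (1 - unitPart t)) ^ k) v ∈ maximalIdeal O • (⊤ : Submodule O M) :=
  (exists_unitPart t).choose_spec.choose_spec.2.2

omit [IsLocalRing O] [IsNoetherianRing O] [IsAdicComplete (maximalIdeal O) O] [Module.Finite O M] in
theorem commute_aeval {t f : Module.End O M} (h : Commute f t) (Q : O[X]) :
    Commute f (aeval t Q) := by
  induction Q using Polynomial.induction_on with
  | C a =>
    rw [aeval_C]
    exact Algebra.commute_algebraMap_right a f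
  | add P Q hP hQ => rw [map_add]; exact hP.add_right hQ
  | monomial n a _ =>
    rw [map_mul, aeval_C, map_pow, aeval_X]
    exact (Algebra.commute_algebraMap_right a f).mul_right (h.pow_right _)

/-- Whatever commutes with `t` commutes with its unit part. -/
theorem commute_unitPart {t f : Module.End O M} (h : Commute f t) : Commute f (unitPart t) :=
  commute_aeval h _

theorem commute_unitInv {t f : Module.End O M} (h : Commute f t) : Commute f (unitInv t) :=
  commute_aeval h _

theorem commute_self_unitPart (t : Module.End O M) : Commute t (unitPart t) :=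
  commute_unitPart (Commute.refl t)

omit [IsNoetherianRing O] [IsAdicComplete (maximalIdeal O) O] [Module.Finite O M] in
/-- A power sending everything into `m M` sends everything into `m ^ n M` after iteration. -/
theorem pow_mul_mem {A : Module.End O M} {k : ℕ}
    (h : ∀ v, (A ^ k) v ∈ maximalIdeal O • (⊤ : Submodule O M)) :
    ∀ n v, (A ^ (k * n)) v ∈ (maximalIdeal O) ^ n • (⊤ : Submodule O M) := by
  intro n
  induction n with
  | zero => simp
  | succ n ih =>
    intro v
    rw [show k * (n + 1) = k + k * n by ring, pow_add A k, Module.End.mul_apply,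
      pow_succ (maximalIdeal O), Submodule.mul_smul]
    refine Submodule.smul_induction_on (ih v) (fun r hr w _ => ?_) fun a b ha hb => by
      rw [map_add]; exact add_mem ha hb
    rw [map_smul]
    exact Submodule.smul_mem_smul hr (h w)

theorem nilPart_pow (t : Module.End O M) (j : ℕ) :
    (t * (1 - unitPart t)) ^ j * (1 - unitPart t) = t ^ j * (1 - unitPart t) := by
  have hc : Commute t (1 - unitPart t) :=
    (Commute.one_right t).sub_right (commute_self_unitPart t)
  rw [hc.mul_pow, mul_assoc, ← pow_succ, (isIdempotentElem_unitPart t).one_sub.pow_succ_eq]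

theorem unitInv_pow (t : Module.End O M) (j : ℕ) :
    unitInv t ^ j * t ^ j * unitPart t = unitPart t := by
  rw [← (commute_unitInv (Commute.refl t)).symm.mul_pow, unitInv_mul]
  cases j with
  | zero => rw [pow_zero, one_mul]
  | succ j => rw [← pow_succ, (isIdempotentElem_unitPart t).pow_succ_eq]

omit [IsAdicComplete (maximalIdeal O) O] in
theorem eq_zero_of_mem_pow_smul {v : M}
    (h : ∀ n : ℕ, v ∈ (maximalIdeal O) ^ n • (⊤ : Submodule O M)) : v = 0 := by
  have h1 : v ∈ ⨅ n : ℕ, (maximalIdeal O) ^ n • (⊤ : Submodule O M) :=
    (Submodule.mem_iInf _).2 h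
  rwa [Ideal.iInf_pow_smul_eq_bot_of_isLocalRing _ (maximalIdeal.isMaximal O).ne_top,
    Submodule.mem_bot] at h1

omit [IsNoetherianRing O] [IsAdicComplete (maximalIdeal O) O] in
/-- A bijection plus something commuting with it and topologically nilpotent is bijective. -/
theorem bijective_add_of_pow_mem {U A : Module.End O M} (hU : Function.Surjective U)
    (hc : Commute U A) {k : ℕ} (h : ∀ v, (A ^ k) v ∈ maximalIdeal O • (⊤ : Submodule O M)) :
    Function.Bijective (U + A) := by
  have key : ∀ i j, i + j = k → ∀ v,
      (A ^ j) v ∈ LinearMap.range (U + A) ⊔ maximalIdeal O • (⊤ : Submodule O M) := by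
    intro i
    induction i with
    | zero =>
      intro j hj v
      rw [zero_add] at hj
      exact Submodule.mem_sup_right (hj ▸ h v)
    | succ i ih =>
      intro j hj v
      obtain ⟨w, rfl⟩ := hU v
      have e : (A ^ j) (U w) = (U + A) ((A ^ j) w) - (A ^ (j + 1)) w := by
        rw [← Module.End.mul_apply, ← (hc.pow_right j).eq, pow_succ', Module.End.mul_apply,
          Module.End.mul_apply, LinearMap.add_apply, add_sub_cancel_right]
      rw [e]
      exact sub_mem (Submodule.mem_sup_left ⟨_, rfl⟩) (ih (j + 1) (by omega) w)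
  have hsurj : Function.Surjective (U + A) := by
    refine LinearMap.range_eq_top.1 (eq_top_iff.2
      (Submodule.le_of_le_smul_of_le_jacobson_bot Module.Finite.fg_top
        (maximalIdeal_le_jacobson ⊥) fun v _ => ?_))
    simpa using key k 0 (add_zero k) v
  exact ⟨OrzechProperty.injective_of_surjective_endomorphism _ hsurj, hsurj⟩

variable {M' : Type} [AddCommGroup M'] [Module O M'] [Module.Finite O M']

/-- **Functoriality.** -/
theorem unitPart_natural (φ : M →ₗ[O] M') {t : Module.End O M} {t' : Module.End O M'}
    (h : ∀ v, φ (t v) = t' (φ v)) (v : M) : φ (unitPart t v) = unitPart t' (φ v) := by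
  have hpow : ∀ j v, φ ((t ^ j) v) = (t' ^ j) (φ v) := fun j => by
    induction j with
    | zero => simp
    | succ j ih =>
      intro v
      rw [pow_succ, pow_succ, Module.End.mul_apply, Module.End.mul_apply, ih, h]
  obtain ⟨k, hk⟩ := exists_pow_nilPart_mem t
  obtain ⟨k', hk'⟩ := exists_pow_nilPart_mem t'
  -- no unit part maps to the nilpotent part
  have ha : φ (unitPart t v) = unitPart t' (φ (unitPart t v)) := by
    refine sub_eq_zero.1 (eq_zero_of_mem_pow_smul (O := O) fun n => ?_)
    rw [show φ (unitPart t v) - unitPart t' (φ (unitPart t v))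
      = (1 - unitPart t') (φ (unitPart t v)) from rfl]
    have e : unitPart t v = (t ^ (k' * n)) ((unitInv t ^ (k' * n)) (unitPart t v)) := by
      conv_lhs => rw [← unitInv_pow t (k' * n)]
      rw [((commute_unitInv (Commute.refl t)).symm.pow_pow (k' * n) (k' * n)).eq]
      rfl
    have e2 : (1 - unitPart t') * t' ^ (k' * n)
        = (t' * (1 - unitPart t')) ^ (k' * n) * (1 - unitPart t') := by
      rw [nilPart_pow]
      exact ((((Commute.one_right t').sub_right (commute_self_unitPart t')).pow_left _)).eq.symm
    rw [e, hpow, ← Module.End.mul_apply, e2, Module.End.mul_apply]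
    exact pow_mul_mem hk' n _
  -- nothing nilpotent maps to the unit part
  have hb : unitPart t' (φ ((1 - unitPart t) v)) = 0 := by
    refine eq_zero_of_mem_pow_smul (O := O) fun n => ?_
    set w := (1 - unitPart t) v with hw
    have e : (t ^ (k * n)) w = ((t * (1 - unitPart t)) ^ (k * n)) w := by
      rw [hw, ← Module.End.mul_apply, ← Module.End.mul_apply, nilPart_pow]
    have e2 : unitPart t' (φ w) = (unitPart t' * unitInv t' ^ (k * n)) ((t' ^ (k * n)) (φ w)) := by
      rw [← Module.End.mul_apply, mul_assoc]
      conv_lhs => rw [← unitInv_pow t' (k * n)]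
      rw [(commute_unitPart (((commute_unitInv (Commute.refl t')).symm.pow_left (k * n)).mul_left
        ((Commute.refl t').pow_left (k * n)))).eq]
    rw [e2, ← hpow, e]
    have hm : φ (((t * (1 - unitPart t)) ^ (k * n)) w) ∈
        (maximalIdeal O) ^ n • (⊤ : Submodule O M') :=
      Submodule.smul_top_le_comap_smul_top _ φ (pow_mul_mem hk n w)
    exact Submodule.smul_top_le_comap_smul_top _ _ hm
  rw [show (1 - unitPart t) v = v - unitPart t v from rfl, map_sub, map_sub, ← ha, sub_eq_zero]
    at hb
  exact hb.symm

end Fermat.Agent.TW
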