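import Fermat.Agent.TW.Free

/-!
# The free module `range e` over the group ring

* `GroupRing.endAsModule`: endomorphisms commuting with a group action act linearly over the group
  ring.
* `exists_basis_range`: `range e` is free over the group ring of `Δ`, of rank equal to the `R`-rank
  of the part at `Γ_{H'}(M)`.
-/

set_option autoImplicit false

noncomputable section

namespace Fermat.Agent.TW

open CongruenceSubgroup Fermat.Agent.GammaH Fermat.Agent.TW.GroupRing
open scoped MatrixGroups

namespace GroupRing

variable {R : Type*} [CommRing R] {G : Type*} [CommGroup G]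

/-- Endomorphisms commuting with the group, as endomorphisms of the module over the group ring. -/
def endAsModule {W : Type*} [AddCommMonoid W] [Module R W] (ρ : Representation R G W)
    {T : Type*} [Semiring T] (g : T →+* Module.End R W)
    (hg : ∀ t b v, g t (ρ b v) = ρ b (g t v)) :
    T →+* Module.End (MonoidAlgebra R G) ρ.asModule where
  toFun t :=
    { toFun := fun v => ρ.asModuleEquiv.symm (g t (ρ.asModuleEquiv v))
      map_add' := fun v w => by rw [map_add, map_add, map_add]
      map_smul' := fun a v => by
        induction a using MonoidAlgebra.induction_on with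
        | of b =>
          show ρ.asModuleEquiv.symm (g t (ρ.asModuleEquiv (MonoidAlgebra.single b (1 : R) • v)))
            = MonoidAlgebra.single b (1 : R) • ρ.asModuleEquiv.symm (g t (ρ.asModuleEquiv v))
          rw [ρ.single_smul, ρ.single_smul, one_smul, one_smul, LinearEquiv.apply_symm_apply]
          exact congrArg ρ.asModuleEquiv.symm (hg t b _)
        | add x y hx hy =>
          simp only [RingHom.id_apply] at hx hy ⊢
          rw [add_smul, map_add, map_add, map_add, hx, hy, add_smul]
        | smul r x hx =>
          simp only [RingHom.id_apply] at hx ⊢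
          rw [smul_assoc, map_smul, map_smul, map_smul, hx, smul_assoc] }
  map_one' := LinearMap.ext fun v => by simp
  map_mul' s t := LinearMap.ext fun v => by simp
  map_zero' := LinearMap.ext fun v => by simp
  map_add' s t := LinearMap.ext fun v => by simp

end GroupRing

variable {M : ℕ} [NeZero M] {H H' : Subgroup (ZMod M)ˣ} {R : Type*} [CommRing R]
  {e : Module.End R (H1 M H R R)} (hec : ∀ b : Dl H H', Commute e (actH1 H H' R R b))

/-- **Rank.** A basis of `range e` over the group ring whose size is the `R`-rank at `Γ_{H'}`. -/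
theorem exists_basis_range [IsLocalRing R] (he : IsIdempotentElem e) {l : ℕ}
    [NeZero l] (hl : l.Prime) (hlM : ¬ l ∣ M) (heη : Commute e (etaH R R hl hlM))
    (hl1 : (l : ZMod M) = 1) (hH : (-1 : (ZMod M)ˣ) ∈ H) (hle : H ≤ H')
    (hfree : ∀ g ∈ GammaH M H', g ^ 12 = 1 → g ∈ GammaH M H)
    (hbij : Function.Bijective (etaE hl hlM heη)) {p : ℕ} [Fact p.Prime]
    (hpG : IsPGroup p (Dl H H')) (hp : (p : R) ∈ IsLocalRing.maximalIdeal R)
    {e' : Module.End R (H1 M H' R R)} (he' : IsIdempotentElem e')
    (hres : ∀ ψ, resH1 R R hle (e' ψ) = e (resH1 R R hle ψ))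
    (hinj : ∀ ψ, e' ψ = ψ → etaH R R hl hlM ψ = 0 → ψ = 0) :
    ∃ d : ℕ, Nonempty (Module.Basis (Fin d) (MonoidAlgebra R (Dl H H')) (eRep hec).asModule) ∧
      Nonempty ((Fin d → R) ≃ₗ[R] LinearMap.range e') := by
  have hfr := free_range hec he hl hlM heη hl1 hH hle hfree hbij hpG hp
  have := hfr.1
  have := hfr.2
  have := isLocalRing_groupRing hpG hp
  let b := Module.finBasis (MonoidAlgebra R (Dl H H')) (eRep hec).asModule
  obtain ⟨E, -⟩ := exists_fixedEquiv hec he hl hlM heη hl1 hH hle hfree hbij he' hres hinj
  have : Fintype (Dl H H') := Fintype.ofFinite _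
  exact ⟨_, ⟨b⟩, ⟨(fixedEquiv b).trans E.symm⟩⟩

end Fermat.Agent.TW
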