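import Fermat.Agent.Patching.Module
import Fermat.Agent.TW.GroupRing

/-!
# Quotients of free modules as levels

For a free `S`-module `P`, an ideal `J` and `Λ → S` onto modulo `J`, the quotient `P/JP` has a level
basis (`isLevelBasis`); ideals congruent modulo `ϖ` give congruence maps (`congrMap`) commuting with
every endomorphism (`congrMap_endQuot`).
-/

set_option autoImplicit false

noncomputable section

namespace Fermat.Agent.TW.LevelQuot

open Fermat.Agent.Patching

variable {Λ S : Type*} [CommRing Λ] [CommRing S] [Algebra Λ S] {P : Type*} [AddCommGroup P]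
  [Module S P] [Module Λ P] [IsScalarTower Λ S P] {ι : Type*} [Fintype ι]

omit [Algebra Λ S] [Module Λ P] [IsScalarTower Λ S P] in
/-- Membership in `J • P` through coordinates. -/
theorem mem_smul_top_iff (b : Module.Basis ι S P) (J : Ideal S) (v : P) :
    v ∈ J • (⊤ : Submodule S P) ↔ ∀ i, b.repr v i ∈ J := by
  constructor
  · intro h i
    refine Submodule.smul_induction_on h (fun a ha w _ => ?_) fun x y hx hy => ?_
    · rw [map_smul, Finsupp.smul_apply, smul_eq_mul]
      exact J.mul_mem_right _ ha
    · rw [map_add, Finsupp.add_apply]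
      exact J.add_mem hx hy
  · intro h
    rw [← b.sum_repr v]
    exact Submodule.sum_mem _ fun i _ => Submodule.smul_mem_smul (h i) trivial

variable (S P) in
/-- `P/JP`. -/
abbrev Quot (J : Ideal S) : Type _ := P ⧸ (J • (⊤ : Submodule S P))

/-- The image of a basis of `P` is a level basis of `P/JP` over `Λ`. -/
theorem isLevelBasis {d : ℕ} (b : Module.Basis (Fin d) S P) (J : Ideal S)
    (hsurj : ∀ s : S, ∃ x : Λ, s - algebraMap Λ S x ∈ J) :
    IsLevelBasis (Ideal.comap (algebraMap Λ S) J)
      (fun i => (Submodule.Quotient.mk (b i) : Quot S P J)) := by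
  have hsum : ∀ x : Fin d → Λ, ∑ i, x i • (Submodule.Quotient.mk (b i) : Quot S P J)
      = Submodule.Quotient.mk (∑ i, algebraMap Λ S (x i) • b i) := fun x => by
    rw [← Submodule.mkQ_apply, map_sum]
    exact Finset.sum_congr rfl fun i _ => by
      rw [Submodule.mkQ_apply, algebraMap_smul, Submodule.Quotient.mk_smul]
  refine ⟨Submodule.eq_top_iff'.mpr fun y => ?_, fun x => ?_⟩
  · obtain ⟨v, rfl⟩ := Submodule.Quotient.mk_surjective _ y
    choose x hx using fun i => hsurj (b.repr v i)
    rw [Submodule.mem_span_range_iff_exists_fun]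
    refine ⟨x, ?_⟩
    rw [hsum, Submodule.Quotient.eq, mem_smul_top_iff b]
    intro i
    rw [map_sub, Finsupp.sub_apply, b.repr_sum_self, ← neg_sub]
    exact J.neg_mem (hx i)
  · rw [hsum, Submodule.Quotient.mk_eq_zero, mem_smul_top_iff b]
    simp only [b.repr_sum_self, Ideal.mem_comap]

variable {J J' : Ideal S} {ϖ : Λ}

/-- The congruence map `P/JP → (P/J'P)/ϖ`. -/
def congrMap (h : J ≤ J' ⊔ Ideal.span {algebraMap Λ S ϖ}) :
    Quot S P J →ₗ[Λ] Quot S P J' ⧸ Ideal.span {ϖ} • (⊤ : Submodule Λ (Quot S P J')) :=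
  (Submodule.liftQ ((J • (⊤ : Submodule S P)).restrictScalars Λ)
    ((Ideal.span {ϖ} • (⊤ : Submodule Λ (Quot S P J'))).mkQ ∘ₗ
      ((J' • (⊤ : Submodule S P)).mkQ.restrictScalars Λ)) fun v hv => by
    have key : ∀ a ∈ J, ∀ w : P, (Submodule.Quotient.mk (a • w) : Quot S P J')
        ∈ Ideal.span {ϖ} • (⊤ : Submodule Λ (Quot S P J')) := by
      intro a ha w
      obtain ⟨j, hj, c, hc, rfl⟩ := Submodule.mem_sup.mp (h ha)
      obtain ⟨s, rfl⟩ := Ideal.mem_span_singleton'.mp hc
      rw [add_smul, Submodule.Quotient.mk_add,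
        (Submodule.Quotient.mk_eq_zero _).mpr (Submodule.smul_mem_smul hj Submodule.mem_top),
        zero_add,
        mul_comm, mul_smul, algebraMap_smul, Submodule.Quotient.mk_smul]
      exact Submodule.smul_mem_smul (Ideal.mem_span_singleton_self ϖ) Submodule.mem_top
    rw [LinearMap.mem_ker, LinearMap.comp_apply, Submodule.mkQ_apply, Submodule.Quotient.mk_eq_zero]
    show (Submodule.Quotient.mk v : Quot S P J') ∈ _
    refine Submodule.smul_induction_on (Submodule.restrictScalars_mem Λ _ v |>.mp hv)
      (fun a ha w _ => key a ha w) fun x y hx hy => ?_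
    rw [Submodule.Quotient.mk_add]
    exact add_mem hx hy).comp
    (Submodule.Quotient.restrictScalarsEquiv Λ (J • (⊤ : Submodule S P))).symm.toLinearMap

theorem congrMap_mk (h : J ≤ J' ⊔ Ideal.span {algebraMap Λ S ϖ}) (v : P) :
    congrMap h (Submodule.Quotient.mk v : Quot S P J)
      = Submodule.Quotient.mk (Submodule.Quotient.mk v : Quot S P J') := rfl

variable (J) in
/-- An endomorphism of `P` on `P/JP`. -/
def endQuot : Module.End S P →+* Module.End Λ (Quot S P J) where
  toFun f := ((J • (⊤ : Submodule S P)).mapQ (J • (⊤ : Submodule S P)) f fun v hv => by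
    refine Submodule.smul_induction_on hv (fun a ha w _ => ?_) fun x y hx hy => ?_
    · rw [Submodule.mem_comap, map_smul]
      exact Submodule.smul_mem_smul ha trivial
    · exact add_mem hx hy).restrictScalars Λ
  map_one' := LinearMap.ext fun y => by
    obtain ⟨v, rfl⟩ := Submodule.Quotient.mk_surjective _ y
    rfl
  map_mul' f g := LinearMap.ext fun y => by
    obtain ⟨v, rfl⟩ := Submodule.Quotient.mk_surjective _ y
    rfl
  map_zero' := LinearMap.ext fun y => by
    obtain ⟨v, rfl⟩ := Submodule.Quotient.mk_surjective _ y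
    rfl
  map_add' f g := LinearMap.ext fun y => by
    obtain ⟨v, rfl⟩ := Submodule.Quotient.mk_surjective _ y
    rfl

theorem endQuot_mk (f : Module.End S P) (v : P) :
    endQuot (Λ := Λ) J f (Submodule.Quotient.mk v) = Submodule.Quotient.mk (f v) := rfl

/-- The congruence maps commute with every endomorphism. -/
theorem congrMap_endQuot (h : J ≤ J' ⊔ Ideal.span {algebraMap Λ S ϖ}) (f : Module.End S P) (v : P) :
    congrMap h (endQuot (Λ := Λ) J f (Submodule.Quotient.mk v))
      = Submodule.Quotient.mk (endQuot (Λ := Λ) J' f (Submodule.Quotient.mk v)) := rfl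

end Fermat.Agent.TW.LevelQuot
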