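import Fermat.Agent.GammaH.Algebra
import Fermat.Prelude.Thm_Algebra_finite_maximalSpectrum_and_bijective_localization_of_module_finite
import Fermat.Prelude.Thm_IsLocalRing_isAdicComplete_of_module_finite

/-!
# The localisation of `H¹(Γ_H(L), O)` at a residual eigensystem

The idempotent `twIdem` of a residual eigensystem `θ`, the localised module `twModule` and its
local Hecke ring `TWRing`, a complete Noetherian local `O`-algebra, finite free over `O`
(`twRing_moduleFree`), acting faithfully on the module (`actRing_injective`).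
-/

set_option autoImplicit false

noncomputable section

namespace Fermat.Agent.TW

open IsLocalRing Fermat.Agent.GammaH
open scoped TensorProduct

/-- An idempotent cutting out the local factor of a character with values in the residue field. -/
theorem exists_idempotent_of_residual {O : Type} [CommRing O] [IsLocalRing O] [IsNoetherianRing O]
    [IsAdicComplete (maximalIdeal O) O] {B : Type} [CommRing B] [Algebra O B] [Module.Finite O B]
    (θ : B →+* ResidueField O) (hθ : ∀ a, θ (algebraMap O B a) = residue O a) :
    ∃ e : B, IsIdempotentElem e ∧ θ e = 1 ∧ ∀ x : B, θ x ≠ 0 → ∃ y, y * x = e := by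
  classical
  obtain ⟨-, hbij, -, -⟩ :=
    Algebra.finite_maximalSpectrum_and_bijective_localization_of_module_finite (𝒪 := O) B
  have hsurj : Function.Surjective θ := fun z => by
    obtain ⟨a, rfl⟩ := residue_surjective z
    exact ⟨_, hθ a⟩
  let P : MaximalSpectrum B := ⟨RingHom.ker θ, RingHom.ker_isMaximal_of_surjective θ hsurj⟩
  have : P.asIdeal.IsPrime := P.isMaximal.isPrime
  have : ∀ I : MaximalSpectrum B, I.asIdeal.IsPrime := fun I => I.isMaximal.isPrime
  let Φ := RingHom.pi fun I : MaximalSpectrum B => algebraMap B (Localization.AtPrime I.asIdeal)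
  obtain ⟨e, he⟩ := hbij.2 (Pi.single P 1)
  have hidem : IsIdempotentElem e := hbij.1 (show Φ (e * e) = Φ e by
    rw [map_mul, show Φ e = Pi.single P 1 from he, ← Pi.single_mul, mul_one])
  have hθe : θ e = 1 := by
    have h1 : θ e ≠ 0 := fun h => by
      have h2 : IsUnit (algebraMap B (Localization.AtPrime P.asIdeal) e) := by
        rw [show algebraMap B (Localization.AtPrime P.asIdeal) e = 1 from
          (congrFun he P).trans (Pi.single_eq_same P _)]
        exact isUnit_one
      exact ((IsLocalization.AtPrime.isUnit_to_map_iff (Localization.AtPrime P.asIdeal) P.asIdeal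
        e).1 h2) h
    have h2 : θ e * θ e = θ e := by rw [← map_mul, hidem.eq]
    exact (mul_eq_right₀ h1).1 h2
  refine ⟨e, hidem, hθe, fun x hx => ?_⟩
  obtain ⟨u, hu⟩ := (IsLocalization.AtPrime.isUnit_to_map_iff (Localization.AtPrime P.asIdeal)
    P.asIdeal x).2 hx
  obtain ⟨y, hy⟩ := hbij.2 (Pi.single P (↑u⁻¹ : Localization.AtPrime P.asIdeal))
  refine ⟨y, hbij.1 (show Φ (y * x) = Φ e from ?_)⟩
  rw [map_mul, show Φ y = _ from hy, show Φ e = _ from he]
  funext I
  rcases eq_or_ne I P with rfl | hI
  · rw [Pi.mul_apply, Pi.single_eq_same, Pi.single_eq_same]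
    show _ * algebraMap B (Localization.AtPrime P.asIdeal) x = 1
    rw [← hu, Units.inv_mul]
  · rw [Pi.mul_apply, Pi.single_eq_of_ne hI, Pi.single_eq_of_ne hI, zero_mul]

variable {L : ℕ} [NeZero L] {H : Subgroup (ZMod L)ˣ} {S : Set ℕ} (hH : (-1 : (ZMod L)ˣ) ∈ H)
variable (O : Type) [CommRing O] [IsDomain O] [IsDiscreteValuationRing O]
  [IsAdicComplete (maximalIdeal O) O] [CharZero O]

/-- The Hecke ring with coefficients in `O`. -/
def HeckeO (L : ℕ) [NeZero L] (H : Subgroup (ZMod L)ˣ) (S : Set ℕ) (O : Type) [CommRing O] :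
    Type :=
  O ⊗[ℤ] heckeRing L H S

instance HeckeO.instCommRing : CommRing (HeckeO L H S O) :=
  inferInstanceAs (CommRing (O ⊗[ℤ] heckeRing L H S))

instance HeckeO.instAlgebra : Algebra O (HeckeO L H S O) :=
  (Algebra.TensorProduct.leftAlgebra : Algebra O (O ⊗[ℤ] heckeRing L H S))

/-- `a ⊗ t`. -/
def HeckeO.mk (a : O) (t : heckeRing L H S) : HeckeO L H S O := a ⊗ₜ[ℤ] t

omit [IsDomain O] [IsDiscreteValuationRing O] [IsAdicComplete (maximalIdeal O) O] [CharZero O] in
theorem HeckeO.algebraMap_eq (a : O) :
    algebraMap O (HeckeO L H S O) a = HeckeO.mk O a 1 := rfl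

omit [IsDomain O] [IsDiscreteValuationRing O] [IsAdicComplete (maximalIdeal O) O] [CharZero O] in
@[elab_as_elim]
theorem HeckeO.induction {motive : HeckeO L H S O → Prop} (zero : motive 0)
    (mk : ∀ a t, motive (HeckeO.mk O a t)) (add : ∀ x y, motive x → motive y → motive (x + y))
    (x : HeckeO L H S O) : motive x :=
  TensorProduct.induction_on (motive := fun z => motive z) x zero mk add

/-- The Hecke ring inside `HeckeO`. -/
def HeckeO.ofT : heckeRing L H S →+* HeckeO L H S O :=
  (Algebra.TensorProduct.includeRight (R := ℤ) (A := O) (B := heckeRing L H S)).toRingHom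

omit [IsDomain O] [IsDiscreteValuationRing O] [IsAdicComplete (maximalIdeal O) O] [CharZero O] in
theorem HeckeO.ofT_apply (t : heckeRing L H S) : HeckeO.ofT O t = HeckeO.mk O 1 t := rfl

/-- A ring map out of the Hecke ring as a map of `ℤ`-algebras. -/
def intAlg (C : Type*) [Ring C] [Algebra ℤ C] (f : heckeRing L H S →+* C) :
    heckeRing L H S →ₐ[ℤ] C :=
  { f with
    commutes' := fun n => by
      rw [eq_intCast (algebraMap ℤ (heckeRing L H S)) n, eq_intCast (algebraMap ℤ C) n]
      exact map_intCast f n }

theorem intAlg_apply (C : Type*) [Ring C] [Algebra ℤ C] (f : heckeRing L H S →+* C)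
    (t : heckeRing L H S) : intAlg C f t = f t := rfl

/-- A ring map with values in an `O`-algebra, extended `O`-linearly. -/
def liftO {E : Type} [Ring E] [Algebra O E] (f : heckeRing L H S →+* E) :
    HeckeO L H S O →ₐ[O] E :=
  Algebra.TensorProduct.lift (Algebra.ofId O E) (intAlg E f) fun a t => by
    rw [Algebra.ofId_apply, intAlg_apply]
    exact Algebra.commute_algebraMap_left a (f t)

omit [IsDomain O] [IsDiscreteValuationRing O] [IsAdicComplete (maximalIdeal O) O] [CharZero O] in
theorem liftO_tmul {E : Type} [Ring E] [Algebra O E] (f : heckeRing L H S →+* E) (a : O)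
    (t : heckeRing L H S) : liftO O f (HeckeO.mk O a t) = a • f t := by
  show Algebra.TensorProduct.lift _ _ _ (a ⊗ₜ[ℤ] t) = _
  rw [Algebra.TensorProduct.lift_tmul, Algebra.ofId_apply, intAlg_apply, Algebra.smul_def]

/-- The Hecke ring with coefficients in `O`, acting on cohomology. -/
def actO : (HeckeO L H S O) →ₐ[O] Module.End O (H1 L H O O) :=
  liftO O (E := Module.End O (H1 L H O O)) (homAction hH O O)

omit [IsDomain O] [IsDiscreteValuationRing O] [IsAdicComplete (maximalIdeal O) O] [CharZero O] in
theorem actO_tmul (a : O) (t : heckeRing L H S) :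
    actO hH O (HeckeO.mk O a t) = a • homAction hH O O t := by
  unfold actO
  with_reducible apply liftO_tmul

omit [IsDiscreteValuationRing O] [IsAdicComplete (maximalIdeal O) O] in
theorem actO_injective : Function.Injective (actO (S := S) hH O) := by
  classical
  let d := homRankH L H
  let lt : (O ⊗[ℤ] heckeRing L H S) →ₗ[ℤ] O ⊗[ℤ] Matrix (Fin d) (Fin d) ℤ :=
    LinearMap.lTensor O (intAlg (Matrix (Fin d) (Fin d) ℤ) (matrixH (S := S) hH)).toLinearMap
  have hlt : Function.Injective lt :=
    Module.Flat.lTensor_preserves_injective_linearMap _ (matrixH_injective hH)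
  let F : HeckeO L H S O → Module.End O (H1 L H O O) := fun x =>
    (coordH hH O O).conj (Matrix.toLin' ((matrixEquivTensor (Fin d) ℤ O).symm
      (lt (show O ⊗[ℤ] heckeRing L H S from x))))
  have hFinj : Function.Injective F := fun x y h =>
    hlt ((matrixEquivTensor (Fin d) ℤ O).symm.injective
      (Matrix.toLin'.injective ((coordH hH O O).conj.injective h)))
  have hF : ∀ x, actO hH O x = F x := by
    intro x
    induction x using HeckeO.induction with
    | zero =>
      rw [map_zero]
      show _ = (coordH hH O O).conj (Matrix.toLin' ((matrixEquivTensor (Fin d) ℤ O).symm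
        (lt (0 : O ⊗[ℤ] heckeRing L H S))))
      rw [map_zero lt, map_zero, map_zero, map_zero]
    | add x y hx hy =>
      rw [map_add, hx, hy]
      show _ = (coordH hH O O).conj (Matrix.toLin' ((matrixEquivTensor (Fin d) ℤ O).symm
        (lt ((show O ⊗[ℤ] heckeRing L H S from x) + (show O ⊗[ℤ] heckeRing L H S from y)))))
      rw [map_add lt, map_add, map_add, map_add]
    | mk a t =>
      rw [actO_tmul]
      refine LinearMap.ext fun φ => ?_
      obtain ⟨v, rfl⟩ := (coordH hH O O).surjective φ
      rw [LinearMap.smul_apply, homAction_coordH, ← map_smul]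
      have hlt' : lt (HeckeO.mk O a t) = a ⊗ₜ[ℤ] matrixH hH t := rfl
      simp only [F, LinearEquiv.conj_apply_apply, LinearEquiv.symm_apply_apply, hlt']
      congr 1
      funext i
      simp [matrixEquivTensor_apply_symm, intAct_apply, Matrix.mulVec, dotProduct,
        Finset.mul_sum, mul_comm]
  intro x y h
  exact hFinj ((hF x).symm.trans (h.trans (hF y)))

variable (θ : heckeRing L H S →+* ResidueField O)

/-- The residual character. -/
def residO : (HeckeO L H S O) →+* ResidueField O :=
  (Algebra.TensorProduct.productMap (algebraMap O (ResidueField O)).toIntAlgHom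
    (intAlg (ResidueField O) θ)).toRingHom

omit [IsAdicComplete (maximalIdeal O) O] [CharZero O] in
theorem residO_tmul (a : O) (t : heckeRing L H S) :
    residO O θ (HeckeO.mk O a t) = residue O a * θ t := rfl

omit [IsAdicComplete (maximalIdeal O) O] [CharZero O] in
theorem residO_algebraMap (a : O) : residO O θ (algebraMap O _ a) = residue O a := by
  rw [HeckeO.algebraMap_eq, residO_tmul, map_one, mul_one]

omit [CharZero O] in
include hH in
theorem exists_twIdem : ∃ e : HeckeO L H S O, IsIdempotentElem e ∧
    residO O θ e = 1 ∧ ∀ x, residO O θ x ≠ 0 → ∃ y, y * x = e :=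
  haveI := moduleFinite_heckeRing (S := S) hH
  haveI : Module.Finite O (HeckeO L H S O) :=
    Module.Finite.base_change ℤ O (heckeRing L H S)
  exists_idempotent_of_residual (residO O θ) (residO_algebraMap O θ)

/-- The idempotent of the residual eigensystem. -/
def twIdem : HeckeO L H S O := (exists_twIdem hH O θ).choose

omit [CharZero O] in
theorem isIdempotentElem_twIdem : IsIdempotentElem (twIdem hH O θ) :=
  (exists_twIdem hH O θ).choose_spec.1

omit [CharZero O] in
theorem residO_twIdem : residO O θ (twIdem hH O θ) = 1 :=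
  (exists_twIdem hH O θ).choose_spec.2.1

omit [CharZero O] in
theorem exists_mul_eq_twIdem {x : HeckeO L H S O} (hx : residO O θ x ≠ 0) :
    ∃ y, y * x = twIdem hH O θ :=
  (exists_twIdem hH O θ).choose_spec.2.2 x hx

/-- The localised cohomology. -/
def twModule : Submodule O (H1 L H O O) := LinearMap.range (actO hH O (twIdem hH O θ))

omit [CharZero O] in
theorem actO_mem_twModule (x : HeckeO L H S O) :
    ∀ v ∈ twModule hH O θ, actO hH O x v ∈ twModule hH O θ := by
  rintro _ ⟨w, rfl⟩
  exact ⟨actO hH O x w, by
    rw [← Module.End.mul_apply, ← map_mul, mul_comm, map_mul, Module.End.mul_apply]⟩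

/-- The action on the localised cohomology. -/
def actTW : (HeckeO L H S O) →ₐ[O] Module.End O (twModule hH O θ) where
  toFun x := (actO hH O x).restrict (actO_mem_twModule hH O θ x)
  map_one' := LinearMap.ext fun v => Subtype.ext (by simp)
  map_mul' x y := LinearMap.ext fun v => Subtype.ext (by simp)
  map_zero' := LinearMap.ext fun v => Subtype.ext (by simp)
  map_add' x y := LinearMap.ext fun v => Subtype.ext (by simp)
  commutes' a := LinearMap.ext fun v => Subtype.ext (by
    rw [LinearMap.coe_restrict_apply, AlgHom.commutes, Module.algebraMap_end_apply,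
      Module.algebraMap_end_apply]
    rfl)

omit [CharZero O] in
theorem coe_actTW (x : HeckeO L H S O) (v : twModule hH O θ) :
    (actTW hH O θ x v : H1 L H O O) = actO hH O x v := rfl

theorem actTW_eq_iff (x y : HeckeO L H S O) :
    actTW hH O θ x = actTW hH O θ y ↔ x * twIdem hH O θ = y * twIdem hH O θ := by
  constructor
  · intro h
    refine actO_injective hH O (LinearMap.ext fun w => ?_)
    have := congrArg Subtype.val (LinearMap.congr_fun h ⟨_, w, rfl⟩)
    simpa [coe_actTW] using this
  · intro h
    refine LinearMap.ext fun v => Subtype.ext ?_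
    obtain ⟨w, hw⟩ := v.2
    rw [coe_actTW, coe_actTW, ← hw, ← Module.End.mul_apply, ← Module.End.mul_apply, ← map_mul,
      ← map_mul, h]

theorem residO_eq_of_actTW_eq {x y : HeckeO L H S O}
    (h : actTW hH O θ x = actTW hH O θ y) : residO O θ x = residO O θ y := by
  have h1 := congrArg (residO O θ) ((actTW_eq_iff hH O θ x y).1 h)
  rwa [map_mul, map_mul, residO_twIdem, mul_one, mul_one] at h1

instance moduleFinite_twModule : Module.Finite O (twModule hH O θ) :=
  haveI : Module.Finite O (H1 L H O O) := Module.Finite.equiv (coordH hH O O)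
  inferInstance

instance moduleFree_twModule : Module.Free O (twModule hH O θ) :=
  Module.Free.of_basis
    (Submodule.basisOfPid ((Pi.basisFun O (Fin (homRankH L H))).map (coordH hH O O))
      (twModule hH O θ)).2

/-- The ideal of the complementary factor. -/
def twKer : Ideal (HeckeO L H S O) := Ideal.span {1 - twIdem hH O θ}

omit [CharZero O] in
theorem mem_twKer_iff (x : HeckeO L H S O) :
    x ∈ twKer hH O θ ↔ x * twIdem hH O θ = 0 := by
  rw [twKer, Ideal.mem_span_singleton']
  constructor
  · rintro ⟨a, rfl⟩
    rw [mul_assoc, sub_mul, one_mul, (isIdempotentElem_twIdem hH O θ).eq, sub_self, mul_zero]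
  · intro h
    exact ⟨x, by rw [mul_sub, mul_one, h, sub_zero]⟩

/-- The local Hecke ring of the localised cohomology. -/
abbrev TWRing : Type := HeckeO L H S O ⧸ twKer hH O θ

/-- The map onto the local Hecke ring. -/
def toTWRing : (HeckeO L H S O) →ₐ[O] TWRing hH O θ := Ideal.Quotient.mkₐ O _

omit [CharZero O] in
theorem toTWRing_surjective : Function.Surjective (toTWRing hH O θ) :=
  Ideal.Quotient.mkₐ_surjective O _

theorem toTWRing_eq_iff (x y : HeckeO L H S O) :
    toTWRing hH O θ x = toTWRing hH O θ y ↔ actTW hH O θ x = actTW hH O θ y := by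
  rw [actTW_eq_iff, ← sub_eq_zero (a := x * _), ← sub_mul, ← mem_twKer_iff]
  exact Ideal.Quotient.eq

theorem residO_eq_of_toTWRing_eq {x y : HeckeO L H S O}
    (h : toTWRing hH O θ x = toTWRing hH O θ y) : residO O θ x = residO O θ y :=
  residO_eq_of_actTW_eq hH O θ ((toTWRing_eq_iff hH O θ x y).1 h)

theorem twKer_le_ker : ∀ x ∈ twKer hH O θ, actTW hH O θ x = 0 := by
  intro x hx
  exact ((actTW_eq_iff hH O θ x 0).2
    (((mem_twKer_iff hH O θ x).1 hx).trans (zero_mul _).symm)).trans (map_zero _)

/-- The faithful action of the local Hecke ring. -/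
def actRing : TWRing hH O θ →ₐ[O] Module.End O (twModule hH O θ) :=
  Ideal.Quotient.liftₐ (twKer hH O θ) (actTW hH O θ) (twKer_le_ker hH O θ)

theorem actRing_toTWRing (x : HeckeO L H S O) :
    actRing hH O θ (toTWRing hH O θ x) = actTW hH O θ x :=
  Ideal.Quotient.lift_mk _ _ _

theorem actRing_injective : Function.Injective (actRing hH O θ) := by
  intro a b h
  obtain ⟨x, rfl⟩ := toTWRing_surjective hH O θ a
  obtain ⟨y, rfl⟩ := toTWRing_surjective hH O θ b
  rw [actRing_toTWRing, actRing_toTWRing] at h
  exact (toTWRing_eq_iff hH O θ x y).2 h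

theorem isUnit_toTWRing_iff {x : HeckeO L H S O} :
    IsUnit (toTWRing hH O θ x) ↔ residO O θ x ≠ 0 := by
  constructor
  · intro h h0
    obtain ⟨b, hb⟩ := h.exists_left_inv
    obtain ⟨y, rfl⟩ := toTWRing_surjective hH O θ b
    rw [← map_mul, ← map_one (toTWRing hH O θ)] at hb
    have := residO_eq_of_toTWRing_eq hH O θ hb
    rw [map_mul, h0, mul_zero, map_one] at this
    exact zero_ne_one this
  · intro h
    obtain ⟨y, hy⟩ := exists_mul_eq_twIdem hH O θ h
    refine IsUnit.of_mul_eq_one_right (toTWRing hH O θ y) ?_
    rw [← map_mul, hy, ← map_one (toTWRing hH O θ), toTWRing_eq_iff, actTW_eq_iff,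
      (isIdempotentElem_twIdem hH O θ).eq, one_mul]

instance twRing_isLocalRing : IsLocalRing (TWRing hH O θ) :=
  haveI : Nontrivial (TWRing hH O θ) := nontrivial_of_ne (toTWRing hH O θ 1) (toTWRing hH O θ 0)
    fun h => one_ne_zero ((map_one (residO O θ)).symm.trans
      ((residO_eq_of_toTWRing_eq hH O θ h).trans (map_zero (residO O θ))))
  IsLocalRing.of_isUnit_or_isUnit_one_sub_self fun b => by
    obtain ⟨x, rfl⟩ := toTWRing_surjective hH O θ b
    rw [← map_one (toTWRing hH O θ), ← map_sub, isUnit_toTWRing_iff, isUnit_toTWRing_iff,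
      map_sub, map_one]
    by_cases h : residO O θ x = 0
    · exact Or.inr (by rw [h, sub_zero]; exact one_ne_zero)
    · exact Or.inl h

instance twRing_moduleFinite : Module.Finite O (TWRing hH O θ) :=
  haveI := moduleFinite_heckeRing (S := S) hH
  haveI : Module.Finite O (HeckeO L H S O) :=
    Module.Finite.base_change ℤ O (heckeRing L H S)
  Module.Finite.of_surjective (toTWRing hH O θ).toLinearMap (toTWRing_surjective hH O θ)

instance twRing_moduleFree : Module.Free O (TWRing hH O θ) :=
  haveI : Module.IsTorsionFree O (TWRing hH O θ) :=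
    Function.Injective.moduleIsTorsionFree (actRing hH O θ) (actRing_injective hH O θ)
      fun a b => map_smul (actRing hH O θ) a b
  Module.free_of_finite_type_torsion_free' (R := O) (M := TWRing hH O θ)

instance twRing_isNoetherianRing : IsNoetherianRing (TWRing hH O θ) :=
  IsNoetherianRing.of_finite O _

instance twRing_isLocalHom : IsLocalHom (algebraMap O (TWRing hH O θ)) where
  map_nonunit a ha := by
    rw [← (toTWRing hH O θ).commutes, isUnit_toTWRing_iff, residO_algebraMap,
      residue_ne_zero_iff_isUnit] at ha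
    exact ha

instance twRing_isAdicComplete :
    IsAdicComplete (maximalIdeal (TWRing hH O θ)) (TWRing hH O θ) :=
  IsLocalRing.isAdicComplete_of_module_finite (𝒪 := O) (T := TWRing hH O θ)

/-- The residual values of the local Hecke ring. -/
theorem residue_toTWRing (x : HeckeO L H S O) :
    residue (TWRing hH O θ) (toTWRing hH O θ x) =
      ResidueField.map (algebraMap O (TWRing hH O θ)) (residO O θ x) := by
  obtain ⟨a, ha⟩ := residue_surjective (residO O θ x)
  rw [← ha, ResidueField.map_residue, ← sub_eq_zero, ← map_sub, residue_eq_zero_iff,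
    mem_maximalIdeal, mem_nonunits_iff, ← (toTWRing hH O θ).commutes, ← map_sub,
    isUnit_toTWRing_iff, map_sub, residO_algebraMap, ha, sub_self]
  exact not_not.2 rfl

omit [IsAdicComplete (maximalIdeal O) O] [CharZero O] in
theorem residO_ofT (t : heckeRing L H S) : residO O θ (HeckeO.ofT O t) = θ t := by
  rw [HeckeO.ofT_apply, residO_tmul, map_one, one_mul]

theorem residue_ofT (t : heckeRing L H S) :
    residue (TWRing hH O θ) (toTWRing hH O θ (HeckeO.ofT O t)) =
      ResidueField.map (algebraMap O (TWRing hH O θ)) (θ t) := by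
  rw [residue_toTWRing, residO_ofT]

/-- A residually visible eigensystem has nonzero localised cohomology. -/
theorem twModule_ne_bot : twModule hH O θ ≠ ⊥ := fun h => by
  refine one_ne_zero (α := TWRing hH O θ) (actRing_injective hH O θ ?_)
  rw [map_one, map_zero]
  refine LinearMap.ext fun v => ?_
  have : Subsingleton (twModule hH O θ) := by rw [h]; infer_instance
  exact Subsingleton.elim _ _

end Fermat.Agent.TW
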