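import Fermat.Agent.TW.Factor

/-!
# The equivariant factorisation of `η²` and descent to `Γ_{H'}(M)`

`η² = etaPeriod ∘ edgeMap` on `H¹(Γ_H)` (`etaPeriod_edgeMap`); a `Δ`-invariant class becomes, after
`η²`, the restriction of a class of `Γ_{H'}` (`exists_resH1_eq_eta_sq`); `η` kills the kernel of
restriction (`etaH_eq_zero_of_resH1_eq_zero`).
-/

set_option autoImplicit false

noncomputable section

namespace Fermat.Agent.TW

open CongruenceSubgroup Fermat.Agent.Periods Fermat.Agent.GammaH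
open Fermat.Agent.Cosets (parEllHoms)
open Fermat.Agent.Cosets.Cocycle
open scoped MatrixGroups

variable {M : ℕ} [NeZero M] {H H' : Subgroup (ZMod M)ˣ} {R : Type*} [CommRing R] {A : Type*}
  [AddCommGroup A] [Module R A] {l : ℕ} (hl : l.Prime) (hlM : ¬ l ∣ M)

variable (R A) in
/-- `η` as a linear map on all homomorphisms. -/
def etaLin : Module.End R (Additive (GammaH M H) →+ A) :=
  heckeHom hl hlM R A - (l + 1) • LinearMap.id

variable (R A) in
/-- `η` on `H¹`. -/
def etaH : Module.End R (H1 M H R A) := heckeTH R A hl hlM - (l + 1) • LinearMap.id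

theorem coe_etaH (φ : H1 M H R A) :
    (etaH R A hl hlM φ : Additive (GammaH M H) →+ A) = etaHom hl hlM R A φ := rfl

/-- `η` commutes with the action of `Δ`. -/
theorem etaHom_actAll [NeZero l] (hle : H ≤ H') (φ : Additive (GammaH M H) →+ A) (b : Dl H H') :
    etaHom hl hlM R A (actAll H H' R A b φ) = actAll H H' R A b (etaHom hl hlM R A φ) := by
  refine AddMonoidHom.ext fun γ => ?_
  obtain ⟨γ, rfl⟩ := Additive.ofMul.surjective γ
  conv_rhs => rw [actAll_apply, conjHom_apply]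
  rw [← etaCocycle_one R _ hle γ, ← etaCocycle_one R _ hle, etaCocycle_act, mul_one]
  set s : GammaH M H' := secD H H' b
  set g : GammaH M H' := ⟨γ, GammaH_mono hle γ.2⟩
  have hg : uMap H H' g = 1 := (uMap_eq_one_iff g).mpr γ.2
  have e : ∀ h, (⟨(s : SL(2, ℤ)) * γ * (s : SL(2, ℤ))⁻¹, h⟩ : GammaH M H') = s * g * s⁻¹ :=
    fun h => Subtype.ext (by simp [g])
  rw [e, etaCocycle_mul, etaCocycle_mul, map_mul, uMap_secD, hg, one_mul, mul_one]
  have h1 : etaCocycle R hl hlM φ s 1 + etaCocycle R hl hlM φ s⁻¹ b = 0 := by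
    have h := etaCocycle_mul (hl := hl) (hlM := hlM) (R := R) φ s s⁻¹ 1
    rw [mul_inv_cancel, uMap_secD, one_mul] at h
    rw [← h]
    have h' := etaCocycle_mul (hl := hl) (hlM := hlM) (R := R) φ (1 : GammaH M H') 1 1
    rwa [one_mul, map_one, one_mul, left_eq_add] at h'
  rw [one_mul, add_right_comm, h1, zero_add]

theorem coe_etaH_actH1 [NeZero l] (hle : H ≤ H') (φ : H1 M H R A) (b : Dl H H') :
    etaH R A hl hlM (actH1 H H' R A b φ) = actH1 H H' R A b (etaH R A hl hlM φ) :=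
  Subtype.ext (etaHom_actAll (R := R) hl hlM hle _ b)

/-! ## `η² = etaPeriod ∘ edgeMap` -/

variable (hl1 : (l : ZMod M) = 1) (hH : (-1 : (ZMod M)ˣ) ∈ H)

variable (R A) in
/-- `η ∘ periodMap`, with values in `H¹`. -/
def etaPeriod : (XC M H → A) →ₗ[R] H1 M H R A :=
  (etaLin R A hl hlM ∘ₗ periodMap R A hH).codRestrict _ fun y =>
    etaHom_mem_parEllHoms hl hlM hl1 hH (periodMap_mem_ellHoms hH y)

theorem coe_etaPeriod (y : XC M H → A) :
    (etaPeriod R A hl hlM hl1 hH y : Additive (GammaH M H) →+ A)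
      = etaHom hl hlM R A (periodMap R A hH y) := rfl

theorem etaPeriod_shiftX [NeZero l] (hle : H ≤ H') (y : XC M H → A) (b : Dl H H') :
    etaPeriod R A hl hlM hl1 hH (fun x => y (shiftX H H' b x))
      = actH1 H H' R A b (etaPeriod R A hl hlM hl1 hH y) := by
  refine Subtype.ext ?_
  rw [coe_etaPeriod, periodMap_shiftX, coe_actH1, coe_etaPeriod, etaHom_actAll (R := R) hl hlM hle]

theorem etaPeriod_edgeMap [NeZero l] (hle : H ≤ H')
    (hfree : ∀ g ∈ GammaH M H', g ^ 12 = 1 → g ∈ GammaH M H) (φ : H1 M H R A) :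
    etaPeriod R A hl hlM hl1 hH (edgeMap hle R A hl hlM hH hfree φ)
      = etaH R A hl hlM (etaH R A hl hlM φ) := by
  refine Subtype.ext ?_
  rw [coe_etaPeriod, periodMap_edgeMap, coe_etaH, coe_etaH]

/-! ## Restriction -/

omit [NeZero M] in
theorem transfer_comp_inclusion {ι : Type*} [Fintype ι] {α : ι → GL (Fin 2) ℝ} (hle : H ≤ H')
    (hα : IsCosetFamily (GammaH M H) α) (hα' : IsCosetFamily (GammaH M H') α)
    (φ : Additive (GammaH M H') →+ A) :
    hα.transfer R A (φ.comp (Subgroup.inclusion (GammaH_mono hle)).toAdditive)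
      = (hα'.transfer R A φ).comp (Subgroup.inclusion (GammaH_mono hle)).toAdditive := by
  refine AddMonoidHom.ext fun γ => ?_
  obtain ⟨γ, rfl⟩ := Additive.ofMul.surjective γ
  rw [hα.transfer_apply (R := R)]
  symm
  exact hα'.transfer_apply_of_eq (R := R) φ _ (hα.perm γ)
    (fun x => Subgroup.inclusion (GammaH_mono hle) (hα.cocycle γ x)) (hα.mul_eq γ)

variable (R A) in
/-- Restriction `H¹(Γ_{H'}) → H¹(Γ_H)`. -/
def resH1 (hle : H ≤ H') : H1 M H' R A →ₗ[R] H1 M H R A where
  toFun φ := ⟨(φ : Additive (GammaH M H') →+ A).comp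
    (Subgroup.inclusion (GammaH_mono hle)).toAdditive, fun _ hγ => φ.2 _ hγ⟩
  map_add' _ _ := rfl
  map_smul' _ _ := rfl

omit [NeZero M] in
theorem coe_resH1 (hle : H ≤ H') (φ : H1 M H' R A) :
    (resH1 R A hle φ : Additive (GammaH M H) →+ A)
      = (φ : Additive (GammaH M H') →+ A).comp
          (Subgroup.inclusion (GammaH_mono hle)).toAdditive := rfl

theorem resH1_heckeTH {m : ℕ} (hm : m.Prime) (hmM : ¬ m ∣ M) (hle : H ≤ H') (φ : H1 M H' R A) :
    resH1 R A hle (heckeTH R A hm hmM φ) = heckeTH R A hm hmM (resH1 R A hle φ) :=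
  have : NeZero m := ⟨hm.ne_zero⟩
  Subtype.ext (transfer_comp_inclusion (R := R) hle (isCosetFamily_T hm hmM)
    (isCosetFamily_T hm hmM) _).symm

theorem resH1_heckeUH {q : ℕ} (hqM : q ∣ M) (hle : H ≤ H') (φ : H1 M H' R A) :
    resH1 R A hle (heckeUH R A hqM φ) = heckeUH R A hqM (resH1 R A hle φ) :=
  have := neZero_of_dvd_level hqM
  Subtype.ext (transfer_comp_inclusion (R := R) hle (isCosetFamily_U hqM)
    (isCosetFamily_U hqM) _).symm

theorem resH1_diamondH (a : (ZMod M)ˣ) (hle : H ≤ H') (φ : H1 M H' R A) :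
    resH1 R A hle (diamondH R A a φ) = diamondH R A a (resH1 R A hle φ) :=
  Subtype.ext
    (transfer_comp_inclusion (R := R) hle (isCosetFamily_diamond a) (isCosetFamily_diamond a)
      _).symm

theorem actH1_resH1 (hle : H ≤ H') (φ : H1 M H' R A) (b : Dl H H') :
    actH1 H H' R A b (resH1 R A hle φ) = resH1 R A hle φ := by
  refine Subtype.ext (AddMonoidHom.ext fun γ => ?_)
  obtain ⟨γ, rfl⟩ := Additive.ofMul.surjective γ
  rw [coe_actH1, actAll_apply, conjHom_apply]
  set s : GammaH M H' := secD H H' b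
  set f : Additive (GammaH M H') →+ A := φ.1
  set g : GammaH M H' := Subgroup.inclusion (GammaH_mono hle) γ
  show f (Additive.ofMul _) = f (Additive.ofMul g)
  show f (Additive.ofMul (s * g * s⁻¹)) = f (Additive.ofMul g)
  rw [ofMul_mul, ofMul_mul, ofMul_inv, f.map_add, f.map_add, f.map_neg]
  abel

include hl1 hH in
/-- After `η²`, a `Δ`-invariant class comes from `Γ_{H'}`. -/
theorem exists_resH1_eq_eta_sq [NeZero l] (hle : H ≤ H')
    (hfree : ∀ g ∈ GammaH M H', g ^ 12 = 1 → g ∈ GammaH M H) (φ : H1 M H R A)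
    (hφ : ∀ b : Dl H H', actH1 H H' R A b φ = φ) :
    ∃ ψ : H1 M H' R A, resH1 R A hle ψ = etaH R A hl hlM (etaH R A hl hlM φ) := by
  have hconst : ∀ (γ : GammaH M H') (δ : Dl H H'),
      etaCocycle R hl hlM (φ : Additive (GammaH M H) →+ A) γ δ
        = etaCocycle R hl hlM (φ : Additive (GammaH M H) →+ A) γ 1 := fun γ δ => by
    have h := congrArg Subtype.val (hφ δ)
    rw [coe_actH1] at h
    conv_rhs => rw [← h, etaCocycle_act, mul_one]
  let ψ₀ : Additive (GammaH M H') →+ A := AddMonoidHom.mk'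
    (fun γ => etaCocycle R hl hlM (φ : Additive (GammaH M H) →+ A) (Additive.toMul γ) 1)
    fun γ δ => by rw [toMul_add, etaCocycle_mul, hconst (Additive.toMul δ)]
  have hell : ψ₀ ∈ ellHoms R (GammaH M H') A := fun γ hγ => by
    have hmem : (γ : SL(2, ℤ)) ∈ GammaH M H :=
      hfree _ γ.2 (by exact_mod_cast congrArg Subtype.val hγ)
    show etaCocycle R hl hlM (φ : Additive (GammaH M H) →+ A) γ 1 = 0
    rw [show γ = ⟨(⟨γ, hmem⟩ : GammaH M H), GammaH_mono hle hmem⟩ from rfl, etaCocycle_one R _ hle]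
    have h12 : (⟨γ, hmem⟩ : GammaH M H) ^ 12 = 1 := Subtype.ext (by
      simpa using congrArg Subtype.val hγ)
    show heckeHom hl hlM R A _ _ - (l + 1) • _ = 0
    rw [heckeHom_apply, transfer_mem_ellHoms (R := R) _ (parEllHoms_le_ellHoms R A φ.2) _ h12,
      parEllHoms_le_ellHoms R A φ.2 _ h12, smul_zero, sub_zero]
  refine ⟨⟨etaHom hl hlM R A ψ₀, etaHom_mem_parEllHoms hl hlM hl1
    (hle hH) hell⟩, Subtype.ext ?_⟩
  have hres : ψ₀.comp (Subgroup.inclusion (GammaH_mono hle)).toAdditive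
      = etaHom hl hlM R A (φ : Additive (GammaH M H) →+ A) := by
    refine AddMonoidHom.ext fun γ => ?_
    obtain ⟨γ, rfl⟩ := Additive.ofMul.surjective γ
    exact etaCocycle_one R _ hle γ
  rw [coe_resH1, coe_etaH, coe_etaH, ← hres]
  show (etaHom hl hlM R A ψ₀).comp _ = etaHom hl hlM R A _
  simp only [etaHom, heckeHom_apply]
  rw [transfer_comp_inclusion (R := R) hle _ (isCosetFamily_T hl hlM)]
  rfl

/-- `η` kills the kernel of restriction. -/
theorem etaH_eq_zero_of_resH1_eq_zero [NeZero l] (hle : H ≤ H') (φ : H1 M H' R A)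
    (hφ : resH1 R A hle φ = 0) : etaH R A hl hlM φ = 0 := by
  refine Subtype.ext (AddMonoidHom.ext fun γ => ?_)
  obtain ⟨γ, rfl⟩ := Additive.ofMul.surjective γ
  set f : Additive (GammaH M H') →+ A := φ.1
  have hker : ∀ δ : GammaH M H', uMap H H' δ = 1 → f (Additive.ofMul δ) = 0 := fun δ hδ =>
    DFunLike.congr_fun (congrArg Subtype.val hφ) (Additive.ofMul (toH δ hδ))
  have hval : ∀ δ δ' : GammaH M H', uMap H H' δ = uMap H H' δ' →
      f (Additive.ofMul δ) = f (Additive.ofMul δ') := fun δ δ' h => by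
    have h0 := hker (δ * δ'⁻¹) (by rw [map_mul, map_inv, h, mul_inv_cancel])
    rwa [ofMul_mul, ofMul_inv, f.map_add, f.map_neg, ← sub_eq_add_neg, sub_eq_zero] at h0
  show heckeHom hl hlM R A f (Additive.ofMul γ) - (l + 1) • f (Additive.ofMul γ) = 0
  rw [heckeHom_apply, IsCosetFamily.transfer_apply,
    Finset.sum_congr rfl fun x _ => hval _ γ (uMap_cocycle hl hlM γ x), Finset.sum_const,
    Finset.card_univ, show Fintype.card (OnePoint (ZMod l)) = l + 1 by
      show Fintype.card (Option (ZMod l)) = l + 1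
      rw [Fintype.card_option, ZMod.card], sub_self]

end Fermat.Agent.TW
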