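import Mathlib

/-!
# Order `p` from divisibility

`pow_prime_eq_one_of_sq_eq`: a root of unity of `p`-power order whose squared distance to `1` is
divisible by `ζ_p - 1` has order dividing `p`.
-/

set_option autoImplicit false

noncomputable section

namespace Fermat.Agent.TW

open Polynomial IsLocalRing

variable {O K : Type} [CommRing O] [IsLocalRing O] [Field K] [Algebra O K]

/-- An element of the maximal ideal is no unit among the integral elements. -/
theorem not_isUnit_integralClosure (hinj : Function.Injective (algebraMap O K)) {a : O}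
    (ha : a ∈ maximalIdeal O) : ¬ IsUnit (algebraMap O (integralClosure O K) a) := fun hu => by
  have hinj' : Function.Injective (algebraMap O (integralClosure O K)) := fun x y h =>
    hinj (congrArg Subtype.val h)
  obtain ⟨Q, hQ, hQm⟩ := Ideal.exists_ideal_over_maximal_of_isIntegral
    (S := integralClosure O K) (maximalIdeal O) (by
      rw [(RingHom.injective_iff_ker_eq_bot _).1 hinj']; exact bot_le)
  exact hQ.ne_top (Ideal.eq_top_of_isUnit_mem _ (Ideal.mem_comap.1 (hQm.symm ▸ ha)) hu)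

/-- **Order `p` from divisibility.** -/
theorem pow_prime_eq_one_of_sq_eq (hinj : Function.Injective (algebraMap O K)) {p : ℕ}
    (hp : p.Prime) (hp2 : p ≠ 2) (hpO : (p : O) ∈ maximalIdeal O) {ζ η y : K}
    (hζ : IsPrimitiveRoot ζ p) {v : ℕ} (hη : η ^ p ^ v = 1) (hy : IsIntegral O y)
    (h : (η - 1) ^ 2 = (ζ - 1) * y) : η ^ p = 1 := by
  obtain ⟨j, -, hj⟩ := (Nat.dvd_prime_pow hp).1 (orderOf_dvd_of_pow_eq_one hη)
  rcases Nat.lt_or_ge j 2 with hj2 | hj2
  · rw [← orderOf_dvd_iff_pow_eq_one, hj]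
    calc p ^ j ∣ p ^ 1 := Nat.pow_dvd_pow p (by omega)
      _ = p := pow_one p
  exfalso
  have hηp : IsPrimitiveRoot η (p ^ j) := hj ▸ IsPrimitiveRoot.orderOf η
  have hint : ∀ {z : K} {n : ℕ}, 0 < n → z ^ n = 1 → IsIntegral O z := fun hn hz =>
    IsIntegral.of_pow hn (hz ▸ isIntegral_one)
  let Ω := integralClosure O K
  let η₀ : Ω := ⟨η, hint (pow_pos hp.pos v) hη⟩
  let ζ₀ : Ω := ⟨ζ, hint hp.pos hζ.pow_eq_one⟩
  let y₀ : Ω := ⟨y, hy⟩
  have hη₀ : IsPrimitiveRoot η₀ (p ^ j) :=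
    IsPrimitiveRoot.of_map_of_injective (f := Ω.val) hηp Subtype.val_injective
  have hζ₀ : IsPrimitiveRoot ζ₀ p :=
    IsPrimitiveRoot.of_map_of_injective (f := Ω.val) hζ Subtype.val_injective
  have key : ∀ {z : Ω} {k : ℕ}, IsPrimitiveRoot z (p ^ (k + 1)) →
      Associated ((z - 1) ^ Nat.totient (p ^ (k + 1))) (p : Ω) := by
    intro z k hz
    have : NeZero (p ^ (k + 1)) := ⟨pow_ne_zero _ hp.ne_zero⟩
    have := Fact.mk hp
    have h1 := congrArg (Polynomial.eval 1) (cyclotomic_eq_prod_X_sub_primitiveRoots hz)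
    rw [eval_one_cyclotomic_prime_pow, eval_prod] at h1
    simp only [eval_sub, eval_X, eval_C] at h1
    rw [h1, show Nat.totient (p ^ (k + 1)) = (primitiveRoots (p ^ (k + 1)) Ω).card from
      (hz.card_primitiveRoots).symm, ← Finset.prod_const]
    refine Associated.prod _ _ _ fun μ hμ => ?_
    obtain ⟨i, -, hi, rfl⟩ :=
      (hz.isPrimitiveRoot_iff).1 ((mem_primitiveRoots (pow_pos hp.pos _)).1 hμ)
    exact (hz.associated_sub_one_pow_sub_one_of_coprime hi).trans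
      ⟨-1, by rw [Units.val_neg, Units.val_one, mul_neg, mul_one, neg_sub]⟩
  obtain ⟨k, rfl⟩ : ∃ k, j = k + 2 := ⟨j - 2, by omega⟩
  obtain ⟨u, hu⟩ := key (z := η₀) (k := k + 1) hη₀
  obtain ⟨w, hw⟩ := key (z := ζ₀) (k := 0) (by rwa [zero_add, pow_one])
  rw [zero_add, pow_one, Nat.totient_prime hp] at hw
  have hy₀ : (η₀ - 1) ^ 2 = (ζ₀ - 1) * y₀ := Subtype.ext h
  have h2p : 2 * (p - 1) < Nat.totient (p ^ (k + 1 + 1)) := by
    rw [Nat.totient_prime_pow_succ hp]
    have h3 : 3 ≤ p := (hp.two_le.lt_of_ne' hp2)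
    have : p ≤ p ^ (k + 1) := Nat.le_self_pow (Nat.succ_ne_zero k) p
    exact Nat.mul_lt_mul_of_pos_right (by omega) (by omega)
  obtain ⟨d, hd⟩ := Nat.exists_eq_add_of_lt h2p
  have hpow : (η₀ - 1) ^ (2 * (p - 1)) * (w : Ω) = (p : Ω) * y₀ ^ (p - 1) := by
    rw [pow_mul, hy₀, mul_pow, mul_right_comm, hw]
  have hp0 : (p : Ω) ≠ 0 := fun h0 => by
    have hz := hw
    rw [h0] at hz
    rcases mul_eq_zero.1 hz with h' | h'
    · exact hζ₀.sub_one_ne_zero hp.one_lt (pow_eq_zero_iff (by have := hp.two_le; omega) |>.1 h')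
    · exact w.ne_zero h'
  have h1 : (p : Ω) * (w : Ω) =
      (p : Ω) * ((u : Ω) * y₀ ^ (p - 1) * (η₀ - 1) ^ (d + 1)) := by
    calc (p : Ω) * (w : Ω)
        = ((η₀ - 1) ^ Nat.totient (p ^ (k + 1 + 1)) * (u : Ω)) * (w : Ω) := by rw [hu]
      _ = ((η₀ - 1) ^ (2 * (p - 1)) * (w : Ω)) * (η₀ - 1) ^ (d + 1) * (u : Ω) := by
          rw [hd, add_assoc, pow_add]; ring
      _ = _ := by rw [hpow]; ring
  have hunit : IsUnit (η₀ - 1) := by
    have h2 : IsUnit ((u : Ω) * y₀ ^ (p - 1) * (η₀ - 1) ^ (d + 1)) :=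
      mul_left_cancel₀ hp0 h1 ▸ w.isUnit
    exact (isUnit_pow_iff (Nat.succ_ne_zero d)).1 (isUnit_of_mul_isUnit_right h2)
  refine not_isUnit_integralClosure hinj hpO ?_
  rw [map_natCast, ← hu]
  exact (hunit.pow _).mul u.isUnit

end Fermat.Agent.TW
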