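import Fermat.Agent.TW.GroupRing
import Fermat.Agent.TW.RootOrder

/-!
# Freeness for a second action of a finite group

Over `O[G]` let `P` be a free module and let `η_j` be endomorphisms of `p`-power order, congruent to
the generators `g_j` up to a matrix of endomorphisms which is invertible on the diagonal modulo the
maximal ideal. `bijective_eta`: `P` is free on the same basis for the action `g_j ↦ η_j`.
-/

set_option autoImplicit false

noncomputable section

namespace Fermat.Agent.TW.EtaFree

open IsLocalRing Polynomial Fermat.Agent.TW.GroupRing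

variable {O : Type} [CommRing O] {G : Type} [CommGroup G] [Fintype G]

/-! ## Characters -/

/-- The algebra map of a character. -/
def chiHom (χ : G →* O) : (MonoidAlgebra O G) →ₐ[O] O := MonoidAlgebra.lift O O G χ

/-- The eigen element of a character. -/
def chiNu (χ : G →* O) : MonoidAlgebra O G := ∑ g, MonoidAlgebra.single g (χ g⁻¹)

omit [Fintype G] in
theorem chiHom_single (χ : G →* O) (g : G) (c : O) :
    chiHom χ (MonoidAlgebra.single g c) = c * χ g := by
  simp [chiHom, MonoidAlgebra.lift_single]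

theorem single_mul_chiNu (χ : G →* O) (h : G) :
    MonoidAlgebra.single h (1 : O) * chiNu χ = χ h • chiNu χ := by
  rw [chiNu, Finset.mul_sum, Finset.smul_sum]
  refine Fintype.sum_equiv (Equiv.mulLeft h) _ _ fun g => ?_
  rw [MonoidAlgebra.single_mul_single, one_mul, MonoidAlgebra.smul_single, smul_eq_mul, ← map_mul,
    Equiv.coe_mulLeft, mul_inv_rev, mul_comm g⁻¹ h⁻¹, ← mul_assoc, mul_inv_cancel, one_mul]

theorem mul_chiNu (χ : G →* O) (a : (MonoidAlgebra O G)) : a * chiNu χ = chiHom χ a • chiNu χ := by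
  induction a using MonoidAlgebra.induction_on with
  | of g =>
    show MonoidAlgebra.single g 1 * chiNu χ = chiHom χ (MonoidAlgebra.single g 1) • chiNu χ
    rw [chiHom_single, one_mul, single_mul_chiNu]
  | add x y hx hy => rw [add_mul, map_add, hx, hy, add_smul]
  | smul r x hx => rw [smul_mul_assoc, hx, map_smul, smul_smul, smul_eq_mul]

theorem coeff_chiNu_one (χ : G →* O) : (chiNu χ).coeff 1 = 1 := by
  classical
  have e : (chiNu χ).coeff = ∑ h : G, (MonoidAlgebra.single h (χ h⁻¹)).coeff :=
    map_sum (MonoidAlgebra.coeffAddEquiv (R := O) (M := G)).toAddMonoidHom _ _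
  rw [e, Finsupp.finsetSum_apply]
  simp [MonoidAlgebra.coeff_single, Finsupp.single_apply]

theorem mul_chiNu_eq_zero {χ : G →* O} {a : (MonoidAlgebra O G)} (h : a * chiNu χ = 0) :
    chiHom χ a = 0 := by
  rw [mul_chiNu] at h
  have h1 := congrArg (fun y : (MonoidAlgebra O G) => y.coeff 1) h
  simpa [coeff_chiNu_one] using h1

/-! ## Endomorphisms of free modules -/

variable {P : Type} [AddCommGroup P] [Module (MonoidAlgebra O G) P] {κ : Type} [Fintype κ]

theorem mem_kerChi_of_chiNu_smul (b : Module.Basis κ (MonoidAlgebra O G) P) {χ : G →* O} {v : P}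
    (h : chiNu χ • v = 0) :
    v ∈ RingHom.ker (chiHom χ).toRingHom • (⊤ : Submodule (MonoidAlgebra O G) P) := by
  rw [← b.sum_repr v]
  refine Submodule.sum_mem _ fun i _ => Submodule.smul_mem_smul ?_ trivial
  have h1 := congrArg (fun w => b.repr w i) h
  simp only [map_smul, Finsupp.smul_apply, smul_eq_mul, map_zero, Finsupp.zero_apply] at h1
  exact RingHom.mem_ker.2 (mul_chiNu_eq_zero (by rw [mul_comm]; exact h1))

variable {ι : Type} [Fintype ι] (g : ι → G)

/-- The differences `g_j - 1`. -/
def aug (j : ι) : MonoidAlgebra O G := MonoidAlgebra.single (g j) 1 - 1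

omit [Fintype G] [Fintype ι] in
theorem augIdl_eq_span (hgen : Subgroup.closure (Set.range g) = ⊤) :
    augIdl O G = Ideal.span (Set.range (aug (O := O) (G := G) g)) := by
  refine le_antisymm (fun x hx => ?_) (Ideal.span_le.2 ?_)
  · have h1 : ∀ h : G, MonoidAlgebra.single h (1 : O) - 1 ∈ Ideal.span (Set.range (aug g)) := by
      intro h
      refine Subgroup.closure_induction (p := fun h _ =>
        MonoidAlgebra.single h (1 : O) - 1 ∈ Ideal.span (Set.range (aug g))) ?_ ?_ ?_ ?_
        (show h ∈ Subgroup.closure (Set.range g) by rw [hgen]; exact Subgroup.mem_top h)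
      · rintro _ ⟨j, rfl⟩
        exact Ideal.subset_span ⟨j, rfl⟩
      · rw [← MonoidAlgebra.one_def, sub_self]
        exact zero_mem _
      · intro a b _ _ ha hb
        rw [show MonoidAlgebra.single (a * b) (1 : O) - 1 =
          MonoidAlgebra.single a 1 * (MonoidAlgebra.single b 1 - 1) +
            (MonoidAlgebra.single a 1 - 1) by
          rw [mul_sub, MonoidAlgebra.single_mul_single, mul_one, mul_one]; abel]
        exact add_mem (Ideal.mul_mem_left _ _ hb) ha
      · intro a _ ha
        rw [show MonoidAlgebra.single a⁻¹ (1 : O) - 1 =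
          -(MonoidAlgebra.single a⁻¹ 1 * (MonoidAlgebra.single a 1 - 1)) by
          rw [mul_sub, MonoidAlgebra.single_mul_single, mul_one, mul_one, inv_mul_cancel,
            ← MonoidAlgebra.one_def, neg_sub]]
        exact neg_mem (Ideal.mul_mem_left _ _ ha)
    have h2 : ∀ y : (MonoidAlgebra O G),
        y - algebraMap O (MonoidAlgebra O G) (augR O G y) ∈ Ideal.span (Set.range (aug g)) := by
      intro y
      induction y using MonoidAlgebra.induction_on with
      | of h =>
        show MonoidAlgebra.single h 1 -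
          algebraMap O (MonoidAlgebra O G) (augR O G (MonoidAlgebra.single h 1)) ∈ _
        rw [augR_single, map_one]
        exact h1 h
      | add a b ha hb =>
        rw [map_add, map_add, add_sub_add_comm]
        exact add_mem ha hb
      | smul r a ha =>
        rw [map_smul, smul_eq_mul, map_mul, Algebra.smul_def, ← mul_sub]
        exact Ideal.mul_mem_left _ _ ha
    have h3 := h2 x
    rwa [(mem_augIdl O G).1 hx, map_zero, sub_zero] at h3
  · rintro _ ⟨j, rfl⟩
    exact single_sub_one_mem_augIdl O G (g j)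

omit [Fintype κ] in
/-- **Divisibility.** An endomorphism killed by the norm is a combination of the `g_j - 1`. -/
theorem exists_decomp (hgen : Subgroup.closure (Set.range g) = ⊤)
    (b : Module.Basis κ (MonoidAlgebra O G) P)
    (z : Module.End (MonoidAlgebra O G) P) (hz : normElem O G • z = 0) :
    ∃ Y : ι → Module.End (MonoidAlgebra O G) P, z = ∑ j, aug (O := O) g j • Y j := by
  have : Module.Free (MonoidAlgebra O G) P := Module.Free.of_basis b
  have h1 : ∀ i, ∃ w : ι → P, z (b i) = ∑ j, aug (O := O) g j • w j := fun i => by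
    have hm := (normElem_smul_eq_zero_iff (z (b i))).1 (LinearMap.congr_fun hz (b i))
    rw [augIdl_eq_span g hgen] at hm
    refine Submodule.smul_induction_on hm (fun a ha v _ => ?_) ?_
    · obtain ⟨c, rfl⟩ := Ideal.mem_span_range_iff_exists_fun.1 ha
      exact ⟨fun j => c j • v, by
        rw [Finset.sum_smul]
        exact Finset.sum_congr rfl fun j _ => by rw [smul_smul, mul_comm]⟩
    · rintro x y ⟨w, rfl⟩ ⟨w', rfl⟩
      exact ⟨w + w', by
        simp only [Pi.add_apply, smul_add, Finset.sum_add_distrib]⟩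
  choose w hw using h1
  refine ⟨fun j => b.constr (MonoidAlgebra O G) fun i => w i j, b.ext fun i => ?_⟩
  rw [hw i, LinearMap.sum_apply]
  exact Finset.sum_congr rfl fun j _ => by rw [LinearMap.smul_apply, b.constr_basis]

/-- Against the eigen element of a character only the moved generator remains. -/
theorem chiNu_smul_decomp (χ : G →* O) (j' : ι) (hχ : ∀ j, j ≠ j' → χ (g j) = 1)
    {Y : ι → Module.End (MonoidAlgebra O G) P} {z : Module.End (MonoidAlgebra O G) P} [Module O P]
    [IsScalarTower O (MonoidAlgebra O G) P]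
    (hz : z = ∑ j, aug (O := O) g j • Y j) :
    chiNu χ • z = (χ (g j') - 1) • (chiNu χ • Y j') := by
  classical
  rw [hz, Finset.smul_sum, Finset.sum_eq_single j']
  · rw [smul_smul, mul_comm, mul_chiNu, aug, map_sub, map_one, chiHom_single, one_mul, smul_assoc]
  · intro j _ hj
    rw [smul_smul, mul_comm, mul_chiNu, aug, map_sub, map_one, chiHom_single, one_mul, hχ j hj,
      sub_self, zero_smul, zero_smul]
  · exact fun h => absurd (Finset.mem_univ j') h

section Local

variable [IsDomain O] [Module O P] [IsScalarTower O (MonoidAlgebra O G) P]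

omit [Fintype G] [Fintype κ] [IsDomain O] in
theorem torsionFree_of_basis (b : Module.Basis κ (MonoidAlgebra O G) P) :
    Module.IsTorsionFree O P :=
  haveI : Module.Free (MonoidAlgebra O G) P := Module.Free.of_basis b
  haveI : Module.Free O (MonoidAlgebra O G) :=
    Module.Free.of_equiv (MonoidAlgebra.coeffLinearEquiv (R := O) (S := O) (M := G)).symm
  haveI : Module.Free O P := Module.Free.trans (S := MonoidAlgebra O G)
  inferInstance

omit [Fintype G] [Fintype κ] in
/-- `ν • z = 0` from `ν • A = c • (ν • z)` with `c ≠ 0`. -/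
theorem smul_end_eq_zero (b : Module.Basis κ (MonoidAlgebra O G) P) {c : O} (hc : c ≠ 0)
    {z : Module.End (MonoidAlgebra O G) P}
    (h : c • z = 0) : z = 0 := by
  have := torsionFree_of_basis b
  exact LinearMap.ext fun v => (smul_eq_zero.1 (LinearMap.congr_fun h v)).resolve_left hc

variable [IsLocalRing O]

/-- **The diagonal coefficient is invertible.** -/
theorem bijective_of_cyclotomic [IsLocalRing (MonoidAlgebra O G)]
    (b : Module.Basis κ (MonoidAlgebra O G) P) {p : ℕ} (hp : p.Prime)
    {ζ : O} (hζ : IsPrimitiveRoot ζ p) (χ : G →* O) {E Y : Module.End (MonoidAlgebra O G) P}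
    (hEY : chiNu χ • (E - 1) = (ζ - 1) • (chiNu χ • Y))
    (hΦ : chiNu χ • (∑ k ∈ Finset.range p, E ^ k) = 0) : Function.Bijective Y := by
  classical
  have := Fact.mk hp
  have : Module.Finite (MonoidAlgebra O G) P := Module.Finite.of_basis b
  have : NeZero p := ⟨hp.ne_zero⟩
  have hu : ∀ μ ∈ primitiveRoots p O, ∃ u : O, IsUnit u ∧ μ - 1 = (ζ - 1) * u := fun μ hμ => by
    obtain ⟨i, -, hi, rfl⟩ := hζ.isPrimitiveRoot_iff.1 ((mem_primitiveRoots hp.pos).1 hμ)
    obtain ⟨u, hu⟩ := hζ.associated_sub_one_pow_sub_one_of_coprime hi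
    exact ⟨u, u.isUnit, hu.symm⟩
  choose! u hu1 hu2 using hu
  have key : ∀ s : Finset O, s ⊆ primitiveRoots p O →
      chiNu χ • aeval E (∏ μ ∈ s, (X - C μ)) =
        (ζ - 1) ^ s.card • (chiNu χ • aeval Y (∏ μ ∈ s, (X - C (u μ)))) := by
    intro s
    induction s using Finset.induction_on with
    | empty => intro _; simp
    | insert μ s hμ ih =>
      intro hs
      have hμp := hu2 μ (hs (Finset.mem_insert_self μ s))
      rw [Finset.prod_insert hμ, Finset.prod_insert hμ, map_mul, map_mul, ← mul_smul_comm,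
        ih fun x hx => hs (Finset.mem_insert_of_mem hx), mul_smul_comm, mul_smul_comm,
        ← smul_mul_assoc]
      have h1 : chiNu χ • (aeval E (X - C μ)) = (ζ - 1) • (chiNu χ • aeval Y (X - C (u μ))) := by
        simp only [map_sub, aeval_X, aeval_C, Algebra.algebraMap_eq_smul_one]
        rw [show E - μ • (1 : Module.End (MonoidAlgebra O G) P) =
            (E - 1) - (μ - 1) • (1 : Module.End (MonoidAlgebra O G) P) by
          rw [sub_smul, one_smul]; abel, smul_sub, hEY, smul_sub, smul_sub, hμp, mul_smul,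
          smul_comm (chiNu χ) (ζ - 1)]
      rw [h1, Finset.card_insert_of_notMem hμ, pow_succ, mul_smul, smul_mul_assoc, smul_mul_assoc]
  have hfac : (∏ μ ∈ primitiveRoots p O, (X - C μ)) = ∑ k ∈ Finset.range p, (X : O[X]) ^ k := by
    rw [← cyclotomic_prime O p, cyclotomic_eq_prod_X_sub_primitiveRoots hζ]
  have h0 := key (primitiveRoots p O) (Finset.Subset.refl _)
  rw [hfac, map_sum] at h0
  simp only [map_pow, aeval_X, hΦ] at h0
  have hz := smul_end_eq_zero b
    (pow_ne_zero _ (sub_ne_zero.2 (hζ.ne_one hp.one_lt))) h0.symm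
  set Q : O[X] := ∏ μ ∈ primitiveRoots p O, (X - C (u μ)) with hQ
  have hQ0 : IsUnit (Q.coeff 0) := by
    rw [coeff_zero_eq_eval_zero, hQ, eval_prod]
    refine Finset.prod_induction _ IsUnit (fun _ _ => IsUnit.mul) isUnit_one fun μ hμ => ?_
    rw [eval_sub, eval_X, eval_C, zero_sub]
    exact (hu1 μ hμ).neg
  have hker : RingHom.ker (chiHom χ).toRingHom ≤ maximalIdeal (MonoidAlgebra O G) :=
    le_maximalIdeal fun htop => one_ne_zero (α := O) (by
      have : (1 : (MonoidAlgebra O G)) ∈ RingHom.ker (chiHom χ).toRingHom := htop ▸ trivial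
      rwa [RingHom.mem_ker, map_one] at this)
  have hsurj : LinearMap.range Y = ⊤ := by
    refine eq_top_iff.2 (Submodule.le_of_le_smul_of_le_jacobson_bot Module.Finite.fg_top
      (maximalIdeal_le_jacobson ⊥) fun v _ => ?_)
    have h1 : aeval Y Q v ∈
        maximalIdeal (MonoidAlgebra O G) • (⊤ : Submodule (MonoidAlgebra O G) P) :=
      Submodule.smul_mono_left hker (mem_kerChi_of_chiNu_smul b (LinearMap.congr_fun hz v))
    have h2 : aeval Y Q v = Q.coeff 0 • v + Y (aeval Y Q.divX v) := by
      conv_lhs => rw [← X_mul_divX_add Q]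
      rw [map_add, map_mul, aeval_X, aeval_C, LinearMap.add_apply, Module.End.mul_apply,
        Module.algebraMap_end_apply, add_comm]
    obtain ⟨c, hc⟩ := hQ0.exists_left_inv
    have h3 : v = Y (-(c • aeval Y Q.divX v)) + c • aeval Y Q v := by
      rw [h2, map_neg, LinearMap.map_smul_of_tower, smul_add, smul_smul, hc, one_smul]
      abel
    rw [h3]
    refine Submodule.add_mem_sup ⟨_, rfl⟩ ?_
    rw [← IsScalarTower.algebraMap_smul (MonoidAlgebra O G) c]
    exact Submodule.smul_mem _ _ h1
  have hs : Function.Surjective Y := LinearMap.range_eq_top.1 hsurj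
  exact ⟨OrzechProperty.injective_of_surjective_endomorphism Y hs, hs⟩

/-! ## Freeness -/

theorem pow_sub_one_nilpotent {R : Type} [CommRing R] {p v : ℕ} (hp : p.Prime) {x : R}
    (h : x ^ p ^ v = 1) : ∃ r : R, (x - 1) ^ p ^ v = (p : R) * r := by
  obtain ⟨r, hr⟩ := exists_add_pow_prime_pow_eq hp (x - 1) 1 v
  rw [sub_add_cancel, h, one_pow] at hr
  exact ⟨-((x - 1) * 1 * r), by linear_combination -hr⟩

omit [Fintype ι] [IsDomain O] [IsLocalRing O] in
/-- A stable submodule which with the images of commuting operators, nilpotent modulo it, spans, is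
everything. -/
theorem eq_top_of_nilpotent {M : Submodule O P} (s : Finset ι) (E : ι → Module.End O P)
    (hcomm : ∀ i j, Commute (E i) (E j)) (hnil : ∀ i, ∃ k, ∀ v, (E i ^ k) v ∈ M)
    (hst : ∀ i, ∀ v ∈ M, E i v ∈ M) (h : ⊤ ≤ M ⊔ ⨆ i ∈ s, LinearMap.range (E i)) : M = ⊤ := by
  classical
  induction s using Finset.induction_on generalizing M with
  | empty => simpa using h
  | insert a s ha ih =>
    have hM : M ⊔ LinearMap.range (E a) = ⊤ := by
      refine ih (fun i => ?_) (fun i v hv => ?_) ?_
      · obtain ⟨k, hk⟩ := hnil i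
        exact ⟨k, fun v => Submodule.mem_sup_left (hk v)⟩
      · obtain ⟨m, hm, _, ⟨w, rfl⟩, rfl⟩ := Submodule.mem_sup.1 hv
        rw [map_add, ← Module.End.mul_apply, (hcomm i a).eq, Module.End.mul_apply]
        exact Submodule.add_mem_sup (hst i m hm) ⟨_, rfl⟩
      · rwa [Finset.iSup_insert, ← sup_assoc] at h
    have hk : ∀ k : ℕ, ∀ v, ∃ m ∈ M, ∃ w, v = m + (E a ^ k) w := by
      intro k
      induction k with
      | zero => exact fun v => ⟨0, zero_mem _, v, by simp⟩
      | succ k ihk =>
        intro v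
        obtain ⟨m, hm, w, rfl⟩ := ihk v
        obtain ⟨m', hm', _, ⟨w', rfl⟩, rfl⟩ := Submodule.mem_sup.1 (hM ▸ Submodule.mem_top (x := w))
        have hst' : ∀ (n : ℕ), ∀ y ∈ M, (E a ^ n) y ∈ M := by
          intro n
          induction n with
          | zero => exact fun y hy => hy
          | succ n ihn =>
            intro y hy
            rw [pow_succ', Module.End.mul_apply]
            exact hst a _ (ihn y hy)
        exact ⟨m + (E a ^ k) m', add_mem hm (hst' k m' hm'), w', by
          rw [map_add, ← Module.End.mul_apply, ← pow_succ, add_assoc]⟩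
    obtain ⟨k, hk'⟩ := hnil a
    refine Submodule.eq_top_iff'.2 fun v => ?_
    obtain ⟨m, hm, w, rfl⟩ := hk k v
    exact add_mem hm (hk' w)

variable [IsNoetherianRing O]

/-- **Freeness for the second action.** -/
theorem bijective_eta [IsLocalRing (MonoidAlgebra O G)]
    (b : Module.Basis κ (MonoidAlgebra O G) P) {p : ℕ} (hp : p.Prime)
    (hpO : (p : O) ∈ maximalIdeal O) {ζ : O} (hζ : IsPrimitiveRoot ζ p) (hpG : IsPGroup p G)
    (hgen : Subgroup.closure (Set.range g) = ⊤) (ψ : G →* Module.End (MonoidAlgebra O G) P)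
    (χ : ι → G →* O)
    (hχd : ∀ j, χ j (g j) = ζ) (hχ : ∀ j j', j ≠ j' → χ j' (g j) = 1)
    (h0 : ∀ j, normElem O G • (ψ (g j) - 1) = 0)
    (hoff : ∀ j j', j ≠ j' → chiNu (χ j') • (ψ (g j) - 1) = 0)
    (hdiag : ∀ j, chiNu (χ j) • (∑ k ∈ Finset.range p, ψ (g j) ^ k) = 0) :
    Function.Bijective fun c : κ → (MonoidAlgebra O G) =>
      ∑ i, MonoidAlgebra.lift O (Module.End (MonoidAlgebra O G) P) G ψ (c i) (b i) := by
  classical
  have : Module.Finite (MonoidAlgebra O G) P := Module.Finite.of_basis b
  have : IsNoetherianRing (MonoidAlgebra O G) := IsNoetherianRing.of_finite O _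
  have : Module.Finite O (MonoidAlgebra O G) :=
    Module.Finite.equiv (MonoidAlgebra.coeffLinearEquiv (R := O) (S := O) (M := G)).symm
  have : Module.Finite O P := Module.Finite.trans (MonoidAlgebra O G) P
  let Ψ := MonoidAlgebra.lift O (Module.End (MonoidAlgebra O G) P) G ψ
  have hΨ : ∀ h : G, Ψ (MonoidAlgebra.single h 1) = ψ h := fun h => by
    simp [Ψ, MonoidAlgebra.lift_single]
  choose Y hY using fun j => exists_decomp g hgen b (ψ (g j) - 1) (h0 j)
  have hζ1 : ζ - 1 ≠ 0 := sub_ne_zero.2 (hζ.ne_one hp.one_lt)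
  have hdia : ∀ j, Function.Bijective (Y j j) := fun j => by
    refine bijective_of_cyclotomic b hp hζ (χ j) (E := ψ (g j)) ?_ (hdiag j)
    rw [chiNu_smul_decomp g (χ j) j (fun i hi => hχ i j hi) (hY j), hχd j]
  have hY' : ∀ j j', j ≠ j' → ∀ v,
      Y j j' v ∈ maximalIdeal (MonoidAlgebra O G) • (⊤ : Submodule (MonoidAlgebra O G) P) := by
    intro j j' hne v
    have h1 := chiNu_smul_decomp g (χ j') j' (fun i hi => hχ i j' hi) (hY j)
    rw [hoff j j' hne, hχd j'] at h1
    refine Submodule.smul_mono_left ?_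
      (mem_kerChi_of_chiNu_smul b (LinearMap.congr_fun (smul_end_eq_zero b hζ1 h1.symm) v))
    exact le_maximalIdeal fun htop => one_ne_zero (α := O) (by
      have : (1 : (MonoidAlgebra O G)) ∈ RingHom.ker (chiHom (χ j')).toRingHom := htop ▸ trivial
      rwa [RingHom.mem_ker, map_one] at this)
  -- the augmentation part is in the span of the `η_j - 1`
  let W : Submodule (MonoidAlgebra O G) P := ⨆ j, LinearMap.range (ψ (g j) - 1)
  have hW : augIdl O G • (⊤ : Submodule (MonoidAlgebra O G) P) ≤ W := by
    refine Submodule.le_of_le_smul_of_le_jacobson_bot (IsNoetherian.noetherian _)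
      (maximalIdeal_le_jacobson ⊥) ?_
    rw [augIdl_eq_span g hgen, Submodule.span_smul_eq, Submodule.set_smul_le_iff]
    rintro _ v ⟨j, rfl⟩ -
    obtain ⟨w, rfl⟩ := (hdia j).2 v
    have hsum := LinearMap.congr_fun (hY j) w
    rw [LinearMap.sum_apply, ← Finset.add_sum_erase _ _ (Finset.mem_univ j)] at hsum
    rw [show aug (O := O) g j • Y j j w = (ψ (g j) - 1) w -
      ∑ i ∈ Finset.univ.erase j, aug (O := O) g i • Y j i w from eq_sub_of_add_eq hsum.symm]
    refine Submodule.sub_mem _ (Submodule.mem_sup_left (le_iSup (fun i =>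
      LinearMap.range (ψ (g i) - 1)) j ⟨w, rfl⟩)) (Submodule.sum_mem _ fun i hi => ?_)
    refine Submodule.mem_sup_right ?_
    refine Submodule.smul_induction_on
      (hY' j i (Finset.ne_of_mem_erase hi).symm w) (fun a ha u _ => ?_) ?_
    · rw [smul_comm (aug (O := O) g i) a u]
      exact Submodule.smul_mem_smul ha (Submodule.mem_set_smul_of_mem_mem ⟨i, rfl⟩ trivial)
    · intro x y hx hy
      rw [smul_add]
      exact add_mem hx hy
  -- the map
  let Φ : (κ → (MonoidAlgebra O G)) →ₗ[O] P :=
    { toFun := fun c => ∑ i, Ψ (c i) (b i)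
      map_add' := fun c c' => by
        simp [map_add, Finset.sum_add_distrib]
      map_smul' := fun r c => by
        simp [map_smul, Finset.smul_sum] }
  let N := LinearMap.range Φ
  have hb : ∀ i, b i ∈ N := fun i => by
    refine ⟨Pi.single i 1, ?_⟩
    show ∑ k, Ψ ((Pi.single i 1 : κ → (MonoidAlgebra O G)) k) (b k) = b i
    rw [Finset.sum_eq_single i (fun k _ hk => by
      rw [Pi.single_eq_of_ne hk, map_zero, LinearMap.zero_apply])
      (fun h => absurd (Finset.mem_univ i) h), Pi.single_eq_same, map_one, Module.End.one_apply]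
  have hstab : ∀ a, ∀ v ∈ N, Ψ a v ∈ N := by
    rintro a _ ⟨c, rfl⟩
    refine ⟨fun i => a * c i, ?_⟩
    show ∑ i, Ψ (a * c i) (b i) = Ψ a (∑ i, Ψ (c i) (b i))
    rw [map_sum]
    simp only [map_mul, Module.End.mul_apply]
  let E : ι → Module.End O P := fun j => (ψ (g j) - 1).restrictScalars O
  have hEN : ∀ j, ∀ v ∈ N, E j v ∈ N := fun j v hv => by
    show (ψ (g j) - 1) v ∈ N
    rw [LinearMap.sub_apply, Module.End.one_apply, ← hΨ]
    exact sub_mem (hstab _ v hv) hv
  let M := N ⊔ maximalIdeal O • (⊤ : Submodule O P)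
  have hEM : ∀ j, ∀ v ∈ M, E j v ∈ M := fun j v hv => by
    obtain ⟨n, hn, y, hy, rfl⟩ := Submodule.mem_sup.1 hv
    rw [map_add]
    refine Submodule.add_mem_sup (hEN j n hn) ?_
    refine Submodule.smul_induction_on hy (fun a ha u _ => ?_) fun x y hx hy => by
      rw [map_add]; exact add_mem hx hy
    rw [map_smul]
    exact Submodule.smul_mem_smul ha trivial
  have hE : ∀ i j, Commute (E i) (E j) := fun i j => by
    refine LinearMap.ext fun v => ?_
    show (ψ (g i) - 1) ((ψ (g j) - 1) v) = (ψ (g j) - 1) ((ψ (g i) - 1) v)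
    have h : Commute (ψ (g i) - 1) (ψ (g j) - 1) :=
      ((((Commute.all (g i) (g j)).map ψ).sub_left (Commute.one_left _)).sub_right
        ((Commute.one_right _)))
    exact LinearMap.congr_fun h.eq v
  have hnil : ∀ j, ∃ k, ∀ v, (E j ^ k) v ∈ M := fun j => by
    obtain ⟨k, hk⟩ := hpG (g j)
    obtain ⟨r, hr⟩ := pow_sub_one_nilpotent (R := (MonoidAlgebra O G))
      (x := MonoidAlgebra.single (g j) 1) hp
      (by rw [MonoidAlgebra.single_pow, one_pow, hk]; rfl)
    refine ⟨p ^ k, fun v => Submodule.mem_sup_right ?_⟩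
    have h1 := congrArg Ψ hr
    rw [map_pow, map_sub, map_one, hΨ, map_mul, map_natCast] at h1
    have h2 : (E j ^ p ^ k) v = ((ψ (g j) - 1) ^ p ^ k) v := by
      induction p ^ k generalizing v with
      | zero => rfl
      | succ n ih => rw [pow_succ, pow_succ, Module.End.mul_apply, Module.End.mul_apply, ih]; rfl
    rw [h2, h1, Module.End.mul_apply, show ((p : Module.End (MonoidAlgebra O G) P)) = p • 1 by simp,
      LinearMap.smul_apply, Module.End.one_apply, ← Nat.cast_smul_eq_nsmul O]
    exact Submodule.smul_mem_smul hpO trivial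
  have hMtop : M = ⊤ := by
    refine eq_top_of_nilpotent Finset.univ E hE hnil hEM fun v _ => ?_
    have h1 : v - ∑ i, augR O G (b.repr v i) • b i ∈ W := by
      refine hW ?_
      rw [show v - ∑ i, augR O G (b.repr v i) • b i =
          ∑ i, (b.repr v i • b i - augR O G (b.repr v i) • b i) by
        rw [Finset.sum_sub_distrib, b.sum_repr]]
      refine Submodule.sum_mem _ fun i _ => ?_
      rw [← IsScalarTower.algebraMap_smul (MonoidAlgebra O G) (augR O G (b.repr v i)) (b i),
        ← sub_smul]
      refine Submodule.smul_mem_smul ?_ trivial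
      rw [mem_augIdl, map_sub, AlgHom.commutes, Algebra.algebraMap_self, RingHom.id_apply, sub_self]
    rw [← add_sub_cancel (∑ i, augR O G (b.repr v i) • b i) v]
    refine Submodule.add_mem_sup (Submodule.mem_sup_left
      (Submodule.sum_mem _ fun i _ => Submodule.smul_mem _ _ (hb i))) ?_
    refine Submodule.iSup_induction
      (motive := fun x => x ∈ ⨆ i ∈ Finset.univ, LinearMap.range (E i))
      (fun j => LinearMap.range (ψ (g j) - 1)) h1
      (fun j x hx => ?_) (zero_mem _) fun x y hx hy => add_mem hx hy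
    obtain ⟨w, rfl⟩ := hx
    exact Submodule.mem_iSup_of_mem j (Submodule.mem_iSup_of_mem (Finset.mem_univ j) ⟨w, rfl⟩)
  have hN : N = ⊤ := by
    refine eq_top_iff.2 (Submodule.le_of_le_smul_of_le_jacobson_bot Module.Finite.fg_top
      (maximalIdeal_le_jacobson ⊥) ?_)
    exact hMtop.ge
  have hsurj : Function.Surjective Φ := LinearMap.range_eq_top.1 hN
  let e : P ≃ₗ[O] (κ → (MonoidAlgebra O G)) := (b.equivFun.restrictScalars O)
  have hinj := OrzechProperty.injective_of_surjective_endomorphism (e.toLinearMap ∘ₗ Φ)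
    (e.surjective.comp hsurj)
  exact ⟨fun x y h => hinj (congrArg e h), hsurj⟩

end Local

end Fermat.Agent.TW.EtaFree
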