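import Fermat.Agent.Density.Reps
import Fermat.Agent.Gal.Frobenius
import Fermat.Agent.Gal.Places
import Fermat.Agent.Deformation.MatrixRep
import Fermat.Prelude.Def_GaloisRep_LocalConditions

/-!
# Cyclotomic determinant from Frobenius determinants

`detIsCyclotomic_of_frobenius`: an adic representation whose Frobenius determinants are `ℓ` at all
but finitely many primes has cyclotomic determinant.
-/

set_option autoImplicit false

noncomputable section

namespace Fermat.Agent.TW

open IsLocalRing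

local notation "ℚbar" => AlgebraicClosure ℚ
local notation "Γ" => AlgebraicClosure ℚ ≃ₐ[ℚ] AlgebraicClosure ℚ

theorem card_rootsOfUnity_qbar (m : ℕ) [NeZero m] : Nat.card (rootsOfUnity m ℚbar) = m := by
  have : HasEnoughRootsOfUnity ℚbar m := inferInstance
  exact HasEnoughRootsOfUnity.natCard_rootsOfUnity ℚbar m

/-- The cyclotomic character modulo `m`, read in a ring where `m = 0`. -/
def cycloChar (m : ℕ) [NeZero m] {B : Type} [CommRing B] (φ : ZMod m →+* B) : Γ →* B :=
  φ.toMonoidHom.comp ((Units.coeHom (ZMod m)).comp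
    ((modularCyclotomicCharacter ℚbar (card_rootsOfUnity_qbar m)).comp
      { toFun := fun σ => (σ : ℚbar ≃+* ℚbar), map_one' := rfl, map_mul' := fun _ _ => rfl }))

theorem cycloChar_apply (m : ℕ) [NeZero m] {B : Type} [CommRing B] (φ : ZMod m →+* B) (σ : Γ)
    {a : ℕ} (ha : ∀ μ : ℚbar, μ ^ m = 1 → σ μ = μ ^ a) : cycloChar m φ σ = (a : B) := by
  have h : modularCyclotomicCharacter ℚbar (card_rootsOfUnity_qbar m) (σ : ℚbar ≃+* ℚbar) =
      (a : ZMod m) := by
    symm
    refine modularCyclotomicCharacter.unique ℚbar (card_rootsOfUnity_qbar m) _ fun t ht => ?_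
    have htt : (t : ℚbar) ^ m = 1 := by
      rw [← Units.val_pow_eq_pow_val, (mem_rootsOfUnity m t).mp ht, Units.val_one]
    change σ (t : ℚbar) = _
    rw [ha _ htt, ZMod.val_natCast]
    exact pow_eq_pow_mod a htt
  exact (congrArg φ h).trans (map_natCast φ a)

variable {A : Type} [CommRing A] [IsLocalRing A] [IsNoetherianRing A]

/-- Krull: membership in an ideal is checked modulo powers of the maximal ideal. -/
theorem mem_of_forall_mem_sup_pow (I : Ideal A) {x : A}
    (h : ∀ k, x ∈ I ⊔ maximalIdeal A ^ k) : x ∈ I := by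
  rcases eq_or_ne I ⊤ with rfl | hI
  · exact Submodule.mem_top
  have : Nontrivial (A ⧸ I) := Ideal.Quotient.nontrivial_iff.2 hI
  have : IsLocalRing (A ⧸ I) :=
    IsLocalRing.of_surjective' (Ideal.Quotient.mk I) Ideal.Quotient.mk_surjective
  rw [← Ideal.Quotient.eq_zero_iff_mem, ← Ideal.mem_bot, ← Ideal.iInf_pow_eq_bot_of_isLocalRing
    ((maximalIdeal A).map (Ideal.Quotient.mk I)) (fun htop => (maximalIdeal.isMaximal A).ne_top ?_),
    Submodule.mem_iInf]
  · intro k
    rw [← Ideal.map_pow]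
    obtain ⟨u, hu, v, hv, huv⟩ := Submodule.mem_sup.mp (h k)
    rw [← huv, map_add, Ideal.Quotient.eq_zero_iff_mem.2 hu, zero_add]
    exact Ideal.mem_map_of_mem _ hv
  · rw [← sup_eq_left.2 (le_maximalIdeal hI)]
    have := congrArg (Ideal.comap (Ideal.Quotient.mk I)) htop
    rwa [Ideal.comap_map_of_surjective _ Ideal.Quotient.mk_surjective, ← RingHom.ker_eq_comap_bot,
      Ideal.mk_ker, Ideal.comap_top] at this

/-- **Cyclotomic determinant from Frobenius determinants.** -/
theorem detIsCyclotomic_of_frobenius (ρ : GaloisRepAdic A) {p : ℕ} (hp : p.Prime)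
    (hpA : (p : A) ∈ maximalIdeal A) (S : Finset ℕ)
    (hfrob : ∀ ℓ : ℕ, ℓ.Prime → ℓ ∉ S → ∀ P : ValuationSubring ℚbar, P.LiesOverPrime ℓ →
      ∀ σ : Γ, P.IsFrobeniusAt σ ℓ → LinearMap.det (ρ.ρ σ) = (ℓ : A)) :
    ρ.DetIsCyclotomic p := by
  refine ⟨hpA, fun n σ a ha => mem_of_forall_mem_sup_pow _ fun k => ?_⟩
  have : NeZero (p ^ n) := ⟨pow_ne_zero _ hp.ne_zero⟩
  set I := Ideal.span {((p ^ n : ℕ) : A)} ⊔ maximalIdeal A ^ k
  have hI : ((p ^ n : ℕ) : A ⧸ I) = 0 := by
    rw [← map_natCast (Ideal.Quotient.mk I), Ideal.Quotient.eq_zero_iff_mem]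
    exact Ideal.mem_sup_left (Ideal.mem_span_singleton_self _)
  let φ : ZMod (p ^ n) →+* A ⧸ I :=
    ZMod.castHom (ringChar.dvd hI) (A ⧸ I)
  let χ₁ : Γ →* A ⧸ I := (Ideal.Quotient.mk I).toMonoidHom.comp (LinearMap.det.comp ρ.ρ)
  have h1 : GaloisFactorsThroughFiniteLevel χ₁ := by
    obtain ⟨F, hF, hF'⟩ := ρ.isAdicContinuous k
    refine ⟨F, hF, fun σ hσ => ?_⟩
    show Ideal.Quotient.mk I (LinearMap.det (ρ.ρ σ)) = 1
    rw [← map_one (Ideal.Quotient.mk I), Ideal.Quotient.eq]
    refine Ideal.mem_sup_right ?_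
    classical
    let b := Module.finBasisOfFinrankEq A ρ.V ρ.finrank_eq
    rw [← LinearMap.det_toMatrix b, ← Ideal.Quotient.eq, map_one, RingHom.map_det]
    have h1 : (Ideal.Quotient.mk (maximalIdeal A ^ k)).mapMatrix
        (LinearMap.toMatrix b b (ρ.ρ σ)) = 1 := by
      refine Matrix.ext fun i j => ?_
      rw [RingHom.mapMatrix_apply, Matrix.map_apply, LinearMap.toMatrix_apply,
        ← Matrix.map_one (Ideal.Quotient.mk (maximalIdeal A ^ k)) (map_zero _) (map_one _),
        Matrix.map_apply, Ideal.Quotient.eq]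
      have h2 := Deformation.repr_mem_of_mem_smul_top b _ (hF' σ hσ (b j)) i
      rw [map_sub, Finsupp.sub_apply, Module.Basis.repr_self] at h2
      rcases eq_or_ne i j with rfl | hij
      · simpa using h2
      · rw [Finsupp.single_eq_of_ne hij] at h2
        rw [Matrix.one_apply_ne hij]
        exact h2
    rw [h1, Matrix.det_one]
  have h2 : GaloisFactorsThroughFiniteLevel (cycloChar (p ^ n) φ) := by
    have : Finite (rootsOfUnity (p ^ n) ℚbar) := Nat.finite_of_card_ne_zero
      (by rw [card_rootsOfUnity_qbar]; exact NeZero.ne _)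
    let T : Set ℚbar := Set.range fun t : rootsOfUnity (p ^ n) ℚbar => ((t : ℚbarˣ) : ℚbar)
    have : Finite T := (Set.finite_range _).to_subtype
    refine ⟨IntermediateField.adjoin ℚ T,
      IntermediateField.finiteDimensional_adjoin
        fun x _ => (Algebra.IsAlgebraic.isAlgebraic x).isIntegral, fun σ hσ => ?_⟩
    rw [cycloChar_apply (p ^ n) φ σ (a := 1) fun μ hμ => ?_, Nat.cast_one]
    rw [pow_one]
    exact hσ μ (IntermediateField.subset_adjoin ℚ T
      ⟨⟨(IsUnit.of_pow_eq_one hμ (NeZero.ne _)).unit, Units.ext (by simpa using hμ)⟩, rfl⟩)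
  have key : χ₁ = cycloChar (p ^ n) φ := by
    refine Density.monoidHom_eq_of_forall_frobenius h1 h2 (↑(insert p S) : Set ℕ)
      (Finset.finite_toSet _) fun ℓ hℓ hℓS P hP τ hτ => ?_
    simp only [Finset.coe_insert, Set.mem_insert_iff, Finset.mem_coe, not_or] at hℓS
    show Ideal.Quotient.mk I (LinearMap.det (ρ.ρ τ)) = _
    rw [hfrob ℓ hℓ hℓS.2 P hP τ hτ, map_natCast, cycloChar_apply (p ^ n) φ τ fun μ hμ =>
      Gal.apply_rootOfUnity_of_isFrobeniusAt hτ hℓ hP
        (fun hd => hℓS.1 ((Nat.prime_dvd_prime_iff_eq hℓ hp).mp (hℓ.dvd_of_dvd_pow hd))) hμ]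
  have := DFunLike.congr_fun key σ
  rw [cycloChar_apply (p ^ n) φ σ ha] at this
  rw [← Ideal.Quotient.eq]
  exact this.trans (map_natCast _ a).symm

end Fermat.Agent.TW
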