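import Fermat.Agent.LocalModel.Tame
import Mathlib.RingTheory.Henselian

/-!
# Inertia at a prime with distinct residual Frobenius eigenvalues

`inertia_diag`: the tame generator is diagonal in the eigenbasis of Frobenius, and its eigenvalue on
each eigenline is a unit `η` with `η ^ (q - 1) = 1`, given by a formula natural in the two matrices
(`inertiaEigen`).
-/

set_option autoImplicit false

noncomputable section

namespace Fermat.Agent.TW

open IsLocalRing Polynomial Fermat.Agent.Deformation Fermat.Agent.LocalModel
open scoped Matrix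

local notation "ℚbar" => AlgebraicClosure ℚ

section Roots

variable {A : Type} [CommRing A] [IsLocalRing A] [IsAdicComplete (maximalIdeal A) A]

/-- Simple residual roots of a quadratic lift. -/
theorem exists_quadratic_roots {t n : A} {α β : ResidueField A} (hne : α ≠ β)
    (hsum : α + β = residue A t) (hprod : α * β = residue A n) :
    ∃ a d : A, a + d = t ∧ a * d = n ∧ residue A a = α ∧ residue A d = β ∧ IsUnit (a - d) := by
  obtain ⟨a₀, ha₀⟩ := residue_surjective α
  have hf : (X ^ 2 - C t * X + C n : A[X]).Monic := by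
    monicity!
  have h0 : (X ^ 2 - C t * X + C n : A[X]).eval a₀ ∈ maximalIdeal A := by
    rw [← residue_eq_zero_iff]
    simp only [eval_add, eval_sub, eval_pow, eval_mul, eval_C, eval_X, map_add, map_sub, map_pow,
      map_mul, ha₀, ← hsum, ← hprod]
    ring
  have h1 : IsUnit (Ideal.Quotient.mk (maximalIdeal A)
      ((X ^ 2 - C t * X + C n : A[X]).derivative.eval a₀)) := by
    rw [show Ideal.Quotient.mk (maximalIdeal A)
      ((X ^ 2 - C t * X + C n : A[X]).derivative.eval a₀) = α - β by
      show residue A _ = _
      simp [ha₀, ← hsum]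
      ring]
    exact isUnit_iff_ne_zero.2 (sub_ne_zero.2 hne)
  obtain ⟨a, ha, ha'⟩ := HenselianRing.is_henselian (I := maximalIdeal A) _ hf a₀ h0 h1
  have ha1 : residue A a = α := by
    rw [← ha₀]; exact Ideal.Quotient.eq.2 ha'
  refine ⟨a, t - a, by ring, ?_, ha1, by rw [map_sub, ha1, ← hsum]; ring, ?_⟩
  · simp only [IsRoot, eval_add, eval_sub, eval_pow, eval_mul, eval_C, eval_X] at ha
    linear_combination -ha
  · refine isUnit_of_map_unit (residue A) _ (isUnit_iff_ne_zero.2 ?_)
    rw [map_sub, map_sub, ha1, ← hsum]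
    exact fun h => hne (by linear_combination h)

end Roots

section Algebra

variable {A B : Type} [CommRing A] [CommRing B]

/-- The projection onto the `a`-eigenline. -/
def frobProj (a d : A) (X : M2 A) : M2 A := Ring.inverse (a - d) • (X - d • (1 : M2 A))

/-- The eigenvalue of `T` on the `a`-eigenline of `X`. -/
def inertiaEigen (a d : A) (X T : M2 A) : A := (frobProj a d X * T).trace

theorem map_inertiaEigen (f : A →+* B) {a d : A} (hu : IsUnit (a - d)) (X T : M2 A) :
    f (inertiaEigen a d X T) = inertiaEigen (f a) (f d) (X.map f) (T.map f) := by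
  obtain ⟨u, hu'⟩ := hu
  have hinv : f (Ring.inverse (a - d)) = Ring.inverse (f a - f d) := by
    rw [← map_sub, ← hu', Ring.inverse_unit,
      show f (u : A) = ((Units.map (f : A →* B) u : Bˣ) : B) from rfl, Ring.inverse_unit,
      ← map_inv, Units.coe_map, MonoidHom.coe_coe]
  simp only [inertiaEigen, frobProj, Matrix.trace_fin_two, Matrix.mul_apply, Fin.sum_univ_two,
    Matrix.smul_apply, Matrix.sub_apply, Matrix.map_apply, smul_eq_mul, Matrix.one_apply, map_add,
    map_mul, map_sub, hinv]
  simp

variable {a d : A} {X : M2 A}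

theorem frobProj_add (hu : IsUnit (a - d)) : frobProj a d X + frobProj d a X = 1 := by
  obtain ⟨u, hu'⟩ := hu
  have h1 : Ring.inverse (d - a) = -Ring.inverse (a - d) := by
    rw [show d - a = ((-u : Aˣ) : A) by rw [Units.val_neg, hu', neg_sub], ← hu',
      Ring.inverse_unit, Ring.inverse_unit, inv_neg, Units.val_neg]
  have h2 : Ring.inverse (a - d) * (a - d) = 1 := Ring.inverse_mul_cancel _ ⟨u, hu'⟩
  refine Matrix.ext fun i j => ?_
  simp only [frobProj, h1, Matrix.add_apply, Matrix.smul_apply, Matrix.sub_apply, smul_eq_mul]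
  linear_combination (1 : M2 A) i j * h2

variable (htr : a + d = X.trace) (hdet : a * d = X.det) (hu : IsUnit (a - d))

include htr hu in
theorem trace_frobProj : (frobProj a d X).trace = 1 := by
  rw [frobProj, Matrix.trace_smul, Matrix.trace_sub, Matrix.trace_smul, Matrix.trace_one, ← htr,
    Fintype.card_fin, smul_eq_mul, smul_eq_mul]
  rw [show a + d - d * ((2 : ℕ) : A) = a - d by push_cast; ring]
  exact Ring.inverse_mul_cancel _ hu

include htr hdet in
theorem det_frobProj : (frobProj a d X).det = 0 := by
  rw [Matrix.trace_fin_two] at htr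
  rw [Matrix.det_fin_two] at hdet
  simp [frobProj, Matrix.det_fin_two]
  linear_combination Ring.inverse (a - d) ^ 2 * (-hdet + d * htr)

include htr hdet in
theorem mul_frobProj : X * frobProj a d X = a • frobProj a d X := by
  rw [Matrix.trace_fin_two] at htr
  rw [Matrix.det_fin_two] at hdet
  refine Matrix.ext fun i j => ?_
  fin_cases i <;> fin_cases j <;> simp [frobProj, Matrix.mul_apply, Fin.sum_univ_two]
  · linear_combination Ring.inverse (a - d) * (hdet - X 0 0 * htr)
  · linear_combination (-Ring.inverse (a - d) * X 0 1) * htr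
  · linear_combination (-Ring.inverse (a - d) * X 1 0) * htr
  · linear_combination Ring.inverse (a - d) * (hdet - X 1 1 * htr)

theorem commute_frobProj : Commute X (frobProj a d X) :=
  ((Commute.refl X).sub_right (((Commute.one_right X).smul_right d))).smul_right _

/-- A rank one idempotent compresses to a scalar. -/
theorem mul_mul_of_det_eq_zero {E : M2 A} (hE : E.det = 0) (Y : M2 A) :
    E * Y * E = (E * Y).trace • E := by
  rw [Matrix.det_fin_two] at hE
  refine Matrix.ext fun i j => ?_
  fin_cases i <;> fin_cases j <;>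
    simp [Matrix.mul_apply, Fin.sum_univ_two, Matrix.trace_fin_two]
  · linear_combination (-Y 1 1) * hE
  · linear_combination Y 0 1 * hE
  · linear_combination Y 1 0 * hE
  · linear_combination (-Y 0 0) * hE

end Algebra

section Main

variable {A : Type} [CommRing A] [IsLocalRing A]

/-- Powers of a matrix congruent to `1` of determinant `1` are affine in it. -/
theorem exists_pow_eq {T : M2 A} (hdet : T.det = 1) (h1 : T.trace - 2 ∈ maximalIdeal A) (k : ℕ) :
    ∃ s r : A, T ^ k = s • T + r • (1 : M2 A) ∧ s - k ∈ maximalIdeal A ∧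
      r - (1 - k) ∈ maximalIdeal A := by
  induction k with
  | zero => exact ⟨0, 1, by simp, by simp, by simp⟩
  | succ k ih =>
    obtain ⟨s, r, hk, hs, hr⟩ := ih
    have hch : T * T = T.trace • T - (1 : M2 A) := by
      rw [Matrix.det_fin_two] at hdet
      refine Matrix.ext fun i j => ?_
      fin_cases i <;> fin_cases j <;>
        simp [Matrix.mul_apply, Fin.sum_univ_two, Matrix.trace_fin_two]
      · linear_combination -hdet
      · ring
      · ring
      · linear_combination -hdet
    refine ⟨s * T.trace + r, -s, ?_, ?_, ?_⟩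
    · rw [pow_succ, hk, add_mul, smul_mul_assoc, hch, smul_mul_assoc, one_mul, smul_sub,
        smul_smul, add_smul, neg_smul]
      abel
    · rw [show s * T.trace + r - (k + 1 : ℕ) = (s - k) * T.trace + (r - (1 - k)) +
        (k : A) * (T.trace - 2) by push_cast; ring]
      exact add_mem (add_mem (Ideal.mul_mem_right _ _ hs) hr) (Ideal.mul_mem_left _ _ h1)
    · rw [show -s - (1 - ((k + 1 : ℕ) : A)) = -(s - k) by push_cast; ring]
      exact neg_mem hs

variable {a d : A} {X T : M2 A} {q : ℕ}

/-- **The inertia eigenvalue.**  If `X T = T ^ q X` with `T ≡ 1`, `det T = 1`, `q ≡ 1` and the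
eigenvalues of `X` distinct, then `T` is diagonal in the eigenbasis of `X`. -/
theorem inertia_diag (htr : a + d = X.trace) (hdet : a * d = X.det) (hu : IsUnit (a - d))
    (hX : IsUnit X) (hq : (q : A) - 1 ∈ maximalIdeal A) (hT : T.det = 1)
    (hT1 : ∀ i j, (T - 1) i j ∈ maximalIdeal A) (hrel : X * T = T ^ q * X) :
    T = inertiaEigen a d X T • frobProj a d X + inertiaEigen d a X T • frobProj d a X ∧
      inertiaEigen a d X T + inertiaEigen d a X T = T.trace ∧
      inertiaEigen a d X T * inertiaEigen d a X T = 1 ∧
      inertiaEigen a d X T - 1 ∈ maximalIdeal A ∧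
      inertiaEigen a d X T ^ (q - 1) = 1 := by
  have hu' : IsUnit (d - a) := by simpa using hu.neg
  have htr' : d + a = X.trace := by rw [add_comm]; exact htr
  have hdet' : d * a = X.det := by rw [mul_comm]; exact hdet
  set E := frobProj a d X with hE
  set E' := frobProj d a X with hE'
  have hsum : E + E' = 1 := frobProj_add hu
  have hEE : ∀ {a d : A}, a + d = X.trace → a * d = X.det → IsUnit (a - d) →
      frobProj a d X * frobProj a d X = frobProj a d X := fun {a d} h1 h2 h3 => by
    have h := mul_mul_of_det_eq_zero (det_frobProj h1 h2) 1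
    rwa [mul_one, trace_frobProj h1 h3, one_smul] at h
  have hEE1 : E * E = E := hEE htr hdet hu
  have hEE2 : E * E' = 0 := by rw [eq_sub_of_add_eq' hsum, mul_sub, mul_one, hEE1, sub_self]
  have hE'E : E' * E = 0 := by rw [eq_sub_of_add_eq' hsum, sub_mul, one_mul, hEE1, sub_self]
  have htr1 : T.trace - 2 ∈ maximalIdeal A := by
    rw [show T.trace - 2 = (T - 1) 0 0 + (T - 1) 1 1 by
      simp [Matrix.trace_fin_two]; ring]
    exact add_mem (hT1 0 0) (hT1 1 1)
  obtain ⟨s, r, hs, hsq, -⟩ := exists_pow_eq hT htr1 q
  -- the off diagonal blocks vanish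
  have key : ∀ {a d : A}, a + d = X.trace → a * d = X.det → IsUnit (a - d) →
      frobProj a d X * frobProj d a X = 0 → frobProj a d X * T * frobProj d a X = 0 := by
    intro a d h1 h2 h3 h0
    have hl : frobProj a d X * X = a • frobProj a d X := by
      rw [← (commute_frobProj (X := X)).eq, mul_frobProj h1 h2]
    have hr : X * frobProj d a X = d • frobProj d a X :=
      mul_frobProj (by rw [add_comm]; exact h1) (by rw [mul_comm]; exact h2)
    set Y := frobProj a d X * T * frobProj d a X
    have e : a • Y = (s * d) • Y := by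
      calc a • Y = frobProj a d X * (X * T) * frobProj d a X := by
            rw [← mul_assoc, hl, smul_mul_assoc, smul_mul_assoc]
        _ = frobProj a d X * T ^ q * (X * frobProj d a X) := by rw [hrel]; simp [mul_assoc]
        _ = (s * d) • Y := by
            simp only [hr, hs, mul_add, add_mul, mul_smul_comm, smul_mul_assoc, mul_one, h0,
              smul_zero, add_zero, smul_smul, mul_comm s d, Y]
    have hunit : IsUnit (a - s * d) := by
      have hm : (a - d) - (a - s * d) ∈ maximalIdeal A := by
        rw [show (a - d) - (a - s * d) = ((s - q) + (q - 1)) * d by ring]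
        exact Ideal.mul_mem_right _ _ (add_mem hsq hq)
      by_contra hn
      exact (IsLocalRing.mem_maximalIdeal _).1 (sub_add_cancel (a - d) (a - s * d) ▸
        add_mem hm ((IsLocalRing.mem_maximalIdeal _).2 hn)) h3
    have e' : (a - s * d) • Y = 0 := by rw [sub_smul, e, sub_self]
    rwa [IsUnit.smul_eq_zero hunit] at e'
  have hdiag : T = inertiaEigen a d X T • E + inertiaEigen d a X T • E' := by
    calc T = (E + E') * T * (E + E') := by rw [hsum, one_mul, mul_one]
      _ = E * T * E + E' * T * E' := by
          rw [add_mul, add_mul, mul_add, mul_add, key htr hdet hu hEE2,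
            key htr' hdet' hu' hE'E]
          abel
      _ = _ := by
          rw [mul_mul_of_det_eq_zero (det_frobProj htr hdet),
            mul_mul_of_det_eq_zero (det_frobProj htr' hdet')]
          rfl
  set η := inertiaEigen a d X T
  set η' := inertiaEigen d a X T
  have hsumη : η + η' = T.trace := by
    show (E * T).trace + (E' * T).trace = _
    rw [← Matrix.trace_add, ← add_mul, hsum, one_mul]
  have hmem : η - 1 ∈ maximalIdeal A := by
    rw [show η - 1 = (E * (T - 1)).trace by
      rw [mul_sub, mul_one, Matrix.trace_sub, trace_frobProj htr hu]; rfl]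
    simp only [Matrix.trace_fin_two, Matrix.mul_apply, Fin.sum_univ_two]
    exact add_mem (add_mem (Ideal.mul_mem_left _ _ (hT1 0 0)) (Ideal.mul_mem_left _ _ (hT1 1 0)))
      (add_mem (Ideal.mul_mem_left _ _ (hT1 0 1)) (Ideal.mul_mem_left _ _ (hT1 1 1)))
  have hprod : η * η' = 1 := by
    have h1 := det_frobProj htr hdet
    have h2 := trace_frobProj htr hu
    have h3 := congrArg Matrix.det hdiag
    rw [hT, eq_sub_of_add_eq' hsum] at h3
    rw [← hE, Matrix.det_fin_two] at h1
    rw [← hE, Matrix.trace_fin_two] at h2
    simp [Matrix.det_fin_two] at h3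
    linear_combination -h3 - (η - η') * η' * h2 - (η - η') ^ 2 * h1
  refine ⟨hdiag, hsumη, hprod, hmem, ?_⟩
  -- `T ^ q = T`
  have hcomm : X * T = T * X := by
    rw [hdiag, mul_add, add_mul, mul_smul_comm, mul_smul_comm, smul_mul_assoc, smul_mul_assoc,
      (commute_frobProj (X := X) (a := a) (d := d)).eq,
      (commute_frobProj (X := X) (a := d) (d := a)).eq]
  have hTq : T ^ q = T := (hX.mul_left_inj).1 (hrel.symm.trans hcomm)
  have hpow : ∀ k : ℕ, T ^ k = (η ^ k) • E + (η' ^ k) • E' := by
    intro k
    induction k with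
    | zero => rw [pow_zero, pow_zero, pow_zero, one_smul, one_smul, hsum]
    | succ k ih =>
      rw [pow_succ, ih]
      conv_lhs => rw [hdiag]
      simp only [add_mul, mul_add, smul_mul_assoc, mul_smul_comm, smul_smul, hEE1, hEE2, hE'E,
        smul_zero, add_zero, zero_add]
      rw [show E' * E' = E' from hEE htr' hdet' hu', pow_succ, pow_succ, mul_comm η, mul_comm η']
  have hEq := congrArg (fun Z => (E * Z).trace) (hTq.symm.trans (hpow q))
  simp only [mul_add, mul_smul_comm, hEE1, hEE2, smul_zero, add_zero, Matrix.trace_smul,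
    smul_eq_mul] at hEq
  rcases Nat.eq_zero_or_pos q with rfl | hq0
  · rw [Nat.zero_sub, pow_zero]
  · have hη : IsUnit η := IsUnit.of_mul_eq_one η' hprod
    refine hη.mul_left_inj.1 ?_
    rw [one_mul, ← pow_succ, Nat.sub_add_cancel hq0]
    rw [trace_frobProj htr hu, mul_one] at hEq
    exact hEq.symm

/-- An eigenvalue `≡ 1` of `p`-power order `q - 1`. -/
theorem pow_prime_pow_eq_one {p : ℕ} (hp : p.Prime) (hpA : (p : A) ∈ maximalIdeal A) {x : A}
    (hx : x - 1 ∈ maximalIdeal A) {m : ℕ} (hm : m ≠ 0) (h : x ^ m = 1) :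
    x ^ p ^ m.factorization p = 1 := by
  set y := x ^ p ^ m.factorization p
  have hy1 : residue A y = 1 := by
    have hx1 : residue A x = 1 := by
      rw [← map_one (residue A), ← sub_eq_zero, ← map_sub, residue_eq_zero_iff]; exact hx
    rw [map_pow, hx1, one_pow]
  have hy : y ^ (m / p ^ m.factorization p) = 1 := by
    rw [← pow_mul, Nat.mul_div_cancel' (Nat.ordProj_dvd m p), h]
  set u := m / p ^ m.factorization p
  have hu : IsUnit (∑ i ∈ Finset.range u, y ^ i) := by
    refine isUnit_of_map_unit (residue A) _ (isUnit_iff_ne_zero.2 ?_)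
    simp only [map_sum, map_pow, hy1, one_pow, Finset.sum_const, Finset.card_range, nsmul_one]
    intro h0
    have : CharP (ResidueField A) p := (CharP.charP_iff_prime_eq_zero hp).2 (by
      rw [← map_natCast (residue A), residue_eq_zero_iff]; exact hpA)
    exact Nat.not_dvd_ordCompl hp hm ((CharP.cast_eq_zero_iff (ResidueField A) p u).1 h0)
  have hz : (∑ i ∈ Finset.range u, y ^ i) * (y - 1) = 0 := by
    rw [geom_sum_mul, hy, sub_self]
  exact sub_eq_zero.1 (hu.mul_right_eq_zero.1 hz)

omit [IsLocalRing A] in
/-- In a reduced ring an inertia eigenvalue with `η + η⁻¹ = 2` is `1`. -/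
theorem eq_one_of_add_eq_two [IsReduced A] {x y : A} (hxy : x * y = 1) (h : x + y = 2) :
    x = 1 := by
  refine sub_eq_zero.1 (IsReduced.eq_zero _ ⟨2, ?_⟩)
  linear_combination x * h - hxy

end Main

end Fermat.Agent.TW
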