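import Fermat.Agent.TW.Local
import Fermat.Agent.TW.Inertia
import Fermat.Agent.LocalModel.Common
import Fermat.Agent.Carayol.Descent.S36Glue
import Fermat.Agent.Conductor.Involution
import Fermat.Agent.Conductor.AbsIrred

/-!
# The inertia eigenvalue at a prime with distinct Frobenius eigenvalues

`exists_eta` gives the eigenvalue of a tame generator and its properties;
`not_unipotent_of_diamond_ne` shows that inertia is not unipotent at a point where the diamond
operators at that prime are nontrivial.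
-/

set_option autoImplicit false

noncomputable section

namespace Fermat.Agent.TW

open IsLocalRing Polynomial Fermat.Agent.Deformation Fermat.Agent.GammaH
  Fermat.Agent.LocalModel CuspForm
open ModularFormClass (qCoeff)
open scoped Pointwise

local notation "ℚbar" => AlgebraicClosure ℚ

section Eigen

variable {A : Type} [CommRing A] [IsLocalRing A] [IsAdicComplete (maximalIdeal A) A]
  {p q : ℕ} {P : ValuationSubring ℚbar}

/-- **The eigen character at a prime with distinct Frobenius eigenvalues.** -/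
theorem exists_eta (hp : p.Prime) (hpA : (p : A) ∈ maximalIdeal A) (hq : q.Prime)
    (hq1 : (q : A) - 1 ∈ maximalIdeal A) {φ τ : GQ} (hφ : P.IsFrobeniusAt φ q)
    (hτ : IsTameGenerator p q P τ) {M : GQ →* M2 A} (hM : MatCont M)
    (hI : ∀ σ ∈ P.inertiaSubgroupIn ℚ, (residue A).mapMatrix (M σ) = 1)
    (hdet : (M τ).det = 1) {α β : ResidueField A} (hne : α ≠ β)
    (hsum : α + β = residue A (M φ).trace) (hprod : α * β = residue A (M φ).det) :
    ∃ a d : A, a + d = (M φ).trace ∧ a * d = (M φ).det ∧ IsUnit (a - d) ∧ residue A a = α ∧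
      inertiaEigen a d (M φ) (M τ) + inertiaEigen d a (M φ) (M τ) = (M τ).trace ∧
      inertiaEigen a d (M φ) (M τ) * inertiaEigen d a (M φ) (M τ) = 1 ∧
      inertiaEigen a d (M φ) (M τ) - 1 ∈ maximalIdeal A ∧
      inertiaEigen a d (M φ) (M τ) ^ p ^ (q - 1).factorization p = 1 ∧
      (inertiaEigen a d (M φ) (M τ) = 1 →
        ∀ σ ∈ P.inertiaSubgroupIn ℚ, M σ = 1) := by
  obtain ⟨a, d, htr, hd, ha, -, hu⟩ := exists_quadratic_roots hne hsum hprod
  have hPI : PInertia p P M := fun σ hσ => by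
    rw [map_pow, show (Ideal.Quotient.mk (maximalIdeal A)).mapMatrix (M σ) = 1 from hI σ hσ,
      one_pow]
  have hrel := hτ.frobenius_mul hpA hM hPI hφ
  have hτ1 : ∀ i j, (M τ - 1) i j ∈ maximalIdeal A := fun i j => by
    rw [← Ideal.Quotient.eq_zero_iff_mem]
    show residue A ((M τ - 1) i j) = 0
    have h := congrFun (congrFun (hI τ hτ.1) i) j
    rw [RingHom.mapMatrix_apply, Matrix.map_apply] at h
    rw [Matrix.sub_apply, map_sub, h, sub_eq_zero]
    rcases eq_or_ne i j with rfl | hij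
    · simp
    · simp [Matrix.one_apply_ne hij]
  have hXu : IsUnit (M φ) := ⟨Units.map M (toUnits φ), rfl⟩
  obtain ⟨hdiag, h1, h2, h3, h4⟩ := inertia_diag htr hd hu hXu hq1 hdet hτ1 hrel
  refine ⟨a, d, htr, hd, hu, ha, h1, h2, h3,
    pow_prime_pow_eq_one hp hpA h3 (by have := hq.one_lt; omega) h4, fun hη => ?_⟩
  have hη' : inertiaEigen d a (M φ) (M τ) = 1 := by
    rw [hη, one_mul] at h2
    exact h2
  have hT : M τ = 1 := by
    rw [hdiag, hη, hη', one_smul, one_smul, frobProj_add hu]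
  exact hτ.eq_one hpA hM hPI hT

end Eigen

section Points

variable {p L R h : ℕ} [NeZero L] [NeZero R] {H : Subgroup (ZMod L)ˣ} {S : Finset ℕ}
  {O : Type} [CommRing O] [IsDomain O] [IsDiscreteValuationRing O]
  [IsAdicComplete (maximalIdeal O) O] [Finite (ResidueField O)] [CharZero O]
  [Fact (HasIntegralStructure (L * R) 2)] {hH : (-1 : (ZMod L)ˣ) ∈ H}
  {θ : heckeRing L H (↑S : Set ℕ) →+* ResidueField O}
  {ρbar : ResidualGaloisRep (ResidueField O)} {ρ₀ : GQ →* M2 (ResidueField O)}

/-- The residual characteristic polynomial is the reduction of the characteristic polynomial. -/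
theorem charpoly_residual_apply {B : Type} [CommRing B] [IsLocalRing B] (ρ : GaloisRepAdic B)
    (σ : GQ) :
    LinearMap.charpoly (ρ.residual.ρ σ) = (LinearMap.charpoly (ρ.ρ σ)).map (residue B) :=
  LinearMap.charpoly_baseChange (A := ResidueField B) (f := ρ.ρ σ)

/-- The residual determinant is the reduction of the determinant. -/
theorem det_residual_apply {B : Type} [CommRing B] [IsLocalRing B] (ρ : GaloisRepAdic B)
    (σ : GQ) : LinearMap.det (ρ.residual.ρ σ) = residue B (LinearMap.det (ρ.ρ σ)) :=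
  LinearMap.det_baseChange (A := ResidueField B) (f := ρ.ρ σ)

/-- A representation with the Frobenius polynomials of an absolutely irreducible matrix
representation with cyclotomic determinant has its characteristic polynomials, is residually
absolutely irreducible and odd. -/
theorem charpoly_absIrr_odd_of_matrix {B : Type} [CommRing B] [IsLocalRing B]
    [IsHausdorff (maximalIdeal B) B] {p : ℕ} (hp : p.Prime) (hp2 : p ≠ 2) {M : GQ →* M2 B}
    (hM : MatCont M) (hdet : (ofMatrix M hM).DetIsCyclotomic p)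
    (hspan : Submodule.span (ResidueField B) (Set.range (mapRep (residue B) M)) = ⊤)
    (ρ : GaloisRepAdic B) (S : Finset ℕ)
    (heq : ∀ l : ℕ, l.Prime → l ∉ S → ∀ A : ValuationSubring ℚbar, A.LiesOverPrime l →
      ∀ σ : GQ, A.IsFrobeniusAt σ l → (M σ).charpoly = LinearMap.charpoly (ρ.ρ σ)) :
    (∀ σ, LinearMap.charpoly (ρ.ρ σ) = (M σ).charpoly) ∧
      ρ.residual.IsAbsolutelyIrreducible ∧ ρ.residual.IsOdd := by
  have hirr : (ofMatrix M hM).residual.IsAbsolutelyIrreducible :=
    GalRep.isAbsolutelyIrreducible_of_span (isMatrixRep_ofMatrix M hM).residual hspan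
  have hall : ∀ σ, LinearMap.charpoly (ρ.ρ σ) = LinearMap.charpoly ((ofMatrix M hM).ρ σ) := fun σ =>
    (Density.adic_charpoly_eq_of_forall_frobenius (ofMatrix M hM) ρ (↑S : Set ℕ) S.finite_toSet
      (fun l hl hlS A hA τ hτ => (Matrix.charpoly_toLin' (M τ)).trans (heq l hl hlS A hA τ hτ))
      σ).symm
  have hres : ∀ σ, LinearMap.charpoly ((ofMatrix M hM).residual.ρ σ) =
      LinearMap.charpoly (ρ.residual.ρ σ) := fun σ => by
    rw [charpoly_residual_apply, charpoly_residual_apply, hall σ]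
  refine ⟨fun σ => (hall σ).trans (Matrix.charpoly_toLin' (M σ)),
    Conductor.isAbsolutelyIrreducible_of_equiv
      (Density.residual_isEquiv_of_forall_frobenius _ _ hirr ∅ Set.finite_empty
        fun l _ _ A _ σ _ => hres σ) hirr, fun c hc1 hc2 => ?_⟩
  rw [← ((Density.charpoly_eq_iff (ofMatrix M hM).residual.finrank_eq ρ.residual.finrank_eq
    _ _).1 (hres c)).2]
  rw [det_residual_apply]
  have hdc := hdet.2 1 c (p - 1) fun μ hμ => by
    rw [pow_one] at hμ
    rw [Conductor.involution_apply_rootOfUnity hc1 hc2 hp hp2 hμ]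
    refine inv_eq_of_mul_eq_one_right ?_
    rw [← pow_succ', Nat.sub_add_cancel hp.one_le, hμ]
  rw [pow_one] at hdc
  obtain ⟨e, he⟩ := Ideal.mem_span_singleton'.1 hdc
  have hp' : residue B (p : B) = 0 := by rw [residue_eq_zero_iff]; exact hdet.1
  rw [(sub_eq_iff_eq_add'.1 he.symm), map_add, map_mul, hp', mul_zero, add_zero,
    Nat.cast_sub hp.one_le, map_sub, hp', Nat.cast_one, map_one, zero_sub]

omit [Finite (ResidueField O)] [CharZero O] in
/-- **Inertia is not unipotent where the diamond operators are nontrivial.** -/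
theorem not_unipotent_of_diamond_ne (hyp : TWHyp (H := H) p R h hH θ ρbar ρ₀)
    (D : TWRep (H := H) (S := S) (O := O) p R h (rfl : R = R) hH θ ρ₀)
    {O' : Type} [CommRing O'] [IsDomain O'] [IsDiscreteValuationRing O']
    [IsAdicComplete (maximalIdeal O') O'] [Finite (ResidueField O')] [CharZero O'] [Algebra O O']
    [IsLocalHom (algebraMap O O')] (x : TWRing hH O θ →ₐ[O] O') (hx : IsLocalHom x.toRingHom)
    {q : ℕ} (hq : q.Prime) (hqp : q ≠ p) (hqL : q ∣ L) (hq2 : ¬ q ^ 2 ∣ L) {a : (ZMod L)ˣ}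
    (ha : ZMod.unitsMap (Nat.div_dvd_of_dvd hqL) a = 1)
    (hne : x (toTWRing hH O θ (HeckeO.ofT O (diamondR a))) ≠ 1) :
    ¬ ∀ P : ValuationSubring ℚbar, P.LiesOverPrime q → ∀ σ ∈ P.inertiaSubgroupIn ℚ,
      x (D.ψ (D.M₀ σ).trace) = 2 := by
  have := Fact.mk hyp.prime
  intro hall
  let f : heckeRing L H (↑S : Set ℕ) →+* O' :=
    x.toRingHom.comp ((toTWRing hH O θ).toRingHom.comp (HeckeO.ofT O))
  obtain ⟨lam, ι, hι⟩ := exists_complex_lift hH f
  have hf : ∀ t, ι (lam.rangeRestrict t) = f t := RingHom.congr_fun hι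
  have hne' : lam (diamondR a) ≠ 1 := fun h1 => hne (by
    show f (diamondR a) = 1
    rw [← hf, show lam.rangeRestrict (diamondR a) = 1 from Subtype.ext h1, map_one])
  obtain ⟨M, _, G, hG, hMLR, hcoef, hnew⟩ := exists_point_newform hH hyp.R_dvd hyp.ker_le hyp.odd
    hyp.LS lam
  have hqM : q ^ 2 ∣ M := hnew q hq hqL hq2 a ha hne'
  have hfac : M.factorization q = 2 := by
    refine le_antisymm ?_ ((hq.pow_dvd_iff_le_factorization (NeZero.ne M)).1 hqM)
    by_contra hgt
    have h3 : q ^ 3 ∣ L * R :=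
      ((hq.pow_dvd_iff_le_factorization (NeZero.ne M)).2 (by omega)).trans hMLR
    have hR2 : ¬ q ^ 2 ∣ R := fun hd => hq2 (hd.trans hyp.R_dvd)
    rw [hq.pow_dvd_iff_le_factorization (NeZero.ne _),
      Nat.factorization_mul (NeZero.ne L) (NeZero.ne R), Finsupp.add_apply] at h3
    rw [hq.pow_dvd_iff_le_factorization (NeZero.ne _)] at hR2 hq2
    omega
  have hNS : ∀ l : ℕ, l.Prime → l ∣ L * R → l ∈ S := fun l hl hd =>
    (hl.dvd_mul.1 hd).elim (hyp.LS l hl) fun h' => hyp.LS l hl (h'.trans hyp.R_dvd)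
  have hMS : ∀ l : ℕ, l.Prime → l ∣ M → l ∈ S := fun l hl hd => hNS l hl (hd.trans hMLR)
  -- the coefficients of `G` are values of `lam`
  let chig := Hecke.eigenCharacter hG.1 (↑S : Set ℕ)
  have hchig : ∀ (l : ℕ) (hl : l.Prime) (hlM : ¬ l ∣ M) (hlS : l ∉ (↑S : Set ℕ)),
      chig (heckeAlgebra.T hl hlM hlS) = qCoeff ⇑G l := fun l hl hlM hlS =>
    Hecke.eigenCharacter_T hG.1 hl hlM hlS
  have hle : chig.range ≤ lam.range := by
    rintro _ ⟨⟨t, ht⟩, rfl⟩
    induction ht using Algebra.adjoin_induction with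
    | mem z hz =>
      rcases hz with ⟨l, hl, hlM, hlS, rfl⟩ | ⟨l, hlM, hl, hlS, rfl⟩
      · have hlL : ¬ l ∣ L := fun hd => hlS (hyp.LS l hl hd)
        exact ⟨_, ((hchig l hl hlM hlS).trans (hcoef l hl hlL hlS)).symm⟩
      · exact absurd (hMS l hl hlM) hlS
    | algebraMap n => exact ⟨(n : heckeRing L H (↑S : Set ℕ)), by
        rw [map_intCast, ← map_intCast chig n]; rfl⟩
    | add a b _ _ ha hb =>
      obtain ⟨u, hu⟩ := ha
      obtain ⟨v, hv⟩ := hb
      exact ⟨u + v, by rw [map_add, hu, hv, ← map_add]; rfl⟩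
    | mul a b _ _ ha hb =>
      obtain ⟨u, hu⟩ := ha
      obtain ⟨v, hv⟩ := hb
      exact ⟨u * v, by rw [map_mul, hu, hv, ← map_mul]; rfl⟩
  let iota : chig.range →+* O' := ι.comp (Subring.inclusion hle)
  have hiota : ∀ (l : ℕ) (hl : l.Prime) (hlM : ¬ l ∣ M) (hlL : ¬ l ∣ L)
      (hlS : l ∉ (↑S : Set ℕ)),
      (iota.comp chig.rangeRestrict) (heckeAlgebra.T hl hlM hlS) =
        f (twistedT h hl hlL hlS) := fun l hl hlM hlL hlS => by
    rw [← hf]
    exact congrArg ι (Subtype.ext ((hchig l hl hlM hlS).trans (hcoef l hl hlL hlS)))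
  have hpO' : (p : O') ∈ maximalIdeal O' :=
    map_natCast (algebraMap O O') p ▸ map_nonunit (algebraMap O O') _ hyp.mem
  -- the specialised representation
  let y : heckeLocal (L * R) (↑S : Set ℕ) O D.θ' →+* O' :=
    x.toRingHom.comp D.ψ.toRingHom
  have := hx
  have := D.ψ_local
  have hy : IsLocalHom y := inferInstanceAs (IsLocalHom (x.toRingHom.comp D.ψ.toRingHom))
  have hspan : Submodule.span (ResidueField O) (Set.range ρ₀) = ⊤ :=
    Deformation.span_range_eq_top hyp.matrix hyp.absIrr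
  have hcompare : ∀ (O'' : Type) [CommRing O''] [IsDomain O''] [IsDiscreteValuationRing O'']
      [IsAdicComplete (maximalIdeal O'') O''] [Finite (ResidueField O'')] [CharZero O'']
      [Algebra O' O''] [IsLocalHom (algebraMap O' O'')] (ρ : GaloisRepAdic O''),
      (∀ (l : ℕ) (hl : l.Prime), l ≠ p → ∀ (hlM : ¬ l ∣ M) (hlS : l ∉ (↑S : Set ℕ)),
        ∀ A : ValuationSubring ℚbar, A.LiesOverPrime l → ∀ σ : GQ, A.IsFrobeniusAt σ l →
          LinearMap.charpoly (ρ.ρ σ) = X ^ 2 - C (algebraMap O' O''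
            ((iota.comp chig.rangeRestrict) (heckeAlgebra.T hl hlM hlS))) * X + C ((l : O''))) →
      (∀ σ, LinearMap.charpoly (ρ.ρ σ) = ((D.M₀ σ).map ((algebraMap O' O'').comp y)).charpoly) ∧
        (ofMatrix _ (matCont_mapRep ((algebraMap O' O'').comp y) (RingHom.isLocalHom_comp _ _)
          D.cont)).DetIsCyclotomic p ∧
        ρ.residual.IsAbsolutelyIrreducible ∧ ρ.residual.IsOdd := by
    intro O'' _ _ _ _ _ _ _ _ ρ hρ
    have := hy
    set z := (algebraMap O' O'').comp y with hz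
    have hloc : IsLocalHom z := RingHom.isLocalHom_comp _ _
    have hc : MatCont (mapRep z D.M₀) := matCont_mapRep _ hloc D.cont
    have hcp : ∀ (l : ℕ) (hl : l.Prime) (hlS : l ∉ (↑S : Set ℕ)), ∀ A : ValuationSubring ℚbar,
        A.LiesOverPrime l → ∀ σ : GQ, A.IsFrobeniusAt σ l →
          z (D.M₀ σ).trace = algebraMap O' O'' (f (twistedT h hl
            (fun hd => hlS (hyp.LS l hl hd)) hlS)) ∧ z (D.M₀ σ).det = (l : O'') := by
      intro l hl hlS A hA σ hσ
      obtain ⟨htr, hd⟩ := D.frob l hl (fun hd => hlS (hyp.LS l hl hd)) hlS A hA σ hσ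
      refine ⟨?_, by rw [hd, map_natCast]⟩
      show algebraMap O' O'' (x (D.ψ (D.M₀ σ).trace)) = _
      exact congrArg (fun t => algebraMap O' O'' (x t)) htr
    have hpO'' : (p : O'') ∈ maximalIdeal O'' :=
      map_natCast (algebraMap O' O'') p ▸ map_nonunit (algebraMap O' O'') _ hpO'
    have hdet : (ofMatrix (mapRep z D.M₀) hc).DetIsCyclotomic p :=
      detIsCyclotomic_of_frobenius _ hyp.prime hpO'' S fun l hl hlS A hA σ hσ => by
        show LinearMap.det (Matrix.toLin' (mapRep z D.M₀ σ)) = _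
        rw [LinearMap.det_toLin', mapRep_apply, ← RingHom.mapMatrix_apply, ← RingHom.map_det,
          (hcp l hl (by simpa using hlS) A hA σ hσ).2]
    have hspan' : Submodule.span (ResidueField O'')
        (Set.range (mapRep (residue O'') (mapRep z D.M₀))) = ⊤ := by
      have hres : mapRep (residue O'') (mapRep z D.M₀) =
          mapRep ((ResidueField.map z).comp (ResidueField.map (algebraMap O _))) ρ₀ := by
        rw [mapRep_comp, ← mapRep_comp (ResidueField.map z), ← D.reduces, mapRep_comp]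
        exact congrArg (fun g => mapRep g D.M₀) (RingHom.ext fun w => rfl)
      rw [hres]
      exact GalRep.span_map_eq_top _ hspan
    obtain ⟨h1, h2, h3⟩ := charpoly_absIrr_odd_of_matrix hyp.prime hyp.ne_two hc hdet hspan' ρ S
      fun l hl hlS A hA σ hσ => by
        have hlS' : l ∉ (↑S : Set ℕ) := by simpa using hlS
        obtain ⟨htr, hd⟩ := hcp l hl hlS' A hA σ hσ
        rw [hρ l hl (fun e => hlS (e ▸ hyp.mem_S)) (fun hd => hlS (hMS l hl hd)) hlS' A hA σ hσ,
          hiota l hl _ (fun hd => hlS (hyp.LS l hl hd)) hlS', mapRep_apply, Matrix.charpoly_map,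
          Matrix.charpoly_fin_two]
        simp only [Polynomial.map_add, Polynomial.map_sub, Polynomial.map_mul, Polynomial.map_pow,
          Polynomial.map_X, Polynomial.map_C, htr, hd]
    exact ⟨h1, hdet, h2, h3⟩
  obtain ⟨O'', _, _, _, _, _, _, _, _, _, -, ρ, hρ, hnu⟩ :=
    Carayol.exists_galoisRep_not_isUnipotentOnInertiaAt hG p (fun N _ => hyp.red N) S O'
      hpO' chig hchig iota hyp.mem_S hMS fun O'' _ _ _ _ _ _ _ _ _ _ ρ hρ => by
        obtain ⟨-, -, h1, h2⟩ := hcompare O'' ρ hρ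
        exact ⟨h1, h2⟩
  obtain ⟨hchar, hdetc, -, -⟩ := hcompare O'' ρ
    fun l hl _ hlM hlS A hA σ hσ => hρ l hl hlM hlS A hA σ hσ
  refine hnu q hq hqp hfac fun P hP σ hσ => ?_
  rw [hchar σ, Matrix.charpoly_map, Matrix.charpoly_fin_two]
  have hdet1 : ((algebraMap O' O'').comp y) (D.M₀ σ).det = 1 := by
    refine eq_of_forall_sub_mem_pow fun n => ?_
    have h1 := hdetc.2 n σ 1 fun μ hμ => by
      rw [pow_one]
      exact Gal.Tame.apply_eq_of_pow_eq_one hq hP hσ
        (fun hd => hqp ((Nat.prime_dvd_prime_iff_eq hq hyp.prime).1 (hq.dvd_of_dvd_pow hd))) hμ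
    rw [Nat.cast_one] at h1
    have h2 : (Ideal.span {((p ^ n : ℕ) : O'')}) ≤ maximalIdeal O'' ^ n := by
      rw [Ideal.span_singleton_le_iff_mem, Nat.cast_pow]
      exact Ideal.pow_mem_pow (map_natCast (algebraMap O' O'') p ▸ map_nonunit _ _ hpO') n
    have h3 : LinearMap.det (Matrix.toLin' (mapRep ((algebraMap O' O'').comp y) D.M₀ σ)) - 1 ∈
        maximalIdeal O'' ^ n := h2 h1
    rwa [LinearMap.det_toLin', mapRep_apply, ← RingHom.mapMatrix_apply, ← RingHom.map_det] at h3
  simp only [Polynomial.map_add, Polynomial.map_sub, Polynomial.map_mul, Polynomial.map_pow,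
    Polynomial.map_X, Polynomial.map_C, hdet1]
  rw [show ((algebraMap O' O'').comp y) (D.M₀ σ).trace = 2 by
    show algebraMap O' O'' (x (D.ψ (D.M₀ σ).trace)) = 2
    rw [hall P hP σ hσ, map_ofNat]]
  simp only [map_one, map_ofNat]
  ring

end Points

end Fermat.Agent.TW
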