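import Fermat.Agent.TW.Points
import Fermat.Agent.TW.DetCyclotomic
import Fermat.Agent.GalRep.Attached
import Fermat.Agent.HeckeDatum.FromDatum
import Fermat.Agent.Semistable.Glue
import Fermat.Agent.FlatModel.FlatAt

/-!
# The matrix representation over the local Hecke ring of `Γ_H(L)`

`TWHyp` collects the standing hypotheses at level `Γ_H(L)`; `nonempty_twRep` gives a matrix
representation over the local Hecke ring reducing to the given residual one (`TWRep`), with local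
properties inherited from the datum of level `Γ₀(L R)`.
-/

set_option autoImplicit false

noncomputable section

namespace Fermat.Agent.TW

open IsLocalRing Polynomial Fermat.Agent.Deformation Fermat.Agent.GammaH CuspForm
open scoped Pointwise

local notation "ℚbar" => AlgebraicClosure ℚ

/-- Pushing forward keeps continuity. -/
theorem matCont_mapRep {A B : Type} [CommRing A] [IsLocalRing A] [CommRing B] [IsLocalRing B]
    (φ : A →+* B) (hφ : IsLocalHom φ) {M : GQ →* M2 A} (hM : MatCont M) : MatCont (mapRep φ M) := by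
  intro n
  obtain ⟨F, hF, h⟩ := hM n
  refine ⟨F, hF, fun σ hσ i j => ?_⟩
  have h1 := Ideal.mem_map_of_mem φ (h σ hσ i j)
  rw [Ideal.map_pow] at h1
  have h2 : (maximalIdeal A).map φ ≤ maximalIdeal B := Ideal.map_le_iff_le_comap.mpr
    fun a ha => haveI := hφ; map_nonunit φ a ha
  refine Ideal.pow_right_mono h2 n ?_
  convert h1 using 1
  rcases eq_or_ne i j with rfl | hij
  · simp [Matrix.one_apply_eq]
  · simp [Matrix.one_apply_ne hij]

theorem flatAt_of_isEquiv {A : Type} [CommRing A] [IsLocalRing A] {ρ ρ' : GaloisRepAdic A} {p : ℕ}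
    (e : ρ.IsEquiv ρ') (h : ρ.IsFlatAt p) : ρ'.IsFlatAt p := by
  obtain ⟨e⟩ := e
  refine ⟨h.1, fun I hI => ?_⟩
  obtain ⟨Hp, iC, iH, h1, h2, h3, f, hf1, hf2⟩ := h.2 I hI
  let g : (ρ.V ⧸ (I • (⊤ : Submodule A ρ.V))) ≃ₗ[A] (ρ'.V ⧸ (I • (⊤ : Submodule A ρ'.V))) :=
    Submodule.Quotient.equiv _ _ e.toLinearEquiv (by
      rw [Submodule.map_smul'', Submodule.map_top,
        LinearMap.range_eq_top.2 e.toLinearEquiv.surjective])
  refine ⟨Hp, iC, iH, h1, h2, h3, f.trans g.toEquiv, fun a b => ?_, fun σ a b hab => ?_⟩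
  · show g (f (a * b)) = g (f a) + g (f b)
    rw [hf1, map_add]
  · show g (f b) = ρ'.levelAction I σ (g (f a))
    rw [hf2 σ a b hab]
    obtain ⟨v, hv⟩ := Submodule.Quotient.mk_surjective _ (f a)
    rw [← hv]
    show g (Submodule.Quotient.mk (ρ.ρ σ v)) = Submodule.Quotient.mk (ρ'.ρ σ (e.toLinearEquiv v))
    rw [← e.map_apply]
    rfl

variable {p L R h : ℕ} [NeZero L] [NeZero R] {H : Subgroup (ZMod L)ˣ} {S : Finset ℕ}
  {O : Type} [CommRing O] [IsDomain O] [IsDiscreteValuationRing O]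
  [IsAdicComplete (maximalIdeal O) O] [Finite (ResidueField O)] [CharZero O]

/-- The standing hypotheses at level `Γ_H(L)`. -/
structure TWHyp (p R h : ℕ) [NeZero R] (hH : (-1 : (ZMod L)ˣ) ∈ H)
    (θ : heckeRing L H (↑S : Set ℕ) →+* ResidueField O)
    (ρbar : ResidualGaloisRep (ResidueField O)) (ρ₀ : GQ →* M2 (ResidueField O)) : Prop where
  prime : p.Prime
  ne_two : p ≠ 2
  mem : (p : O) ∈ maximalIdeal O
  mem_S : p ∈ S
  red : ∀ (N : ℕ) [NeZero N], GalRep.TorsionReduction N p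
  R_dvd : R ∣ L
  ker_le : (ZMod.unitsMap R_dvd).ker ≤ H
  odd : ∀ a : (ZMod L)ˣ, a ^ (2 * h + 1) ∈ H
  LS : ∀ q : ℕ, q.Prime → q ∣ L → q ∈ S
  matrix : IsResMatrixRep ρbar ρ₀
  absIrr : ρbar.IsAbsolutelyIrreducible
  frob : ∀ (l : ℕ) (hl : l.Prime) (hlL : ¬ l ∣ L) (hlS : l ∉ (↑S : Set ℕ)),
    ∀ A : ValuationSubring ℚbar, A.LiesOverPrime l → ∀ σ : GQ, A.IsFrobeniusAt σ l →
      LinearMap.charpoly (ρbar.ρ σ) =
        X ^ 2 - C (θ (twistedT h hl hlL hlS)) * X + C ((l : ResidueField O))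

/-- The representation over the local Hecke ring, as pushed forward from a datum of level
`Γ₀(L R)`. -/
structure TWRep [Fact (HasIntegralStructure (L * R) 2)] (p R' h : ℕ) (_hR : R' = R)
    (hH : (-1 : (ZMod L)ˣ) ∈ H) (θ : heckeRing L H (↑S : Set ℕ) →+* ResidueField O)
    (ρ₀ : GQ →* M2 (ResidueField O)) where
  θ' : heckeAlgebra (L * R) 2 (↑S : Set ℕ) →+* ResidueField O
  ψ : heckeLocal (L * R) (↑S : Set ℕ) O θ' →ₐ[O] TWRing hH O θ
  ψ_local : IsLocalHom ψ.toRingHom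
  M₀ : GQ →* M2 (heckeLocal (L * R) (↑S : Set ℕ) O θ')
  cont : MatCont M₀
  reduces : mapRep (residue (heckeLocal (L * R) (↑S : Set ℕ) O θ')) M₀ =
    mapRep (ResidueField.map (algebraMap O (heckeLocal (L * R) (↑S : Set ℕ) O θ'))) ρ₀
  det : (ofMatrix M₀ cont).DetIsCyclotomic p
  unramified : ∀ q : ℕ, q.Prime → q ≠ p → ¬ q ∣ L * R → ∀ P : ValuationSubring ℚbar,
    P.LiesOverPrime q → ∀ σ ∈ P.inertiaSubgroupIn ℚ, M₀ σ = 1
  unipotent : ∀ q : ℕ, q.Prime → q ≠ p → q ∣ L * R → ¬ q ^ 2 ∣ L * R →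
    ∀ P : ValuationSubring ℚbar, P.LiesOverPrime q → ∀ σ ∈ P.inertiaSubgroupIn ℚ,
      (M₀ σ).trace = 2 ∧ (M₀ σ).det = 1
  flat : ¬ p ∣ L * R → (ofMatrix M₀ cont).IsFlatAt p
  frob : ∀ (l : ℕ) (hl : l.Prime) (hlL : ¬ l ∣ L) (hlS : l ∉ (↑S : Set ℕ)),
    ∀ A : ValuationSubring ℚbar, A.LiesOverPrime l → ∀ σ : GQ, A.IsFrobeniusAt σ l →
      ψ (M₀ σ).trace = toTWRing hH O θ (HeckeO.ofT O (twistedT h hl hlL hlS)) ∧
        (M₀ σ).det = (l : heckeLocal (L * R) (↑S : Set ℕ) O θ')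

theorem trace_det_of_charpoly_eq {A : Type} [CommRing A] [Nontrivial A] {X' : M2 A} {a b : A}
    (h : X'.charpoly = X ^ 2 - C a * X + C b) : X'.trace = a ∧ X'.det = b := by
  rw [Matrix.charpoly_fin_two] at h
  have h0 := congrArg (fun P : A[X] => P.coeff 0) h
  have h1 := congrArg (fun P : A[X] => P.coeff 1) h
  simp [coeff_X_pow] at h0 h1
  exact ⟨h1, h0⟩

/-- **The representation exists.** -/
theorem nonempty_twRep [Fact (HasIntegralStructure (L * R) 2)] {hH : (-1 : (ZMod L)ˣ) ∈ H}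
    {θ : heckeRing L H (↑S : Set ℕ) →+* ResidueField O}
    {ρbar : ResidualGaloisRep (ResidueField O)} {ρ₀ : GQ →* M2 (ResidueField O)}
    (hyp : TWHyp (H := H) p R h hH θ ρbar ρ₀) :
    Nonempty (TWRep (H := H) (S := S) (O := O) p R h (rfl : R = R) hH θ ρ₀) := by
  have := Fact.mk hyp.prime
  have hin : GalRep.RepInput p (L * R) := fun S' hpS' hNS' O' _ _ _ _ _ _ hp' χ =>
    GalRep.exists_galoisRep_of_torsionReduction p (L * R) (hyp.red _) S' hpS' hNS' O' hp' χ
  obtain ⟨θ', D, ψ, hψ, hDπ, hDres, hval, hfrob⟩ := exists_twRep hin hyp.mem hyp.mem_S hH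
    hyp.R_dvd hyp.ker_le hyp.odd hyp.LS θ ρbar hyp.absIrr hyp.frob
  have hNS : ∀ q : ℕ, q.Prime → q ∣ L * R → q ∈ S := fun q hq hd =>
    (hq.dvd_mul.1 hd).elim (hyp.LS q hq) fun hqR => hyp.LS q hq (hqR.trans hyp.R_dvd)
  obtain ⟨M, hM⟩ := exists_isMatrixRep D.ρ
  obtain ⟨U, hU⟩ := (isResEquiv_iff_areConj hM.residual (hyp.matrix.baseChangeAlong _)).1 hDres
  -- a lift of `U`
  let T' := heckeLocal (L * R) (↑S : Set ℕ) O θ'
  choose w hw using fun x : ResidueField T' => residue_surjective x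
  let U₀ : M2 T' := (U : M2 (ResidueField T')).map w
  have hU₀ : (residue T').mapMatrix U₀ = (U : M2 (ResidueField T')) :=
    Matrix.ext fun i j => hw _
  have hU₀u : IsUnit U₀ := by
    rw [Matrix.isUnit_iff_isUnit_det]
    refine isUnit_of_map_unit (residue T') _ ?_
    rw [RingHom.map_det, hU₀, ← Matrix.isUnit_iff_isUnit_det]
    exact U.isUnit
  let M₀ := conjRep hU₀u.unit M
  have hM₀ : IsMatrixRep D.ρ M₀ := hM.conjRep _
  have hequiv : D.ρ.IsEquiv (ofMatrix M₀ hM₀.matCont) :=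
    hM₀.isEquiv (isMatrixRep_ofMatrix M₀ hM₀.matCont)
  have hchar : ∀ σ, (M₀ σ).charpoly = LinearMap.charpoly (D.ρ.ρ σ) := fun σ => by
    obtain ⟨b, hb⟩ := hM₀
    rw [← hb σ, LinearMap.charpoly_toMatrix]
  refine ⟨{
    θ' := θ', ψ := ψ, ψ_local := hψ, M₀ := M₀, cont := hM₀.matCont
    reduces := ?_, det := ?_, unramified := ?_, unipotent := ?_, flat := ?_, frob := ?_ }⟩
  · refine MonoidHom.ext fun σ => ?_
    have h1 := hU σ
    show (residue T').mapMatrix (U₀ * M σ * (↑hU₀u.unit⁻¹ : M2 T')) = _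
    have h2 : (residue T').mapMatrix (↑hU₀u.unit⁻¹ : M2 T') = (↑U⁻¹ : M2 (ResidueField T')) := by
      refine Units.eq_inv_of_mul_eq_one_right ?_
      rw [← hU₀, ← map_mul, hU₀u.val_inv_mul, map_one]
    rw [map_mul, map_mul, hU₀, h2,
      show (residue T').mapMatrix (M σ) = mapRep (residue T') M σ from rfl, h1, mul_assoc,
      Units.mul_inv, mul_one]
  · refine detIsCyclotomic_of_frobenius _ hyp.prime
      (map_natCast (algebraMap O T') p ▸ map_nonunit (algebraMap O T') _ hyp.mem) S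
      fun l hl hlS P hP σ hσ => ?_
    have hd := trace_det_of_charpoly_eq ((hchar σ).trans
      (D.charpoly_frob l hl (fun hd => hlS (hNS l hl hd)) (by simpa using hlS) P hP σ hσ))
    show LinearMap.det (Matrix.toLin' (M₀ σ)) = _
    rw [LinearMap.det_toLin', hd.2]
  · intro q hq hqp hqN P hP σ hσ
    have := HeckeDatum.isUnramifiedAt_of_tower hyp.prime S.finite_toSet hyp.mem D q
      (HeckeDatum.torsionTower_unramified hyp.prime (GalRep.jZeroDatum (L * R) p (hyp.red _)) _ q hq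
        fun hd => (hq.dvd_mul.1 hd).elim hqN
          fun h' => hqp ((Nat.prime_dvd_prime_iff_eq hq hyp.prime).1 h')) P hP σ hσ
    obtain ⟨b, hb⟩ := hM₀
    rw [← hb σ, this, LinearMap.toMatrix_one]
  · intro q hq hqp hqN hq2 P hP σ hσ
    have h1 := Semistable.isUnipotentOnInertiaAt_of_torsionReduction hyp.prime hyp.mem
      (hyp.red _) D q hq hqp hqN hq2 P hP σ hσ
    refine trace_det_of_charpoly_eq ((hchar σ).trans (h1.trans ?_))
    simp only [map_one, map_ofNat]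
    ring
  · intro hpN
    exact flatAt_of_isEquiv hequiv (FlatModel.isFlatAt_of_torsionReduction hyp.prime
      hyp.mem hpN (hyp.red _) D)
  · intro l hl hlL hlS A hA σ hσ
    have hlM : ¬ l ∣ L * R := fun hd => hlS (hNS l hl hd)
    have hd := trace_det_of_charpoly_eq
      ((hchar σ).trans (D.charpoly_frob l hl hlM hlS A hA σ hσ))
    exact ⟨by rw [hd.1, hval l hl hlL hlM hlS], hd.2⟩

end Fermat.Agent.TW
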