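import Fermat.Agent.Density.Reps
import Fermat.Agent.Deformation.MatrixRep
import Fermat.Agent.Gal.Frobenius

/-!
# Auxiliary primes

`exists_aux_prime`: for a residual representation with finite image spanning the `2 × 2` matrices
there is a prime `l ≡ 1` modulo any given level, and `l = 1` in the residue field, at which the
trace of Frobenius differs from `2 = l + 1`.
-/

set_option autoImplicit false

noncomputable section

namespace Fermat.Agent.TW

open IsLocalRing Fermat.Agent.Deformation
open scoped commutatorElement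

local notation "ℚbar" => AlgebraicClosure ℚ

variable {k : Type} [Field k]

theorem sq_sub_one_eq_zero {T : M2 k} (hd : T.det = 1) (ht : T.trace = 2) :
    (T - 1) * (T - 1) = 0 := by
  rw [Matrix.det_fin_two] at hd
  rw [Matrix.trace_fin_two] at ht
  refine Matrix.ext fun i j => ?_
  fin_cases i <;> fin_cases j <;> simp [Matrix.mul_apply, Fin.sum_univ_two]
  · linear_combination T 0 0 * ht - hd
  · linear_combination T 0 1 * ht
  · linear_combination T 1 0 * ht
  · linear_combination T 1 1 * ht - hd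

theorem trace_pow_eq_two {T : M2 k} (hd : T.det = 1) (ht : T.trace = 2) (n : ℕ) :
    (T ^ n).trace = 2 := by
  have hn : (T - 1) * (T - 1) = 0 := sq_sub_one_eq_zero hd ht
  have hp : T ^ n = 1 + n • (T - 1) := by
    induction n with
    | zero => simp
    | succ n ih =>
      rw [pow_succ, ih]
      conv_lhs => arg 2; rw [← add_sub_cancel 1 T]
      simp only [add_mul, mul_add, smul_mul_assoc, one_mul, mul_one, hn, smul_zero, add_zero]
      rw [succ_nsmul]
      abel
  rw [hp, Matrix.trace_add, Matrix.trace_smul, Matrix.trace_sub, ht, Matrix.trace_one]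
  simp

/-- **Some commutator has trace `≠ 2`.** -/
theorem exists_commutator_trace_ne_two {G : Type} [Group G] (ρ : G →* M2 k)
    (hspan : Submodule.span k (Set.range ρ) = ⊤) :
    ∃ g ∈ commutator G, (ρ g).trace ≠ 2 := by
  by_contra! hall
  have hinv : ∀ g, ρ g * ρ g⁻¹ = 1 := fun g => by rw [← map_mul, mul_inv_cancel, map_one]
  have hdet : ∀ g ∈ commutator G, (ρ g).det = 1 := by
    intro g hg
    let δ : G →* kˣ := MonoidHom.toHomUnits
      { toFun := fun x => (ρ x).det, map_one' := by simp, map_mul' := fun x y => by simp }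
    exact congrArg Units.val (MonoidHom.mem_ker.1 (Abelianization.commutator_subset_ker δ hg))
  by_cases htriv : ∀ g ∈ commutator G, ρ g = 1
  · -- an abelian image spans a commutative algebra
    have hcomm : ∀ a b, ρ a * ρ b = ρ b * ρ a := fun a b => by
      have h := htriv ⁅a, b⁆ (Subgroup.commutator_mem_commutator (Subgroup.mem_top a)
        (Subgroup.mem_top b))
      calc ρ a * ρ b = ρ ⁅a, b⁆ * (ρ b * ρ a) := by
            rw [← map_mul, ← map_mul, ← map_mul, commutatorElement_def]; group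
        _ = _ := by rw [h, one_mul]
    have h1 : ∀ X Y : M2 k, X * Y = Y * X := by
      have h0 : ∀ a, ∀ Y : M2 k, ρ a * Y = Y * ρ a := fun a Y => by
        have hY : Y ∈ Submodule.span k (Set.range ρ) := hspan ▸ Submodule.mem_top
        induction hY using Submodule.span_induction with
        | mem x hx => obtain ⟨b, rfl⟩ := hx; exact hcomm a b
        | zero => rw [mul_zero, zero_mul]
        | add x y _ _ hx hy => rw [mul_add, add_mul, hx, hy]
        | smul c x _ hx => rw [mul_smul_comm, smul_mul_assoc, hx]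
      intro X Y
      have hX : X ∈ Submodule.span k (Set.range ρ) := hspan ▸ Submodule.mem_top
      induction hX using Submodule.span_induction with
      | mem x hx => obtain ⟨b, rfl⟩ := hx; exact h0 b Y
      | zero => rw [mul_zero, zero_mul]
      | add x y _ _ hx hy => rw [mul_add, add_mul, hx, hy]
      | smul c x _ hx => rw [mul_smul_comm, smul_mul_assoc, hx]
    have h3 := congrFun (congrFun (h1 !![0, 1; 0, 0] !![0, 0; 1, 0]) 0) 0
    simp [Matrix.mul_apply, Fin.sum_univ_two] at h3
  push Not at htriv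
  obtain ⟨g, hg, hg1⟩ := htriv
  set A : M2 k := ρ g - 1 with hA
  have hA2 : A * A = 0 := sq_sub_one_eq_zero (hdet g hg) (hall g hg)
  have htrA : A.trace = 0 := by
    rw [hA, Matrix.trace_sub, hall g hg, Matrix.trace_one]; simp
  have hkey : ∀ x, (A * ρ x).trace = 0 := by
    intro x
    have hc : x * g * x⁻¹ ∈ commutator G :=
      (inferInstance : (commutator G).Normal).conj_mem g hg x
    have h1 := hall _ (mul_mem hg hc)
    have hB : ρ (x * g * x⁻¹) = 1 + ρ x * A * ρ x⁻¹ := by
      rw [map_mul, map_mul, hA, mul_sub, mul_one, sub_mul, hinv, add_sub_cancel]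
    rw [map_mul, show ρ g = 1 + A by rw [hA, add_sub_cancel], hB] at h1
    simp only [add_mul, mul_add, one_mul, mul_one, Matrix.trace_add, Matrix.trace_one,
      Fintype.card_fin, Nat.cast_ofNat, htrA] at h1
    have hB0 : (ρ x * A * ρ x⁻¹).trace = 0 := by
      rw [Matrix.trace_mul_comm, ← mul_assoc, ← map_mul, inv_mul_cancel, map_one, one_mul, htrA]
    rw [hB0] at h1
    -- the adjugate replaces the inverse
    have hadj : (ρ x).det • ρ x⁻¹ = (ρ x).trace • (1 : M2 k) - ρ x := by
      have h4 : ρ x⁻¹ * ((ρ x) * ((ρ x).trace • (1 : M2 k) - ρ x)) =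
          ρ x⁻¹ * ((ρ x).det • (1 : M2 k)) := by
        congr 1
        refine Matrix.ext fun i j => ?_
        fin_cases i <;> fin_cases j <;>
          simp [Matrix.mul_apply, Fin.sum_univ_two, Matrix.trace_fin_two, Matrix.det_fin_two] <;>
          ring
      rwa [← mul_assoc, ← map_mul, inv_mul_cancel, map_one, one_mul, mul_smul_comm, mul_one,
        eq_comm] at h4
    have h5 : (A * (ρ x * A * ρ x⁻¹)).trace = 0 := by simpa using h1
    have h6 : (A * (ρ x * A * ((ρ x).trace • (1 : M2 k) - ρ x))).trace = 0 := by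
      rw [← hadj, mul_smul_comm, mul_smul_comm, Matrix.trace_smul, h5, smul_zero]
    have h7 : (A * (ρ x * A)).trace = 0 := by
      rw [← mul_assoc, Matrix.trace_mul_comm, ← mul_assoc, hA2, zero_mul, Matrix.trace_zero]
    simp only [mul_sub, mul_smul_comm, mul_one, Matrix.trace_sub, Matrix.trace_smul, h7, smul_zero,
      zero_sub, neg_eq_zero] at h6
    have hdetA : A.det = 0 := by
      have := congrArg Matrix.det hA2
      rw [Matrix.det_mul, Matrix.det_zero] at this
      exact mul_self_eq_zero.1 this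
    have h9 : (A * ρ x).trace * (A * ρ x).trace = 0 := by
      have hsq : (A * ρ x * (A * ρ x)).trace =
          (A * ρ x).trace * (A * ρ x).trace - 2 * (A * ρ x).det := by
        simp [Matrix.trace_fin_two, Matrix.det_fin_two, Matrix.mul_apply, Fin.sum_univ_two]
        ring
      rw [Matrix.det_mul, hdetA, zero_mul, mul_zero, sub_zero] at hsq
      rw [← hsq, ← h6]
      simp only [mul_assoc]
    exact mul_self_eq_zero.1 h9
  have hall' : ∀ X : M2 k, (A * X).trace = 0 := fun X => by
    have hX : X ∈ Submodule.span k (Set.range ρ) := hspan ▸ Submodule.mem_top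
    induction hX using Submodule.span_induction with
    | mem x hx => obtain ⟨b, rfl⟩ := hx; exact hkey b
    | zero => rw [mul_zero, Matrix.trace_zero]
    | add x y _ _ hx hy => rw [mul_add, Matrix.trace_add, hx, hy, add_zero]
    | smul c x _ hx => rw [mul_smul_comm, Matrix.trace_smul, hx, smul_zero]
  refine hg1 (sub_eq_zero.1 (Matrix.ext fun i j => ?_))
  have := hall' (Matrix.single j i 1)
  fin_cases i <;> fin_cases j <;>
    simpa [hA, Matrix.trace, Matrix.diag, Matrix.mul_apply, Matrix.single, Fin.sum_univ_two]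
      using this

/-- **The auxiliary prime.** -/
theorem exists_aux_prime {p : ℕ} (hp : p.Prime) (hpk : (p : k) = 0) (_ : (2 : k) ≠ 0)
    (ρ : GQ →* M2 k) (hfin : GaloisFactorsThroughFiniteLevel ρ)
    (hspan : Submodule.span k (Set.range ρ) = ⊤) (S : Finset ℕ)
    (hdet : ∀ l : ℕ, l.Prime → l ∉ S → ∀ A : ValuationSubring ℚbar, A.LiesOverPrime l →
      ∀ σ : GQ, A.IsFrobeniusAt σ l → (ρ σ).det = (l : k)) {L : ℕ} (hL : L ≠ 0) :
    ∃ l : ℕ, l.Prime ∧ l ∉ S ∧ ¬ l ∣ L ∧ l ≠ p ∧ (l : ZMod L) = 1 ∧ (l : k) = 1 ∧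
      ∀ A : ValuationSubring ℚbar, A.LiesOverPrime l → ∀ σ : GQ, A.IsFrobeniusAt σ l →
        (ρ σ).trace ≠ 2 := by
  classical
  obtain ⟨σ, hσc, hσ⟩ := exists_commutator_trace_ne_two ρ hspan
  set M := L * p with hM
  have : NeZero M := ⟨mul_ne_zero hL hp.ne_zero⟩
  obtain ⟨μ, hμ⟩ := HasEnoughRootsOfUnity.exists_primitiveRoot ℚbar M
  have hσμ : σ μ = μ := by
    have h1 : hμ.autToPow ℚ σ = 1 :=
      MonoidHom.mem_ker.1 (Abelianization.commutator_subset_ker (hμ.autToPow ℚ) hσc)
    rw [← hμ.autToPow_spec ℚ σ, h1, Units.val_one]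
    rcases Nat.lt_or_ge 1 M with h | h
    · have := Fact.mk h; rw [ZMod.val_one, pow_one]
    · exact absurd (Nat.le_mul_of_pos_left p (Nat.pos_of_ne_zero hL)) (by
        have := hp.two_le; omega)
  obtain ⟨F, hF, hF1⟩ := hfin
  have := hF
  have : FiniteDimensional ℚ (IntermediateField.adjoin ℚ {μ}) :=
    IntermediateField.adjoin.finiteDimensional (Algebra.IsIntegral.isIntegral μ)
  let F' := F ⊔ IntermediateField.adjoin ℚ {μ}
  have : FiniteDimensional ℚ F' := IntermediateField.finiteDimensional_sup _ _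
  set N := IntermediateField.normalClosure ℚ F' ℚbar
  have : Normal ℚ N := normalClosure.normal ℚ F' ℚbar
  have hN : ∀ x ∈ F', x ∈ N := fun x hx => F'.le_normalClosure hx
  have hμN : μ ∈ N := hN μ ((le_sup_right : IntermediateField.adjoin ℚ {μ} ≤ F')
    (IntermediateField.mem_adjoin_simple_self ℚ μ))
  have hρN : ∀ {a b : GQ}, AlgEquiv.restrictNormalHom N a = AlgEquiv.restrictNormalHom N b →
      ρ a = ρ b ∧ a μ = b μ := fun {a b} h => by
    have hab : ∀ x ∈ N, a x = b x := fun x hx =>
      (AlgEquiv.restrictNormal_commutes a N ⟨x, hx⟩).symm.trans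
        ((congrArg (fun f : N ≃ₐ[ℚ] N => (f ⟨x, hx⟩ : ℚbar)) h).trans
          (AlgEquiv.restrictNormal_commutes b N ⟨x, hx⟩))
    exact ⟨Density.apply_eq_of_eqOn ρ F hF1 fun x hx => hab x (hN x
      ((le_sup_left : F ≤ F') hx)), hab μ hμN⟩
  obtain ⟨l, hl, hlS, hex⟩ := Density.exists_prime_zpowers_restrict_eq N σ (S ∪ M.primeFactors)
  rw [Finset.mem_union, not_or] at hlS
  have hlM : ¬ l ∣ M := fun hd =>
    hlS.2 (Nat.mem_primeFactors.2 ⟨hl, hd, NeZero.ne M⟩)
  have key : ∀ A : ValuationSubring ℚbar, A.LiesOverPrime l → ∀ τ : GQ, A.IsFrobeniusAt τ l →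
      τ μ = μ ∧ ((ρ τ).det = 1 → (ρ τ).trace ≠ 2) := by
    intro A hA τ hτ
    obtain ⟨g, hg⟩ := (hex A hA).2 τ hτ
    obtain ⟨i, hi⟩ := Subgroup.mem_zpowers_iff.1 (hg ▸ Subgroup.mem_zpowers
      (AlgEquiv.restrictNormalHom N (g * τ * g⁻¹)))
    obtain ⟨n, hn⟩ := mem_powers_iff_mem_zpowers.2 (hg ▸ Subgroup.mem_zpowers
      (AlgEquiv.restrictNormalHom N σ) :
        AlgEquiv.restrictNormalHom N σ ∈
          Subgroup.zpowers (AlgEquiv.restrictNormalHom N (g * τ * g⁻¹)))
    rw [← map_zpow] at hi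
    change AlgEquiv.restrictNormalHom N (g * τ * g⁻¹) ^ n = _ at hn
    rw [← map_pow] at hn
    refine ⟨?_, fun hd ht => hσ ?_⟩
    · have h1 : (σ ^ i) μ = (g * τ * g⁻¹) μ := (hρN hi).2
      have hfix : (σ ^ i) μ = μ := by
        have hst : σ ∈ MulAction.stabilizer GQ μ := hσμ
        exact (MulAction.stabilizer GQ μ).zpow_mem hst i
      have hpowμ : ∀ a : GQ, ∃ e : ℕ, a μ = μ ^ e := fun a =>
        ⟨_, (hμ.autToPow_spec ℚ a).symm⟩
      obtain ⟨e, he⟩ := hpowμ g⁻¹
      have h2 : τ (g⁻¹ μ) = g⁻¹ μ := by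
        have := congrArg (fun z => g⁻¹ z) (h1.symm.trans hfix)
        simpa [AlgEquiv.mul_apply, ← AlgEquiv.mul_apply g⁻¹ g] using this
      rw [he, map_pow] at h2
      obtain ⟨e', he'⟩ := hpowμ g
      have h3 : μ = (μ ^ e) ^ e' := by
        have := congrArg g he
        rw [← AlgEquiv.mul_apply, mul_inv_cancel, AlgEquiv.one_apply, map_pow, he',
          ← pow_mul, mul_comm, pow_mul] at this
        exact this
      conv_lhs => rw [h3]
      rw [map_pow, map_pow, h2, ← h3]
    · rw [← (hρN hn).1, map_pow]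
      refine trace_pow_eq_two ?_ ?_ n
      · rw [map_mul, map_mul, Matrix.det_mul_right_comm, ← map_mul, mul_inv_cancel, map_one,
          one_mul, hd]
      · rw [map_mul, map_mul, Matrix.trace_mul_cycle, ← map_mul, inv_mul_cancel, map_one, one_mul,
          ht]
  obtain ⟨A, hA⟩ := Gal.exists_liesOverPrime (L := ℚbar) hl
  obtain ⟨τ, hτ⟩ := Gal.exists_isFrobeniusAt hl hA
  have hmod : l ≡ 1 [MOD M] := by
    have h1 := Gal.apply_rootOfUnity_of_isFrobeniusAt hτ hl hA hlM hμ.pow_eq_one
    rw [(key A hA τ hτ).1] at h1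
    refine ((Nat.modEq_iff_dvd' hl.one_le).2 ((hμ.pow_eq_one_iff_dvd _).1 ?_)).symm
    refine mul_right_cancel₀ (hμ.ne_zero (NeZero.ne M)) ?_
    rw [one_mul, ← pow_succ, Nat.sub_add_cancel hl.one_le]
    exact h1.symm
  have hl1 : (l : k) = 1 := by
    have h1 : l ≡ 1 [MOD p] := hmod.of_mul_left L
    have : CharP k p := (CharP.charP_iff_prime_eq_zero hp).2 hpk
    simpa using (CharP.natCast_eq_natCast k p).2 h1
  refine ⟨l, hl, hlS.1, fun hd => hlM (dvd_mul_of_dvd_left hd p), fun h => hlM ?_,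
    by simpa using (ZMod.natCast_eq_natCast_iff l 1 L).2 (hmod.of_mul_right p), hl1,
    fun A' hA' σ' hσ' => (key A' hA' σ' hσ').2 (by rw [hdet l hl hlS.1 A' hA' σ' hσ', hl1])⟩
  rw [h]
  exact dvd_mul_left p L

end Fermat.Agent.TW
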