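import Fermat.Agent.TW.Free

/-!
# No extra torsion at `p = 3` with a prime `q ≡ 2 mod 3` in the level

Main result: `mem_GammaH_of_pow_twelve_three`.
-/

set_option autoImplicit false

noncomputable section

namespace Fermat.Agent.TW

open CongruenceSubgroup Fermat.Agent.Periods Fermat.Agent.GammaH
open scoped MatrixGroups

/-- `a² + s a + 1 = 0` has no solution mod a prime `q ≡ 2 (mod 3)` for `s = ±1`. -/
theorem sq_add_add_one_ne_zero {q : ℕ} [Fact q.Prime] (hq3 : q % 3 = 2) (a : ZMod q) :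
    a ^ 2 + a + 1 ≠ 0 := by
  intro h
  have h3 : a ^ 3 = 1 := by linear_combination (a - 1) * h
  have ha : a ≠ 0 := by
    rintro rfl
    simp at h
  have hq1 : a ^ (q - 1) = 1 := ZMod.pow_card_sub_one_eq_one ha
  have hco : Nat.Coprime 3 (q - 1) := by
    rw [Nat.Prime.coprime_iff_not_dvd Nat.prime_three]
    intro hd
    have := Nat.mod_eq_zero_of_dvd hd
    have := (Fact.out : q.Prime).two_le
    omega
  have h1 : a = 1 := by
    have := pow_gcd_eq_one.mpr ⟨h3, hq1⟩
    rwa [hco, pow_one] at this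
  subst h1
  have h0 : ((3 : ℕ) : ZMod q) = 0 := by rw [← h]; norm_num
  rw [ZMod.natCast_eq_zero_iff] at h0
  have := (Nat.prime_dvd_prime_iff_eq Fact.out Nat.prime_three).mp h0
  omega

/-- If `H'/H` is a `3`-group and some prime `q ≡ 2 (mod 3)` divides `M`, then `Γ_{H'}(M)` has no
more torsion than `Γ_H(M)`. -/
theorem mem_GammaH_of_pow_twelve_three {M : ℕ} [NeZero M] {H H' : Subgroup (ZMod M)ˣ}
    (hp : IsPGroup 3 (Dl H H')) {q : ℕ} [Fact q.Prime] (hqM : q ∣ M) (hq3 : q % 3 = 2)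
    {g : SL(2, ℤ)} (hg : g ∈ GammaH M H') (h12 : g ^ 12 = 1) : g ∈ GammaH M H := by
  have key : ∀ m : ℕ, g ^ m = 1 → Nat.Coprime 3 m → g ∈ GammaH M H := fun m hm hco => by
    refine (uMap_eq_one_iff (H := H) (⟨g, hg⟩ : GammaH M H')).mp ?_
    obtain ⟨j, hj⟩ := hp (uMap H H' ⟨g, hg⟩)
    have hm' : (uMap H H' ⟨g, hg⟩) ^ m = 1 := by
      rw [← map_pow, show (⟨g, hg⟩ : GammaH M H') ^ m = 1 from Subtype.ext (by simpa using hm),
        map_one]
    exact orderOf_eq_one_iff.mp (Nat.dvd_one.mp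
      ((Nat.Coprime.pow_left j hco) ▸ Nat.dvd_gcd (orderOf_dvd_of_pow_eq_one hj)
        (orderOf_dvd_of_pow_eq_one hm')))
  have htr2 : (g : Matrix (Fin 2) (Fin 2) ℤ).trace ≠ 1 ∧
      (g : Matrix (Fin 2) (Fin 2) ℤ).trace ≠ -1 := by
    have hc : (g 1 0 : ZMod q) = 0 := by
      have := congrArg (ZMod.castHom hqM (ZMod q)) (Gamma0_mem.mp (GammaH_le_Gamma0 hg))
      rwa [map_intCast, map_zero] at this
    have hdet := congrArg (Int.cast : ℤ → ZMod q) (Cosets.TraceClass.det_eq g)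
    push_cast at hdet
    rw [hc, mul_zero, sub_zero] at hdet
    have h1 : ∀ t : ℤ, (g : Matrix (Fin 2) (Fin 2) ℤ).trace = t →
        ((g 0 0 : ℤ) : ZMod q) + ((g 1 1 : ℤ) : ZMod q) = t := fun t ht => by
      rw [← ht, Matrix.trace_fin_two]
      push_cast
      rfl
    constructor <;> intro ht
    · refine sq_add_add_one_ne_zero hq3 (-((g 0 0 : ℤ) : ZMod q)) ?_
      have := h1 1 ht
      push_cast at this
      linear_combination ((g 0 0 : ℤ) : ZMod q) * this - hdet
    · refine sq_add_add_one_ne_zero hq3 ((g 0 0 : ℤ) : ZMod q) ?_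
      have := h1 (-1) ht
      push_cast at this
      linear_combination ((g 0 0 : ℤ) : ZMod q) * this - hdet
  obtain ⟨r, u, hu, hn⟩ := Cosets.TraceClass.isClassified_of_trace_sq_le
    (trace_sq_le_four_of_pow_twelve h12)
  have hconj : ∀ k : ℕ, (r * g * r⁻¹) ^ k = 1 → g ^ k = 1 := fun k hk => by
    rw [conj_pow, conj_eq_one_iff] at hk
    exact hk
  have htr : (r * g * r⁻¹ : SL(2, ℤ)).1.trace = (g : Matrix (Fin 2) (Fin 2) ℤ).trace :=
    Cosets.TraceClass.trace_conj r g
  refine key 4 (hconj 4 ?_) (by norm_num)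
  rcases hn with ⟨n, rfl⟩ | hfin
  · obtain rfl : n = 0 := by
      have h1 : (r * g * r⁻¹) ^ 12 = 1 := by rw [conj_pow, h12, mul_one, mul_inv_cancel]
      have h2 : (ModularGroup.T ^ n : SL(2, ℤ)) ^ 12 = 1 := by
        rcases hu with hu | hu <;> rw [hu] at h1
        · exact h1
        · rwa [Even.neg_pow (by decide)] at h1
      rw [← zpow_natCast, ← zpow_mul] at h2
      have h := congrArg (fun A : SL(2, ℤ) => (A : Matrix (Fin 2) (Fin 2) ℤ) 0 1) h2
      simp [ModularGroup.coe_T_zpow] at h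
      omega
    rcases hu with hu | hu <;> rw [hu, zpow_zero] <;> decide
  · rcases hfin with rfl | rfl | rfl
    · rcases hu with hu | hu <;> rw [hu] <;> decide
    all_goals
      exfalso
      rw [← htr] at htr2
      rcases hu with hu | hu <;> rw [hu] at htr2 <;> revert htr2 <;> decide

end Fermat.Agent.TW
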