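import Fermat.Agent.TW.Inertia
import Fermat.Agent.LocalModel.Algebra

/-!
# Local shapes over the Hecke rings

An ordinary filtration found at every point of a separating family is defined over the ring
(`exists_ordShape_of_points`); unipotent inertia with ramified reduction gives the Steinberg
shape (`exists_steinbergShape`).
-/

set_option autoImplicit false

noncomputable section

namespace Fermat.Agent.TW

open IsLocalRing Fermat.Agent.Deformation Fermat.Agent.LocalModel

local notation "ℚbar" => AlgebraicClosure ℚ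

section Ordinary

variable {A : Type} [CommRing A] {P : ValuationSubring ℚbar}

/-- The unramified character `s` cuts out a stable line. -/
def OrdShape (P : ValuationSubring ℚbar) (M : GQ →* M2 A)
    (s : P.decompositionSubgroup ℚ →* A) : Prop :=
  (∀ g : P.decompositionSubgroup ℚ, (g : GQ) ∈ P.inertiaSubgroupIn ℚ → s g = 1) ∧
    ∀ g h : P.decompositionSubgroup ℚ,
      (M g - ((M g).det * s g⁻¹) • (1 : M2 A)) * (M h - s h • (1 : M2 A)) = 0

/-- The quotient character is read off from one inertia element with eigenvalues `c ≠ 1`. -/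
theorem eq_inertiaEigen {M : GQ →* M2 A} {s : P.decompositionSubgroup ℚ →* A}
    (hs : OrdShape P M s) {σ : P.decompositionSubgroup ℚ}
    (hσ : (σ : GQ) ∈ P.inertiaSubgroupIn ℚ) (hu : IsUnit (1 - (M σ).det))
    (h : P.decompositionSubgroup ℚ) :
    s h = inertiaEigen 1 (M σ).det (M σ) (M h) := by
  have e1 : s σ = 1 := hs.1 σ hσ
  have e2 : s σ⁻¹ = 1 := hs.1 σ⁻¹ (inv_mem hσ)
  set X := M σ with hX
  set c := X.det with hc
  have hXu : IsUnit X := by
    rw [hX]; exact ⟨Units.map M (toUnits (σ : GQ)), rfl⟩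
  have h0 : ∀ g : P.decompositionSubgroup ℚ,
      (X - c • (1 : M2 A)) * (M g - s g • (1 : M2 A)) = 0 := fun g => by
    have := hs.2 σ g
    rwa [e2, mul_one] at this
  have htr : 1 + c = X.trace := by
    have h1 := h0 σ
    rw [e1, one_smul, ← hX] at h1
    have h2 : (X.trace - (1 + c)) • X = 0 := by
      refine Eq.trans ?_ h1
      refine Matrix.ext fun i j => ?_
      fin_cases i <;> fin_cases j <;>
        simp [hc, Matrix.mul_apply, Fin.sum_univ_two, Matrix.trace_fin_two, Matrix.det_fin_two] <;>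
        ring
    obtain ⟨u, hu'⟩ := hXu
    have h3 := congrArg (fun Z => (Z * (↑u⁻¹ : M2 A)) 0 0) h2
    simp only [smul_mul_assoc, ← hu', Units.mul_inv, zero_mul, Matrix.zero_apply,
      Matrix.smul_apply, Matrix.one_apply_eq, smul_eq_mul, mul_one] at h3
    rw [hu'] at h3
    exact (sub_eq_zero.1 h3).symm
  have hE : frobProj 1 c X * (M h - s h • (1 : M2 A)) = 0 := by
    rw [frobProj, smul_mul_assoc, h0, smul_zero]
  have h1 : (frobProj 1 c X * (M h - s h • (1 : M2 A))).trace = 0 := by
    rw [hE, Matrix.trace_zero]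
  rw [mul_sub, mul_smul_comm, mul_one, Matrix.trace_sub, Matrix.trace_smul,
    trace_frobProj htr hu, smul_eq_mul, mul_one, sub_eq_zero] at h1
  exact h1.symm

/-- **An ordinary filtration at every point of a separating family is defined over the ring.** -/
theorem exists_ordShape_of_points {ι : Type} {O : ι → Type} [∀ i, CommRing (O i)]
    (x : ∀ i, A →+* O i) (hinj : ∀ z, (∀ i, x i z = 0) → z = 0) {M : GQ →* M2 A}
    {σ : P.decompositionSubgroup ℚ} (hσ : (σ : GQ) ∈ P.inertiaSubgroupIn ℚ)
    (hu : IsUnit (1 - (M σ).det))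
    (s : ∀ i, P.decompositionSubgroup ℚ →* O i) (hs : ∀ i, OrdShape P (mapRep (x i) M) (s i)) :
    ∃ t : P.decompositionSubgroup ℚ →* A, OrdShape P M t ∧ ∀ i g, x i (t g) = s i g := by
  have hext : ∀ {a b : A}, (∀ i, x i a = x i b) → a = b := fun {a b} h =>
    sub_eq_zero.1 (hinj _ fun i => by rw [map_sub, h i, sub_self])
  have hdet : ∀ i (g : GQ), (mapRep (x i) M g).det = x i (M g).det := fun i g => by
    rw [RingHom.map_det, RingHom.mapMatrix_apply, mapRep_apply]
  have hval : ∀ i h, x i (inertiaEigen 1 (M σ).det (M σ) (M (h : P.decompositionSubgroup ℚ))) =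
      s i h := fun i h => by
    rw [eq_inertiaEigen (hs i) hσ (by rw [hdet, ← map_one (x i), ← map_sub]; exact hu.map (x i)) h,
      map_inertiaEigen (x i) hu, hdet, map_one]
    rfl
  refine ⟨{ toFun := fun h => inertiaEigen 1 (M σ).det (M σ) (M h)
            map_one' := hext fun i => by rw [hval, map_one, map_one]
            map_mul' := fun g h => hext fun i => by rw [map_mul (x i), hval, hval, hval, map_mul] },
    ⟨fun g hg => hext fun i => ?_, fun g h => ?_⟩, hval⟩
  · show x i (inertiaEigen 1 _ _ _) = _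
    rw [hval, map_one, (hs i).1 g hg]
  · refine Matrix.ext fun a b => hext fun i => ?_
    rw [Matrix.zero_apply, map_zero]
    have h1 := congrFun (congrFun ((hs i).2 g h) a) b
    rw [hdet, Matrix.zero_apply] at h1
    rw [← h1, ← hval i g⁻¹, ← hval i h]
    simp [Matrix.mul_apply, Fin.sum_univ_two, Matrix.one_apply, apply_ite (x i)]

end Ordinary

section Steinberg

variable {A : Type} [CommRing A] [IsLocalRing A] [IsHausdorff (maximalIdeal A) A]
  {p q : ℕ} {P : ValuationSubring ℚbar}

/-- Triangular with quadratic lower diagonal entry. -/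
def IsTriangSign {B : Type} [CommRing B] (C : M2 B) : Prop := C 1 0 = 0 ∧ C 1 1 ^ 2 = 1

theorem isTriangSign_mul {B : Type} [CommRing B] {C C' : M2 B} (h : IsTriangSign C)
    (h' : IsTriangSign C') : IsTriangSign (C * C') := by
  constructor <;> simp [Matrix.mul_apply, Fin.sum_univ_two, h.1, h'.1, mul_pow, h.2, h'.2]

theorem isTriangSign_pow {B : Type} [CommRing B] {C : M2 B} (h : IsTriangSign C) (k : ℕ) :
    IsTriangSign (C ^ k) := by
  induction k with
  | zero => rw [pow_zero]; constructor <;> simp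
  | succ k ih => rw [pow_succ]; exact isTriangSign_mul ih h

/-- **Unipotent inertia with ramified reduction is of Steinberg shape.** -/
theorem exists_steinbergShape (hp : (p : A) ∈ maximalIdeal A) (hq : q.Prime)
    (hP : P.LiesOverPrime q) {φ τ : GQ} (hφ : P.IsFrobeniusAt φ q)
    (hτ : IsTameGenerator p q P τ) {M : GQ →* M2 A} (hM : MatCont M) (hI : PInertia p P M)
    (hdetφ : (M φ).det = q) (hqu : IsUnit (q : A)) (hdetτ : (M τ).det = 1)
    (htrτ : (M τ).trace = 2) (hram : ∃ i j, (M τ - 1) i j ∉ maximalIdeal A) :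
    ∃ s : P.decompositionSubgroup ℚ →* A, OrdShape P M s ∧ ∀ g, s g * s g = 1 := by
  classical
  set N := M τ - 1 with hN
  have hNN : N * N = 0 := by
    rw [Matrix.det_fin_two] at hdetτ
    rw [Matrix.trace_fin_two] at htrτ
    refine Matrix.ext fun i j => ?_
    fin_cases i <;> fin_cases j <;> simp [hN, Matrix.mul_apply, Fin.sum_univ_two]
    · linear_combination M τ 0 0 * htrτ - hdetτ
    · linear_combination M τ 0 1 * htrτ
    · linear_combination M τ 1 0 * htrτ
    · linear_combination M τ 1 1 * htrτ - hdetτ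
  have hrel : M φ * N = q • (N * M φ) := by
    have h1 := hτ.frobenius_mul hp hM hI hφ
    have h2 : ∀ k : ℕ, (1 + N) ^ k = 1 + k • N := fun k => one_add_pow_of_sq hNN k
    rw [show M τ = 1 + N by rw [hN]; abel, h2, mul_add, mul_one, add_mul, one_mul,
      smul_mul_assoc] at h1
    exact add_left_cancel h1
  -- a frame with unit determinant
  have e' := fun i j => congrFun (congrFun hNN i) j
  have e00 := e' 0 0
  simp [Matrix.mul_apply, Fin.sum_univ_two] at e00
  have hcol : IsUnit (N 1 0) ∨ IsUnit (N 0 1) := by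
    by_contra hcon
    rw [not_or] at hcon
    have m10 : N 1 0 ∈ maximalIdeal A := (IsLocalRing.mem_maximalIdeal _).2 hcon.1
    have m01 : N 0 1 ∈ maximalIdeal A := (IsLocalRing.mem_maximalIdeal _).2 hcon.2
    have htrN : N 0 0 + N 1 1 = 0 := by
      rw [Matrix.trace_fin_two] at htrτ
      simp [hN]
      linear_combination htrτ
    have m00 : N 0 0 ∈ maximalIdeal A := by
      refine (maximalIdeal.isMaximal A).isPrime.mem_of_pow_mem 2 ?_
      rw [show N 0 0 ^ 2 = -(N 0 1 * N 1 0) by linear_combination e00]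
      exact neg_mem (Ideal.mul_mem_left _ _ m10)
    obtain ⟨i, j, hij⟩ := hram
    refine hij ?_
    fin_cases i <;> fin_cases j
    · exact m00
    · exact m01
    · exact m10
    · show N 1 1 ∈ _
      rw [show N 1 1 = -N 0 0 by linear_combination htrN]
      exact neg_mem m00
  obtain ⟨e, hd⟩ : ∃ e : Fin 2 → A, IsUnit (ramFrame e N).det := by
    rcases hcol with h | h
    · refine ⟨![1, 0], ?_⟩
      rw [show (ramFrame ![1, 0] N).det = -(N 1 0) by
        simp [ramFrame, Matrix.det_fin_two, Matrix.mulVec, dotProduct, Fin.sum_univ_two]]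
      exact h.neg
    · refine ⟨![0, 1], ?_⟩
      rw [show (ramFrame ![0, 1] N).det = N 0 1 by
        simp [ramFrame, Matrix.det_fin_two, Matrix.mulVec, dotProduct, Fin.sum_univ_two]]
      exact h
  set B := ramFrame e N with hB
  obtain ⟨di, hdi⟩ := hd.exists_left_inv
  obtain ⟨qi, hqi⟩ := hqu.exists_left_inv
  obtain ⟨B', hB'⟩ : ∃ B' : M2 A, B' = di • B.adjugate := ⟨_, rfl⟩
  have hB'B : B' * B = 1 := by
    rw [hB', smul_mul_assoc, Matrix.adjugate_mul, smul_smul, hdi, one_smul]
  have hBB' : B * B' = 1 := by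
    rw [hB', mul_smul_comm, Matrix.mul_adjugate, smul_smul, hdi, one_smul]
  let K : GQ →* M2 A :=
    { toFun := fun g => B' * M g * B
      map_one' := by rw [map_one, mul_one, hB'B]
      map_mul' := fun g h => by
        rw [map_mul, show B' * M g * B * (B' * M h * B) = B' * M g * (B * B') * M h * B by
          simp only [mul_assoc], hBB', mul_one, ← mul_assoc] }
  have hKdet : ∀ g, (K g).det = (M g).det := fun g => by
    show (B' * M g * B).det = _
    rw [Matrix.det_mul, Matrix.det_mul, mul_right_comm, ← Matrix.det_mul, hB'B, Matrix.det_one,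
      one_mul]
  have hKφ : IsTriangSign (K φ) := by
    obtain ⟨h1, -, h3⟩ := ram_eqns (qi := qi) (C := B.adjugate * M φ * B) rfl hdi
      (ram_mul_frame hNN) (hrel.trans (Nat.cast_smul_eq_nsmul A q _).symm) hdetφ hqi rfl
    show IsTriangSign (B' * M φ * B)
    rw [hB']
    simp only [IsTriangSign, smul_mul_assoc, Matrix.smul_apply, smul_eq_mul, h1, mul_zero, mul_pow,
      h3, true_and]
    rw [← mul_pow, hdi, one_pow]
  have hKτ : IsTriangSign (K τ) := by
    have h1 : K τ = 1 + !![0, 1; 0, 0] := by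
      show B' * M τ * B = _
      rw [show M τ = 1 + N by rw [hN]; abel, mul_add, mul_one, add_mul, hB'B, mul_assoc,
        ram_mul_frame hNN, ← mul_assoc, hB'B, one_mul]
    rw [h1]
    constructor <;> simp
  have hall : ∀ g ∈ P.decompositionSubgroup ℚ, IsTriangSign (K g) := by
    intro g hg
    suffices ∀ n, IsTriangSign ((Ideal.Quotient.mk (maximalIdeal A ^ n)).mapMatrix (K g)) by
      constructor
      · refine IsHausdorff.haus' (I := maximalIdeal A) _ fun n => ?_
        rw [SModEq.zero, Ideal.smul_top_eq_map, Algebra.algebraMap_self, Ideal.map_id,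
          Submodule.restrictScalars_mem, ← Ideal.Quotient.eq_zero_iff_mem]
        exact (this n).1
      · refine sub_eq_zero.1 (IsHausdorff.haus' (I := maximalIdeal A) _ fun n => ?_)
        rw [SModEq.zero, Ideal.smul_top_eq_map, Algebra.algebraMap_self, Ideal.map_id,
          Submodule.restrictScalars_mem, ← Ideal.Quotient.eq_zero_iff_mem, map_sub, map_pow,
          map_one, sub_eq_zero]
        exact (this n).2
    intro n
    set μ := ((Ideal.Quotient.mk (maximalIdeal A ^ n)).mapMatrix :
      M2 A →+* M2 (A ⧸ maximalIdeal A ^ n))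
    obtain ⟨F, hF, hF1⟩ := exists_finiteLevel hM n
    obtain ⟨j, σ, hσ, he⟩ := Gal.exists_pow_mul_inertia_eqOn hq F hP hφ hg
    obtain ⟨k, hk, -⟩ := (hτ.modPow_prod hp hM hM hI hI n).1 σ hσ
    have h1 : μ (M g) = μ (M φ) ^ j * μ (M τ) ^ k := by
      have hfix := hF1 ((φ ^ j * σ)⁻¹ * g) fun x hx => by
        rw [AlgEquiv.mul_apply, he x hx, ← AlgEquiv.mul_apply, inv_mul_cancel, AlgEquiv.one_apply]
      conv_lhs => rw [show g = φ ^ j * σ * ((φ ^ j * σ)⁻¹ * g) from (mul_inv_cancel_left _ g).symm]
      rw [map_mul, map_mul, map_mul, map_mul, show μ (M ((φ ^ j * σ)⁻¹ * g)) = 1 from hfix,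
        mul_one, map_pow, map_pow, show μ (M σ) = μ (M τ) ^ k from hk]
    have hK : μ (K g) = μ (K φ) ^ j * μ (K τ) ^ k := by
      have hu : μ B * μ B' = 1 := by rw [← map_mul, hBB', map_one]
      have hu' : μ B' * μ B = 1 := by rw [← map_mul, hB'B, map_one]
      let U : (M2 (A ⧸ maximalIdeal A ^ n))ˣ := ⟨μ B', μ B, hu', hu⟩
      show μ (B' * M g * B) = μ (B' * M φ * B) ^ j * μ (B' * M τ * B) ^ k
      simp only [map_mul]
      rw [h1, show μ B' = (U : M2 (A ⧸ maximalIdeal A ^ n)) from rfl,
        show μ B = ((U⁻¹ : (M2 (A ⧸ maximalIdeal A ^ n))ˣ) : M2 (A ⧸ maximalIdeal A ^ n)) from rfl,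
        Units.conj_pow, Units.conj_pow]
      simp only [mul_assoc, Units.inv_mul_cancel_left]
    rw [hK]
    refine isTriangSign_mul (isTriangSign_pow ?_ j) (isTriangSign_pow ?_ k)
    · constructor
      · show Ideal.Quotient.mk _ (K φ 1 0) = 0
        rw [hKφ.1, map_zero]
      · show Ideal.Quotient.mk _ (K φ 1 1) ^ 2 = 1
        rw [← map_pow, hKφ.2, map_one]
    · constructor
      · show Ideal.Quotient.mk _ (K τ 1 0) = 0
        rw [hKτ.1, map_zero]
      · show Ideal.Quotient.mk _ (K τ 1 1) ^ 2 = 1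
        rw [← map_pow, hKτ.2, map_one]
  let s : P.decompositionSubgroup ℚ →* A :=
    { toFun := fun g => K g 1 1
      map_one' := by simp
      map_mul' := fun g h => by
        rw [Subgroup.coe_mul, map_mul, Matrix.mul_apply, Fin.sum_univ_two, (hall g g.2).1,
          zero_mul, zero_add] }
  have hss : ∀ g, s g * s g = 1 := fun g => by rw [← pow_two]; exact (hall g g.2).2
  refine ⟨s, ⟨fun g hg => ?_, fun g h => ?_⟩, hss⟩
  · refine sub_eq_zero.1 (IsHausdorff.haus' (I := maximalIdeal A) _ fun n => ?_)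
    rw [SModEq.zero, Ideal.smul_top_eq_map, Algebra.algebraMap_self, Ideal.map_id,
      Submodule.restrictScalars_mem, ← Ideal.Quotient.eq_zero_iff_mem, map_sub, map_one,
      sub_eq_zero]
    obtain ⟨k, hk, -⟩ := (hτ.modPow_prod hp hM hM hI hI n).1 _ hg
    set μ := ((Ideal.Quotient.mk (maximalIdeal A ^ n)).mapMatrix :
      M2 A →+* M2 (A ⧸ maximalIdeal A ^ n))
    have hKg : μ (K g) = μ (K τ) ^ k := by
      have hu : μ B * μ B' = 1 := by rw [← map_mul, hBB', map_one]
      have hu' : μ B' * μ B = 1 := by rw [← map_mul, hB'B, map_one]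
      let U : (M2 (A ⧸ maximalIdeal A ^ n))ˣ := ⟨μ B', μ B, hu', hu⟩
      show μ (B' * M g * B) = μ (B' * M τ * B) ^ k
      simp only [map_mul]
      rw [show μ (M g) = μ (M τ) ^ k from hk,
        show μ B' = (U : M2 (A ⧸ maximalIdeal A ^ n)) from rfl,
        show μ B = ((U⁻¹ : (M2 (A ⧸ maximalIdeal A ^ n))ˣ) : M2 (A ⧸ maximalIdeal A ^ n)) from rfl,
        Units.conj_pow]
    show Ideal.Quotient.mk _ (K g 1 1) = 1
    rw [show Ideal.Quotient.mk (maximalIdeal A ^ n) (K g 1 1) = μ (K g) 1 1 from rfl, hKg]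
    have hT : μ (K τ) = 1 + !![0, 1; 0, 0] := by
      rw [show K τ = 1 + !![0, 1; 0, 0] by
        show B' * M τ * B = _
        rw [show M τ = 1 + N by rw [hN]; abel, mul_add, mul_one, add_mul, hB'B, mul_assoc,
          ram_mul_frame hNN, ← mul_assoc, hB'B, one_mul], map_add, map_one]
      refine congrArg _ (Matrix.ext fun i j => ?_)
      fin_cases i <;> fin_cases j <;> simp [μ]
    rw [hT, one_add_pow_of_sq (by
      refine Matrix.ext fun i j => ?_
      fin_cases i <;> fin_cases j <;> simp [Matrix.mul_apply, Fin.sum_univ_two])]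
    simp
  · have hK0 := fun g : P.decompositionSubgroup ℚ => (hall g g.2).1
    have h00 : (K g).det * s g⁻¹ = K g 0 0 := by
      have hinv : s g⁻¹ = s g := by
        calc s g⁻¹ = s g⁻¹ * (s g * s g) := by rw [hss, mul_one]
          _ = s g := by rw [← mul_assoc, ← map_mul, inv_mul_cancel, map_one, one_mul]
      rw [hinv, Matrix.det_fin_two, hK0 g]
      show (K g 0 0 * K g 1 1 - _ * 0) * K g 1 1 = _
      rw [mul_zero, sub_zero, mul_assoc, show K g 1 1 * K g 1 1 = 1 from hss g, mul_one]
    have hKK : (K g - ((M g).det * s g⁻¹) • (1 : M2 A)) * (K h - s h • (1 : M2 A)) = 0 := by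
      rw [← hKdet, h00]
      refine Matrix.ext fun i j => ?_
      fin_cases i <;> fin_cases j <;> simp [Matrix.mul_apply, Fin.sum_univ_two, hK0, s]
    have hconj : ∀ (a : A) (g : GQ), B * (K g - a • (1 : M2 A)) * B' = M g - a • (1 : M2 A) :=
      fun a g => by
        show B * (B' * M g * B - a • (1 : M2 A)) * B' = _
        rw [Matrix.mul_sub, Matrix.sub_mul,
          show B * (B' * M g * B) * B' = (B * B') * M g * (B * B') by simp only [mul_assoc],
          show B * (a • (1 : M2 A)) * B' = a • (B * B') by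
            rw [Matrix.mul_smul, Matrix.mul_one, Matrix.smul_mul],
          hBB', one_mul, mul_one]
    rw [← hconj, ← hconj (s h),
      show ∀ X Y : M2 A, B * X * B' * (B * Y * B') = B * (X * (B' * B) * Y) * B' from
        fun X Y => by simp only [mul_assoc],
      hB'B, mul_one, hKK, mul_zero, zero_mul]

end Steinberg

end Fermat.Agent.TW
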