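import Fermat.Agent.TW.Cocycle

/-!
# Auxiliary levels

For finitely many primes `q ∥ L` with a quotient of `(ℤ/q)ˣ` of `p`-power order at each
(`AuxPrimes`): the subgroup `AuxPrimes.H` of `(ℤ/L)ˣ` they cut out, the quotient group
`AuxPrimes.G` with its generators, and its characters `AuxPrimes.chi`.
-/

set_option autoImplicit false

noncomputable section

namespace Fermat.Agent.TW

open Fermat.Agent.GammaH

/-- Primes dividing `L` exactly once, with a `p`-power quotient of `(ℤ/q)ˣ` at each. -/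
structure AuxPrimes (L p : ℕ) where
  Q : Finset ℕ
  prime : ∀ q ∈ Q, q.Prime
  dvd : ∀ q ∈ Q, q ∣ L
  sq : ∀ q ∈ Q, ¬ q ^ 2 ∣ L
  m : ℕ → ℕ
  m_dvd : ∀ q ∈ Q, m q ∣ q - 1
  m_pow : ∀ q ∈ Q, ∃ v, m q = p ^ v

variable {L p : ℕ} (A : AuxPrimes L p)

/-- The projection to the quotients. -/
def AuxPrimes.proj : (ZMod L)ˣ →* ((q : A.Q) → (ZMod q.1)ˣ) :=
  MonoidHom.mk' (fun a q => ZMod.unitsMap (A.dvd q.1 q.2) a ^ ((q.1 - 1) / A.m q.1)) fun a b =>
    funext fun q => by simp only [map_mul, mul_pow, Pi.mul_apply]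

/-- The subgroup. -/
def AuxPrimes.H : Subgroup (ZMod L)ˣ := A.proj.ker

theorem AuxPrimes.mem_H_iff {a : (ZMod L)ˣ} : a ∈ A.H ↔ ∀ (q : ℕ) (hq : q ∈ A.Q),
    ZMod.unitsMap (A.dvd q hq) a ^ ((q - 1) / A.m q) = 1 := by
  rw [AuxPrimes.H, MonoidHom.mem_ker, funext_iff, Subtype.forall]
  rfl

theorem AuxPrimes.pow_m (q : ℕ) (hq : q ∈ A.Q) (a : (ZMod L)ˣ) :
    (ZMod.unitsMap (A.dvd q hq) a ^ ((q - 1) / A.m q)) ^ A.m q = 1 := by
  have := Fact.mk (A.prime q hq)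
  rw [← pow_mul, Nat.div_mul_cancel (A.m_dvd q hq)]
  exact ZMod.units_pow_card_sub_one_eq_one q _

theorem AuxPrimes.odd_mem {h : ℕ} (hh : ∀ q ∈ A.Q, A.m q ∣ 2 * h + 1) (a : (ZMod L)ˣ) :
    a ^ (2 * h + 1) ∈ A.H := by
  rw [A.mem_H_iff]
  intro q hq
  obtain ⟨c, hc⟩ := hh q hq
  rw [map_pow, pow_right_comm, hc, pow_mul, A.pow_m q hq, one_pow]

theorem AuxPrimes.neg_one_mem (hp : Odd p) : (-1 : (ZMod L)ˣ) ∈ A.H := by
  rw [A.mem_H_iff]
  intro q hq
  obtain ⟨v, hv⟩ := A.m_pow q hq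
  have h2 : ZMod.unitsMap (A.dvd q hq) (-1) ^ 2 = 1 := by
    rw [← map_pow, neg_one_sq, map_one]
  have hm : Odd (A.m q) := hv ▸ hp.pow
  obtain ⟨k, hk⟩ := hm
  have h3 := A.pow_m q hq (-1)
  set x := ZMod.unitsMap (A.dvd q hq) (-1) ^ ((q - 1) / A.m q)
  have h4 : x ^ 2 = 1 := by rw [← pow_mul, mul_comm, pow_mul, h2, one_pow]
  rw [hk, pow_succ, pow_mul, h4, one_pow, one_mul] at h3
  exact h3

theorem AuxPrimes.ker_le {R : ℕ} (hR : R ∣ L) (hQR : ∀ q ∈ A.Q, q ∣ R) :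
    (ZMod.unitsMap hR).ker ≤ A.H := by
  intro a ha
  rw [A.mem_H_iff]
  intro q hq
  rw [show ZMod.unitsMap (A.dvd q hq) a = ZMod.unitsMap (hQR q hq) (ZMod.unitsMap hR a) by
    rw [← MonoidHom.comp_apply, ZMod.unitsMap_comp], MonoidHom.mem_ker.1 ha, map_one, one_pow]

/-- The quotient group. -/
abbrev AuxPrimes.G : Type := Dl A.H (⊤ : Subgroup (ZMod L)ˣ)

/-- The class of a unit. -/
def AuxPrimes.cls : (ZMod L)ˣ →* A.G :=
  (QuotientGroup.mk' _).comp (Subgroup.topEquiv (G := (ZMod L)ˣ)).symm.toMonoidHom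

theorem AuxPrimes.cls_eq_one_iff {a : (ZMod L)ˣ} : A.cls a = 1 ↔ a ∈ A.H := by
  show QuotientGroup.mk' (A.H.subgroupOf ⊤) ⟨a, Subgroup.mem_top a⟩ = 1 ↔ _
  rw [QuotientGroup.mk'_apply, QuotientGroup.eq_one_iff, Subgroup.mem_subgroupOf]

theorem AuxPrimes.cls_surjective : Function.Surjective A.cls :=
  (QuotientGroup.mk'_surjective _).comp (Subgroup.topEquiv (G := (ZMod L)ˣ)).symm.surjective

/-- The projection of a class. -/
def AuxPrimes.comp (q : A.Q) : A.G →* (ZMod q.1)ˣ :=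
  QuotientGroup.lift _ ((Pi.evalMonoidHom _ q).comp (A.proj.comp (Subgroup.subtype ⊤)))
    fun _ hx => congrFun (MonoidHom.mem_ker.1 hx) q

theorem AuxPrimes.comp_cls (q : A.Q) (a : (ZMod L)ˣ) :
    A.comp q (A.cls a) = ZMod.unitsMap (A.dvd q.1 q.2) a ^ ((q.1 - 1) / A.m q.1) := rfl

theorem AuxPrimes.eq_one_of_comp {x : A.G} (h : ∀ q, A.comp q x = 1) : x = 1 := by
  obtain ⟨a, rfl⟩ := A.cls_surjective x
  rw [A.cls_eq_one_iff, A.mem_H_iff]
  exact fun q hq => h ⟨q, hq⟩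

theorem AuxPrimes.exists_gen (q : A.Q) : ∃ a : (ZMod L)ˣ,
    ZMod.unitsMap (Nat.div_dvd_of_dvd (A.dvd q.1 q.2)) a = 1 ∧
      orderOf (A.comp q (A.cls a)) = A.m q.1 ∧
      ∀ x : A.G, A.comp q x ∈ Subgroup.zpowers (A.comp q (A.cls a)) := by
  obtain ⟨q, hq⟩ := q
  have := Fact.mk (A.prime q hq)
  obtain ⟨c, hc⟩ := IsCyclic.exists_generator (α := (ZMod q)ˣ)
  have hco : (L / q).Coprime q := by
    rw [Nat.coprime_comm, (A.prime q hq).coprime_iff_not_dvd]
    intro hd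
    exact A.sq q hq (by
      rw [pow_two]; exact (Nat.dvd_div_iff_mul_dvd (A.dvd q hq)).1 hd)
  let e := ZMod.chineseRemainder hco
  have hL : L / q * q = L := Nat.div_mul_cancel (A.dvd q hq)
  let y : ZMod (L / q * q) := e.symm (1, (c : ZMod q))
  have hy : IsUnit y := (Prod.isUnit_iff.2 ⟨isUnit_one, c.isUnit⟩).map e.symm
  have hy' : IsUnit (ZMod.ringEquivCongr hL y) := hy.map _
  refine ⟨hy'.unit, ?_, ?_⟩
  · refine Units.ext ?_
    rw [Units.val_one, ZMod.unitsMap_val, IsUnit.unit_spec]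
    have h1 : (e y).1 = 1 := by simp [y]
    rw [← h1]
    exact RingHom.congr_fun (RingHom.ext_zmod
      ((ZMod.castHom (Nat.div_dvd_of_dvd (A.dvd q hq)) (ZMod (L / q))).comp
        (ZMod.ringEquivCongr hL).toRingHom) ((RingHom.fst _ _).comp e.toRingHom)) y
  have h2 : ZMod.unitsMap (A.dvd q hq) hy'.unit = c := by
    refine Units.ext ?_
    rw [ZMod.unitsMap_val, IsUnit.unit_spec]
    have h1 : (e y).2 = (c : ZMod q) := by simp [y]
    rw [← h1]
    exact RingHom.congr_fun (RingHom.ext_zmod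
      ((ZMod.castHom (A.dvd q hq) (ZMod q)).comp
        (ZMod.ringEquivCongr hL).toRingHom) ((RingHom.snd _ _).comp e.toRingHom)) y
  have hoc : orderOf c = q - 1 := by
    rw [orderOf_eq_card_of_forall_mem_zpowers hc, Nat.card_eq_fintype_card, ZMod.card_units]
  have hpos : 0 < q - 1 := by have := (A.prime q hq).two_le; omega
  refine ⟨?_, fun x => ?_⟩
  · show orderOf (ZMod.unitsMap (A.dvd q hq) hy'.unit ^ ((q - 1) / A.m q)) = A.m q
    rw [h2, orderOf_pow_of_dvd (Nat.div_pos (Nat.le_of_dvd hpos (A.m_dvd q hq))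
      (Nat.pos_of_dvd_of_pos (A.m_dvd q hq) hpos)).ne'
      (hoc.symm ▸ Nat.div_dvd_of_dvd (A.m_dvd q hq)),
      hoc, Nat.div_div_self (A.m_dvd q hq) hpos.ne']
  · obtain ⟨b, rfl⟩ := A.cls_surjective x
    obtain ⟨i, hi⟩ := hc (ZMod.unitsMap (A.dvd q hq) b)
    refine ⟨i, ?_⟩
    show A.comp ⟨q, hq⟩ (A.cls hy'.unit) ^ i = A.comp ⟨q, hq⟩ (A.cls b)
    rw [A.comp_cls, A.comp_cls, h2, ← hi]
    show _ = (c ^ i) ^ ((q - 1) / A.m q)
    rw [← zpow_natCast, ← zpow_natCast, ← zpow_mul, ← zpow_mul, mul_comm]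

/-- A unit above the generator at `q`, trivial away from `q`. -/
def AuxPrimes.gen (q : A.Q) : (ZMod L)ˣ := (A.exists_gen q).choose

theorem AuxPrimes.gen_away (q : A.Q) :
    ZMod.unitsMap (Nat.div_dvd_of_dvd (A.dvd q.1 q.2)) (A.gen q) = 1 :=
  (A.exists_gen q).choose_spec.1

theorem AuxPrimes.comp_mem (q : A.Q) (x : A.G) :
    A.comp q x ∈ Subgroup.zpowers (A.comp q (A.cls (A.gen q))) :=
  (A.exists_gen q).choose_spec.2.2 x

theorem AuxPrimes.comp_gen_ne {q q' : A.Q} (h : q' ≠ q) : A.comp q' (A.cls (A.gen q)) = 1 := by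
  have hd : q'.1 ∣ L / q.1 := by
    rw [Nat.dvd_div_iff_mul_dvd (A.dvd q.1 q.2)]
    exact ((Nat.coprime_primes (A.prime q.1 q.2) (A.prime q'.1 q'.2)).2
      fun e => h (Subtype.ext e.symm)).mul_dvd_of_dvd_of_dvd (A.dvd q.1 q.2) (A.dvd q'.1 q'.2)
  rw [A.comp_cls, ← ZMod.unitsMap_comp hd (Nat.div_dvd_of_dvd (A.dvd q.1 q.2)),
    MonoidHom.comp_apply, A.gen_away, map_one, one_pow]

/-- The component of a class, as a power of the generator. -/
def AuxPrimes.lift {M : Type*} [CommMonoid M] (η : A.Q → M) (hη : ∀ q, η q ^ A.m q.1 = 1) :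
    A.G →* M :=
  have hu : ∀ q : A.Q, A.m q.1 ≠ 0 := fun q => by
    have := (A.prime q.1 q.2).two_le
    exact fun h0 => by have := A.m_dvd q.1 q.2; rw [h0, Nat.zero_dvd] at this; omega
  (Units.coeHom M).comp <| ∏ q : A.Q,
    (monoidHomOfForallMemZpowers
      (g := (⟨A.comp q (A.cls (A.gen q)), Subgroup.mem_zpowers _⟩ :
        Subgroup.zpowers (A.comp q (A.cls (A.gen q)))))
      (g' := Units.ofPowEqOne (η q) (A.m q.1) (hη q) (hu q))
      (fun x => by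
        obtain ⟨i, hi⟩ := x.2
        exact ⟨i, Subtype.ext (by simpa using hi)⟩)
      (by
        rw [Subgroup.orderOf_mk, show orderOf (A.comp q (A.cls (A.gen q))) = A.m q.1 from
          (A.exists_gen q).choose_spec.2.1]
        exact orderOf_dvd_of_pow_eq_one (Units.ext (by simp)))).comp
      ((A.comp q).codRestrict _ (A.comp_mem q))

theorem AuxPrimes.lift_gen {M : Type*} [CommMonoid M] (η : A.Q → M)
    (hη : ∀ q, η q ^ A.m q.1 = 1) (q : A.Q) : A.lift η hη (A.cls (A.gen q)) = η q := by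
  rw [AuxPrimes.lift, MonoidHom.comp_apply, MonoidHom.finsetProd_apply, Finset.prod_eq_single q]
  · rw [MonoidHom.comp_apply]
    refine (congrArg (Units.coeHom M) (monoidHomOfForallMemZpowers_apply_gen _ _)).trans ?_
    simp
  · intro q' _ hne
    rw [MonoidHom.comp_apply, show (A.comp q').codRestrict _ (A.comp_mem q')
      (A.cls (A.gen q)) = 1 from Subtype.ext (A.comp_gen_ne hne), map_one]
  · exact fun h => absurd (Finset.mem_univ q) h

theorem AuxPrimes.closure_gen :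
    Subgroup.closure (Set.range fun q => A.cls (A.gen q)) = ⊤ := by
  classical
  refine Subgroup.eq_top_iff' _ |>.2 fun x => ?_
  choose i hi using fun q : A.Q => A.comp_mem q x
  have hx : x = ∏ q, A.cls (A.gen q) ^ i q := by
    rw [← mul_inv_eq_one]
    refine A.eq_one_of_comp fun q' => ?_
    rw [map_mul, map_inv, mul_inv_eq_one, map_prod, Finset.prod_eq_single q']
    · rw [map_zpow]
      exact (hi q').symm
    · intro q _ hne
      rw [map_zpow, A.comp_gen_ne hne.symm, one_zpow]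
    · exact fun h => absurd (Finset.mem_univ q') h
  rw [hx]
  exact Subgroup.prod_mem _ fun q _ => Subgroup.zpow_mem _
    (Subgroup.subset_closure (Set.mem_range_self (f := fun q => A.cls (A.gen q)) q)) _

theorem AuxPrimes.gen_pow (q : A.Q) : A.cls (A.gen q) ^ A.m q.1 = 1 :=
  A.eq_one_of_comp fun q' => by
    rcases eq_or_ne q' q with rfl | hne
    · rw [map_pow, A.comp_cls]
      exact A.pow_m q'.1 q'.2 _
    · rw [map_pow, A.comp_gen_ne hne, one_pow]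

theorem AuxPrimes.isPGroup [Fact p.Prime] : IsPGroup p A.G := by
  classical
  choose v hv using fun q : A.Q => A.m_pow q.1 q.2
  intro x
  refine ⟨∑ q, v q, A.eq_one_of_comp fun q => ?_⟩
  obtain ⟨a, rfl⟩ := A.cls_surjective x
  obtain ⟨t, ht⟩ := Nat.exists_eq_add_of_le
    (Finset.single_le_sum (fun q _ => Nat.zero_le (v q)) (Finset.mem_univ q))
  rw [map_pow, ht, pow_add, pow_mul, ← hv q, A.comp_cls, A.pow_m q.1 q.2, one_pow]

/-- The character which is `ζ` at `q` and trivial at the other primes. -/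
def AuxPrimes.chi {O : Type} [CommRing O] (hm : ∀ q ∈ A.Q, p ∣ A.m q) {ζ : O} (hζ : ζ ^ p = 1)
    (q : A.Q) : A.G →* O :=
  A.lift (fun q' => if q' = q then ζ else 1) fun q' => by
    obtain ⟨c, hc⟩ := hm q'.1 q'.2
    rw [hc, pow_mul]
    split_ifs
    · rw [hζ, one_pow]
    · rw [one_pow, one_pow]

theorem AuxPrimes.chi_gen {O : Type} [CommRing O] (hm : ∀ q ∈ A.Q, p ∣ A.m q) {ζ : O}
    (hζ : ζ ^ p = 1) (q : A.Q) : A.chi hm hζ q (A.cls (A.gen q)) = ζ := by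
  rw [AuxPrimes.chi, A.lift_gen, if_pos rfl]

theorem AuxPrimes.chi_gen_ne {O : Type} [CommRing O] (hm : ∀ q ∈ A.Q, p ∣ A.m q) {ζ : O}
    (hζ : ζ ^ p = 1) {q q' : A.Q} (h : q' ≠ q) : A.chi hm hζ q (A.cls (A.gen q')) = 1 := by
  rw [AuxPrimes.chi, A.lift_gen, if_neg h]

end Fermat.Agent.TW
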