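import Fermat.Agent.TW.PointRes
import Fermat.Agent.IharaTW.KerKill
import Fermat.Agent.Density.Reps

/-!
# Shrinking the excluded set `S`

At a fixed level: the Hecke ring with more operators, the extension of a residual eigensystem to it
(`exists_theta_changeS`), and equality of the two idempotents (`inclO_twIdem`) and of their actions
(`actO_twIdem_changeS`).
-/

set_option autoImplicit false

noncomputable section

namespace Fermat.Agent.TW

open IsLocalRing Polynomial Fermat.Agent.Deformation Fermat.Agent.GammaH CuspForm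
open scoped TensorProduct

local notation "ℚbar" => AlgebraicClosure ℚ

section Incl

variable {L : ℕ} [NeZero L] {H : Subgroup (ZMod L)ˣ} {S₀ S : Set ℕ}

theorem heckeIncl_diamondR (hsub : S₀ ⊆ S) (a : (ZMod L)ˣ) :
    heckeIncl (H := H) hsub (diamondR a) = diamondR a :=
  Subtype.ext rfl

theorem heckeIncl_heckeTR (hsub : S₀ ⊆ S) {l : ℕ} (hl : l.Prime) (hlL : ¬ l ∣ L) (hlS : l ∉ S) :
    heckeIncl (H := H) hsub (heckeTR hl hlL hlS) = heckeTR hl hlL fun hl₀ => hlS (hsub hl₀) :=
  Subtype.ext rfl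

theorem heckeIncl_twistedT (hsub : S₀ ⊆ S) (h : ℕ) {l : ℕ} (hl : l.Prime) (hlL : ¬ l ∣ L)
    (hlS : l ∉ S) :
    heckeIncl (H := H) hsub (twistedT h hl hlL hlS) =
      twistedT h hl hlL fun hl₀ => hlS (hsub hl₀) := by
  rw [twistedT, map_mul, map_pow, heckeIncl_diamondR, heckeIncl_heckeTR]
  rfl

variable (O : Type) [CommRing O] [IsDomain O] [IsDiscreteValuationRing O]
  [IsAdicComplete (maximalIdeal O) O] [CharZero O]

/-- The Hecke ring away from `S` inside the one away from `S₀`. -/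
def inclO (hsub : S₀ ⊆ S) : HeckeO L H S O →ₐ[O] HeckeO L H S₀ O :=
  liftO O ((HeckeO.ofT O).comp (heckeIncl hsub))

omit [IsDomain O] [IsDiscreteValuationRing O] [IsAdicComplete (maximalIdeal O) O] [CharZero O] in
theorem inclO_mk (hsub : S₀ ⊆ S) (a : O) (t : heckeRing L H S) :
    inclO O hsub (HeckeO.mk O a t) = a • HeckeO.ofT O (heckeIncl hsub t) :=
  liftO_tmul O _ a t

omit [IsDomain O] [IsDiscreteValuationRing O] [IsAdicComplete (maximalIdeal O) O] [CharZero O] in
theorem inclO_ofT (hsub : S₀ ⊆ S) (t : heckeRing L H S) :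
    inclO O hsub (HeckeO.ofT O t) = HeckeO.ofT O (heckeIncl hsub t) := by
  rw [HeckeO.ofT_apply, inclO_mk, one_smul]

omit [IsDomain O] [IsDiscreteValuationRing O] [IsAdicComplete (maximalIdeal O) O] [CharZero O] in
theorem actO_inclO (hH : (-1 : (ZMod L)ˣ) ∈ H) (hsub : S₀ ⊆ S) (z : HeckeO L H S O) :
    actO hH O (inclO O hsub z) = actO hH O z := by
  induction z using HeckeO.induction with
  | zero => simp
  | add a b ha hb => simp only [map_add, ha, hb]
  | mk a t =>
    rw [inclO_mk, map_smul, HeckeO.ofT_apply, actO_tmul, one_smul, IharaTW.homAction_heckeIncl,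
      actO_tmul]

omit [IsDiscreteValuationRing O] [IsAdicComplete (maximalIdeal O) O] in
theorem inclO_injective (hH : (-1 : (ZMod L)ˣ) ∈ H) (hsub : S₀ ⊆ S) :
    Function.Injective (inclO (L := L) (H := H) O hsub) := fun a b h =>
  actO_injective hH O (by rw [← actO_inclO O hH hsub, h, actO_inclO])

variable [Finite (ResidueField O)]

omit [IsAdicComplete (maximalIdeal O) O] [Finite (ResidueField O)] [CharZero O] in
theorem residO_inclO (hsub : S₀ ⊆ S) (θ₀ : heckeRing L H S₀ →+* ResidueField O)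
    (z : HeckeO L H S O) :
    residO O θ₀ (inclO O hsub z) = residO O (θ₀.comp (heckeIncl hsub)) z := by
  induction z using HeckeO.induction with
  | zero => simp
  | add a b ha hb => simp only [map_add, ha, hb]
  | mk a t =>
    rw [inclO_mk, Algebra.smul_def, map_mul, residO_algebraMap, residO_ofT, residO_tmul,
      RingHom.comp_apply]

end Incl

section Point

variable {L : ℕ} [NeZero L] {H : Subgroup (ZMod L)ˣ} {S : Set ℕ}
  {O : Type} [CommRing O] [IsDomain O] [IsDiscreteValuationRing O]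
  [IsAdicComplete (maximalIdeal O) O] [Finite (ResidueField O)] [CharZero O]
  {hH : (-1 : (ZMod L)ˣ) ∈ H} {θ : heckeRing L H S →+* ResidueField O}
  {O' : Type} [CommRing O'] [IsDomain O'] [IsLocalRing O'] [Algebra O O']
  [IsLocalHom (algebraMap O O')]

omit [Finite (ResidueField O)] in
/-- A point where the idempotent does not vanish factors through the local ring. -/
theorem exists_twPoint (x : HeckeO L H S O →ₐ[O] O') (hx : x (twIdem hH O θ) ≠ 0) :
    ∃ x' : TWRing hH O θ →ₐ[O] O', IsLocalHom x'.toRingHom ∧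
      ∀ z, x' (toTWRing hH O θ z) = x z := by
  have he : x (twIdem hH O θ) = 1 :=
    (IsIdempotentElem.iff_eq_zero_or_one.1
      ((isIdempotentElem_twIdem hH O θ).map x)).resolve_left hx
  let x' : TWRing hH O θ →ₐ[O] O' := Ideal.Quotient.liftₐ _ x fun z hz => by
    rw [← mul_one (x z), ← he, ← map_mul, (mem_twKer_iff hH O θ z).1 hz, map_zero]
  exact ⟨x', GalRep.Glue.isLocalHom_algHom (𝒪 := O) x', fun z => rfl⟩

omit [Finite (ResidueField O)] in
/-- Such a point reduces to the residual eigensystem. -/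
theorem residue_of_twIdem_ne_zero (x : HeckeO L H S O →ₐ[O] O') (hx : x (twIdem hH O θ) ≠ 0)
    (z : HeckeO L H S O) :
    residue O' (x z) = ResidueField.map (algebraMap O O') (residO O θ z) := by
  obtain ⟨x', hx', hval⟩ := exists_twPoint x hx
  obtain ⟨a, ha⟩ := residue_surjective (residO O θ z)
  have h0 : residO O θ (z - algebraMap O _ a) = 0 := by
    rw [map_sub, residO_algebraMap, ha, sub_self]
  have h1 : ¬ IsUnit (x' (toTWRing hH O θ (z - algebraMap O _ a))) := fun hu =>
    (isUnit_toTWRing_iff hH O θ).1 (hx'.map_nonunit _ hu) h0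
  rw [hval, ← mem_nonunits_iff, ← mem_maximalIdeal, ← residue_eq_zero_iff, map_sub,
    AlgHom.commutes, map_sub, sub_eq_zero] at h1
  rw [h1, ← ha, ResidueField.map_residue]

end Point

/-- Characteristic polynomials after an extension of the residue field. -/
theorem charpoly_residual_baseChangeAlong {k k' : Type} [Field k] [Field k'] (φ : k →+* k')
    (ρ : ResidualGaloisRep k) (σ : GQ) :
    LinearMap.charpoly ((ρ.baseChangeAlong φ).ρ σ) = (LinearMap.charpoly (ρ.ρ σ)).map φ := by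
  let : Algebra k k' := φ.toAlgebra
  exact LinearMap.charpoly_baseChange (ρ.ρ σ) k'

theorem HeckeO.mk_eq_smul_ofT {L : ℕ} [NeZero L] {H : Subgroup (ZMod L)ˣ} {S : Set ℕ} {O : Type}
    [CommRing O] (a : O) (t : heckeRing L H S) : HeckeO.mk O a t = a • HeckeO.ofT O t := by
  show (a ⊗ₜ[ℤ] t : O ⊗[ℤ] heckeRing L H S) = a • ((1 : O) ⊗ₜ[ℤ] t)
  rw [TensorProduct.smul_tmul', smul_eq_mul, mul_one]

/-- `T_l` from the twisted operator. -/
theorem heckeTR_eq_twistedT {L : ℕ} [NeZero L] {H : Subgroup (ZMod L)ˣ} {S : Set ℕ} (h : ℕ)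
    {l : ℕ} (hl : l.Prime) (hlL : ¬ l ∣ L) (hlS : l ∉ S) :
    (heckeTR hl hlL hlS : heckeRing L H S) =
      diamondR (primeUnit hl hlL)⁻¹ ^ h * twistedT h hl hlL hlS := by
  rw [twistedT, ← mul_assoc, ← mul_pow, ← diamondR_mul, inv_mul_cancel, diamondR_one, one_pow,
    one_mul]

/-- A nonzero element of the Hecke ring is seen by a point. -/
theorem exists_point_of_ne_zero {L : ℕ} [NeZero L] {H : Subgroup (ZMod L)ˣ} {S : Set ℕ}
    (hH : (-1 : (ZMod L)ˣ) ∈ H) {O : Type} [CommRing O] [IsDomain O] [IsDiscreteValuationRing O]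
    [IsAdicComplete (maximalIdeal O) O] [Finite (ResidueField O)] [CharZero O]
    (hLS : ∀ q : ℕ, q.Prime → q ∣ L → q ∈ S) {z : HeckeO L H S O} (hz : z ≠ 0) :
    ∃ (O' : Type) (_ : CommRing O') (_ : IsDomain O') (_ : IsDiscreteValuationRing O')
      (_ : IsAdicComplete (maximalIdeal O') O') (_ : Finite (ResidueField O')) (_ : CharZero O')
      (_ : Algebra O O') (_ : Module.Finite O O') (_ : IsLocalHom (algebraMap O O'))
      (x : HeckeO L H S O →ₐ[O] O'), x z ≠ 0 := by
  by_contra hcon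
  have := moduleFinite_heckeRing (S := S) hH
  have := moduleFree_heckeRing (S := S) hH
  have : Module.Finite O (HeckeO L H S O) :=
    inferInstanceAs (Module.Finite O (O ⊗[ℤ] heckeRing L H S))
  have := isReduced_heckeRing (H := H) (S := S) hLS
  have : IsReduced (HeckeO L H S O) := GalRep.isReduced_tensor_int O (heckeRing L H S)
  have : Module.Finite O (H1 L H O O) := Module.Finite.equiv (coordH hH O O)
  have : Module.Free O (H1 L H O O) := Module.Free.of_equiv (coordH hH O O)
  have hnil : IsNilpotent (actO hH O z) :=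
    IharaTW.isNilpotent_apply_of_points (M := H1 L H O O) (actO hH O)
      fun O' i1 i2 i3 i4 i5 i6 i7 i8 i9 x _ => by_contra fun h0 =>
        hcon ⟨O', i1, i2, i3, i4, i5, i6, i7, i8, i9, x, h0⟩
  exact hz (IsNilpotent.eq_zero ((IsNilpotent.map_iff (actO_injective hH O)).1 hnil))

variable {p L R h : ℕ} [NeZero L] [NeZero R] {H : Subgroup (ZMod L)ˣ} {S₀ S : Finset ℕ}
  {O : Type} [CommRing O] [IsDomain O] [IsDiscreteValuationRing O]
  [IsAdicComplete (maximalIdeal O) O] [Finite (ResidueField O)] [CharZero O]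
  {hH : (-1 : (ZMod L)ˣ) ∈ H} {θ : heckeRing L H (↑S : Set ℕ) →+* ResidueField O}
  {θ₀ : heckeRing L H (↑S₀ : Set ℕ) →+* ResidueField O}
  {ρbar : ResidualGaloisRep (ResidueField O)} {ρ₀ : GQ →* M2 (ResidueField O)}

omit [IsAdicComplete (maximalIdeal O) O] [Finite (ResidueField O)] [CharZero O] in
/-- The hypotheses pass to a larger excluded set. -/
theorem TWHyp.changeS (hyp₀ : TWHyp (H := H) (S := S₀) (O := O) p R h hH θ₀ ρbar ρ₀)
    (hsub : (↑S₀ : Set ℕ) ⊆ ↑S) (hθ : θ = θ₀.comp (heckeIncl hsub)) :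
    TWHyp (H := H) (S := S) (O := O) p R h hH θ ρbar ρ₀ :=
  { hyp₀ with
    mem_S := hsub hyp₀.mem_S
    LS := fun q hq hqL => hsub (hyp₀.LS q hq hqL)
    frob := fun l hl hlL hlS A hA σ hσ => by
      rw [hθ, RingHom.comp_apply, heckeIncl_twistedT hsub h hl hlL hlS]
      exact hyp₀.frob l hl hlL _ A hA σ hσ }

omit [Finite (ResidueField O)] in
/-- **Points above the larger idempotent see `ρbar` outside the smaller set.** -/
theorem charpoly_of_point (hyp : TWHyp (H := H) (S := S) (O := O) p R h hH θ ρbar ρ₀)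
    (hsub : (↑S₀ : Set ℕ) ⊆ ↑S) (hp₀ : p ∈ S₀) (hLS₀ : ∀ q : ℕ, q.Prime → q ∣ L → q ∈ S₀)
    {O' : Type} [CommRing O'] [IsDomain O'] [IsDiscreteValuationRing O']
    [IsAdicComplete (maximalIdeal O') O'] [Finite (ResidueField O')] [CharZero O'] [Algebra O O']
    [IsLocalHom (algebraMap O O')] (x : HeckeO L H (↑S₀ : Set ℕ) O →ₐ[O] O')
    (hx : x (inclO O hsub (twIdem hH O θ)) ≠ 0)
    (l : ℕ) (hl : l.Prime) (hlL : ¬ l ∣ L) (hlS : l ∉ (↑S₀ : Set ℕ))
    (A : ValuationSubring ℚbar) (hA : A.LiesOverPrime l) (σ : GQ) (hσ : A.IsFrobeniusAt σ l) :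
    (LinearMap.charpoly (ρbar.ρ σ)).map (ResidueField.map (algebraMap O O')) =
      X ^ 2 - C (residue O' (x (HeckeO.ofT O (twistedT h hl hlL hlS)))) * X +
        C ((l : ResidueField O')) := by
  have := Fact.mk hyp.prime
  obtain ⟨Φ, hΦ⟩ := exists_twistHom (S := (↑S₀ : Set ℕ)) hH hyp.R_dvd hyp.ker_le hyp.odd hLS₀
  have hNS : ∀ q : ℕ, q.Prime → q ∣ L * R → q ∈ S₀ := fun q hq hd =>
    (hq.dvd_mul.1 hd).elim (hLS₀ q hq) fun hqR => hLS₀ q hq (hqR.trans hyp.R_dvd)
  have hpO' : (p : O') ∈ maximalIdeal O' :=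
    map_natCast (algebraMap O O') p ▸ map_nonunit (algebraMap O O') _ hyp.mem
  obtain ⟨O'', _, _, _, _, _, _, _, _, _, -, ρ, hρ, -⟩ :=
    GalRep.exists_galoisRep_of_torsionReduction p (L * R) (hyp.red _) S₀ hp₀ hNS O' hpO'
      (x.toRingHom.comp ((HeckeO.ofT O).comp Φ))
  let φ : ResidueField O →+* ResidueField O' := ResidueField.map (algebraMap O O')
  let ψ : ResidueField O' →+* ResidueField O'' := ResidueField.map (algebraMap O' O'')
  let ρ₁ : ResidualGaloisRep (ResidueField O'') := ρbar.baseChangeAlong (ψ.comp φ)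
  -- the Frobenius polynomials of the representation of the point
  have hρ₂ : ∀ (m : ℕ) (hm : m.Prime) (hmL : ¬ m ∣ L) (hmS : m ∉ (↑S₀ : Set ℕ)),
      ∀ B : ValuationSubring ℚbar, B.LiesOverPrime m → ∀ τ : GQ, B.IsFrobeniusAt τ m →
        LinearMap.charpoly (ρ.residual.ρ τ) =
          (X ^ 2 - C (residue O' (x (HeckeO.ofT O (twistedT h hm hmL hmS)))) * X +
            C ((m : ResidueField O'))).map ψ := by
    intro m hm hmL hmS B hB τ hτ
    have hmM : ¬ m ∣ L * R := fun hd => hmS (hNS m hm hd)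
    rw [charpoly_residual_apply, hρ m hm hmM hmS B hB τ hτ, RingHom.comp_apply,
      RingHom.comp_apply, hΦ m hm hmL hmM hmS]
    simp only [Polynomial.map_add, Polynomial.map_sub, Polynomial.map_mul, Polynomial.map_pow,
      Polynomial.map_X, Polynomial.map_C, map_natCast, ψ, ResidueField.map_residue,
      AlgHom.toRingHom_eq_coe, RingHom.coe_coe, Polynomial.map_natCast]
  have hall := Density.residual_charpoly_eq_of_forall_frobenius ρ₁ ρ.residual (↑S : Set ℕ)
    S.finite_toSet (fun m hm hmS B hB τ hτ => by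
      have hmL : ¬ m ∣ L := fun hd => hmS (hyp.LS m hm hd)
      rw [hρ₂ m hm hmL (fun h₀ => hmS (hsub h₀)) B hB τ hτ, charpoly_residual_baseChangeAlong,
        ← Polynomial.map_map, hyp.frob m hm hmL hmS B hB τ hτ]
      congr 1
      have h1 := residue_of_twIdem_ne_zero (hH := hH) (θ := θ) (x.comp (inclO O hsub)) hx
        (HeckeO.ofT O (twistedT h hm hmL hmS))
      rw [AlgHom.comp_apply, inclO_ofT, heckeIncl_twistedT, residO_ofT] at h1
      simp only [Polynomial.map_add, Polynomial.map_sub, Polynomial.map_mul, Polynomial.map_pow,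
        Polynomial.map_X, Polynomial.map_C, map_natCast, Polynomial.map_natCast, h1, φ]) σ
  refine Polynomial.map_injective ψ ψ.injective ?_
  rw [Polynomial.map_map]
  exact (charpoly_residual_baseChangeAlong (ψ.comp φ) ρbar σ).symm.trans
    (hall.trans (hρ₂ l hl hlL hlS A hA σ hσ))

omit [Finite (ResidueField O)] in
/-- A point above the larger idempotent reduces to `θ₀`. -/
theorem residue_eq_of_point (hyp₀ : TWHyp (H := H) (S := S₀) (O := O) p R h hH θ₀ ρbar ρ₀)
    (hsub : (↑S₀ : Set ℕ) ⊆ ↑S) (hθ : θ = θ₀.comp (heckeIncl hsub))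
    {O' : Type} [CommRing O'] [IsDomain O'] [IsDiscreteValuationRing O']
    [IsAdicComplete (maximalIdeal O') O'] [Finite (ResidueField O')] [CharZero O'] [Algebra O O']
    [IsLocalHom (algebraMap O O')] (x : HeckeO L H (↑S₀ : Set ℕ) O →ₐ[O] O')
    (hx : x (inclO O hsub (twIdem hH O θ)) ≠ 0) (z : HeckeO L H (↑S₀ : Set ℕ) O) :
    residue O' (x z) = ResidueField.map (algebraMap O O') (residO O θ₀ z) := by
  have hd : ∀ a : (ZMod L)ˣ, residue O' (x (HeckeO.ofT O (diamondR a))) =
      ResidueField.map (algebraMap O O') (θ₀ (diamondR a)) := by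
    intro a
    have h1 := residue_of_twIdem_ne_zero (hH := hH) (θ := θ) (x.comp (inclO O hsub)) hx
      (HeckeO.ofT O (diamondR a))
    rw [AlgHom.comp_apply, inclO_ofT, heckeIncl_diamondR, residO_ofT, hθ, RingHom.comp_apply,
      heckeIncl_diamondR] at h1
    exact h1
  let g : heckeRing L H (↑S₀ : Set ℕ) →+* ResidueField O' :=
    ((residue O').comp x.toRingHom).comp (HeckeO.ofT O)
  let g₀ : heckeRing L H (↑S₀ : Set ℕ) →+* ResidueField O' :=
    (ResidueField.map (algebraMap O O')).comp θ₀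
  have hgen : g = g₀ := by
    refine RingHom.ext fun t => ?_
    obtain ⟨y, hy⟩ := t
    induction hy using Algebra.adjoin_induction with
    | mem y hy =>
      rcases hy with (⟨a, rfl⟩ | ⟨l, hl, hlL, hlS, rfl⟩) | ⟨q, hqL, hq, hqS, rfl⟩
      · exact hd a
      · obtain ⟨A, hA⟩ := Gal.exists_liesOverPrime (L := ℚbar) hl
        obtain ⟨σ, hσ⟩ := Gal.exists_isFrobeniusAt hl hA
        have h1 := charpoly_of_point (hyp₀.changeS hsub hθ) hsub hyp₀.mem_S hyp₀.LS x hx l hl hlL
          hlS A hA σ hσ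
        rw [hyp₀.frob l hl hlL hlS A hA σ hσ] at h1
        have h2 := congrArg (fun P : (ResidueField O')[X] => P.coeff 1) h1
        simp [coeff_X_pow] at h2
        show residue O' (x (HeckeO.ofT O (heckeTR hl hlL hlS))) =
          ResidueField.map (algebraMap O O') (θ₀ (heckeTR hl hlL hlS))
        rw [heckeTR_eq_twistedT h hl hlL hlS]
        simp only [map_mul, map_pow, hd, h2]
      · exact absurd (hyp₀.LS q hq hqL) hqS
    | algebraMap n =>
      exact (eq_intCast (g.comp (algebraMap ℤ (heckeRing L H (↑S₀ : Set ℕ)))) n).trans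
        (eq_intCast (g₀.comp (algebraMap ℤ (heckeRing L H (↑S₀ : Set ℕ)))) n).symm
    | add u v hu hv hu' hv' =>
      exact ((g.map_add ⟨u, hu⟩ ⟨v, hv⟩).trans (congrArg₂ (· + ·) hu' hv')).trans
        (g₀.map_add ⟨u, hu⟩ ⟨v, hv⟩).symm
    | mul u v hu hv hu' hv' =>
      exact ((g.map_mul ⟨u, hu⟩ ⟨v, hv⟩).trans (congrArg₂ (· * ·) hu' hv')).trans
        (g₀.map_mul ⟨u, hu⟩ ⟨v, hv⟩).symm
  induction z using HeckeO.induction with
  | zero => simp
  | add a b ha hb => simp only [map_add, ha, hb]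
  | mk a t =>
    have h1 := RingHom.congr_fun hgen t
    have h2 : residue O' (x (HeckeO.ofT O t)) = ResidueField.map (algebraMap O O') (θ₀ t) := h1
    rw [HeckeO.mk_eq_smul_ofT, Algebra.smul_def, map_mul, map_mul, AlgHom.commutes, h2, map_mul,
      residO_algebraMap, residO_ofT, map_mul, ResidueField.map_residue]

/-- The residual eigensystem extends to the smaller excluded set. -/
theorem exists_theta_changeS (hyp : TWHyp (H := H) (S := S) (O := O) p R h hH θ ρbar ρ₀)
    (hsub : (↑S₀ : Set ℕ) ⊆ ↑S) (hp₀ : p ∈ S₀) (hLS₀ : ∀ q : ℕ, q.Prime → q ∣ L → q ∈ S₀) :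
    ∃ θ₀ : heckeRing L H (↑S₀ : Set ℕ) →+* ResidueField O, θ = θ₀.comp (heckeIncl hsub) ∧
      TWHyp (H := H) (S := S₀) (O := O) p R h hH θ₀ ρbar ρ₀ := by
  obtain ⟨O', _, _, _, _, _, _, _, _, _, x, hx⟩ := exists_point_of_ne_zero (S := (↑S₀ : Set ℕ)) hH
    hLS₀ (z := inclO O hsub (twIdem hH O θ)) fun h0 => by
      rw [← map_zero (inclO O hsub)] at h0
      have h1 := congrArg (residO O θ) (inclO_injective O hH hsub h0)
      rw [residO_twIdem, map_zero] at h1
      exact one_ne_zero h1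
  let φ : ResidueField O →+* ResidueField O' := ResidueField.map (algebraMap O O')
  let g : heckeRing L H (↑S₀ : Set ℕ) →+* ResidueField O' :=
    ((residue O').comp x.toRingHom).comp (HeckeO.ofT O)
  have hS : ∀ t, g (heckeIncl hsub t) = φ (θ t) := fun t => by
    have h1 := residue_of_twIdem_ne_zero (hH := hH) (θ := θ) (x.comp (inclO O hsub)) hx
      (HeckeO.ofT O t)
    rw [AlgHom.comp_apply, inclO_ofT, residO_ofT] at h1
    exact h1
  have htw : ∀ (l : ℕ) (hl : l.Prime) (hlL : ¬ l ∣ L) (hlS : l ∉ (↑S₀ : Set ℕ)),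
      ∀ A : ValuationSubring ℚbar, A.LiesOverPrime l → ∀ σ : GQ, A.IsFrobeniusAt σ l →
        (LinearMap.charpoly (ρbar.ρ σ)).map φ =
          X ^ 2 - C (g (twistedT h hl hlL hlS)) * X + C ((l : ResidueField O')) :=
    fun l hl hlL hlS A hA σ hσ => charpoly_of_point hyp hsub hp₀ hLS₀ x hx l hl hlL hlS A hA σ hσ
  have hrange : ∀ t, g t ∈ φ.range := by
    rintro ⟨y, hy⟩
    induction hy using Algebra.adjoin_induction with
    | mem y hy =>
      rcases hy with (⟨a, rfl⟩ | ⟨l, hl, hlL, hlS, rfl⟩) | ⟨q, hqL, hq, hqS, rfl⟩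
      · exact ⟨θ (diamondR a), ((congrArg g (heckeIncl_diamondR hsub a)).symm.trans (hS _)).symm⟩
      · obtain ⟨A, hA⟩ := Gal.exists_liesOverPrime (L := ℚbar) hl
        obtain ⟨σ, hσ⟩ := Gal.exists_isFrobeniusAt hl hA
        have h1 := congrArg (fun P : (ResidueField O')[X] => P.coeff 1)
          (htw l hl hlL hlS A hA σ hσ)
        simp [coeff_X_pow] at h1
        show g (heckeTR hl hlL hlS) ∈ φ.range
        rw [heckeTR_eq_twistedT h hl hlL hlS, map_mul, map_pow]
        have hdr : g (diamondR (primeUnit hl hlL)⁻¹) ∈ φ.range :=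
          ⟨θ (diamondR (primeUnit hl hlL)⁻¹),
          ((congrArg g (heckeIncl_diamondR hsub _)).symm.trans (hS _)).symm⟩
        refine mul_mem (pow_mem hdr _) ⟨-(LinearMap.charpoly (ρbar.ρ σ)).coeff 1, ?_⟩
        rw [map_neg, h1, neg_neg]
      · exact absurd (hLS₀ q hq hqL) hqS
    | algebraMap n => exact ⟨(n : ResidueField O), (map_intCast φ n).trans (eq_intCast
        (g.comp (algebraMap ℤ (heckeRing L H (↑S₀ : Set ℕ)))) n).symm⟩
    | add u v hu hv hu' hv' =>
      rw [show g ⟨u + v, Subalgebra.add_mem _ hu hv⟩ = g ⟨u, hu⟩ + g ⟨v, hv⟩ from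
        g.map_add ⟨u, hu⟩ ⟨v, hv⟩]
      exact add_mem hu' hv'
    | mul u v hu hv hu' hv' =>
      rw [show g ⟨u * v, Subalgebra.mul_mem _ hu hv⟩ = g ⟨u, hu⟩ * g ⟨v, hv⟩ from
        g.map_mul ⟨u, hu⟩ ⟨v, hv⟩]
      exact mul_mem hu' hv'
  let θ₀ : heckeRing L H (↑S₀ : Set ℕ) →+* ResidueField O :=
    ((RingEquiv.ofBijective φ.rangeRestrict ⟨fun a b hab =>
      φ.injective (congrArg Subtype.val hab), φ.rangeRestrict_surjective⟩).symm :
        φ.range →+* ResidueField O).comp (g.codRestrict φ.range hrange)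
  have hθ₀ : ∀ t, φ (θ₀ t) = g t := fun t => congrArg Subtype.val
    ((RingEquiv.ofBijective φ.rangeRestrict ⟨fun a b hab =>
      φ.injective (congrArg Subtype.val hab), φ.rangeRestrict_surjective⟩).apply_symm_apply
        (g.codRestrict φ.range hrange t))
  refine ⟨θ₀, RingHom.ext fun t => φ.injective ?_, { hyp with
    mem_S := hp₀, LS := hLS₀, frob := fun l hl hlL hlS A hA σ hσ => ?_ }⟩
  · rw [RingHom.comp_apply, hθ₀, hS]
  · refine Polynomial.map_injective φ φ.injective ?_
    rw [htw l hl hlL hlS A hA σ hσ]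
    simp only [Polynomial.map_add, Polynomial.map_sub, Polynomial.map_mul, Polynomial.map_pow,
      Polynomial.map_X, Polynomial.map_C, Polynomial.map_natCast, map_natCast, hθ₀]

/-- **The two idempotents agree.** -/
theorem inclO_twIdem (hyp₀ : TWHyp (H := H) (S := S₀) (O := O) p R h hH θ₀ ρbar ρ₀)
    (hsub : (↑S₀ : Set ℕ) ⊆ ↑S) (hθ : θ = θ₀.comp (heckeIncl hsub)) :
    inclO O hsub (twIdem hH O θ) = twIdem hH O θ₀ := by
  set f := inclO O hsub (twIdem hH O θ) with hf
  set e := twIdem hH O θ₀ with he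
  have hfi : IsIdempotentElem f := (isIdempotentElem_twIdem hH O θ).map (inclO O hsub)
  obtain ⟨y, hy⟩ := exists_mul_eq_twIdem hH O θ₀ (x := f)
    (by rw [hf, residO_inclO, ← hθ, residO_twIdem]; exact one_ne_zero)
  have hfe : f * e = e := by
    rw [he, ← hy, mul_left_comm, hfi.eq]
  have h0 : f * (1 - e) = 0 := by
    by_contra hne
    obtain ⟨O', _, _, _, _, _, _, _, _, _, x, hx⟩ :=
      exists_point_of_ne_zero hH hyp₀.LS hne
    rw [map_mul, map_sub, map_one] at hx
    have h1 := residue_eq_of_point hyp₀ hsub hθ x (left_ne_zero_of_mul hx) e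
    rw [he, residO_twIdem, map_one] at h1
    rcases IsIdempotentElem.iff_eq_zero_or_one.1
      ((isIdempotentElem_twIdem hH O θ₀).map x) with h2 | h2
    · rw [h2, map_zero] at h1
      exact zero_ne_one h1
    · rw [← he] at h2
      exact right_ne_zero_of_mul hx (by rw [h2, sub_self])
  rw [mul_sub, mul_one, sub_eq_zero, hfe] at h0
  exact h0

/-- **The two idempotents act as the same operator.** -/
theorem actO_twIdem_changeS (hyp₀ : TWHyp (H := H) (S := S₀) (O := O) p R h hH θ₀ ρbar ρ₀)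
    (hsub : (↑S₀ : Set ℕ) ⊆ ↑S) (hθ : θ = θ₀.comp (heckeIncl hsub)) :
    actO hH O (twIdem hH O θ) = actO hH O (twIdem hH O θ₀) := by
  rw [← inclO_twIdem hyp₀ hsub hθ, actO_inclO]

end Fermat.Agent.TW
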