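import Fermat.Agent.TW.Eigen
import Fermat.Agent.GammaH.Compat

/-!
# Unipotent inertia at points with trivial diamond operators

`trace_eq_two_of_diamond_eq_one`: at a point of the localised Hecke ring of `Γ_H(L)` where the
diamond operators at `q` are trivial, inertia at `q` is unipotent; the point comes from the level
with `H` enlarged at `q`, whose representation has `q` exactly once in its level.
-/

set_option autoImplicit false

noncomputable section

namespace Fermat.Agent.TW

open IsLocalRing Polynomial Fermat.Agent.Deformation Fermat.Agent.GammaH CuspForm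

local notation "ℚbar" => AlgebraicClosure ℚ

variable {L R : ℕ} [NeZero L] [NeZero R] {H : Subgroup (ZMod L)ˣ}

omit [NeZero L] in
/-- A unit trivial at `L / q` and prescribed at `q`. -/
theorem exists_unit_at {q : ℕ} (hq : q.Prime) (hqL : q ∣ L) (hq2 : ¬ q ^ 2 ∣ L) (a : (ZMod L)ˣ) :
    ∃ c : (ZMod L)ˣ, ZMod.unitsMap (Nat.div_dvd_of_dvd hqL) c = 1 ∧
      ZMod.unitsMap hqL c = ZMod.unitsMap hqL a := by
  have := Fact.mk hq
  have hco : (L / q).Coprime q := by
    rw [Nat.coprime_comm, hq.coprime_iff_not_dvd]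
    intro hd
    exact hq2 (by rw [pow_two]; exact (Nat.dvd_div_iff_mul_dvd hqL).1 hd)
  let e := ZMod.chineseRemainder hco
  have hL : L / q * q = L := Nat.div_mul_cancel hqL
  let y : ZMod (L / q * q) := e.symm (1, (ZMod.unitsMap hqL a : ZMod q))
  have hy : IsUnit y := (Prod.isUnit_iff.2 ⟨isUnit_one, Units.isUnit _⟩).map e.symm
  have hy' : IsUnit (ZMod.ringEquivCongr hL y) := hy.map _
  refine ⟨hy'.unit, ?_, ?_⟩
  · refine Units.ext ?_
    rw [Units.val_one, ZMod.unitsMap_val, IsUnit.unit_spec]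
    have h1 : (e y).1 = 1 := by simp [y]
    rw [← h1]
    exact RingHom.congr_fun (RingHom.ext_zmod
      ((ZMod.castHom (Nat.div_dvd_of_dvd hqL) (ZMod (L / q))).comp
        (ZMod.ringEquivCongr hL).toRingHom) ((RingHom.fst _ _).comp e.toRingHom)) y
  · refine Units.ext ?_
    rw [ZMod.unitsMap_val, IsUnit.unit_spec]
    have h1 : (e y).2 = (ZMod.unitsMap hqL a : ZMod q) := by simp [y]
    rw [← h1]
    exact RingHom.congr_fun (RingHom.ext_zmod
      ((ZMod.castHom hqL (ZMod q)).comp
        (ZMod.ringEquivCongr hL).toRingHom) ((RingHom.snd _ _).comp e.toRingHom)) y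

omit [NeZero L] [NeZero R] in
/-- Enlarging `H` at `q` removes `q` from the conductor of the twisting character. -/
theorem ker_le_sup {q : ℕ} (hq : q.Prime) (hqL : q ∣ L) (hq2 : ¬ q ^ 2 ∣ L) (hR : R ∣ L)
    (hker : (ZMod.unitsMap hR).ker ≤ H) (hqR : q ∣ R) :
    (ZMod.unitsMap ((Nat.div_dvd_of_dvd hqR).trans hR)).ker ≤
      H ⊔ (ZMod.unitsMap (Nat.div_dvd_of_dvd hqL)).ker := by
  intro a ha
  rw [MonoidHom.mem_ker] at ha
  obtain ⟨c, hc1, hc2⟩ := exists_unit_at hq hqL hq2 a
  rw [show a = a * c⁻¹ * c by rw [inv_mul_cancel_right]]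
  refine Subgroup.mul_mem _ (Subgroup.mem_sup_left (hker ?_))
    (Subgroup.mem_sup_right (MonoidHom.mem_ker.2 hc1))
  have hR2 : ¬ q ^ 2 ∣ R := fun hd => hq2 (hd.trans hR)
  have hco : (R / q).Coprime q := by
    rw [Nat.coprime_comm, hq.coprime_iff_not_dvd]
    intro hd
    exact hR2 (by rw [pow_two]; exact (Nat.dvd_div_iff_mul_dvd hqR).1 hd)
  have h1 : ZMod.unitsMap ((Nat.div_dvd_of_dvd hqR).trans hR) c = 1 := by
    have hd : R / q ∣ L / q := Nat.div_dvd_div hqR hR
    rw [← ZMod.unitsMap_comp hd (Nat.div_dvd_of_dvd hqL), MonoidHom.comp_apply, hc1, map_one]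
  rw [MonoidHom.mem_ker]
  set b := ZMod.unitsMap hR (a * c⁻¹) with hb
  have e1 : ZMod.unitsMap (Nat.div_dvd_of_dvd hqR) b = 1 := by
    rw [hb, ← MonoidHom.comp_apply, ZMod.unitsMap_comp, map_mul, map_inv, ha, h1, inv_one, mul_one]
  have e2 : ZMod.unitsMap hqR b = 1 := by
    rw [hb, ← MonoidHom.comp_apply, ZMod.unitsMap_comp, map_mul, map_inv, hc2, mul_inv_cancel]
  let e := ZMod.chineseRemainder hco
  have hRq : R / q * q = R := Nat.div_mul_cancel hqR
  refine Units.ext ((ZMod.ringEquivCongr hRq).symm.injective (e.injective (Prod.ext ?_ ?_)))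
  · rw [Units.val_one, map_one, map_one]
    refine Eq.trans (RingHom.congr_fun (RingHom.ext_zmod
      ((RingHom.fst _ _).comp (e.toRingHom.comp (ZMod.ringEquivCongr hRq).symm.toRingHom))
      (ZMod.castHom (Nat.div_dvd_of_dvd hqR) (ZMod (R / q)))) (b : ZMod R)) ?_
    rw [ZMod.castHom_apply, ← ZMod.unitsMap_val (Nat.div_dvd_of_dvd hqR), e1]
    rfl
  · rw [Units.val_one, map_one, map_one]
    refine Eq.trans (RingHom.congr_fun (RingHom.ext_zmod
      ((RingHom.snd _ _).comp (e.toRingHom.comp (ZMod.ringEquivCongr hRq).symm.toRingHom))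
      (ZMod.castHom hqR (ZMod q))) (b : ZMod R)) ?_
    rw [ZMod.castHom_apply, ← ZMod.unitsMap_val hqR, e2]
    rfl

variable {p h : ℕ} {S : Finset ℕ} {O : Type} [CommRing O] [IsDomain O] [IsDiscreteValuationRing O]
  [IsAdicComplete (maximalIdeal O) O] [Finite (ResidueField O)] [CharZero O]
  [Fact (HasIntegralStructure (L * R) 2)] {hH : (-1 : (ZMod L)ˣ) ∈ H}
  {θ : heckeRing L H (↑S : Set ℕ) →+* ResidueField O}
  {ρbar : ResidualGaloisRep (ResidueField O)} {ρ₀ : GQ →* M2 (ResidueField O)}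

omit [Finite (ResidueField O)] in
/-- A point of the localised ring reduces to `θ`. -/
theorem residue_point {O' : Type} [CommRing O'] [IsLocalRing O'] [Algebra O O']
    [IsLocalHom (algebraMap O O')] (x : TWRing hH O θ →ₐ[O] O') (hx : IsLocalHom x.toRingHom)
    (z : HeckeO L H (↑S : Set ℕ) O) :
    residue O' (x (toTWRing hH O θ z)) =
      ResidueField.map (algebraMap O O') (residO O θ z) := by
  obtain ⟨a, ha⟩ := residue_surjective (residO O θ z)
  have h0 : residO O θ (z - algebraMap O _ a) = 0 := by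
    rw [map_sub, residO_algebraMap, ha, sub_self]
  have h1 : ¬ IsUnit (x (toTWRing hH O θ (z - algebraMap O _ a))) := fun hu =>
    (isUnit_toTWRing_iff hH O θ).1 (hx.map_nonunit _ hu) h0
  rw [← mem_nonunits_iff, ← mem_maximalIdeal, ← residue_eq_zero_iff, map_sub, map_sub, map_sub,
    AlgHom.commutes, AlgHom.commutes, sub_eq_zero] at h1
  rw [h1, ← ha, ResidueField.map_residue]

/-- **Unipotent inertia where the diamond operators at `q` are trivial.** -/
theorem trace_eq_two_of_diamond_eq_one (hyp : TWHyp (H := H) p R h hH θ ρbar ρ₀)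
    (D : TWRep (H := H) (S := S) (O := O) p R h (rfl : R = R) hH θ ρ₀)
    {O' : Type} [CommRing O'] [IsDomain O'] [IsDiscreteValuationRing O']
    [IsAdicComplete (maximalIdeal O') O'] [Finite (ResidueField O')] [CharZero O'] [Algebra O O']
    [IsLocalHom (algebraMap O O')] (x : TWRing hH O θ →ₐ[O] O') (hx : IsLocalHom x.toRingHom)
    {q : ℕ} (hq : q.Prime) (hqp : q ≠ p) (hqL : q ∣ L) (hq2 : ¬ q ^ 2 ∣ L)
    (h1 : ∀ a : (ZMod L)ˣ, ZMod.unitsMap (Nat.div_dvd_of_dvd hqL) a = 1 →
      x (toTWRing hH O θ (HeckeO.ofT O (diamondR a))) = 1)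
    (P : ValuationSubring ℚbar) (hP : P.LiesOverPrime q) (σ : GQ)
    (hσ : σ ∈ P.inertiaSubgroupIn ℚ) : x (D.ψ (D.M₀ σ).trace) = 2 := by
  by_cases hqR : q ∣ R
  swap
  · have hLR : ¬ q ^ 2 ∣ L * R := fun hd =>
      hq2 ((Nat.Coprime.dvd_of_dvd_mul_right ((hq.coprime_iff_not_dvd.2 hqR).pow_left 2) hd))
    rw [(D.unipotent q hq hqp (hqL.mul_right R) hLR P hP σ hσ).1, map_ofNat, map_ofNat]
  have := Fact.mk hyp.prime
  set R' := R / q with hR'
  have hR'0 : R' ≠ 0 := (Nat.div_pos (Nat.le_of_dvd (NeZero.pos R) hqR) hq.pos).ne'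
  have : NeZero R' := ⟨hR'0⟩
  have : Fact (HasIntegralStructure (L * R') 2) :=
    ⟨MFCore.hasIntegralStructure (L * R') 2⟩
  set H' := H ⊔ (ZMod.unitsMap (Nat.div_dvd_of_dvd hqL)).ker with hH'
  have hle : H ≤ H' := le_sup_left
  let f : heckeRing L H (↑S : Set ℕ) →+* O' :=
    x.toRingHom.comp ((toTWRing hH O θ).toRingHom.comp (HeckeO.ofT O))
  obtain ⟨lam, ι, hι⟩ := exists_complex_lift hH f
  have hf : ∀ t, ι (lam.rangeRestrict t) = f t := RingHom.congr_fun hι
  have := moduleFinite_heckeRing (S := (↑S : Set ℕ)) hH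
  have : Module.Finite ℤ lam.range :=
    Module.Finite.of_surjective lam.rangeRestrict.toIntAlgHom.toLinearMap
      lam.rangeRestrict_surjective
  have hιinj : Function.Injective ι := by
    rw [RingHom.injective_iff_ker_eq_bot]
    have : (RingHom.ker ι).IsPrime := RingHom.ker_isPrime ι
    have : Algebra.IsIntegral ℤ lam.range := Algebra.IsIntegral.of_finite ℤ _
    refine Ideal.eq_bot_of_comap_eq_bot (R := ℤ) (eq_bot_iff.2 fun n hn => ?_)
    rw [Ideal.mem_comap, RingHom.mem_ker, eq_intCast, map_intCast, Int.cast_eq_zero] at hn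
    exact Ideal.mem_bot.2 hn
  -- an eigenform of the character is fixed by the diamond operators of `H'`
  obtain ⟨v, hv0, hv⟩ := exists_eigenvector hH lam
  have hfix : ∀ a ∈ H', diamond a v = v := by
    intro a ha
    have hlam : lam (diamondR a) = 1 := by
      refine Subgroup.closure_induction (p := fun b _ => lam (diamondR b) = 1) ?_ ?_ ?_ ?_
        (show a ∈ Subgroup.closure ((H : Set (ZMod L)ˣ) ∪
          ((ZMod.unitsMap (Nat.div_dvd_of_dvd hqL)).ker : Set (ZMod L)ˣ)) by
          rw [Subgroup.closure_union, Subgroup.closure_eq, Subgroup.closure_eq]; exact ha)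
      · rintro b (hb | hb)
        · rw [diamondR_of_mem hb, map_one]
        · have h2 : ι (lam.rangeRestrict (diamondR b)) = ι 1 := by
            rw [hf, map_one]; exact h1 b (MonoidHom.mem_ker.1 hb)
          exact congrArg Subtype.val (hιinj h2)
      · rw [diamondR_one, map_one]
      · intro b c _ _ hb hc
        rw [diamondR_mul, map_mul, hb, hc, one_mul]
      · intro b _ hb
        have h2 : lam (diamondR b⁻¹) * lam (diamondR b) = 1 := by
          rw [← map_mul, ← diamondR_mul, inv_mul_cancel, diamondR_one, map_one]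
        rwa [hb, mul_one] at h2
    have h3 := hv (diamondR a)
    rw [hlam, one_smul, coe_diamondR] at h3
    exact h3
  obtain ⟨g, hg⟩ := (mem_range_inclH hle).2 hfix
  have hkill : RingHom.ker (heckeRes (S := (↑S : Set ℕ)) hle) ≤ RingHom.ker f := fun t ht => by
    have h2 := hv t
    rw [← hg, ← inclH_heckeRes hle, RingHom.mem_ker.1 ht, ZeroMemClass.coe_zero,
      LinearMap.zero_apply, map_zero, hg, eq_comm, smul_eq_zero] at h2
    rw [RingHom.mem_ker, ← hf, show lam.rangeRestrict t = 0 from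
      Subtype.ext (h2.resolve_right hv0), map_zero]
  let f' : heckeRing L H' (↑S : Set ℕ) →+* O' :=
    (heckeRes hle).liftOfSurjective (heckeRes_surjective hle) ⟨f, hkill⟩
  have hf' : ∀ t, f' (heckeRes hle t) = f t := fun t =>
    RingHom.liftOfRightInverse_comp_apply _ _ _ ⟨f, hkill⟩ t
  have hres : ∀ t, residue O' (f t) = ResidueField.map (algebraMap O O') (θ t) := fun t => by
    rw [← residO_ofT O θ t]
    exact residue_point x hx _
  let θ' : heckeRing L H' (↑S : Set ℕ) →+* ResidueField O :=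
    (heckeRes hle).liftOfSurjective (heckeRes_surjective hle) ⟨θ, fun t ht => by
      have h2 := hres t
      rw [RingHom.mem_ker.1 (hkill ht), map_zero, eq_comm] at h2
      exact RingHom.mem_ker.2 ((RingHom.injective _) (h2.trans (map_zero _).symm))⟩
  have hθ' : ∀ t, θ' (heckeRes hle t) = θ t := fun t =>
    RingHom.liftOfRightInverse_comp_apply _ _ _ _ t
  have htw : ∀ (l : ℕ) (hl : l.Prime) (hlL : ¬ l ∣ L) (hlS : l ∉ (↑S : Set ℕ)),
      heckeRes hle (twistedT h hl hlL hlS) = twistedT h hl hlL hlS := fun l hl hlL hlS => by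
    rw [twistedT, map_mul, map_pow, heckeRes_diamond, heckeRes_heckeT]
    rfl
  have hH1 : (-1 : (ZMod L)ˣ) ∈ H' := hle hH
  have hyp' : TWHyp (H := H') p R' h hH1 θ' ρbar ρ₀ :=
    { prime := hyp.prime, ne_two := hyp.ne_two, mem := hyp.mem, mem_S := hyp.mem_S, red := hyp.red
      R_dvd := (Nat.div_dvd_of_dvd hqR).trans hyp.R_dvd
      ker_le := ker_le_sup hq hqL hq2 hyp.R_dvd hyp.ker_le hqR
      odd := fun a => hle (hyp.odd a), LS := hyp.LS, matrix := hyp.matrix, absIrr := hyp.absIrr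
      frob := fun l hl hlL hlS A hA τ hτ => by
        rw [← htw l hl hlL hlS, hθ']
        exact hyp.frob l hl hlL hlS A hA τ hτ }
  obtain ⟨D'⟩ := nonempty_twRep hyp'
  -- the point of the larger group
  let X₀ : HeckeO L H' (↑S : Set ℕ) O →ₐ[O] O' := liftO O f'
  have hX₀ : ∀ t, X₀ (HeckeO.ofT O t) = f' t := fun t => by
    rw [HeckeO.ofT_apply, liftO_tmul, one_smul]
  have hresX : ∀ z, residue O' (X₀ z) = ResidueField.map (algebraMap O O') (residO O θ' z) := by
    intro z
    induction z using HeckeO.induction with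
    | zero => rw [map_zero, map_zero, map_zero, map_zero]
    | mk a t =>
      obtain ⟨t, rfl⟩ := heckeRes_surjective hle t
      rw [liftO_tmul, residO_tmul, hθ', hf', Algebra.smul_def, map_mul, map_mul, hres,
        ResidueField.map_residue]
    | add a b ha hb => simp only [map_add, ha, hb]
  have he : X₀ (twIdem hH1 O θ') = 1 := by
    rcases IsIdempotentElem.iff_eq_zero_or_one.1
      ((isIdempotentElem_twIdem hH1 O θ').map X₀) with h2 | h2
    · have h3 := hresX (twIdem hH1 O θ')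
      rw [h2, map_zero, residO_twIdem, map_one] at h3
      exact absurd h3 zero_ne_one
    · exact h2
  let x' : TWRing hH1 O θ' →ₐ[O] O' := Ideal.Quotient.liftₐ _ X₀ fun z hz => by
    rw [← mul_one (X₀ z), ← he, ← map_mul, (mem_twKer_iff hH1 O θ' z).1 hz, map_zero]
  have hx'z : ∀ z, x' (toTWRing hH1 O θ' z) = X₀ z := fun z => rfl
  have hx' : IsLocalHom x'.toRingHom := ⟨fun z hz => by
    obtain ⟨z, rfl⟩ := toTWRing_surjective hH1 O θ' z
    refine (isUnit_toTWRing_iff hH1 O θ').2 fun h0 => (hz.map (residue O')).ne_zero ?_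
    exact (hresX z).trans (by rw [h0, map_zero])⟩
  have := hx
  have := D.ψ_local
  have := D'.ψ_local
  let y : CuspForm.heckeLocal (L * R) (↑S : Set ℕ) O D.θ' →+* O' := x.toRingHom.comp D.ψ.toRingHom
  let y' : CuspForm.heckeLocal (L * R') (↑S : Set ℕ) O D'.θ' →+* O' :=
    x'.toRingHom.comp D'.ψ.toRingHom
  have hy : IsLocalHom y := inferInstanceAs (IsLocalHom (x.toRingHom.comp D.ψ.toRingHom))
  have hy' : IsLocalHom y' := inferInstanceAs (IsLocalHom (x'.toRingHom.comp D'.ψ.toRingHom))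
  have hc : MatCont (mapRep y D.M₀) := matCont_mapRep _ hy D.cont
  have hc' : MatCont (mapRep y' D'.M₀) := matCont_mapRep _ hy' D'.cont
  have hall := Density.adic_charpoly_eq_of_forall_frobenius (ofMatrix _ hc) (ofMatrix _ hc')
    (↑S : Set ℕ) S.finite_toSet (fun l hl hlS A hA τ hτ => by
      have hlL : ¬ l ∣ L := fun hd => hlS (hyp.LS l hl hd)
      obtain ⟨ht, hd⟩ := D.frob l hl hlL hlS A hA τ hτ
      obtain ⟨ht', hd'⟩ := D'.frob l hl hlL hlS A hA τ hτ
      refine (Matrix.charpoly_toLin' (mapRep y D.M₀ τ)).trans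
        (Eq.trans ?_ (Matrix.charpoly_toLin' (mapRep y' D'.M₀ τ)).symm)
      rw [mapRep_apply, mapRep_apply, Matrix.charpoly_map, Matrix.charpoly_map,
        Matrix.charpoly_fin_two, Matrix.charpoly_fin_two]
      have e1 : y (D.M₀ τ).trace = f (twistedT h hl hlL hlS) := congrArg x ht
      have e2 : y' (D'.M₀ τ).trace = f (twistedT h hl hlL hlS) := by
        refine (congrArg x' ht').trans ?_
        rw [hx'z, hX₀, ← htw l hl hlL hlS, hf']
      simp only [Polynomial.map_add, Polynomial.map_sub, Polynomial.map_mul, Polynomial.map_pow,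
        Polynomial.map_X, Polynomial.map_C, e1, e2, hd, hd', map_natCast, Polynomial.map_natCast]) σ
  have hσ' := (Matrix.charpoly_toLin' (mapRep y D.M₀ σ)).symm.trans
    (hall.trans (Matrix.charpoly_toLin' (mapRep y' D'.M₀ σ)))
  rw [mapRep_apply, mapRep_apply, Matrix.charpoly_map, Matrix.charpoly_map,
    Matrix.charpoly_fin_two (R := CuspForm.heckeLocal (L * R) (↑S : Set ℕ) O D.θ'),
    Matrix.charpoly_fin_two (R := CuspForm.heckeLocal (L * R') (↑S : Set ℕ) O D'.θ')] at hσ'
  have h2 := congrArg (fun P : O'[X] => P.coeff 1) hσ'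
  simp [coeff_X_pow] at h2
  have hLR' : ¬ q ^ 2 ∣ L * R' := fun hd => hq2 <|
    (Nat.Coprime.dvd_of_dvd_mul_right (Nat.Coprime.pow_left 2 (hq.coprime_iff_not_dvd.2
      fun hd' => hq2 (((pow_two q).symm ▸ (Nat.dvd_div_iff_mul_dvd hqR).1 hd').trans hyp.R_dvd)))
      hd)
  show y (D.M₀ σ).trace = 2
  rw [h2, (D'.unipotent q hq hqp (hqL.mul_right R') hLR' P hP σ hσ).1, map_ofNat]

end Fermat.Agent.TW
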