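import Fermat.Agent.LocalModel.Tame
import Fermat.Agent.TW.RootOrder

/-!
# Inertia at a prime with residually trivial inertia

Residually trivial inertia is pro-`p` (`pInertia_of_residual`); trace `2` at a tame generator
spreads to the whole inertia group, and at a point the eigenvalues of the generator are `p`-power
roots of unity.
-/

set_option autoImplicit false

noncomputable section

namespace Fermat.Agent.TW

open IsLocalRing Polynomial Fermat.Agent.Deformation Fermat.Agent.LocalModel

local notation "ℚbar" => AlgebraicClosure ℚ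

variable {A : Type} [CommRing A] [IsLocalRing A] {p q : ℕ} {P : ValuationSubring ℚbar} {τ : GQ}

/-- Residually trivial inertia is pro-`p`. -/
theorem pInertia_of_residual {M : GQ →* M2 A}
    (h : ∀ σ ∈ P.inertiaSubgroupIn ℚ, (Ideal.Quotient.mk (maximalIdeal A)).mapMatrix (M σ) = 1) :
    PInertia p P M := fun σ hσ => by rw [map_pow, h σ hσ, one_pow]

theorem trace_pow_of_trace_two {R : Type} [CommRing R] {X' : M2 R} (ht : X'.trace = 2)
    (hd : X'.det = 1) (k : ℕ) : (X' ^ k).trace = 2 := by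
  have hN : (X' - 1) * (X' - 1) = 0 := by
    rw [Matrix.trace_fin_two] at ht
    rw [Matrix.det_fin_two] at hd
    refine Matrix.ext fun i j => ?_
    fin_cases i <;> fin_cases j <;>
      simp [Matrix.mul_apply, Fin.sum_univ_two, Matrix.one_apply]
    · linear_combination (X' 0 0) * ht - hd
    · linear_combination (X' 0 1) * ht
    · linear_combination (X' 1 0) * ht
    · linear_combination (X' 1 1) * ht - hd
  have hk : X' ^ k = 1 + k • (X' - 1) := by
    induction k with
    | zero => rw [pow_zero, zero_smul, add_zero]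
    | succ k ih =>
      have h1 : X' ^ (k + 1) = (1 + k • (X' - 1)) * (1 + (X' - 1)) := by
        rw [pow_succ, ih, add_sub_cancel]
      rw [h1, mul_add, mul_one, add_mul, one_mul, smul_mul_assoc, hN, smul_zero, add_zero,
        succ_nsmul, add_assoc]
  rw [hk, Matrix.trace_add, Matrix.trace_smul, Matrix.trace_sub, ht, Matrix.trace_one,
    Fintype.card_fin]
  simp

/-- **Trace `2` at the generator gives trace `2` on inertia.** -/
theorem trace_eq_two_of_tame [IsHausdorff (maximalIdeal A) A] (hτ : IsTameGenerator p q P τ)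
    (hp : (p : A) ∈ maximalIdeal A) {M : GQ →* M2 A} (hM : MatCont M) (hI : PInertia p P M)
    (ht : (M τ).trace = 2) (hd : (M τ).det = 1) {σ : GQ} (hσ : σ ∈ P.inertiaSubgroupIn ℚ) :
    (M σ).trace = 2 := by
  refine sub_eq_zero.1 (IsHausdorff.haus' (I := maximalIdeal A) _ fun n => ?_)
  rw [SModEq.zero, Ideal.smul_top_eq_map, Algebra.algebraMap_self, Ideal.map_id,
    Submodule.restrictScalars_mem, ← Ideal.Quotient.eq]
  obtain ⟨k, hk, -⟩ := (hτ.modPow_prod hp hM hM hI hI n).1 σ hσ
  rw [modPow_apply, modPow_apply, ← map_pow] at hk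
  have h1 := congrArg Matrix.trace hk
  rw [RingHom.mapMatrix_apply, RingHom.mapMatrix_apply] at h1
  have h2 : ∀ Y : M2 A, (Y.map (Ideal.Quotient.mk (maximalIdeal A ^ n))).trace =
      Ideal.Quotient.mk (maximalIdeal A ^ n) Y.trace := fun Y =>
    (AddMonoidHom.map_trace (Ideal.Quotient.mk (maximalIdeal A ^ n)).toAddMonoidHom Y).symm
  simp only [h2] at h1
  rw [trace_pow_of_trace_two ht hd] at h1
  exact h1

/-- Traces of powers from the eigenvalues. -/
theorem trace_pow_eq {K : Type} [Field K] {X' : M2 K} (hd : X'.det = 1) {l : K}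
    (hl : l ≠ 0) (h : X'.trace = l + l⁻¹) : ∀ k : ℕ, (X' ^ k).trace = l ^ k + (l ^ k)⁻¹
  | 0 => by rw [pow_zero, pow_zero, Matrix.trace_one, inv_one, Fintype.card_fin]; norm_num
  | 1 => by simpa using h
  | k + 2 => by
    have h0 : X' * X' = X'.trace • X' - (1 : M2 K) := by
      refine Matrix.ext fun i j => ?_
      rw [Matrix.det_fin_two] at hd
      fin_cases i <;> fin_cases j <;>
        simp [Matrix.mul_apply, Fin.sum_univ_two, Matrix.trace_fin_two]
      · linear_combination -hd
      · ring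
      · ring
      · linear_combination -hd
    have h1 : X' ^ (k + 2) = X'.trace • X' ^ (k + 1) - X' ^ k := by
      rw [pow_add, pow_two, h0, mul_sub, mul_one, Matrix.mul_smul, ← pow_succ]
    rw [h1, Matrix.trace_sub, Matrix.trace_smul, trace_pow_eq hd hl h (k + 1),
      trace_pow_eq hd hl h k, h, smul_eq_mul]
    field_simp
    ring

variable {O K : Type} [CommRing O] [IsLocalRing O] [Field K] [IsAlgClosed K] [Algebra O K]
  [Algebra O A] [Module.Finite O A] [IsLocalHom (algebraMap O A)]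

/-- **The eigenvalue at a point.** -/
theorem exists_inertia_eigen [IsHausdorff (maximalIdeal A) A] (hp : p.Prime) (hq : q.Prime)
    (hpO : (p : O) ∈ maximalIdeal O)
    (hτ : IsTameGenerator p q P τ) {φ : GQ} (hφ : P.IsFrobeniusAt φ q) {M : GQ →* M2 A}
    (hM : MatCont M)
    (hI : ∀ σ ∈ P.inertiaSubgroupIn ℚ, (Ideal.Quotient.mk (maximalIdeal A)).mapMatrix (M σ) = 1)
    (hd : (M τ).det = 1) (y : A →ₐ[O] K) :
    ∃ l : K, (∃ v, l ^ p ^ v = 1) ∧ y (M τ).trace = l + l⁻¹ := by
  have hpA : (p : A) ∈ maximalIdeal A :=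
    map_natCast (algebraMap O A) p ▸ map_nonunit (algebraMap O A) _ hpO
  have hrel := hτ.frobenius_mul hpA hM (pInertia_of_residual hI) hφ
  set X' := (M τ).map y with hX
  have htX : X'.trace = y (M τ).trace :=
    (AddMonoidHom.map_trace y.toRingHom.toAddMonoidHom _).symm
  have hdX : X'.det = 1 := by
    have h := RingHom.map_det y.toRingHom (M τ)
    rw [hd, map_one] at h
    exact h.symm
  obtain ⟨l, hl⟩ := IsAlgClosed.exists_root (X ^ 2 - C (y (M τ).trace) * X + C (1 : K))
    (by rw [show (X ^ 2 - C (y (M τ).trace) * X + C (1 : K)) =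
      C 1 * X ^ 2 + C (-(y (M τ).trace)) * X + C 1 by simp [sub_eq_add_neg],
      degree_quadratic one_ne_zero]; decide)
  simp only [IsRoot.def, eval_add, eval_sub, eval_mul, eval_pow, eval_C, eval_X] at hl
  have hl0 : l ≠ 0 := fun h0 => by
    rw [h0] at hl
    simp at hl
  have hsum : y (M τ).trace = l + l⁻¹ := by
    field_simp
    linear_combination -hl
  refine ⟨l, ?_, hsum⟩
  -- the Frobenius relation
  have hu : IsUnit ((M φ).map y) := by
    have h1 : IsUnit (M φ) := ⟨Units.map M (toUnits φ), rfl⟩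
    exact h1.map y.toRingHom.mapMatrix
  have hconj : (X' ^ q).trace = X'.trace := by
    have h := congrArg y.toRingHom.mapMatrix hrel
    rw [map_mul, map_mul, map_pow] at h
    change (M φ).map y * X' = X' ^ q * (M φ).map y at h
    rw [← Matrix.trace_units_conj hu.unit X', IsUnit.unit_spec, h, mul_assoc]
    congr 1
    rw [IsUnit.mul_val_inv, mul_one]
  rw [trace_pow_eq hdX hl0 (htX.trans hsum) q, htX, hsum] at hconj
  have hq1 : l ^ q = l ∨ l ^ q = l⁻¹ := by
    have hlq : l ^ q ≠ 0 := pow_ne_zero _ hl0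
    have h2 : (l ^ q - l) * (l ^ q - l⁻¹) = 0 := by
      field_simp at hconj ⊢
      linear_combination hconj
    exact (mul_eq_zero.1 h2).imp sub_eq_zero.1 sub_eq_zero.1
  have hord : l ^ (q * q - 1) = 1 := by
    have h2 : l ^ (q * q) = l := by
      rw [pow_mul]
      rcases hq1 with h3 | h3
      · rw [h3, h3]
      · rw [h3, inv_pow, h3, inv_inv]
    have h4 : 1 ≤ q * q := Nat.one_le_iff_ne_zero.2 (mul_ne_zero hq.ne_zero hq.ne_zero)
    refine mul_right_cancel₀ hl0 ?_
    rw [← pow_succ, Nat.sub_add_cancel h4, h2, one_mul]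
  -- the eigenvalue reduces to `1`
  have hpos : 0 < q * q - 1 := by
    have := Nat.mul_le_mul hq.two_le hq.two_le
    omega
  have hint : IsIntegral O l := IsIntegral.of_pow hpos (hord ▸ isIntegral_one)
  let Ω := integralClosure O K
  let y₀ : A →ₐ[O] Ω := y.codRestrict Ω fun a => (Algebra.IsIntegral.isIntegral a).map y
  obtain ⟨Q, hQ⟩ := Ideal.exists_maximal Ω
  have hQA : (Q.comap y₀.toRingHom) = maximalIdeal A := by
    let : Algebra A Ω := y₀.toRingHom.toAlgebra
    have : IsScalarTower O A Ω := IsScalarTower.of_algebraMap_eq fun a => (y₀.commutes a).symm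
    have : Algebra.IsIntegral A Ω := Algebra.IsIntegral.tower_top O
    exact eq_maximalIdeal (Ideal.isMaximal_comap_of_isIntegral_of_isMaximal (R := A) Q)
  have hm : (M τ).trace - 2 ∈ maximalIdeal A := by
    have h2 := congrArg Matrix.trace (hI τ hτ.1)
    rw [RingHom.mapMatrix_apply, Matrix.trace_one, Fintype.card_fin, Nat.cast_ofNat] at h2
    rw [← Ideal.Quotient.eq_zero_iff_mem, map_sub, map_ofNat, sub_eq_zero, ← h2]
    exact AddMonoidHom.map_trace (Ideal.Quotient.mk (maximalIdeal A)).toAddMonoidHom _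
  let l₀ : Ω := ⟨l, hint⟩
  have hlQ : l₀ - 1 ∈ Q := by
    refine hQ.isPrime.mem_of_pow_mem 2 ?_
    have h3 : y₀ ((M τ).trace - 2) ∈ Q := by
      rw [← hQA] at hm; exact hm
    rw [show (l₀ - 1) ^ 2 = l₀ * y₀ ((M τ).trace - 2) from Subtype.ext (by
      show (l - 1) ^ 2 = l * y ((M τ).trace - 2)
      rw [map_sub, map_ofNat, hsum]
      field_simp
      ring)]
    exact Ideal.mul_mem_left _ _ h3
  obtain ⟨a, m, hpm, hn⟩ := Nat.exists_eq_pow_mul_and_not_dvd hpos.ne' p hp.ne_one
  refine ⟨a, ?_⟩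
  set μ := l₀ ^ p ^ a with hμ
  have hμQ : μ - 1 ∈ Q := by
    obtain ⟨c, hc⟩ := sub_one_dvd_pow_sub_one l₀ (p ^ a)
    rw [hμ, hc]
    exact Ideal.mul_mem_right _ _ hlQ
  have hμm : μ ^ m = 1 := Subtype.ext (by
    show (l ^ p ^ a) ^ m = 1
    rw [← pow_mul, ← hn, hord])
  have hsum0 : (∑ k ∈ Finset.range m, μ ^ k) * (μ - 1) = 0 := by
    rw [geom_sum_mul, hμm, sub_self]
  rcases mul_eq_zero.1 hsum0 with h5 | h5
  · exfalso
    have h6 : (m : Ω) ∈ Q := by
      have h7 : (∑ k ∈ Finset.range m, μ ^ k) - (m : Ω) ∈ Q := by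
        rw [show (m : Ω) = ∑ _k ∈ Finset.range m, (1 : Ω) by simp, ← Finset.sum_sub_distrib]
        refine Q.sum_mem fun k _ => ?_
        obtain ⟨c, hc⟩ := sub_one_dvd_pow_sub_one μ k
        rw [hc]
        exact Ideal.mul_mem_right _ _ hμQ
      rw [h5, zero_sub] at h7
      exact neg_mem_iff.1 h7
    have h8 : (p : Ω) ∈ Q := by
      rw [← map_natCast y₀.toRingHom]
      rw [← hQA] at hpA
      exact hpA
    have hco : Int.gcd (p : ℤ) (m : ℤ) = 1 := by
      rw [Int.gcd_natCast_natCast]
      exact (hp.coprime_iff_not_dvd.2 hpm).gcd_eq_one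
    refine hQ.ne_top ((Ideal.eq_top_iff_one Q).2 ?_)
    have hb := Int.gcd_eq_gcd_ab (p : ℤ) (m : ℤ)
    rw [hco] at hb
    have hb' := congrArg (fun z : ℤ => (z : Ω)) hb
    push_cast at hb'
    rw [hb']
    exact Q.add_mem (Ideal.mul_mem_right _ _ h8) (Ideal.mul_mem_right _ _ h6)
  · exact congrArg Subtype.val (sub_eq_zero.1 h5)

end Fermat.Agent.TW
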