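import Fermat.Agent.GammaH.Hecke

/-!
# Behaviour of `T_ℓ - (ℓ + 1)` on the boundary, `ℓ ≡ 1 mod M`

`etaHom_mem_parEllHoms`: if `φ : Γ_H(M) → A` kills the elements of finite order and `ℓ ≡ 1 mod M`
is prime, then `η φ = T_ℓ φ - (ℓ + 1) φ` kills parabolic elements.
-/

set_option autoImplicit false

noncomputable section

namespace Fermat.Agent.TW

open CongruenceSubgroup Fermat.Agent.Periods Fermat.Agent.GammaH
open Fermat.Agent.Cosets (parEllHoms)
open ModularForm (heckeMatrix heckeDiagMatrix)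
open P2MW.S_ModularForm_heckeT_slash_eq_self_of_mem_Gamma0.ModularForm.HeckeSlashInvariance
  (heckeRep heckeRep_mul redMatrix)
open scoped MatrixGroups OnePoint

/-! ## Elements of finite order -/

theorem trace_sq_le_four_of_pow_eq_one {g : SL(2, ℤ)} {n : ℕ} (hn : 0 < n) (h : g ^ n = 1) :
    (g : Matrix (Fin 2) (Fin 2) ℤ).trace ^ 2 ≤ 4 := by
  by_contra hlt
  push Not at hlt
  set t : ℕ → ℤ := fun m ↦ ((g ^ m : SL(2, ℤ)) : Matrix (Fin 2) (Fin 2) ℤ).trace with ht
  set τ := (g : Matrix (Fin 2) (Fin 2) ℤ).trace with hτ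
  have hrec : ∀ m, t (m + 2) = τ * t (m + 1) - t m := by
    intro m
    have hdet : g 0 0 * g 1 1 - g 0 1 * g 1 0 = 1 := Cosets.TraceClass.det_eq g
    simp only [ht, hτ]
    rw [show m + 2 = m + 1 + 1 from rfl, pow_succ g (m + 1), pow_succ g m]
    simp [Matrix.trace_fin_two, Matrix.mul_apply, Fin.sum_univ_two]
    linear_combination
      (-((g ^ m : SL(2, ℤ)) 0 0) - ((g ^ m : SL(2, ℤ)) 1 1)) * hdet
  have hτ3 : 3 ≤ |τ| := by
    rcases le_or_gt 3 |τ| with h3 | h3
    · exact h3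
    · exfalso
      have h2 : |τ| ≤ 2 := by omega
      nlinarith [sq_abs τ, abs_nonneg τ]
  have key : ∀ m, |t m| < |t (m + 1)| ∧ 2 ≤ |t m| := by
    intro m
    induction m with
    | zero =>
      have h0 : t 0 = 2 := by simp [ht, Matrix.trace_fin_two]
      have h1 : t 1 = τ := by simp [ht, hτ]
      rw [h0, h1]
      exact ⟨by simp only [abs_two]; omega, by simp⟩
    | succ m ih =>
      refine ⟨?_, by omega⟩
      rw [hrec]
      have h1 : |τ * t (m + 1)| - |t m| ≤ |τ * t (m + 1) - t m| := abs_sub_abs_le_abs_sub _ _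
      rw [abs_mul] at h1
      nlinarith
  have hgt : ∀ m, 0 < m → 2 < |t m| := by
    intro m hm
    obtain ⟨k, rfl⟩ : ∃ k, m = k + 1 := ⟨m - 1, by omega⟩
    have := key k
    omega
  have := hgt n hn
  simp only [ht, h] at this
  simp at this

theorem trace_sq_le_four_of_pow_twelve {g : SL(2, ℤ)} (h : g ^ 12 = 1) :
    (g : Matrix (Fin 2) (Fin 2) ℤ).trace ^ 2 ≤ 4 :=
  trace_sq_le_four_of_pow_eq_one (by norm_num) h

variable {Γ : Subgroup SL(2, ℤ)}

/-- Homomorphisms killing the elements of finite order. -/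
def ellHoms (R : Type*) [Semiring R] (Γ : Subgroup SL(2, ℤ)) (A : Type*) [AddCommGroup A]
    [Module R A] : Submodule R (Additive Γ →+ A) where
  carrier := {φ | ∀ γ : Γ, γ ^ 12 = 1 → φ (Additive.ofMul γ) = 0}
  zero_mem' := fun _ _ => rfl
  add_mem' := fun {φ ψ} hφ hψ γ hγ => by
    show φ _ + ψ _ = 0
    rw [hφ γ hγ, hψ γ hγ, add_zero]
  smul_mem' := fun c φ hφ γ hγ => by
    show c • φ _ = 0
    rw [hφ γ hγ, smul_zero]

theorem parEllHoms_le_ellHoms (R : Type*) [Semiring R] (A : Type*) [AddCommGroup A] [Module R A] :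
    parEllHoms R Γ A ≤ ellHoms R Γ A := fun _ hφ γ hγ =>
  hφ γ (trace_sq_le_four_of_pow_twelve (by exact_mod_cast congrArg (Subtype.val) hγ))

theorem transfer_mem_ellHoms {ι : Type*} [Fintype ι] {α : ι → GL (Fin 2) ℝ}
    (h : IsCosetFamily Γ α) {R : Type*} [Semiring R] {A : Type*} [AddCommGroup A] [Module R A]
    {φ : Additive Γ →+ A} (hφ : φ ∈ ellHoms R Γ A) : h.transfer R A φ ∈ ellHoms R Γ A := by
  intro γ hγ
  refine h.transfer_eq_zero_of_conj φ γ fun g a n e ↦ hφ g ?_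
  refine Subtype.ext (toGLR_injective ?_)
  have e' : toGLR (g : SL(2, ℤ)) = a * toGLR ((γ ^ n : Γ) : SL(2, ℤ)) * a⁻¹ :=
    eq_mul_inv_of_mul_eq e.symm
  simp only [toGLR, Subgroup.coe_pow, map_pow, OneMemClass.coe_one, map_one] at e' ⊢
  rw [e', conj_pow, ← pow_mul, mul_comm, pow_mul]
  have hg : (Matrix.SpecialLinearGroup.mapGL ℝ (γ : SL(2, ℤ))) ^ 12 = 1 := by
    rw [← map_pow, ← Subgroup.coe_pow, hγ, OneMemClass.coe_one, map_one]
  rw [hg, one_pow, mul_one, mul_inv_cancel]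

/-! ## The computation at a cusp -/

variable {M : ℕ} [NeZero M] {H : Subgroup (ZMod M)ˣ} {l : ℕ} (hl : l.Prime) (hlM : ¬ l ∣ M)

theorem coe_toGLR_T_zpow (n : ℤ) :
    ((toGLR (ModularGroup.T ^ n) : GL (Fin 2) ℝ) : Matrix (Fin 2) (Fin 2) ℝ)
      = !![1, (n : ℝ); 0, 1] := by
  have h := congrArg (fun A : Matrix (Fin 2) (Fin 2) ℤ ↦ A.map (Int.cast : ℤ → ℝ))
    (ModularGroup.coe_T_zpow n)
  have hm : ∀ z : SL(2, ℤ), ((toGLR z : GL (Fin 2) ℝ) : Matrix (Fin 2) (Fin 2) ℝ)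
      = (z : Matrix (Fin 2) (Fin 2) ℤ).map (Int.cast : ℤ → ℝ) := fun z ↦ by
    ext i j; simp [toGLR]
  rw [hm]
  refine h.trans ?_
  ext i j
  fin_cases i <;> fin_cases j <;> simp

/-- Reduction modulo `M` of integral matrices. -/
def redM (M : ℕ) : Matrix (Fin 2) (Fin 2) ℤ →+* Matrix (Fin 2) (Fin 2) (ZMod M) :=
  (Int.castRingHom (ZMod M)).mapMatrix

omit [NeZero M] in
theorem redM_apply (a : Matrix (Fin 2) (Fin 2) ℤ) (i j : Fin 2) :
    redM M a i j = (a i j : ZMod M) := rfl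

theorem exists_int_heckeRep {M : ℕ} {l : ℕ} [NeZero l] (hl1 : (l : ZMod M) = 1)
    (x : OnePoint (ZMod l)) :
    ∃ b : Matrix (Fin 2) (Fin 2) ℤ,
      ((heckeRep l x : GL (Fin 2) ℝ) : Matrix (Fin 2) (Fin 2) ℝ) = b.map (Int.cast : ℤ → ℝ) ∧
      redM M b = redM M ((ModularGroup.T ^ b 0 1 : SL(2, ℤ)) : Matrix (Fin 2) (Fin 2) ℤ) := by
  induction x using OnePoint.rec with
  | infty =>
    refine ⟨!![(l : ℤ), 0; 0, 1], ?_, ?_⟩
    · show ((heckeDiagMatrix l : GL (Fin 2) ℝ) : Matrix (Fin 2) (Fin 2) ℝ) = _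
      ext i j
      fin_cases i <;> fin_cases j <;> simp [ModularForm.val_heckeDiagMatrix (NeZero.ne l)]
    · rw [ModularGroup.coe_T_zpow]
      ext i j
      fin_cases i <;> fin_cases j <;> simp [redM_apply, hl1]
  | coe j =>
    refine ⟨!![1, (j.val : ℤ); 0, (l : ℤ)], ?_, ?_⟩
    · show ((heckeMatrix l j.val : GL (Fin 2) ℝ) : Matrix (Fin 2) (Fin 2) ℝ) = _
      ext i k
      fin_cases i <;> fin_cases k <;>
        simp [ModularForm.val_heckeMatrix (NeZero.ne l), -ZMod.natCast_val]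
    · rw [ModularGroup.coe_T_zpow]
      ext i k
      fin_cases i <;> fin_cases k <;> simp [redM_apply, hl1, -ZMod.natCast_val]

theorem redM_eq_of_mul_eq {M : ℕ} {A B : GL (Fin 2) ℝ} {g g' : SL(2, ℤ)}
    {a b : Matrix (Fin 2) (Fin 2) ℤ}
    (ha : (A : Matrix (Fin 2) (Fin 2) ℝ) = a.map (Int.cast : ℤ → ℝ))
    (hb : (B : Matrix (Fin 2) (Fin 2) ℝ) = b.map (Int.cast : ℤ → ℝ))
    (e : A * toGLR g = toGLR g' * B) :
    redM M a * redM M (g : Matrix (Fin 2) (Fin 2) ℤ)
      = redM M (g' : Matrix (Fin 2) (Fin 2) ℤ) * redM M b := by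
  rw [← map_mul, ← map_mul]
  congr 1
  have h := congrArg (fun x : GL (Fin 2) ℝ ↦ (x : Matrix (Fin 2) (Fin 2) ℝ)) e
  simp only [Units.val_mul, ha, hb] at h
  have hm : ∀ z : SL(2, ℤ), ((toGLR z : GL (Fin 2) ℝ) : Matrix (Fin 2) (Fin 2) ℝ)
      = (z : Matrix (Fin 2) (Fin 2) ℤ).map (Int.cast : ℤ → ℝ) := fun z ↦ by
    ext i j; simp [toGLR]
  rw [hm, hm] at h
  have h' : (a * (g : Matrix (Fin 2) (Fin 2) ℤ)).map (Int.castRingHom ℝ)
      = ((g' : Matrix (Fin 2) (Fin 2) ℤ) * b).map (Int.castRingHom ℝ) := by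
    rw [Matrix.map_mul, Matrix.map_mul]; exact h
  exact Matrix.map_injective Int.cast_injective h'

/-- The integral representatives of `T_ℓ` are unipotent upper triangular modulo `M`. -/
theorem exists_repT_redM [NeZero l] (hl1 : (l : ZMod M) = 1) (x : OnePoint (ZMod l)) :
    ∃ a : Matrix (Fin 2) (Fin 2) ℤ,
      ((repT hl hlM x : GL (Fin 2) ℝ) : Matrix (Fin 2) (Fin 2) ℝ) = a.map (Int.cast : ℤ → ℝ) ∧
      redM M a 1 0 = 0 ∧ redM M a 1 1 = 1 :=
  let ⟨a, h1, h2, h3⟩ := exists_int_repT hl hlM x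
  ⟨a, h1, h2, by rw [redM_apply, h3, hl1]⟩

/-- Each representative is moved across `g` into `Γ_H g T^ℤ` times a standard representative. -/
theorem exists_cusp_decomp (hl1 : (l : ZMod M) = 1) (g : SL(2, ℤ)) :
    ∃ (π : Equiv.Perm (OnePoint (ZMod l))) (h : OnePoint (ZMod l) → GammaH M H)
      (k : OnePoint (ZMod l) → ℤ), ∀ x, repT hl hlM x * toGLR g
        = toGLR ((h x : SL(2, ℤ)) * g * ModularGroup.T ^ k x) * heckeRep l (π x) := by
  have : Fact l.Prime := ⟨hl⟩
  have : NeZero l := ⟨hl.ne_zero⟩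
  choose g₀ _ hmul using fun x ↦ heckeRep_mul (N := 1)
    (fun hd ↦ hl.one_lt.ne' (Nat.dvd_one.mp hd)) g (by simp) x
  choose a ha ha0 ha1 using exists_repT_redM hl hlM hl1
  choose b hb hbT using exists_int_heckeRep (M := M) (l := l) hl1
  set π : Equiv.Perm (OnePoint (ZMod l)) := MulAction.toPerm (redMatrix l g)
  set h₀ : OnePoint (ZMod l) → SL(2, ℤ) := fun x ↦
    (corrT hl hlM x : SL(2, ℤ)) * g₀ x * ModularGroup.T ^ b (π x) 0 1 * g⁻¹
  have e : ∀ x, repT hl hlM x * toGLR g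
      = toGLR ((corrT hl hlM x : SL(2, ℤ)) * g₀ x) * heckeRep l (π x) := fun x ↦ by
    rw [repT, mul_assoc, hmul x]
    simp [toGLR, mul_assoc]
    rfl
  have hmem : ∀ x, h₀ x ∈ GammaH M H := by
    intro x
    have h := redM_eq_of_mul_eq (M := M) (ha x) (hb (π x)) (e x)
    rw [hbT] at h
    have hh : redM M (h₀ x : Matrix (Fin 2) (Fin 2) ℤ) = redM M (a x) := by
      simp only [h₀, Matrix.SpecialLinearGroup.coe_mul, map_mul] at h ⊢
      rw [← h, mul_assoc, ← map_mul, ← Matrix.SpecialLinearGroup.coe_mul, mul_inv_cancel]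
      simp
    refine Gamma1_le_GammaH ((Gamma1_mem M (h₀ x)).mpr ?_)
    have h10 := congrFun (congrFun hh 1) 0
    have h11 := congrFun (congrFun hh 1) 1
    rw [redM_apply, ha0] at h10
    rw [redM_apply, ha1] at h11
    refine ⟨?_, h11, h10⟩
    have hdet := congrArg (Int.cast : ℤ → ZMod M) (Cosets.TraceClass.det_eq (h₀ x))
    push_cast at hdet
    linear_combination hdet - ((h₀ x 0 0 : ZMod M)) * h11 + ((h₀ x 0 1 : ZMod M)) * h10
  refine ⟨π, fun x ↦ ⟨h₀ x, hmem x⟩, fun x ↦ -(b (π x) 0 1), fun x ↦ ?_⟩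
  rw [e x]
  congr 2
  simp [h₀, mul_assoc]

/-- The standard representatives past a translation. -/
theorem exists_standard_shift (n : ℤ) [NeZero l] :
    ∃ (τ : Equiv.Perm (OnePoint (ZMod l))) (q : OnePoint (ZMod l) → ℤ),
      (∀ y, heckeRep l y * toGLR (ModularGroup.T ^ n)
        = toGLR (ModularGroup.T ^ q y) * heckeRep l (τ y)) ∧ ∑ y, q y = ((l : ℤ) + 1) * n := by
  have hd : ∀ j : ZMod l, ∃ c : ℤ,
      n + (j.val : ℤ) - ((j + (n : ZMod l)).val : ℤ) = (l : ℤ) * c := by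
    intro j
    refine (ZMod.intCast_zmod_eq_zero_iff_dvd _ _).mp ?_
    push_cast
    simp
    ring
  choose c hc using hd
  refine ⟨Equiv.optionCongr (Equiv.addRight (n : ZMod l)), fun y ↦ y.elim ((l : ℤ) * n) c,
    fun y ↦ ?_, ?_⟩
  · induction y using OnePoint.rec with
    | infty =>
      show heckeDiagMatrix l * toGLR (ModularGroup.T ^ n)
        = toGLR (ModularGroup.T ^ ((l : ℤ) * n)) * heckeDiagMatrix l
      refine Units.ext ?_
      simp only [Units.val_mul, coe_toGLR_T_zpow, ModularForm.val_heckeDiagMatrix (NeZero.ne l)]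
      ext i k
      fin_cases i <;> fin_cases k <;> simp [Matrix.mul_apply, Fin.sum_univ_two]
    | coe j =>
      show heckeMatrix l j.val * toGLR (ModularGroup.T ^ n)
        = toGLR (ModularGroup.T ^ c j) * heckeMatrix l (j + (n : ZMod l)).val
      have hc' := congrArg (Int.cast : ℤ → ℝ) (hc j)
      push_cast at hc'
      refine Units.ext ?_
      simp only [Units.val_mul, coe_toGLR_T_zpow, ModularForm.val_heckeMatrix (NeZero.ne l)]
      ext i k
      fin_cases i <;> fin_cases k <;>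
        simp [Matrix.mul_apply, Fin.sum_univ_two, -ZMod.natCast_val]
      linarith
  · have hsum : (l : ℤ) * ∑ j, c j = (l : ℤ) * n := by
      rw [Finset.mul_sum]
      simp only [← hc, Finset.sum_add_distrib, Finset.sum_sub_distrib, Finset.sum_const,
        Finset.card_univ, ZMod.card, nsmul_eq_mul]
      rw [show ∑ x : ZMod l, ((x + (n : ZMod l)).val : ℤ) = ∑ x : ZMod l, (x.val : ℤ) from
        Equiv.sum_comp (Equiv.addRight (n : ZMod l)) (fun j ↦ (j.val : ℤ))]
      ring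
    have h := mul_left_cancel₀ (Int.natCast_ne_zero.mpr (NeZero.ne l)) hsum
    refine (Fintype.sum_option (fun y : OnePoint (ZMod l) ↦ y.elim ((l : ℤ) * n) c)).trans ?_
    show (l : ℤ) * n + ∑ j, c j = _
    rw [h]
    ring

/-- The transfer along `T_ℓ` at `g T^n g⁻¹` is multiplication by `ℓ + 1`. -/
theorem transfer_T_conj_zpow [NeZero l] (hl1 : (l : ZMod M) = 1) {R : Type*} [Semiring R]
    {A : Type*} [AddCommGroup A] [Module R A] (φ : Additive (GammaH M H) →+ A) (g : SL(2, ℤ))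
    (n : ℤ) (hn : g * ModularGroup.T ^ n * g⁻¹ ∈ GammaH M H) :
    (isCosetFamily_T (H := H) hl hlM).transfer R A φ (Additive.ofMul ⟨_, hn⟩)
      = (l + 1) • φ (Additive.ofMul ⟨_, hn⟩) := by
  obtain ⟨π, h, k, hdec⟩ := exists_cusp_decomp (H := H) hl hlM hl1 g
  obtain ⟨τ, q, hshift, hq⟩ := exists_standard_shift (l := l) n
  set σ : Equiv.Perm (OnePoint (ZMod l)) := (π.trans τ).trans π.symm with hσ
  set m : OnePoint (ZMod l) → ℤ := fun x ↦ k x + q (π x) - k (σ x) with hm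
  set c₀ : OnePoint (ZMod l) → SL(2, ℤ) := fun x ↦
    (h x : SL(2, ℤ)) * (g * ModularGroup.T ^ m x * g⁻¹) * (h (σ x) : SL(2, ℤ))⁻¹ with hc₀
  have e : ∀ x, repT hl hlM x * toGLR (g * ModularGroup.T ^ n * g⁻¹)
      = toGLR (c₀ x) * repT hl hlM (σ x) := by
    intro x
    have h1 : π (σ x) = τ (π x) := by simp [hσ]
    have h2 := hdec (σ x)
    rw [h1] at h2
    calc repT hl hlM x * toGLR (g * ModularGroup.T ^ n * g⁻¹)
        = repT hl hlM x * toGLR g * toGLR (ModularGroup.T ^ n) * toGLR g⁻¹ := by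
          simp only [toGLR, map_mul, mul_assoc]
      _ = toGLR ((h x : SL(2, ℤ)) * g * ModularGroup.T ^ k x)
            * (heckeRep l (π x) * toGLR (ModularGroup.T ^ n)) * toGLR g⁻¹ := by
          rw [hdec x]; simp only [mul_assoc]
      _ = toGLR ((h x : SL(2, ℤ)) * g * ModularGroup.T ^ (k x + q (π x)))
            * (heckeRep l (τ (π x)) * toGLR g⁻¹) := by
          rw [hshift, zpow_add]; simp only [toGLR, map_mul, mul_assoc]
      _ = _ := by
          have h3 : heckeRep l (τ (π x)) = (toGLR ((h (σ x) : SL(2, ℤ)) * g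
              * ModularGroup.T ^ k (σ x)))⁻¹ * (repT hl hlM (σ x) * toGLR g) := by
            rw [h2, inv_mul_cancel_left]
          rw [h3]
          simp only [toGLR, hc₀, hm, sub_eq_add_neg, zpow_add, zpow_neg, map_mul, map_inv,
            mul_inv_rev, mul_assoc, mul_inv_cancel, mul_one]
  have hc : ∀ x, c₀ x ∈ GammaH M H := by
    intro x
    obtain ⟨a, ha, ha0, ha1⟩ := exists_repT_redM hl hlM hl1 x
    obtain ⟨b, hb, hb0, hb1⟩ := exists_repT_redM hl hlM hl1 (σ x)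
    have he := redM_eq_of_mul_eq (M := M) ha hb (e x)
    obtain ⟨h0, v, hv, hd⟩ := mem_GammaH'.mp hn
    have e10 := congrFun (congrFun he 1) 0
    have e11 := congrFun (congrFun he 1) 1
    simp only [redM_apply] at ha0 ha1 hb0 hb1
    simp only [Matrix.mul_apply, Fin.sum_univ_two, redM_apply, ha0, ha1, hb0, hb1, h0, hd,
      zero_mul, mul_zero, zero_add, add_zero, one_mul, mul_one] at e10 e11
    have hdetb : redM M b 0 0 = 1 := by
      have hB : b.det = (l : ℤ) := by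
        have := congrArg Matrix.det hb
        have hd' : ((repT hl hlM (σ x) : GL (Fin 2) ℝ) : Matrix (Fin 2) (Fin 2) ℝ).det =
            (l : ℝ) := by
          rw [repT, Units.val_mul, Matrix.det_mul]
          have hs : ((toGLR (corrT hl hlM (σ x) : SL(2, ℤ)) : GL (Fin 2) ℝ) :
              Matrix (Fin 2) (Fin 2) ℝ).det = 1 := by
            simp [toGLR, Matrix.det_fin_two]
            exact_mod_cast Cosets.TraceClass.det_eq (corrT hl hlM (σ x) : SL(2, ℤ))
          rw [hs, one_mul]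
          induction (σ x) using OnePoint.rec with
          | infty =>
            show ((heckeDiagMatrix l : GL (Fin 2) ℝ) : Matrix (Fin 2) (Fin 2) ℝ).det = _
            simp [ModularForm.val_heckeDiagMatrix hl.ne_zero]
          | coe j =>
            show ((heckeMatrix l j.val : GL (Fin 2) ℝ) : Matrix (Fin 2) (Fin 2) ℝ).det = _
            simp [ModularForm.val_heckeMatrix hl.ne_zero]
        rw [hd', Matrix.det_fin_two (b.map _)] at this
        refine Int.cast_injective (α := ℝ) ?_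
        rw [Matrix.det_fin_two]
        push_cast
        simpa using this.symm
      have := congrArg (Int.cast : ℤ → ZMod M) hB
      rw [Matrix.det_fin_two] at this
      push_cast at this
      rw [redM_apply]
      push_cast [hl1] at this
      rw [hb0, hb1] at this
      linear_combination this
    rw [redM_apply] at hdetb
    rw [hdetb, mul_one] at e10
    rw [← e10, zero_mul, zero_add] at e11
    exact mem_GammaH'.mpr ⟨e10.symm, v, hv, e11.symm⟩
  rw [(isCosetFamily_T (H := H) hl hlM).transfer_apply_of_eq φ ⟨_, hn⟩ σ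
    (fun x ↦ ⟨c₀ x, hc x⟩) e]
  let W : AddSubgroup ℤ :=
    { carrier := {i | g * ModularGroup.T ^ i * g⁻¹ ∈ GammaH M H}
      zero_mem' := by simp
      add_mem' := fun {i j} hi hj ↦ by
        have hi' : g * ModularGroup.T ^ i * g⁻¹ ∈ GammaH M H := hi
        have hj' : g * ModularGroup.T ^ j * g⁻¹ ∈ GammaH M H := hj
        show g * ModularGroup.T ^ (i + j) * g⁻¹ ∈ GammaH M H
        have := mul_mem hi' hj'
        rw [zpow_add]
        simpa [mul_assoc] using this
      neg_mem' := fun {i} hi ↦ by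
        have hi' : g * ModularGroup.T ^ i * g⁻¹ ∈ GammaH M H := hi
        show g * ModularGroup.T ^ (-i) * g⁻¹ ∈ GammaH M H
        simpa [mul_assoc] using inv_mem hi' }
  let ψ : W →+ A := AddMonoidHom.mk'
    (fun i ↦ φ (Additive.ofMul (⟨_, i.2⟩ : GammaH M H))) fun i j ↦ by
      rw [← map_add, ← ofMul_mul]
      congr 2
      exact Subtype.ext (by simp [zpow_add, mul_assoc])
  have hmW : ∀ x, m x ∈ W := fun x ↦ by
    have : g * ModularGroup.T ^ m x * g⁻¹ = (h x : SL(2, ℤ))⁻¹ * c₀ x * h (σ x) := by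
      simp [hc₀, mul_assoc]
    show g * ModularGroup.T ^ m x * g⁻¹ ∈ GammaH M H
    rw [this]
    exact mul_mem (mul_mem (inv_mem (h x).2) (hc x)) (h (σ x)).2
  have hval : ∀ x, φ (Additive.ofMul (⟨c₀ x, hc x⟩ : GammaH M H))
      = φ (Additive.ofMul (h x)) + ψ ⟨m x, hmW x⟩ - φ (Additive.ofMul (h (σ x))) := fun x ↦ by
    rw [eq_sub_iff_add_eq, show ψ ⟨m x, hmW x⟩
      = φ (Additive.ofMul (⟨_, hmW x⟩ : GammaH M H)) from rfl, ← φ.map_add, ← φ.map_add,
      ← ofMul_mul, ← ofMul_mul]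
    congr 2
    exact Subtype.ext (by simp [hc₀, mul_assoc])
  simp only [hval, Finset.sum_sub_distrib, Finset.sum_add_distrib]
  rw [Equiv.sum_comp σ (fun x ↦ φ (Additive.ofMul (h x))), add_sub_cancel_left, ← map_sum]
  have hW : ∑ x, (⟨m x, hmW x⟩ : W) = (l + 1) • (⟨n, hn⟩ : W) := by
    refine Subtype.ext ?_
    simp only [AddSubgroup.val_finsetSum, AddSubgroup.coe_nsmul, nsmul_eq_mul, hm,
      Finset.sum_sub_distrib, Finset.sum_add_distrib]
    rw [Equiv.sum_comp σ k, Equiv.sum_comp π q, hq]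
    push_cast
    ring
  rw [hW, map_nsmul]
  rfl

/-! ## `η = T_ℓ - (ℓ + 1)` -/

variable (R A : Type*) [Semiring R] [AddCommGroup A] [Module R A]

/-- `T_ℓ` on all homomorphisms of `Γ_H(M)`. -/
def heckeHom : Module.End R (Additive (GammaH M H) →+ A) :=
  haveI : NeZero l := ⟨hl.ne_zero⟩
  (isCosetFamily_T hl hlM).transfer R A

theorem heckeHom_apply [NeZero l] (φ : Additive (GammaH M H) →+ A) :
    heckeHom hl hlM R A φ = (isCosetFamily_T (H := H) hl hlM).transfer R A φ := rfl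

/-- `η φ = T_ℓ φ - (ℓ + 1) φ`. -/
def etaHom (φ : Additive (GammaH M H) →+ A) : Additive (GammaH M H) →+ A :=
  heckeHom hl hlM R A φ - (l + 1) • φ

variable {R A}

/-- **The boundary is Eisenstein.** -/
theorem etaHom_mem_parEllHoms (hl1 : (l : ZMod M) = 1) (hH : (-1 : (ZMod M)ˣ) ∈ H)
    {φ : Additive (GammaH M H) →+ A} (hφ : φ ∈ ellHoms R (GammaH M H) A) :
    etaHom hl hlM R A φ ∈ parEllHoms R (GammaH M H) A := by
  have : NeZero l := ⟨hl.ne_zero⟩
  intro γ hγ
  have hell : ∀ δ : GammaH M H, δ ^ 12 = 1 →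
      etaHom hl hlM R A φ (Additive.ofMul δ) = 0 := by
    intro δ hδ
    show heckeHom hl hlM R A φ (Additive.ofMul δ) - (l + 1) • φ (Additive.ofMul δ) = 0
    rw [heckeHom_apply, transfer_mem_ellHoms (R := R) _ hφ δ hδ, hφ δ hδ, smul_zero, sub_zero]
  obtain ⟨r, u, hu, hn⟩ := Cosets.TraceClass.isClassified_of_trace_sq_le hγ
  rcases hn with ⟨n, rfl⟩ | hfin
  · have hneg : (-1 : SL(2, ℤ)) ∈ GammaH M H := neg_one_mem_GammaH hH
    have key : ∀ hn : r⁻¹ * ModularGroup.T ^ n * r⁻¹⁻¹ ∈ GammaH M H,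
        etaHom hl hlM R A φ (Additive.ofMul ⟨_, hn⟩) = 0 := fun hn ↦ by
      show heckeHom hl hlM R A φ _ - (l + 1) • φ _ = 0
      rw [heckeHom_apply, transfer_T_conj_zpow hl hlM hl1 φ r⁻¹ n hn, sub_self]
    rcases hu with hu | hu
    · have hγ' : (γ : SL(2, ℤ)) = r⁻¹ * ModularGroup.T ^ n * r⁻¹⁻¹ := by
        rw [← hu]; simp [mul_assoc]
      have e : γ = ⟨_, hγ' ▸ γ.2⟩ := Subtype.ext hγ'
      rw [e]
      exact key _
    · have hγ' : (γ : SL(2, ℤ)) = -1 * (r⁻¹ * ModularGroup.T ^ n * r⁻¹⁻¹) := by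
        rw [neg_one_mul, ← neg_eq_iff_eq_neg]
        simp [← neg_eq_iff_eq_neg.mpr hu, mul_assoc]
      have hmem : r⁻¹ * ModularGroup.T ^ n * r⁻¹⁻¹ ∈ GammaH M H := by
        have := mul_mem hneg γ.2
        rw [hγ'] at this
        simpa using this
      have e : γ = ⟨-1, hneg⟩ * ⟨_, hmem⟩ := Subtype.ext hγ'
      rw [e, ofMul_mul, map_add, key, hell ⟨-1, hneg⟩ (Subtype.ext (by
        simp only [SubmonoidClass.coe_pow, OneMemClass.coe_one]
        exact Even.neg_one_pow (by decide))), add_zero]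
  · refine hell γ (Subtype.ext ?_)
    have h12 : u ^ 12 = 1 := by rcases hfin with rfl | rfl | rfl <;> decide
    have : (r * (γ : SL(2, ℤ)) * r⁻¹) ^ 12 = 1 := by
      rcases hu with hu | hu <;> rw [hu]
      · exact h12
      · rw [Even.neg_pow (by decide), h12]
    rw [conj_pow, conj_eq_one_iff] at this
    simpa using this

end Fermat.Agent.TW
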