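import Fermat.Agent.TW.Boundary

/-!
# Twisted cocycles of `Γ_{H'}(M)` attached to homomorphisms of `Γ_H(M)`

For `H ≤ H'` and `Δ = H'/H`, a homomorphism `φ` of `Γ_H` gives a cocycle `Γ_{H'} → (Δ → A)` up to
coboundaries; `T_ℓ - (ℓ + 1)` kills coboundaries, so `etaCocycle φ` is canonical. It is
`Δ`-equivariant (`etaCocycle_act`) and computes `η φ` on `Γ_H` (`etaCocycle_one`).
-/

set_option autoImplicit false

noncomputable section

namespace Fermat.Agent.TW

open CongruenceSubgroup Fermat.Agent.Periods Fermat.Agent.GammaH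
open Fermat.Agent.Cosets (parEllHoms)
open scoped MatrixGroups

variable {M : ℕ} [NeZero M] {H H' : Subgroup (ZMod M)ˣ}

variable (H H') in
/-- `Δ = H'/H`. -/
abbrev Dl : Type := H' ⧸ H.subgroupOf H'

/-- One instance path for the operations of `Δ`. -/
instance (priority := high) instCommGroupDl : CommGroup (Dl H H') :=
  QuotientGroup.Quotient.commGroup _

variable (H H') in
/-- The projection `Γ_{H'} → Δ`. -/
def uMap : GammaH M H' →* Dl H H' :=
  (QuotientGroup.mk' _).comp
    (((unitD M).comp (Subgroup.inclusion GammaH_le_Gamma0)).codRestrict H'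
      fun γ ↦ unitD_mem_of_mem γ.2)

omit [NeZero M] in
theorem uMap_eq_one_iff (γ : GammaH M H') :
    uMap H H' γ = 1 ↔ (γ : SL(2, ℤ)) ∈ GammaH M H := by
  rw [show uMap H H' γ = QuotientGroup.mk (⟨_, unitD_mem_of_mem γ.2⟩ : H') from rfl,
    QuotientGroup.eq_one_iff, Subgroup.mem_subgroupOf]
  exact ⟨fun h ↦ mem_GammaH_of_unitD ⟨γ, GammaH_le_Gamma0 γ.2⟩ h, fun h ↦ unitD_mem_of_mem h⟩

theorem uMap_surjective : Function.Surjective (uMap H H') := by
  intro b
  induction b using QuotientGroup.induction_on with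
  | _ a =>
    obtain ⟨γ, hγ⟩ := exists_unitD_eq (N := M) (a : (ZMod M)ˣ)
    exact ⟨⟨γ, mem_GammaH_of_unitD γ (by rw [hγ]; exact a.2)⟩,
      congrArg QuotientGroup.mk (Subtype.ext hγ)⟩

open scoped Classical in
variable (H H') in
/-- A section of `uMap` with `secD 1 = 1`. -/
def secD (b : Dl H H') : GammaH M H' := if b = 1 then 1 else (uMap_surjective b).choose

@[simp] theorem uMap_secD (b : Dl H H') : uMap H H' (secD H H' b) = b := by
  unfold secD
  split_ifs with h
  · rw [map_one, h]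
  · exact (uMap_surjective b).choose_spec

@[simp] theorem secD_one : secD H H' 1 = 1 := if_pos rfl

/-- An element of `Γ_{H'}` with trivial image, as an element of `Γ_H`. -/
def toH (γ : GammaH M H') (h : uMap H H' γ = 1) : GammaH M H := ⟨γ, (uMap_eq_one_iff γ).mp h⟩

omit [NeZero M] in
@[simp] theorem coe_toH (γ : GammaH M H') (h : uMap H H' γ = 1) :
    (toH γ h : SL(2, ℤ)) = (γ : SL(2, ℤ)) := rfl

/-! ## The action of `Δ` -/

variable (R A : Type*) [Semiring R] [AddCommGroup A] [Module R A]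

/-- Precomposition with conjugation by an element of `Γ₀(M)`. -/
def conjHom (s : Gamma0 M) : Module.End R (Additive (GammaH M H) →+ A) where
  toFun φ := φ.comp (MonoidHom.toAdditive
    { toFun := fun γ : GammaH M H ↦
        (⟨(s : SL(2, ℤ)) * γ * (s : SL(2, ℤ))⁻¹, conj_mem_GammaH s.2 γ.2⟩ : GammaH M H)
      map_one' := Subtype.ext (by simp)
      map_mul' := fun a b ↦ Subtype.ext (by simp [mul_assoc]) })
  map_add' _ _ := rfl
  map_smul' _ _ := rfl

variable {R A}

omit [NeZero M] in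
theorem conjHom_apply (s : Gamma0 M) (φ : Additive (GammaH M H) →+ A) (γ : GammaH M H) :
    conjHom R A s φ (Additive.ofMul γ)
      = φ (Additive.ofMul ⟨(s : SL(2, ℤ)) * γ * (s : SL(2, ℤ))⁻¹, conj_mem_GammaH s.2 γ.2⟩) := rfl

omit [NeZero M] in
theorem conjHom_congr (s t : Gamma0 M) (h : (s : SL(2, ℤ)) * (t : SL(2, ℤ))⁻¹ ∈ GammaH M H) :
    (conjHom R A s : Module.End R (Additive (GammaH M H) →+ A)) = conjHom R A t := by
  refine LinearMap.ext fun φ ↦ AddMonoidHom.ext fun γ ↦ ?_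
  obtain ⟨γ, rfl⟩ := Additive.ofMul.surjective γ
  set k : GammaH M H := ⟨_, h⟩
  rw [conjHom_apply, conjHom_apply, show (⟨(s : SL(2, ℤ)) * γ * (s : SL(2, ℤ))⁻¹,
      conj_mem_GammaH s.2 γ.2⟩ : GammaH M H)
    = k * ⟨(t : SL(2, ℤ)) * γ * (t : SL(2, ℤ))⁻¹, conj_mem_GammaH t.2 γ.2⟩ * k⁻¹ from
      Subtype.ext (by simp [k, mul_assoc]),
    ofMul_mul, ofMul_mul, ofMul_inv, map_add, map_add, map_neg]
  abel

omit [NeZero M] in
theorem conjHom_mul (s t : Gamma0 M) :
    (conjHom R A (s * t) : Module.End R (Additive (GammaH M H) →+ A))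
      = conjHom R A t * conjHom R A s := by
  refine LinearMap.ext fun φ ↦ AddMonoidHom.ext fun γ ↦ ?_
  obtain ⟨γ, rfl⟩ := Additive.ofMul.surjective γ
  rw [Module.End.mul_apply, conjHom_apply, conjHom_apply, conjHom_apply]
  congr 2
  exact Subtype.ext (by simp [mul_assoc])

omit [NeZero M] in
theorem conjHom_mem_parEllHoms (s : Gamma0 M) {φ : Additive (GammaH M H) →+ A}
    (hφ : φ ∈ parEllHoms R (GammaH M H) A) :
    conjHom R A s φ ∈ parEllHoms R (GammaH M H) A := fun γ hγ ↦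
  hφ ⟨(s : SL(2, ℤ)) * γ * (s : SL(2, ℤ))⁻¹, conj_mem_GammaH s.2 γ.2⟩
    (by simpa only [Cosets.TraceClass.trace_conj] using hγ)

theorem transfer_diamond_eq_conjHom (a : (ZMod M)ˣ) (φ : Additive (GammaH M H) →+ A) :
    (isCosetFamily_diamond (H := H) a).transfer R A φ = conjHom R A (deltaOf M a) φ := by
  refine AddMonoidHom.ext fun γ ↦ ?_
  obtain ⟨γ, rfl⟩ := Additive.ofMul.surjective γ
  rw [IsCosetFamily.transfer_apply_of_eq _ φ γ id
    (fun _ ↦ ⟨_, conj_mem_GammaH (deltaOf M a).2 γ.2⟩) fun _ ↦ by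
      simp only [toGLR, ← map_mul]
      congr 1
      simp]
  simp [conjHom_apply]

variable (R A) (H H') in
/-- `Δ` acting on homomorphisms of `Γ_H`. -/
def actAll : Representation R (Dl H H') (Additive (GammaH M H) →+ A) :=
  have key : ∀ (b : Dl H H') (γ : GammaH M H'), uMap H H' γ = b →
      (conjHom R A ⟨(secD H H' b : SL(2, ℤ)), GammaH_le_Gamma0 (secD H H' b).2⟩
        : Module.End R (Additive (GammaH M H) →+ A))
      = conjHom R A ⟨(γ : SL(2, ℤ)), GammaH_le_Gamma0 γ.2⟩ := fun b γ h ↦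
    conjHom_congr _ _ ((uMap_eq_one_iff (H := H) (secD H H' b * γ⁻¹)).mp (by
      rw [map_mul, map_inv, uMap_secD, h, mul_inv_cancel]))
  { toFun := fun b ↦ conjHom R A ⟨(secD H H' b : SL(2, ℤ)), GammaH_le_Gamma0 (secD H H' b).2⟩
    map_one' := by
      refine LinearMap.ext fun φ ↦ AddMonoidHom.ext fun γ ↦ ?_
      obtain ⟨γ, rfl⟩ := Additive.ofMul.surjective γ
      rw [conjHom_apply, Module.End.one_apply]
      congr 2
      exact Subtype.ext (by simp)
    map_mul' := fun b c ↦ by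
      rw [key (b * c) (secD H H' c * secD H H' b)
        (by rw [map_mul, uMap_secD, uMap_secD, mul_comm])]
      exact conjHom_mul ⟨(secD H H' c : SL(2, ℤ)), GammaH_le_Gamma0 (secD H H' c).2⟩
        ⟨(secD H H' b : SL(2, ℤ)), GammaH_le_Gamma0 (secD H H' b).2⟩ }

theorem actAll_apply (b : Dl H H') :
    (actAll H H' R A b : Module.End R (Additive (GammaH M H) →+ A))
      = conjHom R A ⟨(secD H H' b : SL(2, ℤ)), GammaH_le_Gamma0 (secD H H' b).2⟩ := rfl

theorem actAll_uMap (γ : GammaH M H') :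
    (actAll H H' R A (uMap H H' γ) : Module.End R (Additive (GammaH M H) →+ A))
      = conjHom R A ⟨(γ : SL(2, ℤ)), GammaH_le_Gamma0 γ.2⟩ :=
  conjHom_congr _ _ ((uMap_eq_one_iff (H := H) (secD H H' (uMap H H' γ) * γ⁻¹)).mp (by
    rw [map_mul, map_inv, uMap_secD, mul_inv_cancel]))

theorem actAll_mk (a : H') :
    (actAll H H' R A (QuotientGroup.mk a) : Module.End R (Additive (GammaH M H) →+ A))
      = conjHom R A (deltaOf M (a : (ZMod M)ˣ)) := by
  set γ : GammaH M H' := ⟨deltaOf M (a : (ZMod M)ˣ),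
    mem_GammaH_of_unitD _ (by rw [unitD_deltaOf]; exact a.2)⟩
  have h : uMap H H' γ = QuotientGroup.mk a :=
    congrArg QuotientGroup.mk (Subtype.ext (unitD_deltaOf (a : (ZMod M)ˣ)))
  rw [← h, actAll_uMap]

variable (R A) (H H') in
/-- `Δ` acting on `H¹`. -/
def actH1 : Representation R (Dl H H') (H1 M H R A) where
  toFun b := (actAll H H' R A b).restrict fun _ hφ ↦ conjHom_mem_parEllHoms _ hφ
  map_one' := LinearMap.ext fun φ ↦ Subtype.ext (by
    show actAll H H' R A 1 φ.1 = φ.1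
    rw [map_one, Module.End.one_apply])
  map_mul' b c := LinearMap.ext fun φ ↦ Subtype.ext (by
    show actAll H H' R A (b * c) φ.1 = actAll H H' R A b (actAll H H' R A c φ.1)
    rw [map_mul, Module.End.mul_apply])

theorem coe_actH1 (b : Dl H H') (φ : H1 M H R A) :
    (actH1 H H' R A b φ : Additive (GammaH M H) →+ A) = actAll H H' R A b φ := rfl

/-- On `H¹` the action is by diamond operators. -/
theorem actH1_mk (a : H') : actH1 H H' R A (QuotientGroup.mk a) = diamondH R A (a : (ZMod M)ˣ) := by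
  refine LinearMap.ext fun φ ↦ Subtype.ext ?_
  rw [coe_actH1, actAll_mk, ← transfer_diamond_eq_conjHom]
  rfl

/-! ## The canonical cocycle of `η φ` -/

omit [NeZero M] in
theorem add_eq_of_coe_mul_eq (φ : Additive (GammaH M H) →+ A) {x y z w : GammaH M H}
    (h : (x : SL(2, ℤ)) * y = (z : SL(2, ℤ)) * w) :
    φ (Additive.ofMul x) + φ (Additive.ofMul y) = φ (Additive.ofMul z) + φ (Additive.ofMul w) := by
  rw [← φ.map_add, ← φ.map_add, ← ofMul_mul, ← ofMul_mul, show x * y = z * w from Subtype.ext h]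

/-- A cocycle representing `φ`. -/
def lift₀ (φ : Additive (GammaH M H) →+ A) (γ : GammaH M H') (δ : Dl H H') : A :=
  φ (Additive.ofMul (toH (secD H H' δ * γ * (secD H H' (δ * uMap H H' γ))⁻¹)
    (by rw [map_mul, map_mul, map_inv, uMap_secD, uMap_secD, mul_inv_cancel])))

theorem lift₀_mul (φ : Additive (GammaH M H) →+ A) (γ γ' : GammaH M H') (δ : Dl H H') :
    lift₀ φ (γ * γ') δ = lift₀ φ γ δ + lift₀ φ γ' (δ * uMap H H' γ) := by
  unfold lift₀
  rw [← map_add, ← ofMul_mul]
  congr 2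
  exact Subtype.ext (by simp [map_mul, mul_assoc])

theorem lift₀_of_mem (φ : Additive (GammaH M H) →+ A) (γ : GammaH M H')
    (h : uMap H H' γ = 1) : lift₀ φ γ 1 = φ (Additive.ofMul (toH γ h)) := by
  unfold lift₀
  congr 2
  exact Subtype.ext (by simp [h])

variable {l : ℕ} [NeZero l] (hl : l.Prime) (hlM : ¬ l ∣ M)

omit [NeZero l] in
theorem uMap_cocycle (γ : GammaH M H') (x : OnePoint (ZMod l)) :
    uMap H H' ((isCosetFamily_T hl hlM).cocycle γ x) = uMap H H' γ := by
  obtain ⟨σ, g', h⟩ := exists_perm_repT hl hlM ⟨γ, GammaH_le_Gamma0 γ.2⟩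
  have hmem : (g' x : SL(2, ℤ)) ∈ GammaH M H' :=
    mem_GammaH_of_unitD _ (by rw [(h x).2]; exact unitD_mem_of_mem γ.2)
  rw [← ((isCosetFamily_T (H := H') hl hlM).eq_of_mul_eq (g := ⟨g' x, hmem⟩) (h x).1).2]
  exact congrArg QuotientGroup.mk (Subtype.ext (h x).2)

variable (R) in
/-- The canonical cocycle of `T_ℓ φ - (ℓ + 1) φ`. -/
def etaCocycle : (Additive (GammaH M H) →+ A) →ₗ[R] (GammaH M H' → Dl H H' → A) where
  toFun φ γ δ := ∑ x, lift₀ φ ((isCosetFamily_T hl hlM).cocycle γ x) δ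
    - (l + 1) • lift₀ φ γ δ
  map_add' φ ψ := by
    funext γ δ
    simp only [lift₀, AddMonoidHom.add_apply, Finset.sum_add_distrib, smul_add, Pi.add_apply]
    abel
  map_smul' c φ := by
    funext γ δ
    simp only [lift₀, AddMonoidHom.smul_apply, Pi.smul_apply, RingHom.id_apply, Finset.smul_sum,
      smul_sub]
    rw [smul_comm c (l + 1)]

variable {hl hlM}

theorem etaCocycle_apply (φ : Additive (GammaH M H) →+ A) (γ : GammaH M H') (δ : Dl H H') :
    etaCocycle (H' := H') R hl hlM φ γ δ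
      = ∑ x, lift₀ φ ((isCosetFamily_T hl hlM).cocycle γ x) δ - (l + 1) • lift₀ φ γ δ := rfl

theorem etaCocycle_mul (φ : Additive (GammaH M H) →+ A) (γ γ' : GammaH M H') (δ : Dl H H') :
    etaCocycle R hl hlM φ (γ * γ') δ
      = etaCocycle R hl hlM φ γ δ + etaCocycle R hl hlM φ γ' (δ * uMap H H' γ) := by
  simp only [etaCocycle_apply, ((isCosetFamily_T (H := H') hl hlM).perm_mul_apply γ γ' _).2,
    lift₀_mul, uMap_cocycle, Finset.sum_add_distrib, smul_add]
  rw [Equiv.sum_comp ((isCosetFamily_T (H := H') hl hlM).perm γ)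
    (fun x ↦ lift₀ φ ((isCosetFamily_T (H := H') hl hlM).cocycle γ' x) (δ * uMap H H' γ))]
  abel

/-- Equivariance. -/
theorem etaCocycle_act (φ : Additive (GammaH M H) →+ A) (b : Dl H H') (γ : GammaH M H')
    (δ : Dl H H') :
    etaCocycle R hl hlM (actAll H H' R A b φ) γ δ = etaCocycle R hl hlM φ γ (b * δ) := by
  let K : Dl H H' → A := fun d ↦ φ (Additive.ofMul (toH
    (secD H H' b * secD H H' d * (secD H H' (b * d))⁻¹)
    (by rw [map_mul, map_mul, map_inv, uMap_secD, uMap_secD, uMap_secD, mul_inv_cancel])))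
  have hK : ∀ g : GammaH M H', lift₀ (actAll H H' R A b φ) g δ
      = lift₀ φ g (b * δ) + (K δ - K (δ * uMap H H' g)) := fun g ↦ by
    rw [actAll_apply, lift₀, conjHom_apply, lift₀, add_sub, eq_sub_iff_add_eq]
    refine (add_eq_of_coe_mul_eq φ ?_).trans (add_comm (K δ) _)
    simp only [Subgroup.coe_mul, coe_toH, InvMemClass.coe_inv, mul_assoc, inv_mul_cancel_left]
  simp only [etaCocycle_apply, hK, Finset.sum_add_distrib, uMap_cocycle, Finset.sum_const,
    Finset.card_univ, smul_add]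
  have hcard : Fintype.card (OnePoint (ZMod l)) = l + 1 := by
    show Fintype.card (Option (ZMod l)) = l + 1
    rw [Fintype.card_option, ZMod.card]
  rw [hcard]
  abel

variable (R) in
/-- `η` computed from the cocycle. -/
theorem etaCocycle_one (φ : Additive (GammaH M H) →+ A) (hle : H ≤ H') (γ : GammaH M H) :
    etaCocycle (H' := H') R hl hlM φ ⟨γ, GammaH_mono hle γ.2⟩ 1
      = etaHom hl hlM R A φ (Additive.ofMul γ) := by
  set γ' : GammaH M H' := ⟨γ, GammaH_mono hle γ.2⟩
  have h1 : uMap H H' γ' = 1 := (uMap_eq_one_iff γ').mpr γ.2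
  have hT : ∀ x, toH ((isCosetFamily_T (H := H') hl hlM).cocycle γ' x)
      ((uMap_cocycle hl hlM γ' x).trans h1) = (isCosetFamily_T (H := H) hl hlM).cocycle γ x :=
    fun x ↦ ((isCosetFamily_T (H := H) hl hlM).eq_of_mul_eq (γ := γ) (i := x)
      (j := (isCosetFamily_T (H := H') hl hlM).perm γ' x)
      (g := toH ((isCosetFamily_T (H := H') hl hlM).cocycle γ' x)
        ((uMap_cocycle hl hlM γ' x).trans h1))
      (by simpa only [coe_toH, γ'] using (isCosetFamily_T (H := H') hl hlM).mul_eq γ' x)).2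
  show _ = heckeHom hl hlM R A φ (Additive.ofMul γ) - (l + 1) • φ (Additive.ofMul γ)
  rw [etaCocycle_apply, heckeHom_apply, IsCosetFamily.transfer_apply, lift₀_of_mem φ γ' h1]
  congr 1
  exact Finset.sum_congr rfl fun x _ ↦ by
    rw [lift₀_of_mem φ _ ((uMap_cocycle hl hlM γ' x).trans h1), hT x]

end Fermat.Agent.TW
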