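import Fermat.Agent.Cosets.ParEllHoms

/-!
# Equivariant primitives of cocycles on a finite `SL(2, ℤ)`-set

`Δ` is a group of symmetries of the set commuting with `SL(2, ℤ)`.  A linear family of cocycles,
equivariant for `Δ`, has an equivariant linear primitive along `g` as soon as `⟨g⟩` and `Δ` meet
trivially on every orbit.

Main results: `exists_equivariant_primitive`, `exists_equivariant_edge`.
-/

set_option autoImplicit false

noncomputable section

namespace Fermat.Agent.TW

open Fermat.Agent.Cosets.Cocycle ModularGroup Fermat.Agent.Cosets.Presentation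
open scoped MatrixGroups

variable {X : Type*} [MulAction SL(2, ℤ) X] {Δ : Type*} [Group Δ] (σ : Δ → X → X)
  (hσ1 : ∀ x, σ 1 x = x) (hσm : ∀ b c x, σ (b * c) x = σ b (σ c x))
  (hσc : ∀ (b : Δ) (g : SL(2, ℤ)) (x : X), g • σ b x = σ b (g • x))
  {R : Type*} [Semiring R] {A : Type*} [AddCommGroup A] [Module R A]
  {V : Type*} [AddCommMonoid V] [Module R V]

include hσ1 hσm hσc

theorem exists_equivariant_primitive (act : Δ → V → V) (D : V →ₗ[R] (SL(2, ℤ) → X → A))
    (hD : ∀ v, IsCocycle (D v)) (heq : ∀ v b h x, D (act b v) h x = D v h (σ b x))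
    (g : SL(2, ℤ)) (hfix : ∀ v (n : ℤ) x, g ^ n • x = x → D v (g ^ n) x = 0)
    (hfree : ∀ (n : ℤ) (b : Δ) x, g ^ n • σ b x = x → b = 1) :
    ∃ W : V →ₗ[R] (X → A), (∀ v x, D v g x = W v (g • x) - W v x)
      ∧ ∀ v b x, W (act b v) x = W v (σ b x) := by
  classical
  let s : Setoid X :=
    { r := fun x y => ∃ (n : ℤ) (b : Δ), g ^ n • σ b y = x
      iseqv :=
        { refl := fun x => ⟨0, 1, by rw [zpow_zero, one_smul, hσ1]⟩
          symm := fun {x y} ⟨n, b, h⟩ => ⟨-n, b⁻¹, by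
            rw [← h, ← hσc b⁻¹, ← mul_smul, ← zpow_add, neg_add_cancel, zpow_zero, one_smul,
              ← hσm, inv_mul_cancel, hσ1]⟩
          trans := fun {x y z} ⟨n, b, h⟩ ⟨m, c, h'⟩ => ⟨n + m, b * c, by
            rw [hσm, zpow_add, mul_smul, hσc, h', h]⟩ } }
  let rep : X → X := fun x => (Quotient.mk s x).out
  have hrep : ∀ x, ∃ (n : ℤ) (b : Δ), g ^ n • σ b (rep x) = x := fun x =>
    s.symm (Quotient.exact (Quotient.out_eq (Quotient.mk s x)))
  choose k b hk using hrep
  have uniq : ∀ (z : X) (m n : ℤ) (c d : Δ), g ^ m • σ c z = g ^ n • σ d z →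
      c = d ∧ ∀ v, D v (g ^ m) (σ c z) = D v (g ^ n) (σ d z) := by
    intro z m n c d h
    have h1 : g ^ (m - n) • σ (c * d⁻¹) (σ d z) = σ d z := by
      rw [← hσm, inv_mul_cancel_right, zpow_sub, mul_smul, hσc, ← hσc, ← zpow_neg,
        ← mul_smul, ← zpow_add, add_comm, zpow_add, mul_smul, h, ← mul_smul, ← zpow_add,
        neg_add_cancel, zpow_zero, one_smul]
    have hcd : c = d := mul_inv_eq_one.mp (hfree _ _ _ h1)
    subst hcd
    refine ⟨rfl, fun v => ?_⟩
    rw [mul_inv_cancel, hσ1] at h1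
    have h2 := hD v (g ^ n) (g ^ (m - n)) (σ c z)
    rw [← zpow_add, add_sub_cancel, h1, hfix v _ _ h1, add_zero] at h2
    exact h2
  refine ⟨LinearMap.pi fun x => LinearMap.proj (σ (b x) (rep x)) ∘ₗ LinearMap.proj (g ^ k x) ∘ₗ D,
    fun v x => ?_, fun v c x => ?_⟩
  · have e : rep (g • x) = rep x := by
      refine congrArg Quotient.out (Quotient.sound (a := g • x) (b := x) ?_)
      exact ⟨1, 1, by rw [zpow_one, hσ1]⟩
    show D v g x = D v (g ^ k (g • x)) (σ (b (g • x)) (rep (g • x)))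
      - D v (g ^ k x) (σ (b x) (rep x))
    have h1 : g ^ (1 + k x) • σ (b x) (rep x) = g • x := by
      rw [zpow_add, zpow_one, mul_smul, hk]
    have h2 := hk (g • x)
    rw [e] at h2 ⊢
    rw [(uniq _ _ _ _ _ (h2.trans h1.symm)).2 v, zpow_add, zpow_one, hD v, hk]
    abel
  · have e : rep (σ c x) = rep x := by
      refine congrArg Quotient.out (Quotient.sound (a := σ c x) (b := x) ?_)
      exact ⟨0, c, by rw [zpow_zero, one_smul]⟩
    show D (act c v) (g ^ k x) (σ (b x) (rep x))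
      = D v (g ^ k (σ c x)) (σ (b (σ c x)) (rep (σ c x)))
    rw [heq, e, ← hσm]
    have h1 : g ^ k x • σ (c * b x) (rep x) = σ c x := by rw [hσm, hσc, hk]
    have h2 := hk (σ c x)
    rw [e] at h2
    exact (uniq _ _ _ _ _ (h1.trans h2.symm)).2 v

variable (hneg : TrivNegOne X)
include hneg

/-- A linear equivariant family of cocycles vanishing on fixed elements of finite order is, up to
coboundaries, given by an equivariant family of edge functions. -/
theorem exists_equivariant_edge (act : Δ → V → V) (D : V →ₗ[R] (SL(2, ℤ) → X → A))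
    (hD : ∀ v, IsCocycle (D v)) (heq : ∀ v b h x, D (act b v) h x = D v h (σ b x))
    (hfix : ∀ v (h : SL(2, ℤ)) x, h ^ 12 = 1 → h • x = x → D v h x = 0)
    (hfree : ∀ (h : SL(2, ℤ)) (b : Δ) x, h ^ 12 = 1 → h • σ b x = x → b = 1) :
    ∃ Y : V →ₗ[R] (X → A), (∀ v b x, Y (act b v) x = Y v (σ b x)) ∧
      ∀ v (h : SL(2, ℤ)) x, h • x = x → cocycleOf hneg (Y v) h x = D v h x := by
  have hS : ∀ n : ℤ, ((S : SL(2, ℤ)) ^ n) ^ 12 = 1 := fun n => by
    rw [← zpow_natCast, ← zpow_mul, mul_comm, zpow_mul, zpow_natCast,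
      show (S : SL(2, ℤ)) ^ 12 = 1 by decide, one_zpow]
  have hU : ∀ n : ℤ, (matU ^ n) ^ 12 = 1 := fun n => by
    rw [← zpow_natCast, ← zpow_mul, mul_comm, zpow_mul, zpow_natCast,
      show matU ^ 12 = 1 by decide, one_zpow]
  obtain ⟨W, hW, hWeq⟩ := exists_equivariant_primitive σ hσ1 hσm hσc act D hD heq S
    (fun v n x => hfix v _ x (hS n)) (fun n b x => hfree _ b x (hS n))
  let D' : V →ₗ[R] (SL(2, ℤ) → X → A) :=
    { toFun := fun v h x => D v h x - (W v (h • x) - W v x)
      map_add' := fun u v => by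
        funext h x
        simp only [map_add, Pi.add_apply]
        abel
      map_smul' := fun c v => by
        funext h x
        simp only [map_smul, Pi.smul_apply, RingHom.id_apply, smul_sub] }
  have hD'a : ∀ v h x, D' v h x = D v h x - (W v (h • x) - W v x) := fun _ _ _ => rfl
  have hD' : ∀ v, IsCocycle (D' v) := fun v h₁ h₂ x => by
    simp only [hD'a, hD v h₁ h₂ x, mul_smul]; abel
  obtain ⟨Y, hY, hYeq⟩ := exists_equivariant_primitive σ hσ1 hσm hσc act D' hD'
    (fun v b h x => by rw [hD'a, hD'a, heq, hWeq, hWeq, hσc]) matU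
    (fun v n x hx => by rw [hD'a, hfix v _ x (hU n) hx, hx, sub_self, sub_zero])
    (fun n b x => hfree _ b x (hU n))
  refine ⟨Y, hYeq, fun v h x hx => ?_⟩
  rw [cocycleOf_eq hneg (hD' v) (fun z => by rw [hD'a, hW, sub_self]) (hY v), hD'a, hx, sub_self,
    sub_zero]

omit hσ1 hσm hσc

/-- The cocycle of an edge function vanishes on fixed elements of finite order. -/
theorem cocycleOf_finiteOrder_eq_zero (y : X → A) {g : SL(2, ℤ)} {x : X} (hx : g • x = x)
    (hg : g ^ 12 = 1) (htr : (g : Matrix (Fin 2) (Fin 2) ℤ).trace ^ 2 ≤ 4) :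
    cocycleOf hneg y g x = 0 := by
  have hc := cocycleOf_isCocycle hneg y
  obtain ⟨r, u, hu, hn⟩ := Cosets.TraceClass.isClassified_of_trace_sq_le htr
  rw [← hc.conj r g hx]
  have hfix : (r * g * r⁻¹) • (r • x) = r • x := by rw [mul_smul, inv_smul_smul, mul_smul, hx]
  have h12 : (r * g * r⁻¹) ^ 12 = 1 := by rw [conj_pow, hg, mul_one, mul_inv_cancel]
  generalize r • x = z at hfix
  generalize r * g * r⁻¹ = k at hfix hu h12
  obtain ⟨hcu, hz, hu12⟩ :
      cocycleOf hneg y k z = cocycleOf hneg y u z ∧ u • z = z ∧ u ^ 12 = 1 := by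
    rcases hu with rfl | rfl
    · exact ⟨rfl, hfix, h12⟩
    · exact ⟨cocycleOf_neg hneg _ _ _, by rwa [neg_smul_eq hneg] at hfix,
        by rwa [Even.neg_pow (by decide)] at h12⟩
  rw [hcu]
  rcases hn with ⟨n, rfl⟩ | rfl | rfl | rfl
  · obtain rfl : n = 0 := by
      rw [← zpow_natCast, ← zpow_mul] at hu12
      have h := congrArg (fun A : SL(2, ℤ) => (A : Matrix (Fin 2) (Fin 2) ℤ) 0 1) hu12
      simp [coe_T_zpow] at h
      omega
    rw [zpow_zero, hc.map_one]
  · exact cocycleOf_S hneg y z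
  · rw [cocycleOf_matU, hz, sub_self]
  · rw [hc.map_inv', hz, cocycleOf_matU, inv_smul_eq_iff.mp hz |>.symm, sub_self, neg_zero]

end Fermat.Agent.TW
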