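import Fermat.Agent.TW.Cocycle
import Fermat.Agent.TW.Primitive

/-!
# `η²` factors through functions on the coset space

For `X = SL(2, ℤ)/Γ_H(M)`, on which `Δ = H'/H` acts freely on the right, we construct equivariant
maps `edgeMap : H¹(Γ_H) → (X → A)` and `periodMap : (X → A) → Hom(Γ_H, A)` with
`periodMap ∘ edgeMap = η`.
-/

set_option autoImplicit false

noncomputable section

namespace Fermat.Agent.TW

open CongruenceSubgroup Fermat.Agent.Periods Fermat.Agent.GammaH
open Fermat.Agent.Cosets (parEllHoms)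
open Fermat.Agent.Cosets.Cocycle
open scoped MatrixGroups

variable {M : ℕ} [NeZero M] {H H' : Subgroup (ZMod M)ˣ}

/-- The coset space. -/
abbrev XC (M : ℕ) (H : Subgroup (ZMod M)ˣ) : Type := SL(2, ℤ) ⧸ GammaH M H

omit [NeZero M] in
theorem trivNegOne_XC (hH : (-1 : (ZMod M)ˣ) ∈ H) : TrivNegOne (XC M H) := fun x => by
  induction x using QuotientGroup.induction_on with
  | _ g =>
    show (QuotientGroup.mk ((-1 : SL(2, ℤ)) * g) : XC M H) = QuotientGroup.mk g
    rw [QuotientGroup.eq]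
    have h : ((-1 : SL(2, ℤ)) * g)⁻¹ * g = (-1 : SL(2, ℤ))⁻¹ := by
      rw [mul_inv_rev]; simp
    rw [h]
    exact inv_mem (neg_one_mem_GammaH hH)

variable (H H') in
/-- The action of `Δ` on the coset space. -/
def shiftX (b : Dl H H') : XC M H → XC M H :=
  Quotient.map' (fun g => g * ((secD H H' b : SL(2, ℤ)))⁻¹) fun g g' h => by
    rw [QuotientGroup.leftRel_apply] at h ⊢
    simpa [mul_assoc] using conj_mem_GammaH (GammaH_le_Gamma0 (secD H H' b).2) h

theorem shiftX_mk (b : Dl H H') (g : SL(2, ℤ)) :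
    shiftX H H' b (g : XC M H) = ((g * (secD H H' b : SL(2, ℤ))⁻¹ : SL(2, ℤ)) : XC M H) := rfl

theorem shiftX_smul (b : Dl H H') (g : SL(2, ℤ)) (x : XC M H) :
    g • shiftX H H' b x = shiftX H H' b (g • x) := by
  induction x using QuotientGroup.induction_on with
  | _ a =>
    show ((g * (a * _) : SL(2, ℤ)) : XC M H) = ((g * a * _ : SL(2, ℤ)) : XC M H)
    rw [mul_assoc]

theorem shiftX_one (x : XC M H) : shiftX H H' 1 x = x := by
  induction x using QuotientGroup.induction_on with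
  | _ a => rw [shiftX_mk]; simp

theorem shiftX_mul (b c : Dl H H') (x : XC M H) :
    shiftX H H' (b * c) x = shiftX H H' b (shiftX H H' c x) := by
  induction x using QuotientGroup.induction_on with
  | _ a =>
    rw [shiftX_mk, shiftX_mk, shiftX_mk, QuotientGroup.eq]
    have h : uMap H H' (secD H H' (b * c) * ((secD H H' c)⁻¹ * (secD H H' b)⁻¹)) = 1 := by
      rw [map_mul, map_mul, map_inv, map_inv, uMap_secD, uMap_secD, uMap_secD,
        mul_comm c⁻¹ b⁻¹, ← mul_inv, mul_inv_cancel]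
    simpa [mul_assoc] using (uMap_eq_one_iff _).mp h

variable (hle : H ≤ H')

/-- The projection to the coset space of `Γ_{H'}`. -/
def projX : XC M H → XC M H' := Subgroup.quotientMapOfLE (GammaH_mono hle)

omit [NeZero M] in
theorem projX_mk (g : SL(2, ℤ)) : projX hle (g : XC M H) = (g : XC M H') := rfl

omit [NeZero M] in
theorem projX_smul (g : SL(2, ℤ)) (x : XC M H) : projX hle (g • x) = g • projX hle x := by
  induction x using QuotientGroup.induction_on with
  | _ a => rfl

theorem projX_shiftX (b : Dl H H') (x : XC M H) : projX hle (shiftX H H' b x) = projX hle x := by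
  induction x using QuotientGroup.induction_on with
  | _ a =>
    rw [shiftX_mk, projX_mk, projX_mk, QuotientGroup.eq]
    simp [mul_assoc]

open scoped Classical in
/-- Representatives of the cosets of `Γ_{H'}`, `1` at the base point. -/
def repX (x : XC M H') : SL(2, ℤ) := if x = (1 : SL(2, ℤ)) then 1 else x.out

omit [NeZero M] in
theorem mk_repX (x : XC M H') : (repX x : XC M H') = x := by
  unfold repX
  split_ifs with h
  · exact h.symm
  · exact Quotient.out_eq x

omit [NeZero M] in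
theorem repX_one : repX ((1 : SL(2, ℤ)) : XC M H') = 1 := if_pos rfl

/-- The `Γ_{H'}`-valued cocycle of the representatives. -/
def kOf (g : SL(2, ℤ)) (x : XC M H') : GammaH M H' :=
  ⟨(repX (g • x))⁻¹ * (g * repX x), by
    rw [← QuotientGroup.eq, mk_repX]
    show g • x = g • (repX x : XC M H')
    rw [mk_repX]⟩

omit [NeZero M] in
theorem kOf_mul (g h : SL(2, ℤ)) (x : XC M H') : kOf (g * h) x = kOf g (h • x) * kOf h x := by
  refine Subtype.ext ?_
  simp only [kOf, Subgroup.coe_mul, mul_smul]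
  group

/-- The position of a coset in its fibre over `Γ_{H'}`. -/
def epsX : XC M H → Dl H H' := fun x =>
  Quotient.liftOn' x
    (fun g => uMap H H' ⟨g⁻¹ * repX (g : XC M H'), by rw [← QuotientGroup.eq, mk_repX]⟩)
    fun g g' h => by
      rw [QuotientGroup.leftRel_apply] at h
      have e : (g : XC M H') = (g' : XC M H') := QuotientGroup.eq.mpr (GammaH_mono hle h)
      have hm : (⟨g⁻¹ * repX (g : XC M H'), by rw [← QuotientGroup.eq, mk_repX]⟩ : GammaH M H')
          = ⟨g⁻¹ * g', GammaH_mono hle h⟩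
            * ⟨g'⁻¹ * repX (g' : XC M H'), by rw [← QuotientGroup.eq, mk_repX]⟩ :=
        Subtype.ext (by simp [e, mul_assoc])
      rw [hm, map_mul, (uMap_eq_one_iff ⟨g⁻¹ * g', GammaH_mono hle h⟩).mpr h, one_mul]

omit [NeZero M] in
theorem epsX_mk (g : SL(2, ℤ)) : epsX hle (g : XC M H)
    = uMap H H' ⟨g⁻¹ * repX (g : XC M H'), by rw [← QuotientGroup.eq, mk_repX]⟩ := rfl

omit [NeZero M] in
theorem epsX_one : epsX (H' := H') hle ((1 : SL(2, ℤ)) : XC M H) = 1 := by
  rw [epsX_mk, ← map_one (uMap H H')]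
  congr 1
  exact Subtype.ext (by simp [repX_one])

omit [NeZero M] in
theorem epsX_smul (g : SL(2, ℤ)) (x : XC M H) :
    epsX hle (g • x) * uMap H H' (kOf g (projX hle x)) = epsX hle x := by
  induction x using QuotientGroup.induction_on with
  | _ a =>
    show epsX hle ((g * a : SL(2, ℤ)) : XC M H) * uMap H H' (kOf g (a : XC M H')) = _
    rw [epsX_mk, epsX_mk, ← map_mul]
    congr 1
    refine Subtype.ext ?_
    simp only [Subgroup.coe_mul, kOf,
      show g • (a : XC M H') = ((g * a : SL(2, ℤ)) : XC M H') from rfl]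
    group

theorem epsX_shiftX (b : Dl H H') (x : XC M H) :
    epsX hle (shiftX H H' b x) = b * epsX hle x := by
  induction x using QuotientGroup.induction_on with
  | _ a =>
    rw [shiftX_mk, epsX_mk, epsX_mk]
    conv_rhs => rw [← uMap_secD b, ← map_mul]
    congr 1
    have e : ((a * (secD H H' b : SL(2, ℤ))⁻¹ : SL(2, ℤ)) : XC M H') = (a : XC M H') := by
      rw [QuotientGroup.eq]; simp [mul_assoc]
    exact Subtype.ext (by simp [e, mul_assoc])

/-! ## The equivariant cocycle of `η φ` -/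

variable {R A : Type*} [Semiring R] [AddCommGroup A] [Module R A]
variable {l : ℕ} [NeZero l] (hl : l.Prime) (hlM : ¬ l ∣ M)

variable (R A) in
/-- The cocycle on the coset space. -/
def cocycleX : (Additive (GammaH M H) →+ A) →ₗ[R] (SL(2, ℤ) → XC M H → A) where
  toFun φ g x := etaCocycle R hl hlM φ (kOf g (projX hle x)) (epsX hle (g • x))
  map_add' φ ψ := by funext g x; rw [map_add]; rfl
  map_smul' c φ := by funext g x; rw [map_smul]; rfl

theorem cocycleX_apply (φ : Additive (GammaH M H) →+ A) (g : SL(2, ℤ)) (x : XC M H) :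
    cocycleX hle R A hl hlM φ g x
      = etaCocycle R hl hlM φ (kOf g (projX hle x)) (epsX hle (g • x)) := rfl

theorem cocycleX_isCocycle (φ : Additive (GammaH M H) →+ A) :
    IsCocycle (cocycleX hle R A hl hlM φ) := fun g h x => by
  simp only [cocycleX_apply, kOf_mul, etaCocycle_mul, projX_smul, mul_smul]
  rw [show epsX hle (g • h • x) * uMap H H' (kOf g (h • projX hle x)) = epsX hle (h • x) by
    rw [← projX_smul, epsX_smul]]

theorem cocycleX_act (φ : Additive (GammaH M H) →+ A) (b : Dl H H') (g : SL(2, ℤ)) (x : XC M H) :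
    cocycleX hle R A hl hlM (actAll H H' R A b φ) g x
      = cocycleX hle R A hl hlM φ g (shiftX H H' b x) := by
  simp only [cocycleX_apply, etaCocycle_act, projX_shiftX, shiftX_smul, epsX_shiftX]

/-- On the stabiliser of the base point we get `η φ`. -/
theorem cocycleX_one (φ : Additive (GammaH M H) →+ A) (γ : GammaH M H) :
    cocycleX hle R A hl hlM φ (γ : SL(2, ℤ)) ((1 : SL(2, ℤ)) : XC M H)
      = etaHom hl hlM R A φ (Additive.ofMul γ) := by
  rw [← etaCocycle_one R φ hle γ, cocycleX_apply]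
  have e : (γ : SL(2, ℤ)) • ((1 : SL(2, ℤ)) : XC M H) = ((1 : SL(2, ℤ)) : XC M H) := by
    show (((γ : SL(2, ℤ)) * 1 : SL(2, ℤ)) : XC M H) = _
    rw [QuotientGroup.eq]; simp
  have e' : (γ : SL(2, ℤ)) • ((1 : SL(2, ℤ)) : XC M H') = ((1 : SL(2, ℤ)) : XC M H') := by
    rw [← projX_mk hle, ← projX_smul, e]
  rw [e, epsX_one, show kOf (γ : SL(2, ℤ)) (projX hle ((1 : SL(2, ℤ)) : XC M H))
      = ⟨γ, GammaH_mono hle γ.2⟩ from
    Subtype.ext (by simp [kOf, projX_mk, e', repX_one])]

theorem cocycleX_fixed {φ : Additive (GammaH M H) →+ A} (hφ : φ ∈ ellHoms R (GammaH M H) A)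
    {g : SL(2, ℤ)} (hg : g ^ 12 = 1) {x : XC M H} (hx : g • x = x) :
    cocycleX hle R A hl hlM φ g x = 0 := by
  induction x using QuotientGroup.induction_on with
  | _ a =>
    have hγ : a⁻¹ * (g * a) ∈ GammaH M H := QuotientGroup.eq.mp
      (show (a : XC M H) = ((g * a : SL(2, ℤ)) : XC M H) from hx.symm)
    have h := (cocycleX_isCocycle (R := R) hle hl hlM φ).conj a⁻¹ g hx
    rw [show a⁻¹ • (a : XC M H) = ((1 : SL(2, ℤ)) : XC M H) by
        show ((a⁻¹ * a : SL(2, ℤ)) : XC M H) = _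
        rw [inv_mul_cancel],
      inv_inv, mul_assoc,
      show a⁻¹ * (g * a) = ((⟨_, hγ⟩ : GammaH M H) : SL(2, ℤ)) from rfl, cocycleX_one] at h
    rw [← h]
    have h12 : (⟨_, hγ⟩ : GammaH M H) ^ 12 = 1 := Subtype.ext (by
      simp only [SubmonoidClass.coe_pow, OneMemClass.coe_one]
      rw [← mul_assoc]
      have := conj_pow (i := 12) (a := a⁻¹) (b := g)
      rw [inv_inv] at this
      rw [this, hg, mul_one, inv_mul_cancel])
    show heckeHom hl hlM R A φ _ - (l + 1) • φ _ = 0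
    rw [heckeHom_apply, transfer_mem_ellHoms (R := R) _ hφ _ h12, hφ _ h12, smul_zero, sub_zero]

include hle in
/-- `Δ` meets no stabiliser of finite order. -/
theorem shiftX_free
    (hfree : ∀ g ∈ GammaH M H', g ^ 12 = 1 → g ∈ GammaH M H)
    {g : SL(2, ℤ)} (hg : g ^ 12 = 1) {b : Dl H H'} {x : XC M H}
    (hx : g • shiftX H H' b x = x) : b = 1 := by
  induction x using QuotientGroup.induction_on with
  | _ a =>
    set t : SL(2, ℤ) := (secD H H' b : SL(2, ℤ)) with ht
    have hγ : a⁻¹ * (g * (a * t⁻¹)) ∈ GammaH M H := QuotientGroup.eq.mp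
      (show (a : XC M H) = ((g * (a * t⁻¹) : SL(2, ℤ)) : XC M H) from hx.symm)
    have hc : a⁻¹ * g * a ∈ GammaH M H' := by
      have := mul_mem (GammaH_mono hle hγ) (secD H H' b).2
      simpa [ht, mul_assoc] using this
    have hc' : a⁻¹ * g * a ∈ GammaH M H := hfree _ hc (by
      have := conj_pow (i := 12) (a := a⁻¹) (b := g)
      rw [inv_inv] at this
      rw [this, hg, mul_one, inv_mul_cancel])
    have hb : t⁻¹ ∈ GammaH M H := by
      have := mul_mem (inv_mem hc') hγ
      simpa [mul_assoc] using this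
    rw [← uMap_secD b]
    exact (uMap_eq_one_iff _).mpr (inv_mem_iff.mp hb)

variable (hH : (-1 : (ZMod M)ˣ) ∈ H) (hfree : ∀ g ∈ GammaH M H', g ^ 12 = 1 → g ∈ GammaH M H)

include hle hH hfree in
variable (R A) in
theorem exists_edgeMap :
    ∃ Y : H1 M H R A →ₗ[R] (XC M H → A),
      (∀ φ b x, Y (actH1 H H' R A b φ) x = Y φ (shiftX H H' b x)) ∧
      ∀ (φ : H1 M H R A) (γ : GammaH M H),
        cocycleOf (trivNegOne_XC hH) (Y φ) (γ : SL(2, ℤ)) ((1 : SL(2, ℤ)) : XC M H)
          = etaHom hl hlM R A φ (Additive.ofMul γ) := by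
  let D : H1 M H R A →ₗ[R] (SL(2, ℤ) → XC M H → A) :=
    cocycleX hle R A hl hlM ∘ₗ (H1 M H R A).subtype
  have hD : ∀ φ, IsCocycle (D φ) := fun φ => cocycleX_isCocycle (R := R) hle hl hlM φ.1
  have heq : ∀ φ b h x, D (actH1 H H' R A b φ) h x = D φ h (shiftX H H' b x) :=
    fun φ b h x => cocycleX_act (R := R) hle hl hlM φ.1 b h x
  have hfix : ∀ φ (h : SL(2, ℤ)) (x : XC M H), h ^ 12 = 1 → h • x = x → D φ h x = 0 :=
    fun φ h x hh hx => cocycleX_fixed hle hl hlM (parEllHoms_le_ellHoms R A φ.2) hh hx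
  obtain ⟨Y, hY, hYc⟩ := exists_equivariant_edge (shiftX H H') shiftX_one shiftX_mul shiftX_smul
    (trivNegOne_XC hH) (fun b φ => actH1 H H' R A b φ) D hD heq hfix
    (fun h b x hh hx => shiftX_free hle hfree hh hx)
  refine ⟨Y, fun φ b x => hY φ b x, fun φ γ => ?_⟩
  rw [← cocycleX_one hle hl hlM (φ : Additive (GammaH M H) →+ A) γ]
  refine hYc φ _ _ ?_
  show (((γ : SL(2, ℤ)) * 1 : SL(2, ℤ)) : XC M H) = _
  rw [QuotientGroup.eq]; simp

variable (R A) in
/-- The equivariant edge map. -/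
def edgeMap : H1 M H R A →ₗ[R] (XC M H → A) := (exists_edgeMap hle R A hl hlM hH hfree).choose

theorem edgeMap_act (φ : H1 M H R A) (b : Dl H H') (x : XC M H) :
    edgeMap hle R A hl hlM hH hfree (actH1 H H' R A b φ) x
      = edgeMap hle R A hl hlM hH hfree φ (shiftX H H' b x) :=
  (exists_edgeMap hle R A hl hlM hH hfree).choose_spec.1 φ b x

variable (R A) in
/-- The homomorphism of `Γ_H` attached to an edge function. -/
def periodMap : (XC M H → A) →ₗ[R] (Additive (GammaH M H) →+ A) where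
  toFun y := AddMonoidHom.mk'
    (fun γ => cocycleOf (trivNegOne_XC hH) y
      ((Additive.toMul γ : GammaH M H) : SL(2, ℤ)) ((1 : SL(2, ℤ)) : XC M H))
    fun γ δ => by
      have e : ((Additive.toMul δ : GammaH M H) : SL(2, ℤ)) • ((1 : SL(2, ℤ)) : XC M H)
          = ((1 : SL(2, ℤ)) : XC M H) := by
        show ((_ * 1 : SL(2, ℤ)) : XC M H) = _
        rw [QuotientGroup.eq]; simp
      rw [toMul_add, Subgroup.coe_mul, cocycleOf_isCocycle (trivNegOne_XC hH) y, e]
  map_add' y z := by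
    ext γ
    simp [cocycleOf_add]
  map_smul' r y := by
    ext γ
    simp [cocycleOf_smul]

omit [NeZero M] in
theorem periodMap_apply (y : XC M H → A) (γ : GammaH M H) :
    periodMap R A hH y (Additive.ofMul γ)
      = cocycleOf (trivNegOne_XC hH) y (γ : SL(2, ℤ)) ((1 : SL(2, ℤ)) : XC M H) := rfl

omit [NeZero M] in
theorem periodMap_mem_ellHoms (y : XC M H → A) :
    periodMap R A hH y ∈ ellHoms R (GammaH M H) A := fun γ hγ => by
  rw [periodMap_apply]
  have h12 : (γ : SL(2, ℤ)) ^ 12 = 1 := by exact_mod_cast congrArg Subtype.val hγ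
  refine cocycleOf_finiteOrder_eq_zero _ y ?_ h12 (trace_sq_le_four_of_pow_twelve h12)
  show (((γ : SL(2, ℤ)) * 1 : SL(2, ℤ)) : XC M H) = _
  rw [QuotientGroup.eq]; simp

theorem periodMap_edgeMap (φ : H1 M H R A) :
    periodMap R A hH (edgeMap hle R A hl hlM hH hfree φ)
      = etaHom hl hlM R A (φ : Additive (GammaH M H) →+ A) := by
  refine AddMonoidHom.ext fun γ => ?_
  obtain ⟨γ, rfl⟩ := Additive.ofMul.surjective γ
  exact (exists_edgeMap hle R A hl hlM hH hfree).choose_spec.2 φ γ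

theorem periodMap_shiftX (y : XC M H → A) (b : Dl H H') :
    periodMap R A hH (fun x => y (shiftX H H' b x))
      = actAll H H' R A b (periodMap R A hH y) := by
  refine AddMonoidHom.ext fun γ => ?_
  obtain ⟨γ, rfl⟩ := Additive.ofMul.surjective γ
  have hc := cocycleOf_isCocycle (trivNegOne_XC (M := M) hH) y
  rw [actAll_apply, conjHom_apply, periodMap_apply, periodMap_apply,
    cocycleOf_eq (trivNegOne_XC hH)
      (c := fun g x => cocycleOf (trivNegOne_XC hH) y g (shiftX H H' b x))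
      (fun g h x => by simp only [hc g h, shiftX_smul])
      (fun x => cocycleOf_S _ y _) (fun x => by rw [cocycleOf_matU, shiftX_smul])]
  set t : SL(2, ℤ) := (secD H H' b : SL(2, ℤ))
  show cocycleOf _ y (γ : SL(2, ℤ)) (shiftX H H' b _) = cocycleOf _ y (t * γ * t⁻¹) _
  have hfix : (t * γ * t⁻¹) • ((1 : SL(2, ℤ)) : XC M H) = ((1 : SL(2, ℤ)) : XC M H) := by
    show ((t * γ * t⁻¹ * 1 : SL(2, ℤ)) : XC M H) = _
    rw [QuotientGroup.eq]
    simpa [mul_assoc] using inv_mem (conj_mem_GammaH (GammaH_le_Gamma0 (secD H H' b).2) γ.2)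
  have h := hc.conj t⁻¹ (t * γ * t⁻¹) hfix
  rw [← h, show t⁻¹ * (t * (γ : SL(2, ℤ)) * t⁻¹) * t⁻¹⁻¹ = (γ : SL(2, ℤ)) by simp [mul_assoc]]
  congr 1
  rw [shiftX_mk, one_mul]
  show _ = ((t⁻¹ * 1 : SL(2, ℤ)) : XC M H)
  rw [mul_one]

end Fermat.Agent.TW
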