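import Fermat.Agent.TW.Twist
import Fermat.Agent.Newform.Decomposition
import Fermat.Agent.Petersson.GammaH

/-!
# Newness of twists at `q²`

`sq_dvd_level_of_twist`: if the nebentypus of a form is nontrivial at a prime `q ∥ L`, the newform
with the eigenvalues of its twist has level divisible by `q²`.
-/

set_option autoImplicit false

noncomputable section

namespace Fermat.Agent.TW

open UpperHalfPlane CongruenceSubgroup Fermat.Agent.GammaH Fermat.Agent.Newform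
  Fermat.Agent.Petersson
open ModularFormClass (qCoeff)
open scoped MatrixGroups ModularForm ComplexConjugate

variable {L R c : ℕ} [NeZero L] [NeZero R] {H : Subgroup (ZMod L)ˣ}

/-- Moving a translation past an element of `SL₂(ℤ)`. -/
theorem translate_slash (f : ℍ → ℂ) (x : ℚ) {γ γ' : SL(2, ℤ)}
    (ha : ((γ 0 0 : ℤ) : ℚ) = (γ' 0 0 : ℤ) - x * (γ' 1 0 : ℤ))
    (hb : ((γ 0 1 : ℤ) : ℚ) =
      (γ' 0 1 : ℤ) + x * ((γ' 0 0 : ℤ) - (γ' 1 1 : ℤ)) - x ^ 2 * (γ' 1 0 : ℤ))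
    (hc : γ 1 0 = γ' 1 0) (hd : ((γ 1 1 : ℤ) : ℚ) = (γ' 1 1 : ℤ) + x * (γ' 1 0 : ℤ)) :
    (f ∣[(2 : ℤ)] qm 1 x 0 1) ∣[(2 : ℤ)] γ =
      (f ∣[(2 : ℤ)] γ') ∣[(2 : ℤ)] qm 1 x 0 1 := by
  have hdet : ∀ g : SL(2, ℤ),
      ((g 0 0 : ℤ) : ℚ) * (g 1 1 : ℤ) - (g 0 1 : ℤ) * (g 1 0 : ℤ) ≠ 0 := fun g => by
    rw [show ((g 0 0 : ℤ) : ℚ) * (g 1 1 : ℤ) - (g 0 1 : ℤ) * (g 1 0 : ℤ) = 1 from by
      exact_mod_cast det_SL g]
    norm_num
  rw [ModularForm.SL_slash, ModularForm.SL_slash, qm_SL, qm_SL, ← SlashAction.slash_mul,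
    ← SlashAction.slash_mul, qm_mul (by norm_num) (hdet γ), qm_mul (hdet γ') (by norm_num)]
  congr 2
  · rw [ha, hc]; ring
  · rw [hb, hd]; ring
  · rw [hc]; ring
  · rw [hd]; ring

omit [NeZero L] [NeZero R] in
/-- The translates in the twisting sum are invariant under `Γ(L R)`. -/
theorem inv_translate [NeZero c] (hcR : c ∣ R) (hR : R ∣ L) (f : S2 L H) (u : ℕ) :
    Inv (Gamma (L * R)) ((f : ℍ → ℂ) ∣[(2 : ℤ)] qm 1 ((u : ℚ) / c) 0 1) := by
  intro γ hγ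
  rw [Gamma_mem] at hγ
  obtain ⟨h00, -, h10, h11⟩ := hγ
  obtain ⟨r, hr⟩ := hcR
  obtain ⟨l, hl⟩ := (dvd_mul_right c r).trans (hr ▸ hR)
  have hc0 : (c : ℚ) ≠ 0 := by exact_mod_cast NeZero.ne c
  obtain ⟨k, hk⟩ := (ZMod.intCast_zmod_eq_zero_iff_dvd (γ 1 0) (L * R)).1 h10
  obtain ⟨e, he⟩ : (c : ℤ) ∣ γ 1 1 - γ 0 0 := by
    refine dvd_trans (Int.natCast_dvd_natCast.2
      (dvd_mul_of_dvd_left ((dvd_mul_right c r).trans (hr ▸ hR)) R)) ?_
    rw [← ZMod.intCast_zmod_eq_zero_iff_dvd, Int.cast_sub, h00, h11, sub_self]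
  let a' : ℤ := γ 0 0 + u * L * r * k
  let d' : ℤ := γ 1 1 - u * L * r * k
  let b' : ℤ := γ 0 1 + u * e - (u : ℤ) ^ 2 * l * r * k
  have hdet : a' * d' - b' * γ 1 0 = 1 := by
    have h := det_SL γ
    simp only [a', b', d']
    rw [hk] at h ⊢
    rw [hr, hl] at h ⊢
    push_cast at h ⊢
    linear_combination h + ((u : ℤ) * (c * l) * r * k) * he
  let γ' : SL(2, ℤ) := slMk a' b' (γ 1 0) d' hdet
  have hmem : γ' ∈ GammaH L H := by
    refine Gamma1_le_GammaH ?_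
    rw [Gamma1_mem]
    have hLR : ∀ z : ℤ, (z : ZMod (L * R)) = 1 → (z : ZMod L) = 1 := fun z hz => by
      have h := congrArg (ZMod.castHom (dvd_mul_right L R) (ZMod L)) hz
      rwa [map_intCast, map_one] at h
    refine ⟨?_, ?_, ?_⟩
    · show ((a' : ℤ) : ZMod L) = 1
      simp only [a']
      push_cast
      rw [hLR _ h00, ZMod.natCast_self]
      ring
    · show ((d' : ℤ) : ZMod L) = 1
      simp only [d']
      push_cast
      rw [hLR _ h11, ZMod.natCast_self]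
      ring
    · show ((γ 1 0 : ℤ) : ZMod L) = 0
      rw [ZMod.intCast_zmod_eq_zero_iff_dvd, hk]
      push_cast
      exact ⟨(R : ℤ) * k, by ring⟩
  have hLq : (L : ℚ) = (c : ℚ) * l := by exact_mod_cast hl
  have hRq : (R : ℚ) = (c : ℚ) * r := by exact_mod_cast hr
  have hkq : ((γ 1 0 : ℤ) : ℚ) = (L : ℚ) * R * k := by exact_mod_cast hk
  have heq : ((γ 1 1 : ℤ) : ℚ) - (γ 0 0 : ℤ) = (c : ℚ) * e := by exact_mod_cast he
  rw [translate_slash (⇑f) ((u : ℚ) / c) (γ := γ) (γ' := γ') ?_ ?_ rfl ?_,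
    slash_eq_self f hmem]
  · show ((γ 0 0 : ℤ) : ℚ) = (a' : ℤ) - _ * (γ 1 0 : ℤ)
    simp only [a']
    push_cast
    rw [hkq, hRq]
    field_simp
    ring
  · show ((γ 0 1 : ℤ) : ℚ) =
      (b' : ℤ) + (u : ℚ) / c * ((a' : ℤ) - (d' : ℤ)) - ((u : ℚ) / c) ^ 2 * (γ 1 0 : ℤ)
    simp only [a', b', d']
    push_cast
    rw [hkq, hRq, hLq]
    field_simp
    linear_combination (u : ℚ) * heq
  · show ((γ 1 1 : ℤ) : ℚ) = (d' : ℤ) + _ * (γ 1 0 : ℤ)
    simp only [d']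
    push_cast
    rw [hkq, hRq]
    field_simp
    ring

/-- A level with `q²` missing. -/
theorem dvd_of_not_sq_dvd {q m D : ℕ} (hq : q.Prime) (hD : D ∣ q ^ 2 * m) (h2 : ¬ q ^ 2 ∣ D) :
    D ∣ q * m := by
  by_cases hqD : q ∣ D
  · obtain ⟨D₁, rfl⟩ := hqD
    rw [pow_two, mul_assoc] at hD
    refine Nat.mul_dvd_mul_left q ?_
    refine ((hq.coprime_iff_not_dvd.2 fun h => h2 ?_).symm).dvd_of_dvd_mul_left
      ((Nat.mul_dvd_mul_iff_left hq.pos).1 hD)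
    rw [pow_two]
    exact Nat.mul_dvd_mul_left q h
  · rw [pow_two, mul_assoc] at hD
    exact ((hq.coprime_iff_not_dvd.2 hqD).symm).dvd_of_dvd_mul_left hD

/-- An element of `Γ₀(D)` acting on a translate by `χ(a)`. -/
theorem exists_stabiliser {q : ℕ} (hq : q.Prime) (hqL : q ∣ L) (hq2 : ¬ q ^ 2 ∣ L) [NeZero c]
    (hqc : q ∣ c) (hcR : c ∣ R) (hR : R ∣ L) (f : S2 L H) (χ : (ZMod L)ˣ → ℂ)
    (hχ : ∀ a, diamond a f = χ a • f) (a : (ZMod L)ˣ)
    (ha : ZMod.unitsMap (Nat.div_dvd_of_dvd hqL) a = 1) {u : ℕ} (hu : ¬ q ∣ u) {D : ℕ}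
    (hD : D ∣ L * R) (hD2 : ¬ q ^ 2 ∣ D) :
    ∃ γ ∈ Gamma0 D, ((f : ℍ → ℂ) ∣[(2 : ℤ)] qm 1 ((u : ℚ) / c) 0 1) ∣[(2 : ℤ)] γ =
      χ a • ((f : ℍ → ℂ) ∣[(2 : ℤ)] qm 1 ((u : ℚ) / c) 0 1) := by
  have := Fact.mk hq
  obtain ⟨c₀, rfl⟩ := hqc
  obtain ⟨r₀, rfl⟩ := hcR
  obtain ⟨l, rfl⟩ := hqL
  have hql : ¬ q ∣ l := fun h => hq2 (by rw [pow_two]; exact Nat.mul_dvd_mul_left q h)
  rw [mul_assoc] at hR
  have hrl : c₀ * r₀ ∣ l := (Nat.mul_dvd_mul_iff_left hq.pos).1 hR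
  obtain ⟨l₀, hl₀⟩ := (dvd_mul_right c₀ r₀).trans hrl
  have hqr : ¬ q ∣ c₀ * r₀ := fun h => hql (h.trans hrl)
  have hu0 : (u : ZMod q) ≠ 0 := by rwa [Ne, ZMod.natCast_eq_zero_iff]
  have hl0' : (l₀ : ZMod q) ≠ 0 := by
    rw [Ne, ZMod.natCast_eq_zero_iff]
    exact fun h => hql (h.trans ⟨c₀, by rw [hl₀, mul_comm]⟩)
  have hc0' : (c₀ : ZMod q) ≠ 0 := by
    rw [Ne, ZMod.natCast_eq_zero_iff]; exact fun h => hqr (h.mul_right _)
  have hr0' : (r₀ : ZMod q) ≠ 0 := by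
    rw [Ne, ZMod.natCast_eq_zero_iff]; exact fun h => hqr (h.mul_left _)
  set d : ℕ := (a : ZMod (q * l)).val with hd
  have hdL : Nat.Coprime d (q * l) := ZMod.val_coe_unit_coprime a
  have hd1 : (d : ZMod l) = 1 := by
    have hdl : l ∣ q * l := dvd_mul_left l q
    have e : q * l / q = l := Nat.mul_div_cancel_left l hq.pos
    have h1 := congrArg (fun z : (ZMod (q * l / q))ˣ => (z : ZMod (q * l / q))) ha
    simp only [ZMod.unitsMap_def, Units.coe_map, Units.val_one] at h1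
    have h2 : (d : ZMod (q * l / q)) = 1 := by
      rw [← map_natCast (ZMod.castHom (Nat.div_dvd_of_dvd (dvd_mul_right q l))
        (ZMod (q * l / q))) d, hd, ZMod.natCast_zmod_val]
      exact h1
    rwa [e] at h2
  have hdq : Nat.Coprime q d := (hdL.coprime_dvd_right (dvd_mul_right q l)).symm
  let s0 : ZMod q :=
    (((d : ZMod q)⁻¹ - d) * (c₀ : ZMod q)⁻¹) * ((u : ZMod q) * l₀ * r₀)⁻¹
  obtain ⟨s, hs, hs'⟩ := Nat.chineseRemainder hdq s0.val 1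
  have hsq : (s : ZMod q) = s0 := by
    rw [← ZMod.natCast_zmod_val s0]
    exact (ZMod.natCast_eq_natCast_iff _ _ _).2 hs
  have hsd : Nat.Coprime s d := by
    rw [Nat.coprime_iff_gcd_eq_one, Nat.ModEq.gcd_eq hs', Nat.gcd_one_left]
  -- the lower left entry
  let C : ℕ := q * l * (c₀ * r₀) * s
  have hcop : IsCoprime (d : ℤ) (C : ℤ) := by
    refine Nat.isCoprime_iff_coprime.2 ?_
    exact (hdL.mul_right (hdL.coprime_dvd_right (hrl.trans (dvd_mul_left l q)))).mul_right hsd.symm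
  obtain ⟨A, B, hAB⟩ := hcop
  let γ' : SL(2, ℤ) := slMk A (-B) C d (by linear_combination hAB)
  have hAq : (A : ZMod q) = (d : ZMod q)⁻¹ := by
    have h := congrArg (Int.cast : ℤ → ZMod q) hAB
    push_cast [C] at h
    rw [ZMod.natCast_self] at h
    refine eq_inv_of_mul_eq_one_left ?_
    simpa using h
  have hAc : (A : ZMod c₀) = 1 := by
    have h := congrArg (Int.cast : ℤ → ZMod c₀) hAB
    have hdc : (d : ZMod c₀) = 1 := by
      have h' := congrArg (ZMod.castHom ((dvd_mul_right c₀ r₀).trans hrl) (ZMod c₀)) hd1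
      rwa [map_natCast, map_one] at h'
    push_cast [C] at h
    rw [hdc, ZMod.natCast_self] at h
    simpa using h
  have hdc : (d : ZMod c₀) = 1 := by
    have h' := congrArg (ZMod.castHom ((dvd_mul_right c₀ r₀).trans hrl) (ZMod c₀)) hd1
    rwa [map_natCast, map_one] at h'
  obtain ⟨w, hw⟩ : (c₀ : ℤ) ∣ A - d := by
    rw [← ZMod.intCast_zmod_eq_zero_iff_dvd, Int.cast_sub, hAc, Int.cast_natCast, hdc, sub_self]
  obtain ⟨e, he⟩ : (q : ℤ) ∣ u * w - (u : ℤ) ^ 2 * l₀ * r₀ * s := by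
    rw [← ZMod.intCast_zmod_eq_zero_iff_dvd]
    have hwq := congrArg (Int.cast : ℤ → ZMod q) hw
    push_cast at hwq ⊢
    rw [hAq] at hwq
    rw [hsq]
    simp only [s0, mul_inv_rev]
    have hw' : (w : ZMod q) = ((d : ZMod q)⁻¹ - d) * (c₀ : ZMod q)⁻¹ := by
      rw [hwq]; field_simp
    rw [hw']
    field_simp
    ring
  let a0 : ℤ := A - u * l * r₀ * s
  let d0 : ℤ := d + u * l * r₀ * s
  let b0 : ℤ := -B + e
  have hC : (C : ℤ) = (q : ℤ) * l * (c₀ * r₀) * s := by simp [C]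
  have hl₀' : (l : ℤ) = c₀ * l₀ := by exact_mod_cast hl₀
  have hdet0 : a0 * d0 - b0 * C = 1 := by
    simp only [a0, b0, d0]
    rw [hC] at hAB ⊢
    linear_combination hAB + ((l : ℤ) * r₀ * s * c₀) * he + ((u : ℤ) * l * r₀ * s) * hw
      - ((u : ℤ) ^ 2 * r₀ ^ 2 * s ^ 2 * l) * hl₀'
  let γ : SL(2, ℤ) := slMk a0 b0 C d0 hdet0
  refine ⟨γ, mem_Gamma0_iff.2 ?_, ?_⟩
  · show (D : ℤ) ∣ (C : ℤ)
    refine Int.natCast_dvd_natCast.2 ?_
    have hD' : D ∣ q ^ 2 * (l * (c₀ * r₀)) := hD.trans (dvd_of_eq (by ring))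
    exact (dvd_of_not_sq_dvd hq hD' hD2).trans ⟨s, by simp only [C]; ring⟩
  · have hg : γ' ∈ Gamma0 (q * l) :=
      mem_Gamma0_iff.2 ⟨((c₀ * r₀ * s : ℕ) : ℤ), by
        show (C : ℤ) = _
        push_cast [C]; ring⟩
    have hun : unitD (q * l) ⟨γ', hg⟩ = a := by
      apply Units.ext
      rw [coe_unitD]
      show (((d : ℕ) : ℤ) : ZMod (q * l)) = a
      rw [Int.cast_natCast, hd, ZMod.natCast_zmod_val]
    have hf := coe_diamond (H := H) ⟨γ', hg⟩ f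
    rw [hun, hχ] at hf
    have hq0 : (q : ℚ) ≠ 0 := by exact_mod_cast hq.ne_zero
    have hc0 : (c₀ : ℚ) ≠ 0 := by
      intro h
      have h' : c₀ = 0 := by exact_mod_cast h
      exact hc0' (by simp [h'])
    have hwQ : (A : ℚ) - d = c₀ * w := by exact_mod_cast hw
    have heQ : (u : ℚ) * w - (u : ℚ) ^ 2 * l₀ * r₀ * s = q * e := by exact_mod_cast he
    have hlQ : (l : ℚ) = c₀ * l₀ := by exact_mod_cast hl₀
    rw [translate_slash (⇑f) ((u : ℚ) / (q * c₀ : ℕ)) (γ := γ) (γ' := γ') ?_ ?_ rfl ?_, ← hf]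
    · exact smul_slash_qm 2 (by norm_num) _ _
    · show ((a0 : ℤ) : ℚ) = (A : ℤ) - _ * ((C : ℤ) : ℚ)
      simp only [a0, hC]
      push_cast
      field_simp
    · show ((b0 : ℤ) : ℚ) =
        ((-B : ℤ) : ℚ) + _ * ((A : ℤ) - ((d : ℤ) : ℚ)) - _ ^ 2 * ((C : ℤ) : ℚ)
      simp only [b0, hC]
      push_cast
      rw [hwQ, hlQ]
      field_simp
      linear_combination -heQ
    · show ((d0 : ℤ) : ℚ) = ((d : ℤ) : ℚ) + _ * ((C : ℤ) : ℚ)
      simp only [d0, hC]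
      push_cast
      field_simp

/-- A translate with nontrivial character at `q` is orthogonal to forms of level without `q²`. -/
theorem ip_translate_eq_zero {q : ℕ} (hq : q.Prime) (hqL : q ∣ L) (hq2 : ¬ q ^ 2 ∣ L) [NeZero c]
    (hqc : q ∣ c) (hcR : c ∣ R) (hR : R ∣ L) (f : S2 L H) (χ : (ZMod L)ˣ → ℂ)
    (hχ : ∀ a, diamond a f = χ a • f) (a : (ZMod L)ˣ)
    (ha : ZMod.unitsMap (Nat.div_dvd_of_dvd hqL) a = 1) (hne : χ a ≠ 1)
    {u : ℕ} (hu : ¬ q ∣ u) {D : ℕ} [NeZero D] (hD : D ∣ L * R) (hD2 : ¬ q ^ 2 ∣ D)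
    (G : CuspForm (Gamma0 D) 2) :
    ip (Gamma (L * R)) ((f : ℍ → ℂ) ∣[(2 : ℤ)] qm 1 ((u : ℚ) / c) 0 1) ⇑G = 0 := by
  obtain ⟨γ, hγ, he⟩ := exists_stabiliser hq hqL hq2 hqc hcR hR f χ hχ a ha hu hD hD2
  have hb : Bd ((f : ℍ → ℂ) ∣[(2 : ℤ)] qm 1 ((u : ℚ) / c) 0 1) :=
    (bd_cuspForm f).slash (by rw [val_det_qm (by norm_num)]; norm_num)
  have h := ip_slash_SL hb (bd_cuspForm G) (inv_translate hcR hR f u) (inv_of_dvd G hD) γ
  rw [he, cuspForm_slash_SL G hγ, ip_smul_left] at h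
  have h' : (conj (χ a) - 1) * ip (Gamma (L * R))
      ((f : ℍ → ℂ) ∣[(2 : ℤ)] qm 1 ((u : ℚ) / c) 0 1) ⇑G = 0 := by linear_combination h
  refine (mul_eq_zero.1 h').resolve_left fun h0 => hne ?_
  simpa using congrArg conj (sub_eq_zero.1 h0)

/-- **The twist is new at `q²`.** -/
theorem sq_dvd_level_of_twist {q : ℕ} (hq : q.Prime) (hqL : q ∣ L) (hq2 : ¬ q ^ 2 ∣ L) [NeZero c]
    (hcR : c ∣ R) (hR : R ∣ L) (f : S2 L H) (χ : (ZMod L)ˣ → ℂ)
    (hχ : ∀ a, diamond a f = χ a • f) (ψ : DirichletCharacter ℂ c) (hψ : ψ.IsPrimitive)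
    (hχψ : ∀ a : (ZMod L)ˣ, χ a * ψ (ZMod.unitsMap (hcR.trans hR) a : ZMod c) ^ 2 = 1)
    (a : (ZMod L)ˣ) (ha : ZMod.unitsMap (Nat.div_dvd_of_dvd hqL) a = 1) (hne : χ a ≠ 1)
    {g : CuspForm (Gamma0 (L * R)) 2} (hg0 : g ≠ 0)
    (hg : ∀ n : ℕ, qCoeff ⇑g n = ψ (n : ZMod c) * qCoeff ⇑f n)
    {M : ℕ} [NeZero M] {G : CuspForm (Gamma0 M) 2} (hG : G.IsNewform) (S : Finset ℕ)
    (heig : ∀ (l : ℕ) (hl : l.Prime) (hlM : ¬ l ∣ L * R), l ∉ S →
      CuspForm.heckeTLin 2 hl hlM g = qCoeff ⇑G l • g) :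
    q ^ 2 ∣ M := by
  classical
  by_contra hM
  -- the conductor is divisible by `q`
  have hqc : q ∣ c := by
    by_contra hqc
    have hcl : c ∣ L / q :=
      ((hq.coprime_iff_not_dvd.2 hqc).symm).dvd_of_dvd_mul_left
        ((Nat.mul_div_cancel' hqL).symm ▸ hcR.trans hR)
    refine hne ?_
    have h := hχψ a
    have e : ZMod.unitsMap (hcR.trans hR) a = 1 := by
      have h2 := congrArg (ZMod.unitsMap hcl) ha
      rwa [map_one, ← MonoidHom.comp_apply, ZMod.unitsMap_comp] at h2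
    rwa [e, Units.val_one, map_one, one_pow, mul_one] at h
  have hqR : q ∣ R := hqc.trans hcR
  have hq2' : q ^ 2 ∣ L * R := by rw [pow_two]; exact Nat.mul_dvd_mul hqL hqR
  -- the twist has no coefficient at multiples of `q`
  have hg_avg : avgForm hq.pos hq2' g = 0 := by
    refine cuspForm_ext_qCoeff fun n => ?_
    rw [qCoeff_avgForm, HasQ.qCoeff_eq (f := (0 : CuspForm (Gamma0 (L * R)) 2))
      (c := fun _ => (0 : ℂ)) (by rw [FunLike.coe_zero]; exact hasQ_zero)]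
    split_ifs with hn
    · rw [hg]
      have : ¬ IsUnit ((n : ℕ) : ZMod c) := by
        rw [ZMod.isUnit_iff_coprime]
        exact fun h => hq.not_dvd_one (h ▸ Nat.dvd_gcd hn hqc)
      rw [MulChar.map_nonunit _ this, zero_mul]
    · rfl
  -- orthogonality to every dilate
  have hperp : ∀ F ∈ dilateSpan (L * R) G, pairing0 (L * R) g F = 0 := by
    intro F hF
    induction hF using Submodule.span_induction with
    | mem F hF =>
      obtain ⟨d, hd, rfl⟩ := hF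
      by_cases hqd : q ∣ d
      · have e : degen (L * R) M d 2 hd G = avgForm hq.pos hq2' (degen (L * R) M d 2 hd G) := by
          refine cuspForm_ext_qCoeff fun n => ?_
          rw [qCoeff_avgForm, qCoeff_degen]
          split_ifs with h1 h2 <;> first | rfl | exact absurd (hqd.trans h1) h2
        rw [e, ← pairing0_avgForm, hg_avg, map_zero, LinearMap.zero_apply]
      · have : NeZero d := ⟨(pos_of_mul_dvd hd).ne'⟩
        have hD2 : ¬ q ^ 2 ∣ M * d := fun h => hM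
          (((hq.coprime_iff_not_dvd.2 hqd).pow_left 2).dvd_of_dvd_mul_right h)
        let G' : CuspForm (Gamma0 (M * d)) 2 := degen (M * d) M d 2 dvd_rfl G
        have hcoe : (⇑(degen (L * R) M d 2 hd G) : ℍ → ℂ) = ⇑G' := rfl
        show ip (Gamma (L * R)) ⇑g ⇑(degen (L * R) M d 2 hd G) = 0
        rw [hcoe, coe_eq_twistSum f ψ hψ hg, ip_smul_left, twistSum,
          ip_sum_left _ (fun u _ => ((bd_cuspForm f).slash
            (by rw [val_det_qm (by norm_num)]; norm_num)).smul _) (bd_cuspForm G'),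
          Finset.sum_eq_zero, mul_zero]
        intro u _
        rw [ip_smul_left]
        by_cases hu : IsUnit u
        · have hu' : ¬ q ∣ u.val := fun h => hq.not_dvd_one (by
            have hcop := ZMod.val_coe_unit_coprime hu.unit
            rw [hu.unit_spec] at hcop
            exact hcop ▸ Nat.dvd_gcd h hqc)
          rw [ip_translate_eq_zero hq hqL hq2 hqc hcR hR f χ hχ a ha hne hu' hd hD2 G', mul_zero]
        · rw [MulChar.map_nonunit _ hu, map_zero, zero_mul]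
    | zero => simp
    | add x y _ _ hx hy => rw [map_add, hx, hy, add_zero]
    | smul r x _ hx => rw [map_smul, hx, smul_zero]
  exact hg0 (pairing0_self_eq_zero g (hperp g (mem_dilateSpan_of_eigen hG S heig)))

end Fermat.Agent.TW
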