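import Fermat.Agent.TW.Idem
import Fermat.Agent.TW.Character
import Fermat.Agent.GalRep.LocalDatum

/-!
# The Galois representation over the local Hecke ring

`exists_twRep`: the representation over the local Hecke ring of the localised cohomology of
`Γ_H(L)`, as a specialisation of the datum of level `Γ₀(L R)`.
-/

set_option autoImplicit false

noncomputable section

namespace Fermat.Agent.TW

open IsLocalRing Polynomial Fermat.Agent.GammaH CuspForm
open scoped TensorProduct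

local notation "ℚbar" => AlgebraicClosure ℚ

/-- A congruent system with values in any local `𝒪`-algebra is a value of the localised Hecke
algebra. -/
theorem exists_localMap {N : ℕ} [NeZero N] [Fact (HasIntegralStructure N 2)] {S : Set ℕ}
    {𝒪 : Type} [CommRing 𝒪] [IsDomain 𝒪] [IsDiscreteValuationRing 𝒪]
    [IsAdicComplete (maximalIdeal 𝒪) 𝒪] (θ : heckeAlgebra N 2 S →+* ResidueField 𝒪)
    {B : Type} [CommRing B] [IsLocalRing B] [Algebra 𝒪 B] [IsLocalHom (algebraMap 𝒪 B)]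
    (Ψ : heckeAlgebra N 2 S →+* B)
    (hΨ : ∀ t, residue B (Ψ t) = ResidueField.map (algebraMap 𝒪 B) (θ t)) :
    ∃ ψ : heckeLocal N S 𝒪 θ →ₐ[𝒪] B, IsLocalHom ψ.toRingHom ∧
      ∀ t, ψ (heckeLocal.π N S 𝒪 θ t) = Ψ t := by
  let L : (𝒪 ⊗[ℤ] heckeAlgebra N 2 S) →ₐ[𝒪] B :=
    Algebra.TensorProduct.lift (Algebra.ofId 𝒪 B) Ψ.toIntAlgHom fun _ _ => Commute.all _ _
  have hinj := latticeBaseChange_injective N S 𝒪 Fact.out
  let e := RingEquiv.ofBijective (latticeBaseChange N S 𝒪)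
    ⟨hinj, latticeBaseChange_surjective N S 𝒪⟩
  let g : heckeBaseAlgebra N S 𝒪 →+* B := (L : _ →+* B).comp e.symm.toRingHom
  have hg : ∀ y, g (latticeBaseChange N S 𝒪 y) = L y := fun y =>
    congrArg L (e.symm_apply_apply y)
  have hres : ∀ y, residue B (L y) =
      ResidueField.map (algebraMap 𝒪 B) (residualCharacter N S 𝒪 θ y) := by
    intro y
    induction y using TensorProduct.induction_on with
    | zero => simp
    | add y z hy hz => simp only [map_add, hy, hz]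
    | tmul a t =>
      rw [residualCharacter_tmul, map_mul, ← hΨ t, ResidueField.map_residue, ← map_mul]
      simp [L]
  have hunit : ∀ s : heckeLocalSubmonoid N S 𝒪 θ, IsUnit (g s.1) := by
    rintro ⟨_, y, hy, rfl⟩
    rw [hg]
    refine isUnit_of_map_unit (residue B) _ (isUnit_iff_ne_zero.mpr ?_)
    rw [hres, _root_.map_ne_zero]
    exact fun h => hy ((mem_heckeCharKernel_iff N S 𝒪 θ y).mpr h)
  let ψ : heckeLocal N S 𝒪 θ →+* B :=
    IsLocalization.lift (S := heckeLocal N S 𝒪 θ) hunit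
  have hψ : ∀ y, ψ (algebraMap (heckeBaseAlgebra N S 𝒪) (heckeLocal N S 𝒪 θ)
      (latticeBaseChange N S 𝒪 y)) = L y := fun y =>
    (IsLocalization.lift_eq hunit _).trans (hg y)
  refine ⟨{ ψ with commutes' := fun a => ?_ }, ⟨fun z hz => ?_⟩, fun t => ?_⟩
  · show ψ (algebraMap 𝒪 (heckeLocal N S 𝒪 θ) a) = algebraMap 𝒪 B a
    rw [IsScalarTower.algebraMap_apply 𝒪 (heckeBaseAlgebra N S 𝒪) (heckeLocal N S 𝒪 θ),
      ← latticeBaseChange_algebraMap, hψ, L.commutes]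
  · change IsUnit (ψ z) at hz
    obtain ⟨a, s, rfl⟩ := IsLocalization.exists_mk'_eq (heckeLocalSubmonoid N S 𝒪 θ) z
    obtain ⟨y, rfl⟩ := latticeBaseChange_surjective N S 𝒪 a
    have h1 : IsUnit (L y) := by
      have h2 := congrArg ψ (IsLocalization.mk'_spec (heckeLocal N S 𝒪 θ)
        (latticeBaseChange N S 𝒪 y) s)
      rw [map_mul, hψ] at h2
      rw [← h2]
      exact hz.mul ((IsLocalization.map_units (heckeLocal N S 𝒪 θ) s).map ψ)
    have hy : y ∉ heckeCharKernel N S 𝒪 θ := fun h0 => by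
      have h2 := h1.map (residue B)
      rw [hres, (mem_heckeCharKernel_iff N S 𝒪 θ y).mp h0, map_zero] at h2
      exact not_isUnit_zero h2
    have hu : IsUnit (algebraMap (heckeBaseAlgebra N S 𝒪) (heckeLocal N S 𝒪 θ)
        (latticeBaseChange N S 𝒪 y)) :=
      IsLocalization.map_units (heckeLocal N S 𝒪 θ)
        (⟨_, Submonoid.mem_map_of_mem _ (Ideal.mem_primeCompl_iff.mpr hy)⟩ :
          heckeLocalSubmonoid N S 𝒪 θ)
    rw [← IsLocalization.mk'_spec (heckeLocal N S 𝒪 θ) (latticeBaseChange N S 𝒪 y) s] at hu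
    exact isUnit_of_mul_isUnit_left hu
  · show ψ (heckeLocal.π N S 𝒪 θ t) = Ψ t
    refine (hψ (Algebra.TensorProduct.includeRight t)).trans ?_
    simp [L]

/-- Characteristic polynomials after base change of coefficients. -/
theorem charpoly_baseChangeAlong {A B : Type} [CommRing A] [IsLocalRing A] [CommRing B]
    [IsLocalRing B] (φ : A →+* B) (hφ : IsLocalHom φ) (ρ : GaloisRepAdic A) (σ : Deformation.GQ) :
    LinearMap.charpoly ((ρ.baseChangeAlong φ hφ).ρ σ) = (LinearMap.charpoly (ρ.ρ σ)).map φ := by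
  let : Algebra A B := φ.toAlgebra
  exact LinearMap.charpoly_baseChange (ρ.ρ σ) B

variable {p L R : ℕ} [Fact p.Prime] [NeZero L] [NeZero R] {H : Subgroup (ZMod L)ˣ} {S : Finset ℕ}
  {O : Type} [CommRing O] [IsDomain O] [IsDiscreteValuationRing O]
  [IsAdicComplete (maximalIdeal O) O] [Finite (ResidueField O)] [CharZero O]

omit [Fact (Nat.Prime p)] in
/-- **The representation over the local Hecke ring of level `Γ_H(L)`**, as a specialisation of
the datum of level `Γ₀(L R)`. -/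
theorem exists_twRep [Fact (HasIntegralStructure (L * R) 2)] (hin : GalRep.RepInput p (L * R))
    (hpO : (p : O) ∈ maximalIdeal O) (hpS : p ∈ S)
    (hH : (-1 : (ZMod L)ˣ) ∈ H) (hR : R ∣ L) (hker : (ZMod.unitsMap hR).ker ≤ H) {h : ℕ}
    (hodd : ∀ a : (ZMod L)ˣ, a ^ (2 * h + 1) ∈ H)
    (hLS : ∀ q : ℕ, q.Prime → q ∣ L → q ∈ S)
    (θ : heckeRing L H (↑S : Set ℕ) →+* ResidueField O)
    (ρbar : ResidualGaloisRep (ResidueField O)) (habs : ρbar.IsAbsolutelyIrreducible)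
    (hρbar : ∀ (l : ℕ) (hl : l.Prime) (hlL : ¬ l ∣ L) (hlS : l ∉ (↑S : Set ℕ)),
      ∀ A : ValuationSubring ℚbar, A.LiesOverPrime l → ∀ σ : Deformation.GQ, A.IsFrobeniusAt σ l →
        LinearMap.charpoly (ρbar.ρ σ) =
          X ^ 2 - C (θ (twistedT h hl hlL hlS)) * X + C ((l : ResidueField O))) :
    ∃ (θ' : heckeAlgebra (L * R) 2 (↑S : Set ℕ) →+* ResidueField O)
      (D : HeckeGaloisRepDatum (L * R) (↑S : Set ℕ) O θ'
        (heckeLocal (L * R) (↑S : Set ℕ) O θ'))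
      (ψ : heckeLocal (L * R) (↑S : Set ℕ) O θ' →ₐ[O] TWRing hH O θ)
      (hψ : IsLocalHom ψ.toRingHom),
      D.π = heckeLocal.π (L * R) (↑S : Set ℕ) O θ' ∧
      D.ρ.residual.IsEquiv (ρbar.baseChangeAlong
        (ResidueField.map (algebraMap O (heckeLocal (L * R) (↑S : Set ℕ) O θ')))) ∧
      (∀ (l : ℕ) (hl : l.Prime) (hlL : ¬ l ∣ L) (hlM : ¬ l ∣ L * R) (hlS : l ∉ (↑S : Set ℕ)),
        ψ (D.π (heckeAlgebra.T hl hlM hlS)) =
          toTWRing hH O θ (HeckeO.ofT O (twistedT h hl hlL hlS))) ∧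
      ∀ (l : ℕ) (hl : l.Prime) (hlL : ¬ l ∣ L) (hlS : l ∉ (↑S : Set ℕ)),
        ∀ A : ValuationSubring ℚbar, A.LiesOverPrime l → ∀ σ : Deformation.GQ, A.IsFrobeniusAt σ l →
          LinearMap.charpoly ((D.ρ.baseChangeAlong ψ.toRingHom hψ).ρ σ) =
            X ^ 2 - C (toTWRing hH O θ (HeckeO.ofT O (twistedT h hl hlL hlS))) * X +
              C ((l : TWRing hH O θ)) := by
  obtain ⟨Φ, hΦ⟩ := exists_twistHom (S := (↑S : Set ℕ)) hH hR hker hodd hLS
  have hNS : ∀ q : ℕ, q.Prime → q ∣ L * R → q ∈ S := fun q hq hd =>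
    (hq.dvd_mul.1 hd).elim (hLS q hq) fun hqR => hLS q hq (hqR.trans hR)
  let θ' : heckeAlgebra (L * R) 2 (↑S : Set ℕ) →+* ResidueField O := θ.comp Φ
  have hρ' : ∀ (l : ℕ) (hl : l.Prime) (hlM : ¬ l ∣ L * R) (hlS : l ∉ (↑S : Set ℕ)),
      ∀ A : ValuationSubring ℚbar, A.LiesOverPrime l → ∀ σ : Deformation.GQ, A.IsFrobeniusAt σ l →
        LinearMap.charpoly (ρbar.ρ σ) =
          X ^ 2 - C (θ' (heckeAlgebra.T hl hlM hlS)) * X + C ((l : ResidueField O)) := by
    intro l hl hlM hlS A hA σ hσ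
    show _ = X ^ 2 - C (θ (Φ _)) * X + _
    rw [hΦ l hl (fun hd => hlM (dvd_mul_of_dvd_left hd R)) hlM hlS]
    exact hρbar l hl _ hlS A hA σ hσ
  obtain ⟨D, hDπ, hDres⟩ := GalRep.exists_localDatum θ' hin hpO hpS hNS ρbar habs hρ'
  obtain ⟨ψ, hψloc, hψ⟩ := exists_localMap θ'
    (((toTWRing hH O θ : HeckeO L H (↑S : Set ℕ) O →ₐ[O] TWRing hH O θ).toRingHom.comp
      (HeckeO.ofT O)).comp Φ) fun t => residue_ofT hH O θ (Φ t)
  have hval : ∀ (l : ℕ) (hl : l.Prime) (hlL : ¬ l ∣ L) (hlM : ¬ l ∣ L * R)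
      (hlS : l ∉ (↑S : Set ℕ)),
      ψ (D.π (heckeAlgebra.T hl hlM hlS)) =
        toTWRing hH O θ (HeckeO.ofT O (twistedT h hl hlL hlS)) := by
    intro l hl hlL hlM hlS
    rw [hDπ, hψ, RingHom.comp_apply, RingHom.comp_apply, hΦ l hl hlL hlM hlS]
    rfl
  refine ⟨θ', D, ψ, hψloc, hDπ, hDres, hval, fun l hl hlL hlS A hA σ hσ => ?_⟩
  have hlM : ¬ l ∣ L * R := fun hd => hlS (hNS l hl hd)
  rw [charpoly_baseChangeAlong, D.charpoly_frob l hl hlM hlS A hA σ hσ, Polynomial.map_add,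
    Polynomial.map_sub, Polynomial.map_mul, Polynomial.map_pow, Polynomial.map_C, Polynomial.map_X,
    Polynomial.map_C, AlgHom.toRingHom_eq_coe, RingHom.coe_coe, hval l hl hlL hlM hlS, map_natCast]

end Fermat.Agent.TW
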