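import Fermat.Agent.GammaH.Algebra
import Fermat.Prelude.Thm_ModularFormClass_qCoeff_heckeT
import Fermat.Prelude.Def_ModularForm_HeckeOperatorForms

/-!
# Twists of forms on `Γ_H(N)`

`exists_twist`: a form on `Γ_H(N)` with nebentypus `χ`, twisted by a primitive Dirichlet character
`ψ` modulo `c ∣ N` with `χ ψ² = 1`, gives a form on `Γ₀(N c)` with coefficients `ψ(n) aₙ`;
`heckeTLin_twist`: the twist of an eigenform is an eigenform.
-/

set_option autoImplicit false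

noncomputable section

namespace Fermat.Agent.TW

open UpperHalfPlane CongruenceSubgroup Fermat.Agent.GammaH Fermat.Agent.Newform
open ModularFormClass (qCoeff)
open scoped MatrixGroups ModularForm

variable {N c : ℕ} [NeZero N] [NeZero c] {H : Subgroup (ZMod N)ˣ}

/-- The combination `∑ w(u) φ(τ + u / c)`. -/
def twistSum (c : ℕ) [NeZero c] (w : ZMod c → ℂ) (φ : ℍ → ℂ) : ℍ → ℂ :=
  ∑ u : ZMod c, w u • (φ ∣[(2 : ℤ)] qm 1 ((u.val : ℚ) / c) 0 1)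

theorem isCuspFun_twistSum (w : ZMod c → ℂ) {φ : ℍ → ℂ} (h : IsCuspFun 2 φ) :
    IsCuspFun 2 (twistSum c w φ) :=
  IsCuspFun.sum _ fun _ _ => (h.slash_qm _ _ _ _).smul _

theorem hasQ_twistSum (w : ZMod c → ℂ) {φ : ℍ → ℂ} {a : ℕ → ℂ} (h : HasQ φ a) :
    HasQ (twistSum c w φ)
      (fun n => a n * ∑ u : ZMod c, w u * ZMod.stdAddChar (u * (n : ZMod c))) := by
  have hs := HasQ.sum (Finset.univ : Finset (ZMod c))
    (Φ := fun u => w u • (φ ∣[(2 : ℤ)] qm 1 ((u.val : ℚ) / c) 0 1))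
    (C := fun u n => w u * (a n * Function.Periodic.qParam 1 ((((u.val : ℚ) / c) : ℚ) : ℂ) ^ n))
    fun u _ => (h.translate 2 ((u.val : ℚ) / c)).smul (w u)
  refine hs.congr fun n => ?_
  rw [Finset.mul_sum]
  refine Finset.sum_congr rfl fun u _ => ?_
  have hu : u * (n : ZMod c) = (((u.val * n : ℕ) : ℤ) : ZMod c) := by
    push_cast
    rw [ZMod.natCast_zmod_val]
  rw [hu, ZMod.stdAddChar_coe, Function.Periodic.qParam, ← Complex.exp_nat_mul,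
    ← mul_assoc, mul_comm (w u) (a n), mul_assoc]
  congr 3
  push_cast
  ring

theorem twistSum_slash (hcN : c ∣ N) (f : S2 N H) (χ : (ZMod N)ˣ → ℂ)
    (hχ : ∀ a, diamond a f = χ a • f) (w : ZMod c → ℂ)
    (hw : ∀ (a : (ZMod N)ˣ) (v : ZMod c), w ((ZMod.unitsMap hcN a : ZMod c) ^ 2 * v) = χ a * w v)
    {γ : SL(2, ℤ)} (hγ : γ ∈ Gamma0 (N * c)) :
    twistSum c w ⇑f ∣[(2 : ℤ)] γ = twistSum c w ⇑f := by
  obtain ⟨j, hj⟩ := mem_Gamma0_iff.1 hγ
  obtain ⟨m, hm⟩ := hcN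
  have hγN : γ ∈ Gamma0 N := mem_Gamma0_iff.2 ⟨(c : ℤ) * j, by rw [hj]; push_cast; ring⟩
  set d : (ZMod N)ˣ := unitD N ⟨γ, hγN⟩ with hd
  set dc : (ZMod c)ˣ := ZMod.unitsMap ⟨m, hm⟩ d with hdc
  have hdc' : (dc : ZMod c) = ((γ 1 1 : ℤ) : ZMod c) := by
    rw [hdc, ZMod.unitsMap_def, Units.coe_map, hd, coe_unitD]
    exact map_intCast (ZMod.castHom (⟨m, hm⟩ : c ∣ N) (ZMod c)) _
  have hdet := det_SL γ
  have had : ((γ 0 0 : ℤ) : ZMod c) * ((γ 1 1 : ℤ) : ZMod c) = 1 := by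
    have h := congrArg (Int.cast : ℤ → ZMod c) hdet
    push_cast [hj, hm] at h
    simpa using h
  have key : ∀ u : ZMod c,
      ((f : ℍ → ℂ) ∣[(2 : ℤ)] qm 1 ((u.val : ℚ) / c) 0 1) ∣[(2 : ℤ)] γ =
        χ d • ((f : ℍ → ℂ) ∣[(2 : ℤ)] qm 1 ((((dc : ZMod c) ^ 2 * u).val : ℚ) / c) 0 1) := by
    intro u
    set u' : ZMod c := (dc : ZMod c) ^ 2 * u with hu'
    have hdiv : (c : ℤ) ∣ (u.val : ℤ) * γ 1 1 - (u'.val : ℤ) * γ 0 0 := by
      rw [← ZMod.intCast_zmod_eq_zero_iff_dvd]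
      push_cast
      rw [ZMod.natCast_zmod_val, ZMod.natCast_zmod_val, hu', hdc']
      linear_combination (-(u * ((γ 1 1 : ℤ) : ZMod c))) * had
    obtain ⟨e, he⟩ := hdiv
    let a' : ℤ := γ 0 0 + (u.val : ℤ) * (m * j * c)
    let b' : ℤ := γ 0 1 + e - (u.val : ℤ) * u'.val * (m * j)
    let d' : ℤ := γ 1 1 - (c : ℤ) * (m * j) * u'.val
    have hC : γ 1 0 = (c : ℤ) * c * (m * j) := by rw [hj, hm]; push_cast; ring
    have hdet' : a' * d' - b' * γ 1 0 = 1 := by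
      simp only [a', b', d']
      rw [hC]
      rw [hC] at hdet
      linear_combination hdet + (c : ℤ) * (m * j) * he
    have hg : slMk a' b' (γ 1 0) d' hdet' ∈ Gamma0 N :=
      mem_Gamma0_iff.2 ⟨(c : ℤ) * j, by show γ 1 0 = _; rw [hj]; push_cast; ring⟩
    have hu : unitD N ⟨_, hg⟩ = d := by
      apply Units.ext
      rw [hd, coe_unitD, coe_unitD]
      show ((d' : ℤ) : ZMod N) = _
      have hN : ((c : ℕ) : ZMod N) * (m : ZMod N) = 0 := by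
        rw [← Nat.cast_mul, ← hm, ZMod.natCast_self]
      simp only [d']
      push_cast
      linear_combination (-((j : ZMod N) * (u'.val : ZMod N))) * hN
    have hc0 : (c : ℚ) ≠ 0 := by exact_mod_cast NeZero.ne c
    have heq : qm 1 ((u.val : ℚ) / c) 0 1 *
          qm (γ 0 0 : ℤ) (γ 0 1 : ℤ) (γ 1 0 : ℤ) (γ 1 1 : ℤ) =
        qm (a' : ℤ) (b' : ℤ) (γ 1 0 : ℤ) (d' : ℤ) * qm 1 ((u'.val : ℚ) / c) 0 1 := by
      have hd1 : ((γ 0 0 : ℤ) : ℚ) * (γ 1 1 : ℤ) - (γ 0 1 : ℤ) * (γ 1 0 : ℤ) ≠ 0 := by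
        rw [show ((γ 0 0 : ℤ) : ℚ) * (γ 1 1 : ℤ) - (γ 0 1 : ℤ) * (γ 1 0 : ℤ) = 1 from by
          exact_mod_cast hdet]
        norm_num
      have hd2 : ((a' : ℤ) : ℚ) * (d' : ℤ) - (b' : ℤ) * (γ 1 0 : ℤ) ≠ 0 := by
        rw [show ((a' : ℤ) : ℚ) * (d' : ℤ) - (b' : ℤ) * (γ 1 0 : ℤ) = 1 from by
          exact_mod_cast hdet']
        norm_num
      rw [qm_mul (by norm_num) hd1, qm_mul hd2 (by norm_num)]
      have he' : (u.val : ℚ) * (γ 1 1 : ℤ) - (u'.val : ℚ) * (γ 0 0 : ℤ) = (c : ℚ) * e := by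
        exact_mod_cast he
      have hC' : ((γ 1 0 : ℤ) : ℚ) = (c : ℚ) * c * ((m : ℚ) * j) := by exact_mod_cast hC
      congr 1
      · simp only [a']; push_cast; rw [hC']; field_simp; ring
      · simp only [a', b']; push_cast; field_simp; linear_combination he'
      · simp
      · simp only [d']; push_cast; rw [hC']; field_simp; ring
    rw [ModularForm.SL_slash, qm_SL, ← SlashAction.slash_mul, heq, SlashAction.slash_mul,
      qm_slMk hdet', ← ModularForm.SL_slash]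
    have := coe_diamond (H := H) ⟨_, hg⟩ f
    rw [hu, hχ] at this
    rw [← this]
    exact smul_slash_qm 2 (by norm_num) _ _
  have hpos : 0 < (γ : GL (Fin 2) ℝ).det.val := by simp
  rw [twistSum, SlashAction.sum_slash]
  simp_rw [ModularForm.SL_slash, rgl_smul_slash 2 _ _ _ hpos, ← ModularForm.SL_slash, key,
    smul_smul]
  refine Fintype.sum_equiv (dc ^ 2).mulLeft _ _ fun u => ?_
  rw [Units.mulLeft_apply, Units.val_pow_eq_pow_val, hw d u, mul_comm (w u)]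

theorem gaussSum_shift (ψ : DirichletCharacter ℂ c) (hψ : ψ.IsPrimitive) (x : ZMod c) :
    ∑ u : ZMod c, ψ⁻¹ u * ZMod.stdAddChar (u * x) = ψ x * gaussSum ψ⁻¹ ZMod.stdAddChar := by
  have hprim : DirichletCharacter.IsPrimitive ψ⁻¹ := by
    rw [DirichletCharacter.isPrimitive_def, DirichletCharacter.conductor_inv]
    exact hψ
  have h := gaussSum_mulShift_of_isPrimitive ZMod.stdAddChar hprim x
  rw [inv_inv] at h
  rw [← h]
  refine Finset.sum_congr rfl fun u _ => ?_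
  rw [AddChar.mulShift_apply, mul_comm x u]

theorem gaussSum_inv_ne_zero (ψ : DirichletCharacter ℂ c) (hψ : ψ.IsPrimitive) :
    gaussSum ψ⁻¹ ZMod.stdAddChar ≠ 0 := by
  intro hG
  have hsum : ∑ x : ZMod c, ZMod.stdAddChar (-x) *
      ∑ u : ZMod c, ψ⁻¹ u * ZMod.stdAddChar (u * x) = 0 := by
    simp only [gaussSum_shift ψ hψ, hG, mul_zero, Finset.sum_const_zero]
  have hone : ∀ u x : ZMod c, ZMod.stdAddChar (-x) * (ψ⁻¹ u * ZMod.stdAddChar (u * x)) =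
      ψ⁻¹ u * ZMod.stdAddChar (x * (u - 1)) := by
    intro u x
    rw [show x * (u - 1) = -x + u * x by ring, AddChar.map_add_eq_mul]
    ring
  simp_rw [Finset.mul_sum, hone] at hsum
  rw [Finset.sum_comm] at hsum
  simp_rw [← Finset.mul_sum,
    AddChar.sum_mulShift _ (ZMod.isPrimitive_stdAddChar c), sub_eq_zero] at hsum
  rw [Finset.sum_eq_single (1 : ZMod c)] at hsum
  · simp [NeZero.ne c] at hsum
  · intro u _ hu
    simp [hu]
  · simp

omit [NeZero N] in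
/-- A form with the coefficients of the twist is a multiple of the twisting sum. -/
theorem coe_eq_twistSum {M : ℕ} [NeZero M] (f : S2 N H) (ψ : DirichletCharacter ℂ c)
    (hψ : ψ.IsPrimitive) {g : CuspForm (Gamma0 M) 2}
    (hg : ∀ n : ℕ, qCoeff ⇑g n = ψ (n : ZMod c) * qCoeff ⇑f n) :
    (⇑g : ℍ → ℂ) = (gaussSum ψ⁻¹ ZMod.stdAddChar)⁻¹ • twistSum c (fun u => ψ⁻¹ u) ⇑f := by
  have h := (hasQ_twistSum (fun u => ψ⁻¹ u) (hasQ_form f)).smul
    (gaussSum ψ⁻¹ ZMod.stdAddChar)⁻¹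
  funext τ
  refine (hasQ_cuspForm g τ).unique ((h.congr fun n => ?_) τ)
  rw [hg, gaussSum_shift ψ hψ]
  field_simp [gaussSum_inv_ne_zero ψ hψ]

/-- The twist by a primitive character `ψ` modulo `c ∣ N` with `χ ψ² = 1`. -/
theorem exists_twist (hcN : c ∣ N) (f : S2 N H) (χ : (ZMod N)ˣ → ℂ)
    (hχ : ∀ a, diamond a f = χ a • f) (ψ : DirichletCharacter ℂ c) (hψ : ψ.IsPrimitive)
    (hχψ : ∀ a : (ZMod N)ˣ, χ a * ψ (ZMod.unitsMap hcN a : ZMod c) ^ 2 = 1) :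
    ∃ g : CuspForm (Gamma0 (N * c)) 2,
      ∀ n : ℕ, qCoeff ⇑g n = ψ (n : ZMod c) * qCoeff ⇑f n := by
  set G : ℂ := gaussSum ψ⁻¹ ZMod.stdAddChar
  have hG : G ≠ 0 := gaussSum_inv_ne_zero ψ hψ
  have hw : ∀ (a : (ZMod N)ˣ) (v : ZMod c),
      ψ⁻¹ ((ZMod.unitsMap hcN a : ZMod c) ^ 2 * v) = χ a * ψ⁻¹ v := by
    intro a v
    rw [map_mul, MulChar.inv_apply_eq_inv', map_pow, ← eq_inv_of_mul_eq_one_left (hχψ a)]
  refine ⟨G⁻¹ • (IsCuspFun.toCuspForm (M := N * c)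
    (isCuspFun_twistSum _ (isCuspFun_cuspForm f))
    fun γ hγ => twistSum_slash hcN f χ hχ _ hw hγ), fun n => ?_⟩
  have h0 : HasQ ⇑(G⁻¹ • (IsCuspFun.toCuspForm (M := N * c)
      (isCuspFun_twistSum (fun v => ψ⁻¹ v) (isCuspFun_cuspForm f))
      fun γ hγ => twistSum_slash hcN f χ hχ _ hw hγ))
      (fun n => G⁻¹ * (qCoeff ⇑f n *
        ∑ u : ZMod c, ψ⁻¹ u * ZMod.stdAddChar (u * (n : ZMod c)))) := by
    rw [FunLike.coe_smul, IsCuspFun.coe_toCuspForm]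
    exact (hasQ_twistSum _ (hasQ_form f)).smul _
  rw [h0.qCoeff_eq, gaussSum_shift ψ hψ]
  field_simp
  rw [show gaussSum ψ⁻¹ ZMod.stdAddChar = G from rfl]
  ring

theorem qCoeff_heckeTLin {M l : ℕ} [NeZero M] (hl : l.Prime) (hlM : ¬ l ∣ M)
    (g : CuspForm (Gamma0 M) 2) (n : ℕ) :
    qCoeff ⇑(CuspForm.heckeTLin 2 hl hlM g) n =
      qCoeff ⇑g (n * l) + if l ∣ n then (l : ℂ) * qCoeff ⇑g (n / l) else 0 := by
  show qCoeff (ModularForm.heckeT 2 l ⇑g) n = _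
  rw [ModularFormClass.qCoeff_heckeT g (Newform.one_mem_strictPeriods M) hl.ne_zero,
    ModularForm.coeffHeckeT_apply]
  norm_num

theorem cuspForm_ext_qCoeff {M : ℕ} [NeZero M] {g g' : CuspForm (Gamma0 M) 2}
    (h : ∀ n, qCoeff ⇑g n = qCoeff ⇑g' n) : g = g' :=
  DFunLike.ext _ _ fun τ =>
    (hasQ_cuspForm g τ).unique (((hasQ_cuspForm g').congr fun n => (h n).symm) τ)

omit [NeZero c] in
/-- The twist of an eigenform is an eigenform. -/
theorem heckeTLin_twist {M l : ℕ} [NeZero M] (hl : l.Prime) (hlN : ¬ l ∣ N) (hlM : ¬ l ∣ M)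
    (hcN : c ∣ N) (f : S2 N H) (χ : (ZMod N)ˣ → ℂ) (hχ : ∀ a, diamond a f = χ a • f)
    (ψ : DirichletCharacter ℂ c)
    (hχψ : ∀ a : (ZMod N)ˣ, χ a * ψ (ZMod.unitsMap hcN a : ZMod c) ^ 2 = 1)
    {g : CuspForm (Gamma0 M) 2}
    (hg : ∀ n : ℕ, qCoeff ⇑g n = ψ (n : ZMod c) * qCoeff ⇑f n)
    {μ : ℂ} (hμ : GammaH.heckeT hl hlN f = μ • f) :
    CuspForm.heckeTLin 2 hl hlM g = (ψ (l : ZMod c) * μ) • g := by
  refine cuspForm_ext_qCoeff fun n => ?_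
  have hT := GammaH.qCoeff_heckeT hl hlN f n
  rw [hμ, GammaH.qCoeff_smul, hχ] at hT
  have hsmul : ∀ r : ℂ, qCoeff ⇑(r • g) n = r * qCoeff ⇑g n := fun r => by
    refine HasQ.qCoeff_eq (N := M) (f := r • g) (c := fun m => r * qCoeff ⇑g m) ?_ n
    rw [FunLike.coe_smul]
    exact (hasQ_cuspForm g).smul r
  have hl2 : χ (primeUnit hl hlN) * ψ (l : ZMod c) ^ 2 = 1 := by
    have h := hχψ (primeUnit hl hlN)
    rwa [show (ZMod.unitsMap hcN (primeUnit hl hlN) : ZMod c) = (l : ZMod c) by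
      rw [ZMod.unitsMap_def, Units.coe_map, primeUnit, ZMod.coe_unitOfCoprime]
      exact map_natCast (ZMod.castHom hcN (ZMod c)) l] at h
  rw [qCoeff_heckeTLin (M := M) hl hlM g, hsmul]
  simp only [hg]
  push_cast
  rw [map_mul]
  split_ifs with hd
  · obtain ⟨t, rfl⟩ := hd
    rw [if_pos (dvd_mul_right l t), GammaH.qCoeff_smul, Nat.mul_div_cancel_left _ hl.pos] at hT
    rw [Nat.mul_div_cancel_left _ hl.pos]
    push_cast at hT ⊢
    rw [map_mul]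
    linear_combination (ψ (l : ZMod c) * ψ (t : ZMod c) * ψ (l : ZMod c)) * (-hT) -
      ((l : ℂ) * ψ (t : ZMod c) * qCoeff (⇑f) t) * hl2
  · rw [if_neg hd, add_zero] at hT
    linear_combination (ψ (n : ZMod c) * ψ (l : ZMod c)) * (-hT)

end Fermat.Agent.TW
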